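import Mathlib
import Fermat.Prelude.Def_GaloisRep_DeformationCondition
import Fermat.Prelude.Def_GaloisRep_DeformationRingData
import Fermat.Prelude.Def_Algebra_PatchingDatum
import Fermat.Prelude.Thm_IsAdicComplete_of_module_finite
import Fermat.Agent.S53.MatRepCore
import Fermat.Agent.S53.PowerSeries
import Fermat.Agent.S56.Interfaces
import Fermat.Agent.S53.Tangent
import Fermat.Agent.S53.TestAlgebra

section MergeWrap_S59_RedMapAux -- from S59/RedMapAux.lean

set_option autoImplicit false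
set_option linter.style.haveILetI false
set_option linter.unusedSectionVars false

namespace Fermat.Agent.S59

open IsLocalRing GaloisRep Fermat.Agent.S53

local notation "Γℚ" => (AlgebraicClosure ℚ ≃ₐ[ℚ] AlgebraicClosure ℚ)

section BaseChange

variable {A : Type} [CommRing A] [IsLocalRing A]

theorem redAux_isEquiv_symm {ρ ρ' : GaloisRepAdic A} (h : ρ.IsEquiv ρ') : ρ'.IsEquiv ρ :=
  let ⟨e⟩ := h
  ⟨e.symm⟩

theorem redAux_isEquiv_trans {ρ ρ' ρ'' : GaloisRepAdic A} (h : ρ.IsEquiv ρ')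
    (h' : ρ'.IsEquiv ρ'') : ρ.IsEquiv ρ'' :=
  let ⟨e⟩ := h
  let ⟨e'⟩ := h'
  ⟨e.trans e'⟩

theorem redAux_isEquiv_baseChange {B : Type} [CommRing B] [IsLocalRing B] (φ : A →+* B)
    (hφ : IsLocalHom φ) {ρ ρ' : GaloisRepAdic A} (h : ρ.IsEquiv ρ') :
    (ρ.baseChangeAlong φ hφ).IsEquiv (ρ'.baseChangeAlong φ hφ) :=
  let ⟨e⟩ := h
  ⟨e.baseChangeAlong φ hφ⟩

theorem redAux_ofMat_congr {r r' : Γℚ →* Matrix (Fin 2) (Fin 2) A} (h : r = r')
    (hr : MatAdicContinuous r) (hr' : MatAdicContinuous r') :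
    (ofMat r hr).IsEquiv (ofMat r' hr') := by
  subst h
  exact ⟨GaloisRepAdic.Equiv.refl _⟩

theorem redAux_baseChangeAlong_congr {B : Type} [CommRing B] [IsLocalRing B] {φ φ' : A →+* B}
    (h : φ = φ') (hφ : IsLocalHom φ) (hφ' : IsLocalHom φ') (ρ : GaloisRepAdic A) :
    (ρ.baseChangeAlong φ hφ).IsEquiv (ρ.baseChangeAlong φ' hφ') := by
  subst h
  exact ⟨GaloisRepAdic.Equiv.refl _⟩

/-- Transitivity of base change: `(ρ ⊗_φ B) ⊗_ψ C ≅ ρ ⊗_{ψ ∘ φ} C`. -/
theorem redAux_baseChangeAlong_comp {B C : Type} [CommRing B] [IsLocalRing B] [CommRing C]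
    [IsLocalRing C] (φ : A →+* B) (hφ : IsLocalHom φ) (ψ : B →+* C) (hψ : IsLocalHom ψ)
    (hψφ : IsLocalHom (ψ.comp φ)) (ρ : GaloisRepAdic A) :
    ((ρ.baseChangeAlong φ hφ).baseChangeAlong ψ hψ).IsEquiv
      (ρ.baseChangeAlong (ψ.comp φ) hψφ) := by
  obtain ⟨b⟩ := exists_basis_fin2 ρ
  have h0 := isEquiv_ofMat_toMat ρ b
  have hr := toMat_adicContinuous ρ b
  have h1 := redAux_isEquiv_baseChange ψ hψ (redAux_isEquiv_baseChange φ hφ h0)
  have h2 := redAux_isEquiv_baseChange ψ hψ (ofMat_baseChangeAlong φ hφ (toMat ρ b) hr)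
  have h3 := ofMat_baseChangeAlong ψ hψ (mapMat φ (toMat ρ b)) (mapMat_adicContinuous φ hφ hr)
  have h4 : (ofMat (mapMat ψ (mapMat φ (toMat ρ b)))
      (mapMat_adicContinuous ψ hψ (mapMat_adicContinuous φ hφ hr))).IsEquiv
      (ofMat (mapMat (ψ.comp φ) (toMat ρ b)) (mapMat_adicContinuous (ψ.comp φ) hψφ hr)) :=
    redAux_ofMat_congr (by ext σ i j; rfl) _ _
  have h5 := ofMat_baseChangeAlong (ψ.comp φ) hψφ (toMat ρ b) hr
  have h6 := redAux_isEquiv_baseChange (ψ.comp φ) hψφ h0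
  exact redAux_isEquiv_trans h1 (redAux_isEquiv_trans h2 (redAux_isEquiv_trans h3
    (redAux_isEquiv_trans h4 (redAux_isEquiv_trans (redAux_isEquiv_symm h5)
      (redAux_isEquiv_symm h6)))))

end BaseChange

section Residual

variable {𝒪 : Type} [CommRing 𝒪] [IsLocalRing 𝒪]

/-- The residual condition is stable under base change along local `𝒪`-algebra maps. -/
theorem redAux_residual_baseChange {A B : Type} [CommRing A] [IsLocalRing A] [Algebra 𝒪 A]
    [CommRing B] [IsLocalRing B] [Algebra 𝒪 B]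
    [IsLocalHom (algebraMap 𝒪 A)] [IsLocalHom (algebraMap 𝒪 B)]
    (ρbar : ResidualGaloisRep (ResidueField 𝒪)) (φ : A →ₐ[𝒪] B)
    (hφ : IsLocalHom (φ : A →+* B)) (ρ : GaloisRepAdic A)
    (hres : ρ.residual.IsEquiv (ρbar.baseChangeAlong (ResidueField.map (algebraMap 𝒪 A)))) :
    (ρ.baseChangeAlong (φ : A →+* B) hφ).residual.IsEquiv
      (ρbar.baseChangeAlong (ResidueField.map (algebraMap 𝒪 B))) := by
  obtain ⟨bbar⟩ := exists_basis_residual ρbar
  obtain ⟨b, hb⟩ := exists_basis_lifting ρ ρbar (ResidueField.map (algebraMap 𝒪 A)) bbar hres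
  have h0 := isEquiv_ofMat_toMat ρ b
  have hr := toMat_adicContinuous ρ b
  obtain ⟨e1⟩ := redAux_isEquiv_trans (redAux_isEquiv_baseChange (φ : A →+* B) hφ h0)
    (ofMat_baseChangeAlong (φ : A →+* B) hφ (toMat ρ b) hr)
  have h3 := ofMat_residual_isEquiv (mapMat (φ : A →+* B) (toMat ρ b))
    (mapMat_adicContinuous (φ : A →+* B) hφ hr) ρbar (ResidueField.map (algebraMap 𝒪 B)) bbar ?_
  · obtain ⟨e3⟩ := h3
    exact ⟨e1.residual.trans e3⟩
  · intro σ i j
    rw [mapMat_apply]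
    have := hφ
    have h4 : residue B ((φ : A →+* B) (toMat ρ b σ i j))
        = ResidueField.map (φ : A →+* B) (residue A (toMat ρ b σ i j)) :=
      (ResidueField.map_residue (φ : A →+* B) _).symm
    rw [h4, hb σ i j, ResidueField.map_map]
    congr 1
    apply RingHom.ext
    intro x
    have hcomp : ((φ : A →+* B).comp (algebraMap 𝒪 A)) = algebraMap 𝒪 B := by
      ext y
      simp
    simp only [hcomp]

end Residual

section Quotient

variable {𝒪 : Type} [CommRing 𝒪] [IsLocalRing 𝒪]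

/-- A proper quotient of a local ring is local. -/
theorem redAux_isLocalRing_quotient {A : Type} [CommRing A] [IsLocalRing A] (I : Ideal A)
    (hI : I ≠ ⊤) : IsLocalRing (A ⧸ I) := by
  haveI : Nontrivial (A ⧸ I) := Ideal.Quotient.nontrivial_iff.mpr hI
  exact IsLocalRing.of_surjective' (Ideal.Quotient.mk I) Ideal.Quotient.mk_surjective

/-- The maximal ideal of a local quotient is the image of the maximal ideal. -/
theorem redAux_mk_mem_maximalIdeal {A : Type} [CommRing A] [IsLocalRing A] (I : Ideal A)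
    [IsLocalRing (A ⧸ I)] {a : A} :
    Ideal.Quotient.mk I a ∈ maximalIdeal (A ⧸ I) ↔ a ∈ maximalIdeal A := by
  haveI : IsLocalHom (Ideal.Quotient.mk I) :=
    IsLocalHom.of_surjective (Ideal.Quotient.mk I) Ideal.Quotient.mk_surjective
  rw [mem_maximalIdeal, mem_maximalIdeal, mem_nonunits_iff, mem_nonunits_iff, not_iff_not]
  exact ⟨fun h => isUnit_of_map_unit (Ideal.Quotient.mk I) a h, fun h => h.map _⟩

/-- `A ⧸ I` is an Artinian test algebra when `A` is a Noetherian local `𝒪`-algebra with local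
structure map and `𝒪 → A/𝔪` onto, and `𝔪ⁿ ≤ I` (no finiteness of the residue field). -/
theorem redAux_isArtinianTestAlgebra_quotient {A : Type} [CommRing A] [IsLocalRing A]
    [IsNoetherianRing A] [Algebra 𝒪 A] (h1 : IsLocalHom (algebraMap 𝒪 A))
    (h2 : Function.Surjective (residue A ∘ algebraMap 𝒪 A)) (I : Ideal A)
    [IsLocalRing (A ⧸ I)] {n : ℕ} (hn : maximalIdeal A ^ n ≤ I) :
    IsArtinianTestAlgebra 𝒪 (A ⧸ I) := by
  haveI : IsLocalHom (Ideal.Quotient.mk I) :=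
    IsLocalHom.of_surjective (Ideal.Quotient.mk I) Ideal.Quotient.mk_surjective
  refine ⟨⟨fun c hc => ?_⟩, ?_, ?_⟩
  · have hc' : IsUnit (Ideal.Quotient.mk I (algebraMap 𝒪 A c)) := hc
    have := isUnit_of_map_unit (Ideal.Quotient.mk I) _ hc'
    exact isUnit_of_map_unit (algebraMap 𝒪 A) c this
  · intro z
    obtain ⟨a, rfl⟩ := IsLocalRing.residue_surjective z
    obtain ⟨a, rfl⟩ := Ideal.Quotient.mk_surjective a
    obtain ⟨c, hc⟩ := h2 (residue A a)
    refine ⟨c, ?_⟩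
    have hc' : residue A (algebraMap 𝒪 A c) = residue A a := hc
    rw [← sub_eq_zero, ← map_sub, IsLocalRing.residue_eq_zero_iff] at hc'
    show residue (A ⧸ I) (Ideal.Quotient.mk I (algebraMap 𝒪 A c))
      = residue (A ⧸ I) (Ideal.Quotient.mk I a)
    rw [← sub_eq_zero, ← map_sub, ← map_sub, IsLocalRing.residue_eq_zero_iff,
      redAux_mk_mem_maximalIdeal]
    exact hc'
  · rw [isArtinianRing_iff_isNilpotent_maximalIdeal]
    refine ⟨n, ?_⟩
    rw [Ideal.zero_eq_bot, eq_bot_iff]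
    have hmap : maximalIdeal (A ⧸ I) ≤ (maximalIdeal A).map (Ideal.Quotient.mk I) := by
      intro x hx
      obtain ⟨a, rfl⟩ := Ideal.Quotient.mk_surjective x
      exact Ideal.mem_map_of_mem _ ((redAux_mk_mem_maximalIdeal I).1 hx)
    calc maximalIdeal (A ⧸ I) ^ n ≤ ((maximalIdeal A).map (Ideal.Quotient.mk I)) ^ n :=
          Ideal.pow_right_mono hmap n
      _ = (maximalIdeal A ^ n).map (Ideal.Quotient.mk I) := (Ideal.map_pow _ _ _).symm
      _ ≤ I.map (Ideal.Quotient.mk I) := Ideal.map_mono hn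
      _ = ⊥ := by rw [Ideal.map_quotient_self]

end Quotient

section Nakayama

/-- A local homomorphism from a complete local ring to a Noetherian local ring which is onto
modulo the square of the maximal ideal is onto. -/
theorem redAux_surjective_of_sq {R R' : Type} [CommRing R] [IsLocalRing R]
    [IsAdicComplete (maximalIdeal R) R] [CommRing R'] [IsLocalRing R'] [IsNoetherianRing R']
    (f : R →+* R') [IsLocalHom f]
    (h : ∀ y : R', ∃ x : R, y - f x ∈ maximalIdeal R' ^ 2) : Function.Surjective f := by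
  set J : Ideal R' := (maximalIdeal R).map f with hJdef
  have hJle : J ≤ maximalIdeal R' :=
    Ideal.map_le_iff_le_comap.mpr fun a ha => Ideal.mem_comap.mpr (map_nonunit f a ha)
  have hle : maximalIdeal R' ≤ J ⊔ maximalIdeal R' • maximalIdeal R' := by
    intro y hy
    obtain ⟨x, hx⟩ := h y
    have hx2 : y - f x ∈ maximalIdeal R' := Ideal.pow_le_self two_ne_zero hx
    have hfx : f x ∈ maximalIdeal R' := by
      have := Ideal.sub_mem _ hy hx2
      simpa using this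
    have hxm : x ∈ maximalIdeal R := by
      rw [mem_maximalIdeal, mem_nonunits_iff]
      intro hu
      exact hfx (hu.map f)
    have hy' : y = f x + (y - f x) := by ring
    rw [hy']
    refine Submodule.add_mem_sup (Ideal.mem_map_of_mem f hxm) ?_
    rw [smul_eq_mul, ← pow_two]
    exact hx
  have hJ : maximalIdeal R' ≤ J :=
    Submodule.le_of_le_smul_of_le_jacobson_bot (IsNoetherian.noetherian _)
      (maximalIdeal_le_jacobson ⊥) hle
  have hJeq : J = maximalIdeal R' := le_antisymm hJle hJ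
  haveI : IsHausdorff ((maximalIdeal R).map f) R' := by
    rw [← hJdef, hJeq]
    infer_instance
  apply surjective_of_mk_map_comp_surjective (I := maximalIdeal R) f
  intro z
  obtain ⟨y, rfl⟩ := Ideal.Quotient.mk_surjective z
  obtain ⟨x, hx⟩ := h y
  refine ⟨x, ?_⟩
  rw [RingHom.comp_apply, Ideal.Quotient.eq, ← hJdef, hJeq]
  have hx2 : y - f x ∈ maximalIdeal R' := Ideal.pow_le_self two_ne_zero hx
  have := (maximalIdeal R').neg_mem hx2
  simpa using this

end Nakayama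

section Descent

variable {𝒪 : Type} [CommRing 𝒪] [IsDomain 𝒪] [IsDiscreteValuationRing 𝒪]
  [IsAdicComplete (maximalIdeal 𝒪) 𝒪]

/-- Descent step: let `q : D'.R ↠ A` be a surjection onto an Artinian test algebra and let
`ι : B ↪ A` be an injective local map of Artinian test algebras.  If the push-forward of the
universal deformation to `A` is defined over `B`, then `ι` is onto. -/
theorem redAux_surjective_of_lift
    {ρbar : ResidualGaloisRep (ResidueField 𝒪)}
    {𝒟' : ∀ ⦃A : Type⦄ [CommRing A] [IsLocalRing A] [Algebra 𝒪 A], GaloisRepAdic A → Prop}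
    (h𝒟' : IsDeformationCondition 𝒪 𝒟') (D' : DeformationRingData 𝒪 ρbar 𝒟')
    {A B : Type} [CommRing A] [IsLocalRing A] [Algebra 𝒪 A] [CommRing B] [IsLocalRing B]
    [Algebra 𝒪 B] [IsArtinianRing A] [IsArtinianRing B]
    [IsLocalHom (algebraMap 𝒪 A)] [IsLocalHom (algebraMap 𝒪 B)]
    (hsA : Function.Surjective (residue A ∘ algebraMap 𝒪 A))
    (hsB : Function.Surjective (residue B ∘ algebraMap 𝒪 B))
    (q : D'.R →ₐ[𝒪] A) (hq : Function.Surjective q) (hqloc : IsLocalHom (q : D'.R →+* A))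
    (ι : B →ₐ[𝒪] A) (hι : Function.Injective ι) (hιloc : IsLocalHom (ι : B →+* A))
    (ρB : GaloisRepAdic B)
    (hresB : ρB.residual.IsEquiv (ρbar.baseChangeAlong (ResidueField.map (algebraMap 𝒪 B))))
    (hE : (ρB.baseChangeAlong (ι : B →+* A) hιloc).IsEquiv
      (D'.ρ.baseChangeAlong (q : D'.R →+* A) hqloc)) :
    Function.Surjective ι := by
  have hA : IsArtinianTestAlgebra 𝒪 A := ⟨inferInstance, hsA, inferInstance⟩
  have hB : IsArtinianTestAlgebra 𝒪 B := ⟨inferInstance, hsB, inferInstance⟩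
  have h1 : 𝒟' (D'.ρ.baseChangeAlong (q : D'.R →+* A) hqloc) :=
    (h𝒟'.iff_forall_surjective (inferInstance : IsLocalHom (algebraMap 𝒪 D'.R))
      D'.residue_surjective D'.ρ).1 D'.isOfType hA q hqloc hq
  have h2 : 𝒟' (ρB.baseChangeAlong (ι : B →+* A) hιloc) :=
    h𝒟'.of_isEquiv hA (redAux_isEquiv_symm hE) h1
  have h3 : 𝒟' ρB := h𝒟'.of_baseChangeAlong_injective hB hA ι hιloc hι h2
  obtain ⟨ψ, ⟨hψloc, hψE⟩, -⟩ := D'.universal B hsB ρB h3 hresB
  have hresA := redAux_residual_baseChange ρbar q hqloc D'.ρ D'.residual_isEquiv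
  obtain ⟨φ₀, -, huniq⟩ := D'.universal A hsA (D'.ρ.baseChangeAlong (q : D'.R →+* A) hqloc)
    h1 hresA
  have e1 : q = φ₀ := huniq q ⟨hqloc, ⟨GaloisRepAdic.Equiv.refl _⟩⟩
  have hcomploc : IsLocalHom ((ι : B →+* A).comp (ψ : D'.R →+* B)) :=
    @RingHom.isLocalHom_comp _ _ _ _ _ _ (ι : B →+* A) (ψ : D'.R →+* B) hιloc hψloc
  have hcomploc' : IsLocalHom ((ι.comp ψ : D'.R →ₐ[𝒪] A) : D'.R →+* A) := hcomploc
  have e2 : ι.comp ψ = φ₀ := by
    refine huniq (ι.comp ψ) ⟨hcomploc', ?_⟩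
    have a1 := redAux_baseChangeAlong_comp (ψ : D'.R →+* B) hψloc (ι : B →+* A) hιloc
      hcomploc D'.ρ
    have a2 := redAux_isEquiv_baseChange (ι : B →+* A) hιloc hψE
    exact redAux_isEquiv_trans (redAux_isEquiv_symm a1) (redAux_isEquiv_trans a2 hE)
  intro a
  obtain ⟨x, rfl⟩ := hq a
  refine ⟨ψ x, ?_⟩
  have := DFunLike.congr_fun (e2.trans e1.symm) x
  exact this

end Descent

end Fermat.Agent.S59
end MergeWrap_S59_RedMapAux

section MergeWrap_S59_PatchLevelBasic -- from S59/PatchLevelBasic.lean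

set_option autoImplicit false
set_option linter.style.haveILetI false

namespace Fermat.Agent.S59

open IsLocalRing

/-! ### A finite module over a local ring is killed by a power of the maximal ideal -/

section finiteModule

variable {A : Type*} [CommRing A] [IsLocalRing A] {X : Type*} [AddCommGroup X] [Module A X]

theorem maximalIdeal_pow_card_smul_top_eq_bot [Finite X] :
    (maximalIdeal A ^ Nat.card X • ⊤ : Submodule A X) = ⊥ := by
  classical
  have key : ∀ i : ℕ, (maximalIdeal A ^ i • ⊤ : Submodule A X) = ⊥ ∨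
      Nat.card ↥(maximalIdeal A ^ i • ⊤ : Submodule A X) + i ≤ Nat.card X := by
    intro i
    induction i with
    | zero =>
      right
      rw [pow_zero, Ideal.one_eq_top, Submodule.top_smul, add_zero]
      exact le_of_eq (Nat.card_congr (Submodule.topEquiv (R := A) (M := X)).toEquiv)
    | succ i ih =>
      have hstep : (maximalIdeal A ^ (i + 1) • ⊤ : Submodule A X) =
          maximalIdeal A • (maximalIdeal A ^ i • ⊤ : Submodule A X) := by
        rw [pow_succ', Submodule.mul_smul]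
      rcases ih with h0 | hcard
      · left
        rw [hstep, h0, Submodule.smul_bot]
      · by_cases hbot : (maximalIdeal A ^ (i + 1) • ⊤ : Submodule A X) = ⊥
        · exact Or.inl hbot
        · right
          have hle : (maximalIdeal A ^ (i + 1) • ⊤ : Submodule A X) ≤
              maximalIdeal A ^ i • ⊤ := by
            rw [hstep]; exact Submodule.smul_le_right
          have hne : (maximalIdeal A ^ (i + 1) • ⊤ : Submodule A X) ≠
              maximalIdeal A ^ i • ⊤ := by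
            intro heq
            apply hbot
            have hfg : (maximalIdeal A ^ i • ⊤ : Submodule A X).FG := by
              exact (Submodule.fg_top _).mp (Module.Finite.of_finite).fg_top
            have h1 := Submodule.eq_bot_of_le_smul_of_le_jacobson_bot (maximalIdeal A)
              (maximalIdeal A ^ i • ⊤ : Submodule A X) hfg
              (by rw [← hstep, heq])
              (by rw [IsLocalRing.jacobson_eq_maximalIdeal ⊥ bot_ne_top])
            rw [heq, h1]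
          have hlt : (maximalIdeal A ^ (i + 1) • ⊤ : Submodule A X) <
              maximalIdeal A ^ i • ⊤ := lt_of_le_of_ne hle hne
          have hss : ((maximalIdeal A ^ (i + 1) • ⊤ : Submodule A X) : Set X) ⊂
              ((maximalIdeal A ^ i • ⊤ : Submodule A X) : Set X) := hlt
          have := Set.ncard_lt_ncard hss (Set.toFinite _)
          rw [← Nat.card_coe_set_eq, ← Nat.card_coe_set_eq] at this
          have h2 : Nat.card ↥(maximalIdeal A ^ (i + 1) • ⊤ : Submodule A X) <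
              Nat.card ↥(maximalIdeal A ^ i • ⊤ : Submodule A X) := this
          omega
  rcases key (Nat.card X) with h | h
  · exact h
  · exfalso
    have hpos : 0 < Nat.card ↥(maximalIdeal A ^ Nat.card X • ⊤ : Submodule A X) :=
      Nat.card_pos
    omega

/-- If the quotient `Y ⧸ P` is finite of cardinality at most `c`, then `𝔪 ^ c • ⊤ ≤ P`. -/
theorem maximalIdeal_pow_smul_top_le_of_card_le {Y : Type*} [AddCommGroup Y] [Module A Y]
    (P : Submodule A Y) [Finite (Y ⧸ P)] {c : ℕ} (hc : Nat.card (Y ⧸ P) ≤ c) :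
    (maximalIdeal A ^ c • ⊤ : Submodule A Y) ≤ P := by
  intro x hx
  have h1 : P.mkQ x ∈ (maximalIdeal A ^ c • ⊤ : Submodule A (Y ⧸ P)) := by
    have := Submodule.mem_map_of_mem (f := P.mkQ) hx
    rw [Submodule.map_smul''] at this
    exact Submodule.smul_mono le_rfl le_top this
  have h2 : (maximalIdeal A ^ c • ⊤ : Submodule A (Y ⧸ P)) ≤ ⊥ := by
    rw [← maximalIdeal_pow_card_smul_top_eq_bot (A := A) (X := Y ⧸ P)]
    exact Submodule.smul_mono_left (Ideal.pow_le_pow_right hc)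
  have h3 := h2 h1
  rw [Submodule.mem_bot, Submodule.mkQ_apply, Submodule.Quotient.mk_eq_zero] at h3
  exact h3

end finiteModule


/-! ### Coordinates on one patching level -/

section level

variable {𝒪 : Type} [CommRing 𝒪] {r : ℕ} {R : Type} [CommRing R] [Algebra 𝒪 R]
  {M : Type} [AddCommGroup M] [Module R M] {J : Ideal (MvPowerSeries (Fin r) 𝒪)}
  (L : Algebra.PatchingLevel 𝒪 r R M J) {d : ℕ} (hd : L.d = d)

/-- The element of `L.N` with coordinates `c` (with respect to `L.b`, reindexed by `Fin d`). -/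
noncomputable def pvec (c : Fin d → MvPowerSeries (Fin r) 𝒪) : L.N :=
  ∑ i : Fin d, L.φ (c i) • L.b (Fin.cast hd.symm i)

theorem pvec_add (c c' : Fin d → MvPowerSeries (Fin r) 𝒪) :
    pvec L hd (c + c') = pvec L hd c + pvec L hd c' := by
  simp only [pvec, Pi.add_apply, map_add, add_smul, Finset.sum_add_distrib]

theorem pvec_zero : pvec L hd (0 : Fin d → MvPowerSeries (Fin r) 𝒪) = 0 := by
  simp only [pvec, Pi.zero_apply, map_zero, zero_smul, Finset.sum_const_zero]

theorem pvec_sub (c c' : Fin d → MvPowerSeries (Fin r) 𝒪) :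
    pvec L hd (c - c') = pvec L hd c - pvec L hd c' := by
  simp only [pvec, Pi.sub_apply, map_sub, sub_smul, Finset.sum_sub_distrib]

theorem pvec_mul (s : MvPowerSeries (Fin r) 𝒪) (c : Fin d → MvPowerSeries (Fin r) 𝒪) :
    pvec L hd (fun i => s * c i) = L.φ s • pvec L hd c := by
  simp only [pvec, map_mul, mul_smul, Finset.smul_sum]

theorem pvec_surjective (x : L.N) : ∃ c : Fin d → MvPowerSeries (Fin r) 𝒪, pvec L hd c = x := by
  subst hd
  obtain ⟨c, hc⟩ := L.b_span x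
  exact ⟨c, by simpa [pvec] using hc.symm⟩

theorem pvec_eq_zero_iff (c : Fin d → MvPowerSeries (Fin r) 𝒪) :
    pvec L hd c = 0 ↔ ∀ i, c i ∈ J := by
  subst hd
  simpa [pvec] using L.b_rel c

theorem pvec_eq_iff (c c' : Fin d → MvPowerSeries (Fin r) 𝒪) :
    pvec L hd c = pvec L hd c' ↔ ∀ i, c i - c' i ∈ J := by
  rw [← sub_eq_zero, ← pvec_sub, pvec_eq_zero_iff]
  rfl

theorem pvec_single (i : Fin d) (s : MvPowerSeries (Fin r) 𝒪) :
    pvec L hd (Pi.single i s) = L.φ s • L.b (Fin.cast hd.symm i) := by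
  classical
  rw [pvec, Finset.sum_eq_single i]
  · rw [Pi.single_eq_same]
  · intro j _ hj
    rw [Pi.single_eq_of_ne hj, map_zero, zero_smul]
  · intro h; exact absurd (Finset.mem_univ i) h

/-- The submodule `φ(𝔞) N` consists of the vectors with coordinates in `𝔞`. -/
theorem mem_map_smul_top_iff (𝔞 : Ideal (MvPowerSeries (Fin r) 𝒪)) (x : L.N) :
    x ∈ (Ideal.map L.φ 𝔞 • ⊤ : Submodule (MvPowerSeries (Fin r) 𝒪) L.N) ↔
      ∃ c : Fin d → MvPowerSeries (Fin r) 𝒪, (∀ i, c i ∈ 𝔞) ∧ pvec L hd c = x := by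
  constructor
  · intro hx
    -- the set of vectors with coordinates in `𝔞` is an additive subgroup stable under `φ(𝔞)`
    have hadd : ∀ x y : L.N,
        (∃ c : Fin d → MvPowerSeries (Fin r) 𝒪, (∀ i, c i ∈ 𝔞) ∧ pvec L hd c = x) →
        (∃ c : Fin d → MvPowerSeries (Fin r) 𝒪, (∀ i, c i ∈ 𝔞) ∧ pvec L hd c = y) →
        ∃ c : Fin d → MvPowerSeries (Fin r) 𝒪, (∀ i, c i ∈ 𝔞) ∧ pvec L hd c = x + y := by
      rintro x y ⟨c, hc, rfl⟩ ⟨c', hc', rfl⟩
      exact ⟨c + c', fun i => 𝔞.add_mem (hc i) (hc' i), pvec_add L hd c c'⟩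
    have hgen : ∀ a ∈ Ideal.map L.φ 𝔞, ∀ y : L.N,
        ∃ c : Fin d → MvPowerSeries (Fin r) 𝒪, (∀ i, c i ∈ 𝔞) ∧ pvec L hd c = a • y := by
      intro a ha
      refine Submodule.span_induction (p := fun a _ => ∀ y : L.N,
        ∃ c : Fin d → MvPowerSeries (Fin r) 𝒪, (∀ i, c i ∈ 𝔞) ∧ pvec L hd c = a • y)
        ?_ ?_ ?_ ?_ ha
      · rintro _ ⟨s, hs, rfl⟩ y
        obtain ⟨c, rfl⟩ := pvec_surjective L hd y
        exact ⟨fun i => s * c i, fun i => 𝔞.mul_mem_right _ hs, pvec_mul L hd s c⟩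
      · intro y
        exact ⟨0, fun i => 𝔞.zero_mem, by rw [pvec_zero, zero_smul]⟩
      · intro a a' _ _ iha iha' y
        rw [add_smul]
        exact hadd _ _ (iha y) (iha' y)
      · intro t a _ iha y
        rw [smul_eq_mul, mul_comm, mul_smul]
        exact iha (t • y)
    refine Submodule.smul_induction_on hx ?_ ?_
    · intro a ha y _
      exact hgen a ha y
    · intro x y hx hy
      exact hadd x y hx hy
  · rintro ⟨c, hc, rfl⟩
    refine Submodule.sum_mem _ fun i _ => ?_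
    exact Submodule.smul_mem_smul (Ideal.mem_map_of_mem _ (hc i)) Submodule.mem_top

end level

/-! ### Locality of algebra endomorphisms of the power series ring, and `ψ ∘ φ` -/

section localHom

variable {𝒪 : Type} [CommRing 𝒪] {r : ℕ}

theorem algHom_mem_maximalIdeal [IsLocalRing 𝒪]
    (θ : MvPowerSeries (Fin r) 𝒪 →ₐ[𝒪] MvPowerSeries (Fin r) 𝒪)
    {f : MvPowerSeries (Fin r) 𝒪} (hf : f ∈ maximalIdeal (MvPowerSeries (Fin r) 𝒪)) :
    θ f ∈ maximalIdeal (MvPowerSeries (Fin r) 𝒪) := by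
  by_contra h
  have hu : IsUnit (θ f) := by
    rw [IsLocalRing.mem_maximalIdeal, mem_nonunits_iff, not_not] at h
    exact h
  set c₀ := MvPowerSeries.constantCoeff (θ f) with hc₀def
  have hc₀ : IsUnit c₀ := MvPowerSeries.isUnit_iff_constantCoeff.mp hu
  have hf0 : MvPowerSeries.constantCoeff f ∈ maximalIdeal 𝒪 :=
    (Fermat.Agent.S53.PowerSeriesAux.mem_maximalIdeal_mvPowerSeries_iff).mp hf
  have hg : IsUnit (f - MvPowerSeries.C c₀) := by
    rw [MvPowerSeries.isUnit_iff_constantCoeff, map_sub, MvPowerSeries.constantCoeff_C]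
    by_contra hnu
    have h1 : MvPowerSeries.constantCoeff f - c₀ ∈ maximalIdeal 𝒪 := by
      rw [IsLocalRing.mem_maximalIdeal, mem_nonunits_iff]; exact hnu
    have h2 : c₀ ∈ maximalIdeal 𝒪 := by
      have := (maximalIdeal 𝒪).sub_mem hf0 h1
      simpa using this
    rw [IsLocalRing.mem_maximalIdeal, mem_nonunits_iff] at h2
    exact h2 hc₀
  have h3 : IsUnit (θ (f - MvPowerSeries.C c₀)) := hg.map θ
  have hC : θ (MvPowerSeries.C c₀) = MvPowerSeries.C c₀ := by
    rw [MvPowerSeries.c_eq_algebraMap]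
    exact θ.commutes c₀
  rw [map_sub, hC, MvPowerSeries.isUnit_iff_constantCoeff, map_sub,
    MvPowerSeries.constantCoeff_C, ← hc₀def, sub_self] at h3
  exact not_isUnit_zero h3

theorem map_maximalIdeal_pow_le [IsLocalRing 𝒪]
    (θ : MvPowerSeries (Fin r) 𝒪 →ₐ[𝒪] MvPowerSeries (Fin r) 𝒪) (m : ℕ) :
    Ideal.map θ (maximalIdeal (MvPowerSeries (Fin r) 𝒪) ^ m) ≤
      maximalIdeal (MvPowerSeries (Fin r) 𝒪) ^ m := by
  rw [Ideal.map_pow]
  refine Ideal.pow_right_mono ?_ m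
  rw [Ideal.map_le_iff_le_comap]
  intro f hf
  exact algHom_mem_maximalIdeal θ hf

theorem algHom_mem_maximalIdeal_pow [IsLocalRing 𝒪]
    (θ : MvPowerSeries (Fin r) 𝒪 →ₐ[𝒪] MvPowerSeries (Fin r) 𝒪) {m : ℕ}
    {f : MvPowerSeries (Fin r) 𝒪} (hf : f ∈ maximalIdeal (MvPowerSeries (Fin r) 𝒪) ^ m) :
    θ f ∈ maximalIdeal (MvPowerSeries (Fin r) 𝒪) ^ m :=
  map_maximalIdeal_pow_le θ m (Ideal.mem_map_of_mem θ hf)

/-- A power series minus its constant term lies in the ideal of the variables. -/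
theorem sub_C_constantCoeff_mem_span_X (c : MvPowerSeries (Fin r) 𝒪) :
    c - MvPowerSeries.C (MvPowerSeries.constantCoeff c) ∈
      Ideal.span (Set.range (MvPowerSeries.X : Fin r → MvPowerSeries (Fin r) 𝒪)) := by
  have := Fermat.Agent.S53.PowerSeriesAux.mem_span_X_pow_of_coeff_eq_zero (σ := Fin r) (R := 𝒪) 1
    (c - MvPowerSeries.C (MvPowerSeries.constantCoeff c)) (by
      intro x hx
      have hx0 : x = 0 := by
        rw [← Finsupp.degree_eq_zero_iff]; omega
      subst hx0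
      rw [MvPowerSeries.coeff_zero_eq_constantCoeff_apply, map_sub,
        MvPowerSeries.constantCoeff_C, sub_self])
  simpa using this

theorem constantCoeff_eq_zero_of_mem_span_X {c : MvPowerSeries (Fin r) 𝒪}
    (hc : c ∈ Ideal.span (Set.range (MvPowerSeries.X : Fin r → MvPowerSeries (Fin r) 𝒪))) :
    MvPowerSeries.constantCoeff c = 0 := by
  have hle : Ideal.span (Set.range (MvPowerSeries.X : Fin r → MvPowerSeries (Fin r) 𝒪)) ≤
      RingHom.ker (MvPowerSeries.constantCoeff (σ := Fin r) (R := 𝒪)) := by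
    rw [Ideal.span_le]
    rintro _ ⟨i, rfl⟩
    exact MvPowerSeries.constantCoeff_X i
  exact hle hc

/-- An algebra map out of the power series ring that kills the variables is the constant term. -/
theorem algHom_eq_constantCoeff_of_X {B : Type} [CommRing B] [Algebra 𝒪 B]
    (θ : MvPowerSeries (Fin r) 𝒪 →ₐ[𝒪] B) (hθ : ∀ i, θ (MvPowerSeries.X i) = 0)
    (c : MvPowerSeries (Fin r) 𝒪) :
    θ c = algebraMap 𝒪 B (MvPowerSeries.constantCoeff c) := by
  have hle : Ideal.span (Set.range (MvPowerSeries.X : Fin r → MvPowerSeries (Fin r) 𝒪)) ≤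
      RingHom.ker (θ : MvPowerSeries (Fin r) 𝒪 →+* B) := by
    rw [Ideal.span_le]
    rintro _ ⟨i, rfl⟩
    exact hθ i
  have h1 : θ (c - MvPowerSeries.C (MvPowerSeries.constantCoeff c)) = 0 :=
    hle (sub_C_constantCoeff_mem_span_X c)
  rw [map_sub, sub_eq_zero] at h1
  rw [h1, MvPowerSeries.c_eq_algebraMap]
  exact θ.commutes _

end localHom

/-! ### The maps `ψ`, `π` of one level in coordinates -/

section levelMaps

variable {𝒪 : Type} [CommRing 𝒪] {r : ℕ} {R : Type} [CommRing R] [Algebra 𝒪 R]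
  {M : Type} [AddCommGroup M] [Module R M] {J : Ideal (MvPowerSeries (Fin r) 𝒪)}
  (L : Algebra.PatchingLevel 𝒪 r R M J) {d : ℕ} (hd : L.d = d)

theorem psi_phi (c : MvPowerSeries (Fin r) 𝒪) :
    L.ψ (L.φ c) = algebraMap 𝒪 R (MvPowerSeries.constantCoeff c) :=
  algHom_eq_constantCoeff_of_X (L.ψ.comp L.φ) (fun i => L.ψ_φ_X i) c

theorem pi_pvec (c : Fin d → MvPowerSeries (Fin r) 𝒪) :
    L.π (pvec L hd c) =
      ∑ i : Fin d, algebraMap 𝒪 R (MvPowerSeries.constantCoeff (c i)) •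
        L.π (L.b (Fin.cast hd.symm i)) := by
  simp only [pvec, map_sum, L.π_smul, psi_phi]

theorem span_phi_X_eq :
    Ideal.span (Set.range fun i : Fin r => L.φ (MvPowerSeries.X i)) =
      Ideal.map L.φ (Ideal.span (Set.range
        (MvPowerSeries.X : Fin r → MvPowerSeries (Fin r) 𝒪))) := by
  rw [Ideal.map_span, ← Set.range_comp]
  rfl

theorem pi_eq_zero_iff (x : L.N) :
    L.π x = 0 ↔ ∃ c : Fin d → MvPowerSeries (Fin r) 𝒪,
      (∀ i, c i ∈ Ideal.span (Set.range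
        (MvPowerSeries.X : Fin r → MvPowerSeries (Fin r) 𝒪))) ∧ pvec L hd c = x := by
  rw [L.ker_π, span_phi_X_eq]
  exact mem_map_smul_top_iff L hd _ x

/-- The images of the basis vectors form an `𝒪`-basis of `M` (in function form). -/
theorem level_bijective
    (hJ : J ≤ Ideal.span (Set.range (MvPowerSeries.X : Fin r → MvPowerSeries (Fin r) 𝒪))) :
    Function.Bijective (fun c : Fin d → 𝒪 =>
      ∑ i : Fin d, algebraMap 𝒪 R (c i) • L.π (L.b (Fin.cast hd.symm i))) := by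
  have hE : ∀ c : Fin d → 𝒪,
      (∑ i : Fin d, algebraMap 𝒪 R (c i) • L.π (L.b (Fin.cast hd.symm i))) =
        L.π (pvec L hd (fun i => MvPowerSeries.C (c i))) := by
    intro c
    rw [pi_pvec]
    simp only [MvPowerSeries.constantCoeff_C]
  constructor
  · intro c c' hcc
    simp only [hE] at hcc
    rw [← sub_eq_zero, ← map_sub, ← pvec_sub, pi_eq_zero_iff L hd] at hcc
    obtain ⟨c'', hc'', heq⟩ := hcc
    rw [pvec_eq_iff] at heq
    funext i
    have h1 : (fun i => MvPowerSeries.C (c i)) i - (fun i => MvPowerSeries.C (c' i)) i ∈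
        Ideal.span (Set.range (MvPowerSeries.X : Fin r → MvPowerSeries (Fin r) 𝒪)) := by
      have h2 := hJ (heq i)
      have h3 := Ideal.sub_mem _ (hc'' i) h2
      simpa using h3
    have h4 := constantCoeff_eq_zero_of_mem_span_X h1
    simp only [map_sub, MvPowerSeries.constantCoeff_C, sub_eq_zero] at h4
    exact h4
  · intro y
    obtain ⟨x, rfl⟩ := L.π_surjective y
    obtain ⟨c, rfl⟩ := pvec_surjective L hd x
    exact ⟨fun i => MvPowerSeries.constantCoeff (c i), (pi_pvec L hd c).symm⟩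

/-- The number of basis vectors of a level is determined by `M`. -/
theorem level_d_eq [Nontrivial 𝒪] {J' : Ideal (MvPowerSeries (Fin r) 𝒪)}
    (L' : Algebra.PatchingLevel 𝒪 r R M J')
    (hJ : J ≤ Ideal.span (Set.range (MvPowerSeries.X : Fin r → MvPowerSeries (Fin r) 𝒪)))
    (hJ' : J' ≤ Ideal.span (Set.range (MvPowerSeries.X : Fin r → MvPowerSeries (Fin r) 𝒪))) :
    L.d = L'.d := by
  letI : Module 𝒪 M := Module.compHom M (algebraMap 𝒪 R)
  have h1 : Function.Bijective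
      (Fintype.linearCombination 𝒪 (fun i : Fin L.d => L.π (L.b (Fin.cast rfl i)))) :=
    level_bijective L rfl hJ
  have h2 : Function.Bijective
      (Fintype.linearCombination 𝒪 (fun i : Fin L'.d => L'.π (L'.b (Fin.cast rfl i)))) :=
    level_bijective L' rfl hJ'
  have e := (LinearEquiv.ofBijective _ h1).trans (LinearEquiv.ofBijective _ h2).symm
  have := e.finrank_eq
  rwa [Module.finrank_fin_fun, Module.finrank_fin_fun] at this

end levelMaps

/-! ### Uniform continuity of the action on one level -/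

section continuity

variable {𝒪 : Type} [CommRing 𝒪] [IsLocalRing 𝒪] {r : ℕ} {R : Type} [CommRing R] [Algebra 𝒪 R]
  {M : Type} [AddCommGroup M] [Module R M] {J : Ideal (MvPowerSeries (Fin r) 𝒪)}
  (L : Algebra.PatchingLevel 𝒪 r R M J) {d : ℕ} (hd : L.d = d)

include hd

theorem exists_surjective_quot :
    ∃ g : (Fin d → MvPowerSeries (Fin r) 𝒪 ⧸ maximalIdeal (MvPowerSeries (Fin r) 𝒪)) →
      L.N ⧸ (Ideal.map L.φ (maximalIdeal (MvPowerSeries (Fin r) 𝒪)) • ⊤ :
        Submodule (MvPowerSeries (Fin r) 𝒪) L.N), Function.Surjective g := by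
  refine ⟨fun cbar => Submodule.Quotient.mk (pvec L hd (fun i => Quotient.out (cbar i))), ?_⟩
  intro q
  obtain ⟨x, rfl⟩ := Submodule.Quotient.mk_surjective _ q
  obtain ⟨c, rfl⟩ := pvec_surjective L hd x
  refine ⟨fun i => Ideal.Quotient.mk _ (c i), ?_⟩
  show Submodule.Quotient.mk _ = Submodule.Quotient.mk _
  rw [Submodule.Quotient.eq, ← pvec_sub, mem_map_smul_top_iff L hd]
  refine ⟨_, fun i => ?_, rfl⟩
  rw [Pi.sub_apply, ← Ideal.Quotient.eq, Ideal.Quotient.mk_out]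

theorem maximalIdeal_pow_smul_top_le_map
    [Finite (MvPowerSeries (Fin r) 𝒪 ⧸ maximalIdeal (MvPowerSeries (Fin r) 𝒪))] :
    (maximalIdeal (MvPowerSeries (Fin r) 𝒪) ^
        (Nat.card (MvPowerSeries (Fin r) 𝒪 ⧸ maximalIdeal (MvPowerSeries (Fin r) 𝒪)) ^ d) • ⊤ :
      Submodule (MvPowerSeries (Fin r) 𝒪) L.N) ≤
      Ideal.map L.φ (maximalIdeal (MvPowerSeries (Fin r) 𝒪)) • ⊤ := by
  obtain ⟨g, hg⟩ := exists_surjective_quot L hd
  haveI : Finite (L.N ⧸ (Ideal.map L.φ (maximalIdeal (MvPowerSeries (Fin r) 𝒪)) • ⊤ :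
        Submodule (MvPowerSeries (Fin r) 𝒪) L.N)) := Finite.of_surjective g hg
  apply maximalIdeal_pow_smul_top_le_of_card_le
  have := Nat.card_le_card_of_surjective g hg
  rwa [Nat.card_fun, Nat.card_fin] at this

/-- Uniform continuity: `𝔫 ^ (c m) N ⊆ φ(𝔫 ^ m) N` with `c` independent of the level. -/
theorem maximalIdeal_pow_mul_smul_top_le_map
    [Finite (MvPowerSeries (Fin r) 𝒪 ⧸ maximalIdeal (MvPowerSeries (Fin r) 𝒪))] (m : ℕ) :
    (maximalIdeal (MvPowerSeries (Fin r) 𝒪) ^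
        (Nat.card (MvPowerSeries (Fin r) 𝒪 ⧸ maximalIdeal (MvPowerSeries (Fin r) 𝒪)) ^ d * m) •
          ⊤ : Submodule (MvPowerSeries (Fin r) 𝒪) L.N) ≤
      Ideal.map L.φ (maximalIdeal (MvPowerSeries (Fin r) 𝒪) ^ m) • ⊤ := by
  induction m with
  | zero =>
    rw [mul_zero, pow_zero, Ideal.one_eq_top, Ideal.map_top]
  | succ m ih =>
    rw [mul_add, mul_one, pow_add, Submodule.mul_smul, pow_succ, Ideal.map_mul,
      Submodule.mul_smul]
    calc (maximalIdeal (MvPowerSeries (Fin r) 𝒪) ^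
            (Nat.card (MvPowerSeries (Fin r) 𝒪 ⧸
              maximalIdeal (MvPowerSeries (Fin r) 𝒪)) ^ d * m) •
          (maximalIdeal (MvPowerSeries (Fin r) 𝒪) ^
            (Nat.card (MvPowerSeries (Fin r) 𝒪 ⧸
              maximalIdeal (MvPowerSeries (Fin r) 𝒪)) ^ d) • ⊤ :
            Submodule (MvPowerSeries (Fin r) 𝒪) L.N))
        ≤ maximalIdeal (MvPowerSeries (Fin r) 𝒪) ^
            (Nat.card (MvPowerSeries (Fin r) 𝒪 ⧸
              maximalIdeal (MvPowerSeries (Fin r) 𝒪)) ^ d * m) •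
          (Ideal.map L.φ (maximalIdeal (MvPowerSeries (Fin r) 𝒪)) • ⊤ :
            Submodule (MvPowerSeries (Fin r) 𝒪) L.N) :=
          Submodule.smul_mono le_rfl (maximalIdeal_pow_smul_top_le_map L hd)
      _ = Ideal.map L.φ (maximalIdeal (MvPowerSeries (Fin r) 𝒪)) •
          (maximalIdeal (MvPowerSeries (Fin r) 𝒪) ^
            (Nat.card (MvPowerSeries (Fin r) 𝒪 ⧸
              maximalIdeal (MvPowerSeries (Fin r) 𝒪)) ^ d * m) • ⊤ :
            Submodule (MvPowerSeries (Fin r) 𝒪) L.N) := by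
          rw [← Submodule.mul_smul, ← Submodule.mul_smul, mul_comm]
      _ ≤ Ideal.map L.φ (maximalIdeal (MvPowerSeries (Fin r) 𝒪)) •
          (Ideal.map L.φ (maximalIdeal (MvPowerSeries (Fin r) 𝒪) ^ m) • ⊤ :
            Submodule (MvPowerSeries (Fin r) 𝒪) L.N) :=
          Submodule.smul_mono le_rfl ih
      _ = _ := by
          rw [← Submodule.mul_smul, ← Submodule.mul_smul, mul_comm]

end continuity

end Fermat.Agent.S59
end MergeWrap_S59_PatchLevelBasic

section MergeWrap_S59_PatchAdic -- from S59/PatchAdic.lean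

set_option autoImplicit false
set_option linter.style.haveILetI false

namespace Fermat.Agent.S59

open IsLocalRing

section powerSeries

variable {𝒪 : Type} [CommRing 𝒪] [IsLocalRing 𝒪] (r : ℕ)

theorem finite_quotient_maximalIdeal [Finite (ResidueField 𝒪)] :
    Finite (MvPowerSeries (Fin r) 𝒪 ⧸ maximalIdeal (MvPowerSeries (Fin r) 𝒪)) := by
  let f : MvPowerSeries (Fin r) 𝒪 →+* ResidueField 𝒪 :=
    (residue 𝒪).comp MvPowerSeries.constantCoeff
  have hf : ∀ a : MvPowerSeries (Fin r) 𝒪,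
      f a = 0 ↔ a ∈ maximalIdeal (MvPowerSeries (Fin r) 𝒪) := by
    intro a
    rw [Fermat.Agent.S53.PowerSeriesAux.mem_maximalIdeal_mvPowerSeries_iff]
    exact residue_eq_zero_iff _
  let g : MvPowerSeries (Fin r) 𝒪 ⧸ maximalIdeal (MvPowerSeries (Fin r) 𝒪) →+*
      ResidueField 𝒪 := Ideal.Quotient.lift _ f (fun a ha => (hf a).mpr ha)
  have hg : Function.Injective g := by
    rw [injective_iff_map_eq_zero]
    intro q hq
    obtain ⟨a, rfl⟩ := Ideal.Quotient.mk_surjective q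
    rw [Ideal.Quotient.eq_zero_iff_mem]
    exact (hf a).mp hq
  exact Finite.of_injective g hg

theorem finite_quotient_maximalIdeal_pow [IsNoetherianRing 𝒪] [Finite (ResidueField 𝒪)]
    (m : ℕ) :
    Finite (MvPowerSeries (Fin r) 𝒪 ⧸ maximalIdeal (MvPowerSeries (Fin r) 𝒪) ^ m) :=
  haveI := finite_quotient_maximalIdeal (𝒪 := 𝒪) r
  Ideal.finite_quotient_pow (IsNoetherian.noetherian _) m

theorem finite_quotient_maximalIdeal_pow_smul_top [IsNoetherianRing 𝒪]
    [Finite (ResidueField 𝒪)] (m : ℕ) :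
    Finite (MvPowerSeries (Fin r) 𝒪 ⧸
      (maximalIdeal (MvPowerSeries (Fin r) 𝒪) ^ m • ⊤ :
        Submodule (MvPowerSeries (Fin r) 𝒪) (MvPowerSeries (Fin r) 𝒪))) := by
  haveI := finite_quotient_maximalIdeal_pow (𝒪 := 𝒪) r m
  exact Submodule.finite_quotient_smul _ Module.Finite.fg_top

end powerSeries

section relationIdeal

theorem one_add_pow_sub_one_mem {A : Type*} [CommRing A] (I : Ideal A) {l : ℕ}
    (hl : (l : A) ∈ I) {y : A} {k : ℕ} (hy : y ∈ I ^ (k + 1)) :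
    (1 + y) ^ l - 1 ∈ I ^ (k + 2) := by
  have hyI : y ∈ I := Ideal.pow_le_self (Nat.succ_ne_zero k) hy
  have hS : (∑ i ∈ Finset.range l, (1 + y) ^ i) ∈ I := by
    rw [← Ideal.Quotient.eq_zero_iff_mem, map_sum]
    have h1 : ∀ i ∈ Finset.range l, Ideal.Quotient.mk I ((1 + y) ^ i) = 1 := by
      intro i _
      rw [map_pow, map_add, map_one, Ideal.Quotient.eq_zero_iff_mem.mpr hyI, add_zero, one_pow]
    rw [Finset.sum_congr rfl h1, Finset.sum_const, Finset.card_range, nsmul_eq_mul, mul_one,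
      ← map_natCast (Ideal.Quotient.mk I), Ideal.Quotient.eq_zero_iff_mem]
    exact hl
  have h2 : (1 + y) ^ l - 1 = y * ∑ i ∈ Finset.range l, (1 + y) ^ i := by
    rw [← mul_geom_sum]; ring
  rw [h2, show k + 2 = (k + 1) + 1 from rfl, pow_succ]
  exact Ideal.mul_mem_mul hy hS

variable {𝒪 : Type} [CommRing 𝒪] [IsLocalRing 𝒪] (r : ℕ)

theorem X_mem_maximalIdeal (j : Fin r) :
    (MvPowerSeries.X j : MvPowerSeries (Fin r) 𝒪) ∈ maximalIdeal (MvPowerSeries (Fin r) 𝒪) := by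
  rw [Fermat.Agent.S53.PowerSeriesAux.mem_maximalIdeal_mvPowerSeries_iff,
    MvPowerSeries.constantCoeff_X]
  exact Ideal.zero_mem _

theorem natCast_mem_maximalIdeal {l : ℕ} (hl : (l : 𝒪) ∈ maximalIdeal 𝒪) :
    ((l : ℕ) : MvPowerSeries (Fin r) 𝒪) ∈ maximalIdeal (MvPowerSeries (Fin r) 𝒪) := by
  rw [Fermat.Agent.S53.PowerSeriesAux.mem_maximalIdeal_mvPowerSeries_iff]
  have : MvPowerSeries.constantCoeff ((l : ℕ) : MvPowerSeries (Fin r) 𝒪) = (l : 𝒪) :=
    map_natCast (MvPowerSeries.constantCoeff (σ := Fin r) (R := 𝒪)) l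
  rw [this]
  exact hl

theorem one_add_X_pow_sub_one_mem {l : ℕ} (hl : (l : 𝒪) ∈ maximalIdeal 𝒪) (n : ℕ) (j : Fin r) :
    ((1 + MvPowerSeries.X j) ^ (l ^ n) - 1 : MvPowerSeries (Fin r) 𝒪) ∈
      maximalIdeal (MvPowerSeries (Fin r) 𝒪) ^ (n + 1) := by
  induction n with
  | zero =>
    simpa using X_mem_maximalIdeal (𝒪 := 𝒪) r j
  | succ n ih =>
    have h := one_add_pow_sub_one_mem (maximalIdeal (MvPowerSeries (Fin r) 𝒪))
      (natCast_mem_maximalIdeal r hl) ih
    have h2 : (1 + ((1 + MvPowerSeries.X j) ^ (l ^ n) - 1 : MvPowerSeries (Fin r) 𝒪)) ^ l =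
        (1 + MvPowerSeries.X j) ^ (l ^ (n + 1)) := by
      rw [add_sub_cancel, ← pow_mul, pow_succ]
    rwa [h2] at h

/-- The relation ideal of level `n` is contained in `𝔫 ^ (n + 1)`. -/
theorem patchIdeal_le_pow {l : ℕ} (hl : (l : 𝒪) ∈ maximalIdeal 𝒪) (n : ℕ) :
    Ideal.span (Set.range fun j : Fin r =>
      ((1 + MvPowerSeries.X j) ^ (l ^ n) - 1 : MvPowerSeries (Fin r) 𝒪)) ≤
      maximalIdeal (MvPowerSeries (Fin r) 𝒪) ^ (n + 1) := by
  rw [Ideal.span_le]
  rintro _ ⟨j, rfl⟩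
  exact one_add_X_pow_sub_one_mem r hl n j

omit [IsLocalRing 𝒪] in
/-- The relation ideals are contained in the ideal of the variables. -/
theorem patchIdeal_le_span_X (k : ℕ) :
    Ideal.span (Set.range fun j : Fin r =>
      ((1 + MvPowerSeries.X j) ^ k - 1 : MvPowerSeries (Fin r) 𝒪)) ≤
      Ideal.span (Set.range (MvPowerSeries.X : Fin r → MvPowerSeries (Fin r) 𝒪)) := by
  rw [Ideal.span_le]
  rintro _ ⟨j, rfl⟩
  have h2 : ((1 + MvPowerSeries.X j) ^ k - 1 : MvPowerSeries (Fin r) 𝒪) =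
      MvPowerSeries.X j * ∑ i ∈ Finset.range k, (1 + MvPowerSeries.X j) ^ i := by
    rw [← mul_geom_sum]; ring
  show ((1 + MvPowerSeries.X j) ^ k - 1 : MvPowerSeries (Fin r) 𝒪) ∈ _
  rw [h2]
  exact Ideal.mul_mem_right _ _ (Ideal.subset_span ⟨j, rfl⟩)

end relationIdeal

/-! ### The adic structure of `R` and `M` -/

section RM

variable {𝒪 : Type} [CommRing 𝒪] [IsDomain 𝒪] [IsDiscreteValuationRing 𝒪]
  [IsAdicComplete (maximalIdeal 𝒪) 𝒪] {r : ℕ} {R : Type} [CommRing R] [Algebra 𝒪 R]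

/-- Images of the maximal ideal under two surjective algebra maps coincide. -/
theorem map_maximalIdeal_le_of_surjective
    (ψ ψ' : MvPowerSeries (Fin r) 𝒪 →ₐ[𝒪] R) (hψ : Function.Surjective ψ)
    (hψ' : Function.Surjective ψ') :
    Ideal.map ψ'.toRingHom (maximalIdeal (MvPowerSeries (Fin r) 𝒪)) ≤
      Ideal.map ψ.toRingHom (maximalIdeal (MvPowerSeries (Fin r) 𝒪)) := by
  rw [Ideal.map_le_iff_le_comap]
  intro f hf
  rw [Ideal.mem_comap]
  obtain ⟨g, hg⟩ := hψ (ψ' f)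
  by_cases hgm : g ∈ maximalIdeal (MvPowerSeries (Fin r) 𝒪)
  · have : ψ'.toRingHom f = ψ.toRingHom g := hg.symm
    rw [this]
    exact Ideal.mem_map_of_mem _ hgm
  · -- `g` is a unit, hence `ψ' f` is a unit, hence `R` is trivial
    have hgu : IsUnit g := by
      rw [IsLocalRing.mem_maximalIdeal, mem_nonunits_iff, not_not] at hgm
      exact hgm
    have hu : IsUnit (ψ' f) := hg ▸ hgu.map ψ
    obtain ⟨u, hu'⟩ := hu
    obtain ⟨h, hh⟩ := hψ' (↑u⁻¹ : R)
    have h1 : ψ' (1 - f * h) = 0 := by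
      rw [map_sub, map_one, map_mul, hh, ← hu', Units.mul_inv, sub_self]
    have h2 : IsUnit (1 - f * h) := by
      have hfh : f * h ∈ maximalIdeal (MvPowerSeries (Fin r) 𝒪) := Ideal.mul_mem_right _ _ hf
      by_contra hnu
      have h3 : 1 - f * h ∈ maximalIdeal (MvPowerSeries (Fin r) 𝒪) := by
        rw [IsLocalRing.mem_maximalIdeal, mem_nonunits_iff]; exact hnu
      have h4 : (1 : MvPowerSeries (Fin r) 𝒪) ∈ maximalIdeal (MvPowerSeries (Fin r) 𝒪) := by
        have := Ideal.add_mem _ h3 hfh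
        simpa using this
      exact (Ideal.ne_top_iff_one _).mp (maximalIdeal.isMaximal _).ne_top h4
    have h5 : IsUnit (0 : R) := h1 ▸ h2.map ψ'
    haveI : Subsingleton R := isUnit_zero_iff.mp h5 |> fun h => subsingleton_of_zero_eq_one h
    rw [Subsingleton.elim (ψ'.toRingHom f) 0]
    exact Ideal.zero_mem _

theorem map_maximalIdeal_eq_of_surjective
    (ψ ψ' : MvPowerSeries (Fin r) 𝒪 →ₐ[𝒪] R) (hψ : Function.Surjective ψ)
    (hψ' : Function.Surjective ψ') :
    Ideal.map ψ'.toRingHom (maximalIdeal (MvPowerSeries (Fin r) 𝒪)) =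
      Ideal.map ψ.toRingHom (maximalIdeal (MvPowerSeries (Fin r) 𝒪)) :=
  le_antisymm (map_maximalIdeal_le_of_surjective ψ ψ' hψ hψ')
    (map_maximalIdeal_le_of_surjective ψ' ψ hψ' hψ)

variable (ψ₀ : MvPowerSeries (Fin r) 𝒪 →ₐ[𝒪] R) (hψ₀ : Function.Surjective ψ₀)

include hψ₀

theorem isNoetherianRing_of_psi : IsNoetherianRing R :=
  isNoetherianRing_of_surjective _ _ ψ₀.toRingHom hψ₀

theorem isAdicComplete_of_psi (M : Type) [AddCommGroup M] [Module R M] [Module.Finite R M] :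
    IsAdicComplete (Ideal.map ψ₀.toRingHom (maximalIdeal (MvPowerSeries (Fin r) 𝒪))) M := by
  letI : Algebra (MvPowerSeries (Fin r) 𝒪) R := ψ₀.toRingHom.toAlgebra
  letI : Module (MvPowerSeries (Fin r) 𝒪) M := Module.compHom M ψ₀.toRingHom
  haveI : IsScalarTower (MvPowerSeries (Fin r) 𝒪) R M :=
    IsScalarTower.of_algebraMap_smul (fun _ _ => rfl)
  haveI : Module.Finite (MvPowerSeries (Fin r) 𝒪) R :=
    Module.Finite.of_surjective (Algebra.linearMap (MvPowerSeries (Fin r) 𝒪) R) hψ₀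
  haveI : Module.Finite (MvPowerSeries (Fin r) 𝒪) M := Module.Finite.trans R M
  haveI : IsAdicComplete (maximalIdeal (MvPowerSeries (Fin r) 𝒪)) (MvPowerSeries (Fin r) 𝒪) :=
    Fermat.Agent.S53.mvPowerSeries_isAdicComplete 𝒪 r
  haveI : IsAdicComplete (maximalIdeal (MvPowerSeries (Fin r) 𝒪)) M :=
    IsAdicComplete.of_module_finite _ M
  exact
    { toIsHausdorff := (IsHausdorff.map_algebraMap_iff (S := R)).mpr inferInstance
      toIsPrecomplete := (IsPrecomplete.map_algebraMap_iff (S := R)).mpr inferInstance }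

theorem finite_quotient_of_psi [Finite (ResidueField 𝒪)]
    (M : Type) [AddCommGroup M] [Module R M] [Module.Finite R M] (m : ℕ) :
    Finite (M ⧸ ((Ideal.map ψ₀.toRingHom (maximalIdeal (MvPowerSeries (Fin r) 𝒪))) ^ m • ⊤ :
      Submodule R M)) := by
  haveI : IsNoetherianRing R := isNoetherianRing_of_psi ψ₀ hψ₀
  haveI := finite_quotient_maximalIdeal (𝒪 := 𝒪) r
  haveI : Finite (R ⧸ Ideal.map ψ₀.toRingHom (maximalIdeal (MvPowerSeries (Fin r) 𝒪))) :=
    Finite.of_surjective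
      (Ideal.quotientMap (Ideal.map ψ₀.toRingHom (maximalIdeal (MvPowerSeries (Fin r) 𝒪)))
        ψ₀.toRingHom Ideal.le_comap_map)
      (Ideal.quotientMap_surjective hψ₀)
  haveI : Finite (R ⧸ (Ideal.map ψ₀.toRingHom
      (maximalIdeal (MvPowerSeries (Fin r) 𝒪))) ^ m) :=
    Ideal.finite_quotient_pow (IsNoetherian.noetherian _) m
  exact Submodule.finite_quotient_smul _ Module.Finite.fg_top

end RM

end Fermat.Agent.S59
end MergeWrap_S59_PatchAdic

section MergeWrap_S59_TWSubst -- from S59/TWSubst.lean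

set_option autoImplicit false
set_option linter.style.haveILetI false

namespace Fermat.Agent.S59

open IsLocalRing

section subst

variable {𝒪 : Type} [CommRing 𝒪]

/-- Two algebra homomorphisms out of a power series ring that agree on the variables agree, as soon
as the target is Hausdorff for an ideal containing the images of the variables. -/
theorem algHom_mvPowerSeries_ext_of_isHausdorff {r : ℕ} {A : Type} [CommRing A] [Algebra 𝒪 A]
    (I : Ideal A) [IsHausdorff I A]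
    (θ θ' : MvPowerSeries (Fin r) 𝒪 →ₐ[𝒪] A)
    (h : ∀ i, θ (MvPowerSeries.X i) = θ' (MvPowerSeries.X i))
    (hI : ∀ i, θ (MvPowerSeries.X i) ∈ I) : θ = θ' := by
  have key : ∀ n : ℕ, (Ideal.Quotient.mkₐ 𝒪 (I ^ n)).comp θ =
      (Ideal.Quotient.mkₐ 𝒪 (I ^ n)).comp θ' := by
    intro n
    refine Fermat.Agent.S53.algHom_mvPowerSeries_ext _ _ (fun i => ?_) (fun i => ?_)
    · simp only [AlgHom.comp_apply, h i]
    · refine ⟨n, ?_⟩
      rw [AlgHom.comp_apply, ← map_pow]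
      exact Ideal.Quotient.eq_zero_iff_mem.mpr (Ideal.pow_mem_pow (hI i) n)
  refine AlgHom.ext fun f => ?_
  rw [← sub_eq_zero]
  refine IsHausdorff.haus' (I := I) _ fun n => ?_
  rw [smul_eq_mul, Ideal.mul_top, SModEq.zero]
  have := congrArg (fun g : MvPowerSeries (Fin r) 𝒪 →ₐ[𝒪] A ⧸ I ^ n => g f) (key n)
  simp only [AlgHom.comp_apply, Ideal.Quotient.mkₐ_eq_mk] at this
  rw [← Ideal.Quotient.eq_zero_iff_mem, map_sub, this, sub_self]

variable [IsDomain 𝒪] [IsDiscreteValuationRing 𝒪] [IsAdicComplete (maximalIdeal 𝒪) 𝒪]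

/-- Substitution: for `a_j` in the maximal ideal of `𝒪⟦Y₁..Y_s⟧` there is an `𝒪`-algebra homomorphism
`𝒪⟦X₁..X_r⟧ → 𝒪⟦Y₁..Y_s⟧` with `X_j ↦ a_j`. -/
theorem exists_algHom_subst {r s : ℕ} (a : Fin r → MvPowerSeries (Fin s) 𝒪)
    (ha : ∀ j, a j ∈ maximalIdeal (MvPowerSeries (Fin s) 𝒪)) :
    ∃ φ : MvPowerSeries (Fin r) 𝒪 →ₐ[𝒪] MvPowerSeries (Fin s) 𝒪,
      ∀ j, φ (MvPowerSeries.X j) = a j := by
  haveI hc : IsAdicComplete (maximalIdeal (MvPowerSeries (Fin s) 𝒪))
      (MvPowerSeries (Fin s) 𝒪) := Fermat.Agent.S53.mvPowerSeries_isAdicComplete 𝒪 s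
  set 𝔫 := maximalIdeal (MvPowerSeries (Fin s) 𝒪) with h𝔫
  have hnil : ∀ (n : ℕ) (j : Fin r), IsNilpotent (Ideal.Quotient.mk (𝔫 ^ n) (a j)) := by
    intro n j
    refine ⟨n, ?_⟩
    rw [← map_pow]
    exact Ideal.Quotient.eq_zero_iff_mem.mpr (Ideal.pow_mem_pow (ha j) n)
  choose f hf using fun n : ℕ =>
    Fermat.Agent.S53.exists_algHom_mvPowerSeries (𝒪 := 𝒪)
      (fun j : Fin r => Ideal.Quotient.mk (𝔫 ^ n) (a j)) (hnil n)
  have hcompat : ∀ {m n : ℕ} (hle : m ≤ n),
      (Ideal.Quotient.factorₐ 𝒪 (Ideal.pow_le_pow_right hle)).comp (f n) = f m := by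
    intro m n hle
    refine Fermat.Agent.S53.algHom_mvPowerSeries_ext _ _ (fun i => ?_) (fun i => ?_)
    · rw [AlgHom.comp_apply, hf n i, hf m i]
      rfl
    · rw [AlgHom.comp_apply, hf n i]
      exact hnil m i
  refine ⟨IsAdicComplete.liftAlgHom 𝔫 f hcompat, fun j => ?_⟩
  rw [← sub_eq_zero]
  refine IsHausdorff.haus' (I := 𝔫) _ fun n => ?_
  rw [smul_eq_mul, Ideal.mul_top, SModEq.zero, ← Ideal.Quotient.eq_zero_iff_mem, map_sub,
    sub_eq_zero]
  have h1 : Ideal.Quotient.mk (𝔫 ^ n) (IsAdicComplete.liftAlgHom 𝔫 f hcompat (MvPowerSeries.X j)) =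
      f n (MvPowerSeries.X j) := IsAdicComplete.mk_liftAlgHom 𝔫 f hcompat n _
  rw [h1, hf n j]

/-- Lifting: an algebra homomorphism from a power series ring to a quotient of a power series
ring lifts along the quotient map. -/
theorem exists_algHom_lift [Finite (ResidueField 𝒪)] {r s : ℕ} {A : Type} [CommRing A]
    [Algebra 𝒪 A]
    (γ : MvPowerSeries (Fin s) 𝒪 →ₐ[𝒪] A) (hγ : Function.Surjective γ)
    (ev : MvPowerSeries (Fin r) 𝒪 →ₐ[𝒪] A) :
    ∃ φ : MvPowerSeries (Fin r) 𝒪 →ₐ[𝒪] MvPowerSeries (Fin s) 𝒪, γ.comp φ = ev := by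
  by_cases htriv : Subsingleton A
  · obtain ⟨φ, -⟩ := exists_algHom_subst (𝒪 := 𝒪) (r := r) (s := s) (fun _ => 0)
      (fun _ => Ideal.zero_mem _)
    exact ⟨φ, AlgHom.ext fun f => Subsingleton.elim _ _⟩
  rw [not_subsingleton_iff_nontrivial] at htriv
  choose a ha using fun j : Fin r => hγ (ev (MvPowerSeries.X j))
  -- `γ` is a local homomorphism
  have hloc : ∀ x : MvPowerSeries (Fin s) 𝒪, IsUnit (γ x) → IsUnit x := by
    intro x hx
    by_contra hxu
    have hxm : x ∈ maximalIdeal (MvPowerSeries (Fin s) 𝒪) := hxu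
    obtain ⟨y, hy⟩ := hx.exists_right_inv
    obtain ⟨y', rfl⟩ := hγ y
    have h1 : γ (x * y' - 1) = 0 := by rw [map_sub, map_mul, hy, map_one, sub_self]
    have h2 : IsUnit (x * y' - 1) := by
      have hmem : x * y' ∈ maximalIdeal (MvPowerSeries (Fin s) 𝒪) :=
        Ideal.mul_mem_right _ _ hxm
      have : IsUnit (1 - x * y') := by
        by_contra hcon
        have hcon' : 1 - x * y' ∈ maximalIdeal (MvPowerSeries (Fin s) 𝒪) := hcon
        have hone : (1 : MvPowerSeries (Fin s) 𝒪) ∈ maximalIdeal (MvPowerSeries (Fin s) 𝒪) := by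
          have := Ideal.add_mem _ hcon' hmem
          simpa using this
        exact (Ideal.ne_top_iff_one _).mp (IsLocalRing.maximalIdeal.isMaximal _).ne_top hone
      have hneg : x * y' - 1 = -(1 - x * y') := by ring
      rw [hneg]
      exact this.neg
    have h3 : IsUnit (γ (x * y' - 1)) := h2.map γ
    rw [h1] at h3
    exact not_isUnit_zero h3
  -- the images of the variables are not units
  have hevX : ∀ j, ¬ IsUnit (ev (MvPowerSeries.X j)) := by
    intro j hu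
    -- the residue class of the unit lifts to a unit constant
    obtain ⟨b, hb⟩ := hγ (ev (MvPowerSeries.X j))
    have hbu : IsUnit b := hloc b (hb ▸ hu)
    set c₀ := MvPowerSeries.constantCoeff b with hc₀
    have hc₀u : IsUnit c₀ := MvPowerSeries.isUnit_iff_constantCoeff.mp hbu
    -- `X_j - c₀` is a unit
    have hXu : IsUnit (MvPowerSeries.X j - MvPowerSeries.C c₀ : MvPowerSeries (Fin r) 𝒪) := by
      rw [MvPowerSeries.isUnit_iff_constantCoeff, map_sub, MvPowerSeries.constantCoeff_X,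
        MvPowerSeries.constantCoeff_C, zero_sub]
      exact hc₀u.neg
    have h1 : IsUnit (ev (MvPowerSeries.X j - MvPowerSeries.C c₀)) := hXu.map ev
    have h2 : ev (MvPowerSeries.X j - MvPowerSeries.C c₀) = γ (b - MvPowerSeries.C c₀) := by
      rw [map_sub, map_sub, hb, MvPowerSeries.c_eq_algebraMap, AlgHom.commutes,
        MvPowerSeries.c_eq_algebraMap, AlgHom.commutes]
    rw [h2] at h1
    have h3 : IsUnit (b - MvPowerSeries.C c₀) := hloc _ h1
    rw [MvPowerSeries.isUnit_iff_constantCoeff, map_sub, MvPowerSeries.constantCoeff_C,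
      hc₀, sub_self] at h3
    exact not_isUnit_zero h3
  have ham : ∀ j, a j ∈ maximalIdeal (MvPowerSeries (Fin s) 𝒪) := by
    intro j
    by_contra hcon
    have hu : IsUnit (a j) := by
      rw [IsLocalRing.mem_maximalIdeal, mem_nonunits_iff, not_not] at hcon
      exact hcon
    exact hevX j (ha j ▸ hu.map γ)
  obtain ⟨φ, hφ⟩ := exists_algHom_subst a ham
  refine ⟨φ, ?_⟩
  haveI : IsNoetherianRing A := isNoetherianRing_of_psi γ hγ
  haveI : IsAdicComplete (Ideal.map γ.toRingHom (maximalIdeal (MvPowerSeries (Fin s) 𝒪))) A :=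
    isAdicComplete_of_psi γ hγ A
  refine algHom_mvPowerSeries_ext_of_isHausdorff
    (Ideal.map γ.toRingHom (maximalIdeal (MvPowerSeries (Fin s) 𝒪))) _ _ (fun i => ?_)
    (fun i => ?_)
  · rw [AlgHom.comp_apply, hφ i, ha i]
  · rw [AlgHom.comp_apply, hφ i]
    exact Ideal.mem_map_of_mem _ (ham i)

end subst

end Fermat.Agent.S59
end MergeWrap_S59_TWSubst

section MergeWrap_S56_Dictionary -- from S56/Dictionary.lean

set_option autoImplicit false
set_option linter.style.haveILetI false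
set_option linter.unusedSectionVars false

namespace Fermat.Agent.S56

open IsLocalRing GaloisRep

section Universal

variable {𝒪 : Type} [CommRing 𝒪] [IsDomain 𝒪] [IsDiscreteValuationRing 𝒪]
  [IsAdicComplete (maximalIdeal 𝒪) 𝒪] [Finite (ResidueField 𝒪)]
  {ρbar : ResidualGaloisRep (ResidueField 𝒪)}
  {𝒟 : ∀ ⦃A : Type⦄ [CommRing A] [IsLocalRing A] [Algebra 𝒪 A], GaloisRepAdic A → Prop}

/-- The push-forward of the universal deformation along any local `𝒪`-algebra map to an Artinian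
test algebra is of type `𝒟`. -/
theorem dict_isOfType_baseChangeAlong (h𝒟 : IsDeformationCondition 𝒪 𝒟)
    (D : DeformationRingData 𝒪 ρbar 𝒟)
    {A : Type} [CommRing A] [IsLocalRing A] [Algebra 𝒪 A] (hA : IsArtinianTestAlgebra 𝒪 A)
    (φ : D.R →ₐ[𝒪] A) (hφ : IsLocalHom (φ : D.R →+* A)) :
    𝒟 (D.ρ.baseChangeAlong (φ : D.R →+* A) hφ) := by
  haveI : IsLocalRing φ.range :=
    Fermat.Agent.S53.IsArtinianTestAlgebra.isLocalRing_subalgebra hA φ.range
  have hB : IsArtinianTestAlgebra 𝒪 φ.range :=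
    Fermat.Agent.S53.IsArtinianTestAlgebra.subalgebra hA φ.range
  have hq : Function.Surjective φ.rangeRestrict := φ.rangeRestrict_surjective
  have hqloc : IsLocalHom (φ.rangeRestrict : D.R →+* φ.range) :=
    Fermat.Agent.S53.isLocalHom_of_surjective_algHom φ.rangeRestrict hq
  have hιloc : IsLocalHom (φ.range.val : φ.range →+* A) :=
    Fermat.Agent.S53.IsArtinianTestAlgebra.isLocalHom_of_injective hA φ.range.val
      Subtype.val_injective
  have h1 : 𝒟 (D.ρ.baseChangeAlong (φ.rangeRestrict : D.R →+* φ.range) hqloc) :=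
    (h𝒟.iff_forall_surjective (inferInstance : IsLocalHom (algebraMap 𝒪 D.R))
      D.residue_surjective D.ρ).1 D.isOfType hB φ.rangeRestrict hqloc hq
  have h2 := h𝒟.baseChangeAlong hB hA φ.range.val hιloc h1
  have hcomp : IsLocalHom ((φ.range.val : φ.range →+* A).comp
      (φ.rangeRestrict : D.R →+* φ.range)) :=
    @RingHom.isLocalHom_comp _ _ _ _ _ _ (φ.range.val : φ.range →+* A)
      (φ.rangeRestrict : D.R →+* φ.range) hιloc hqloc
  have h3 := Fermat.Agent.S59.redAux_baseChangeAlong_comp (φ.rangeRestrict : D.R →+* φ.range)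
    hqloc (φ.range.val : φ.range →+* A) hιloc hcomp D.ρ
  have h4 := h𝒟.of_isEquiv hA h3 h2
  exact h𝒟.of_isEquiv hA
    (Fermat.Agent.S59.redAux_baseChangeAlong_congr (RingHom.ext fun _ => rfl) hcomp hφ D.ρ) h4

/-- Uniqueness in the universal property, for Artinian test algebras: two local `𝒪`-algebra maps
out of the universal ring with equivalent push-forwards are equal. -/
theorem dict_algHom_eq_of_isEquiv (h𝒟 : IsDeformationCondition 𝒪 𝒟)
    (D : DeformationRingData 𝒪 ρbar 𝒟)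
    {A : Type} [CommRing A] [IsLocalRing A] [Algebra 𝒪 A] (hA : IsArtinianTestAlgebra 𝒪 A)
    (φ φ' : D.R →ₐ[𝒪] A) (hφ : IsLocalHom (φ : D.R →+* A))
    (hφ' : IsLocalHom (φ' : D.R →+* A))
    (h : (D.ρ.baseChangeAlong (φ : D.R →+* A) hφ).IsEquiv
      (D.ρ.baseChangeAlong (φ' : D.R →+* A) hφ')) : φ = φ' := by
  haveI := hA.isLocalHom
  haveI := hA.isArtinian
  have h1 := dict_isOfType_baseChangeAlong h𝒟 D hA φ' hφ'
  have hres := Fermat.Agent.S59.redAux_residual_baseChange ρbar φ' hφ' D.ρ D.residual_isEquiv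
  obtain ⟨φ₀, -, huniq⟩ := D.universal A hA.residue_surjective
    (D.ρ.baseChangeAlong (φ' : D.R →+* A) hφ') h1 hres
  have e1 : φ = φ₀ := huniq φ ⟨hφ, h⟩
  have e2 : φ' = φ₀ := huniq φ' ⟨hφ', ⟨GaloisRepAdic.Equiv.refl _⟩⟩
  rw [e1, e2]

/-- `ResidueField.map` of the structure map of the dual numbers. -/
theorem dict_residueFieldMap_dualNumber :
    letI := Fermat.Agent.S53.dualNumberAlgebra 𝒪
    ∀ [IsLocalHom (algebraMap 𝒪 (DualNumber (ResidueField 𝒪)))],
    IsLocalRing.ResidueField.map (algebraMap 𝒪 (DualNumber (ResidueField 𝒪))) =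
      (residue (DualNumber (ResidueField 𝒪))).comp
        (algebraMap (ResidueField 𝒪) (DualNumber (ResidueField 𝒪))) := by
  letI := Fermat.Agent.S53.dualNumberAlgebra 𝒪
  intro _
  ext x
  obtain ⟨a, rfl⟩ := IsLocalRing.residue_surjective x
  rfl

/-- The push-forward of the universal deformation along a local `𝒪`-algebra map to the dual
numbers is a tangent point. -/
theorem dict_isTangentPoint (h𝒟 : IsDeformationCondition 𝒪 𝒟)
    (D : DeformationRingData 𝒪 ρbar 𝒟) :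
    letI := Fermat.Agent.S53.dualNumberAlgebra 𝒪
    ∀ (φ : D.R →ₐ[𝒪] DualNumber (ResidueField 𝒪))
      (hφ : IsLocalHom (φ : D.R →+* DualNumber (ResidueField 𝒪))),
      IsTangentPoint 𝒪 ρbar 𝒟 (D.ρ.baseChangeAlong (φ : D.R →+* DualNumber (ResidueField 𝒪)) hφ) := by
  letI := Fermat.Agent.S53.dualNumberAlgebra 𝒪
  intro φ hφ
  have hT := Fermat.Agent.S53.isArtinianTestAlgebra_dualNumber (𝒪 := 𝒪)
  haveI : IsLocalHom (algebraMap 𝒪 (DualNumber (ResidueField 𝒪))) := hT.isLocalHom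
  refine ⟨dict_isOfType_baseChangeAlong h𝒟 D hT φ hφ, ?_⟩
  have hres := Fermat.Agent.S59.redAux_residual_baseChange ρbar φ hφ D.ρ D.residual_isEquiv
  rw [dict_residueFieldMap_dualNumber] at hres
  exact hres

end Universal

section Cotangent

variable {𝒪 : Type} [CommRing 𝒪] [IsDomain 𝒪] [IsDiscreteValuationRing 𝒪]
  [Finite (ResidueField 𝒪)]
variable {R : Type} [CommRing R] [IsLocalRing R] [Algebra 𝒪 R]

/-- The `𝒪`-submodule `𝒪·1 + 𝔪_R²` of a local `𝒪`-algebra `R`. -/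
def dictU (𝒪 : Type) [CommRing 𝒪] (R : Type) [CommRing R] [IsLocalRing R] [Algebra 𝒪 R] :
    Submodule 𝒪 R :=
  LinearMap.range (Algebra.linearMap 𝒪 R) ⊔ (maximalIdeal R ^ 2).restrictScalars 𝒪

theorem dict_algebraMap_mem_dictU (α : 𝒪) : algebraMap 𝒪 R α ∈ dictU 𝒪 R :=
  Submodule.mem_sup_left ⟨α, rfl⟩

theorem dict_mem_dictU_of_mem_sq {a : R} (ha : a ∈ maximalIdeal R ^ 2) : a ∈ dictU 𝒪 R :=
  Submodule.mem_sup_right (show a ∈ (maximalIdeal R ^ 2).restrictScalars 𝒪 from ha)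

theorem dict_exists_of_mem_dictU {u : R} (hu : u ∈ dictU 𝒪 R) :
    ∃ α : 𝒪, u - algebraMap 𝒪 R α ∈ maximalIdeal R ^ 2 := by
  obtain ⟨a, ⟨α, rfl⟩, y, hy, hay⟩ := Submodule.mem_sup.mp hu
  refine ⟨α, ?_⟩
  have : u - algebraMap 𝒪 R α = y := by
    rw [← hay]
    simp
  rw [this]
  exact hy

theorem dict_algebraMap_mem_maximalIdeal [IsLocalHom (algebraMap 𝒪 R)] {α : 𝒪}
    (hα : α ∈ maximalIdeal 𝒪) : algebraMap 𝒪 R α ∈ maximalIdeal R := by
  rw [mem_maximalIdeal, mem_nonunits_iff] at hα ⊢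
  exact fun hu => hα (isUnit_of_map_unit (algebraMap 𝒪 R) α hu)

/-- `R ⧸ (𝒪·1 + 𝔪_R²)` is killed by the maximal ideal of `𝒪`. -/
theorem dict_isTorsionBySet [IsLocalHom (algebraMap 𝒪 R)]
    (hs : Function.Surjective (residue R ∘ algebraMap 𝒪 R)) :
    Module.IsTorsionBySet 𝒪 (R ⧸ dictU 𝒪 R) (maximalIdeal 𝒪 : Set 𝒪) := by
  rintro v ⟨α, hα⟩
  obtain ⟨a, rfl⟩ := (dictU 𝒪 R).mkQ_surjective v
  show α • (dictU 𝒪 R).mkQ a = 0
  rw [← map_smul, Submodule.mkQ_apply, Submodule.Quotient.mk_eq_zero]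
  obtain ⟨β, hβ⟩ := Fermat.Agent.S53.exists_algebraMap_sub_mem_of_surjective hs a
  have e1 : α • a = algebraMap 𝒪 R (α * β) + algebraMap 𝒪 R α * (a - algebraMap 𝒪 R β) := by
    rw [Algebra.smul_def, map_mul]; ring
  rw [e1]
  refine (dictU 𝒪 R).add_mem (dict_algebraMap_mem_dictU _) (dict_mem_dictU_of_mem_sq ?_)
  rw [pow_two]
  exact Ideal.mul_mem_mul (dict_algebraMap_mem_maximalIdeal hα) hβ

/-- Every `𝒪`-linear map `R → k` that vanishes on `𝒪·1 + 𝔪_R²` is the `ε`-component of a local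
`𝒪`-algebra map `R → k[ε]`. -/
theorem dict_exists_algHom_of_derivation [IsLocalHom (algebraMap 𝒪 R)]
    (hs : Function.Surjective (residue R ∘ algebraMap 𝒪 R))
    (d : R →ₗ[𝒪] ResidueField 𝒪) (hdU : ∀ u ∈ dictU 𝒪 R, d u = 0) :
    letI := Fermat.Agent.S53.dualNumberAlgebra 𝒪
    ∃ Ψ : R →ₐ[𝒪] DualNumber (ResidueField 𝒪),
      IsLocalHom (Ψ : R →+* DualNumber (ResidueField 𝒪)) ∧ ∀ a : R, (Ψ a).snd = d a := by
  letI := Fermat.Agent.S53.dualNumberAlgebra 𝒪
  -- the residue field of `R` is `k`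
  have he0 : Function.Bijective (ResidueField.map (algebraMap 𝒪 R)) := by
    refine ⟨(ResidueField.map (algebraMap 𝒪 R)).injective, fun y => ?_⟩
    obtain ⟨α, hα⟩ := hs y
    exact ⟨residue 𝒪 α, by rw [ResidueField.map_residue]; exact hα⟩
  let e : ResidueField 𝒪 ≃+* ResidueField R := RingEquiv.ofBijective _ he0
  let π : R →+* ResidueField 𝒪 := (e.symm : ResidueField R →+* ResidueField 𝒪).comp (residue R)
  have hπ : ∀ α : 𝒪, π (algebraMap 𝒪 R α) = residue 𝒪 α := by
    intro α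
    show e.symm (residue R (algebraMap 𝒪 R α)) = residue 𝒪 α
    rw [RingEquiv.symm_apply_eq]
    show _ = ResidueField.map (algebraMap 𝒪 R) (residue 𝒪 α)
    rw [ResidueField.map_residue]
  have hπ0 : ∀ a : R, π a = 0 ↔ a ∈ maximalIdeal R := by
    intro a
    show e.symm (residue R a) = 0 ↔ _
    rw [map_eq_zero_iff _ e.symm.injective, residue_eq_zero_iff]
  have key : ∀ a : R, ∃ α : 𝒪, residue 𝒪 α = π a ∧ a - algebraMap 𝒪 R α ∈ maximalIdeal R := by
    intro a
    obtain ⟨α, hα⟩ := residue_surjective (π a)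
    refine ⟨α, hα, ?_⟩
    rw [← hπ0, map_sub, hπ, hα, sub_self]
  have hdalg : ∀ α : 𝒪, d (algebraMap 𝒪 R α) = 0 := fun α =>
    hdU _ (dict_algebraMap_mem_dictU α)
  have hd1 : d 1 = 0 := by
    have := hdalg 1
    rwa [map_one] at this
  have hdsub : ∀ (a : R) (α : 𝒪), d (a - algebraMap 𝒪 R α) = d a := by
    intro a α
    rw [map_sub, hdalg, sub_zero]
  have hdmul : ∀ a b : R, d (a * b) = π a * d b + π b * d a := by
    intro a b
    obtain ⟨α, hα, hx⟩ := key a
    obtain ⟨β, hβ, hy⟩ := key b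
    have e1 : a * b = algebraMap 𝒪 R (α * β) + α • (b - algebraMap 𝒪 R β)
        + β • (a - algebraMap 𝒪 R α)
        + (a - algebraMap 𝒪 R α) * (b - algebraMap 𝒪 R β) := by
      rw [Algebra.smul_def, Algebra.smul_def, map_mul]; ring
    have e2 : d ((a - algebraMap 𝒪 R α) * (b - algebraMap 𝒪 R β)) = 0 := by
      refine hdU _ (dict_mem_dictU_of_mem_sq ?_)
      rw [pow_two]
      exact Ideal.mul_mem_mul hx hy
    rw [e1, map_add, map_add, map_add, e2, hdalg, map_smul, map_smul, hdsub, hdsub,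
      Algebra.smul_def, Algebra.smul_def, ← hα, ← hβ]
    simp only [zero_add, add_zero]
    rfl
  let Ψ : R →+* DualNumber (ResidueField 𝒪) :=
    Fermat.Agent.S53.tangentRingHom π d.toAddMonoidHom hd1 hdmul
  have hΨ1 : ∀ a : R, (Ψ a).fst = π a := fun a => Fermat.Agent.S53.tangentRingHom_fst _ _ _ _ a
  have hΨ2 : ∀ a : R, (Ψ a).snd = d a := fun a => Fermat.Agent.S53.tangentRingHom_snd _ _ _ _ a
  have halg1 : ∀ α : 𝒪,
      (algebraMap 𝒪 (DualNumber (ResidueField 𝒪)) α).fst = residue 𝒪 α := fun α => rfl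
  have halg2 : ∀ α : 𝒪,
      (algebraMap 𝒪 (DualNumber (ResidueField 𝒪)) α).snd = 0 := fun α => rfl
  have hΨ : ∀ α : 𝒪, Ψ (algebraMap 𝒪 R α) = algebraMap 𝒪 (DualNumber (ResidueField 𝒪)) α := by
    intro α
    apply TrivSqZeroExt.ext
    · rw [hΨ1, hπ, halg1]
    · rw [hΨ2, hdalg, halg2]
  refine ⟨{ Ψ with commutes' := hΨ }, ⟨fun a ha => ?_⟩, fun a => hΨ2 a⟩
  have ha' : IsUnit (Ψ a) := ha
  rw [TrivSqZeroExt.isUnit_iff_isUnit_fst, hΨ1] at ha'
  rw [← notMem_maximalIdeal, ← hπ0]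
  exact ha'.ne_zero

/-- If there are at most `|k|^r` local `𝒪`-algebra maps `R → k[ε]`, then `R` is generated modulo
`𝔪_R²` by `𝒪` and `r` elements of `𝔪_R`. -/
theorem dict_exists_generators [IsNoetherianRing R] [IsLocalHom (algebraMap 𝒪 R)]
    (hs : Function.Surjective (residue R ∘ algebraMap 𝒪 R)) (r : ℕ)
    (hcard : letI := Fermat.Agent.S53.dualNumberAlgebra 𝒪
      ∃ g : {Ψ : R →ₐ[𝒪] DualNumber (ResidueField 𝒪) //
          IsLocalHom (Ψ : R →+* DualNumber (ResidueField 𝒪))} →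
        Fin (Nat.card (ResidueField 𝒪) ^ r), Function.Injective g) :
    ∃ x : Fin r → R, (∀ i, x i ∈ maximalIdeal R) ∧
      ∀ y : R, ∃ (α : 𝒪) (c : Fin r → 𝒪),
        y - (algebraMap 𝒪 R α + ∑ i, c i • x i) ∈ maximalIdeal R ^ 2 := by
  letI := Fermat.Agent.S53.dualNumberAlgebra 𝒪
  have htors := dict_isTorsionBySet (𝒪 := 𝒪) (R := R) hs
  letI : Module (ResidueField 𝒪) (R ⧸ dictU 𝒪 R) := htors.module
  haveI : IsScalarTower 𝒪 (ResidueField 𝒪) (R ⧸ dictU 𝒪 R) := htors.isScalarTower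
  -- `W = R ⧸ U` is finite
  haveI : Finite (ResidueField R) := Fermat.Agent.S53.finite_residueField_of_surjective hs
  haveI : Finite (R ⧸ maximalIdeal R ^ 2) := IsLocalRing.finite_quotient_iff.2 ⟨2, le_rfl⟩
  haveI : Finite (R ⧸ (maximalIdeal R ^ 2).restrictScalars 𝒪) :=
    Finite.of_equiv _ (Submodule.Quotient.restrictScalarsEquiv 𝒪 (maximalIdeal R ^ 2)).symm.toEquiv
  have hle : (maximalIdeal R ^ 2).restrictScalars 𝒪 ≤ dictU 𝒪 R := le_sup_right
  haveI : Finite (R ⧸ dictU 𝒪 R) :=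
    Finite.of_surjective _ (Submodule.factor_surjective hle)
  haveI : Module.Finite (ResidueField 𝒪) (R ⧸ dictU 𝒪 R) := Module.Finite.of_finite
  -- the map from the dual of `W` to the set of homomorphisms
  have hΦ : ∀ φ : Module.Dual (ResidueField 𝒪) (R ⧸ dictU 𝒪 R),
      ∃ Ψ : R →ₐ[𝒪] DualNumber (ResidueField 𝒪),
        IsLocalHom (Ψ : R →+* DualNumber (ResidueField 𝒪)) ∧
          ∀ a : R, (Ψ a).snd = φ ((dictU 𝒪 R).mkQ a) := by
    intro φ
    refine dict_exists_algHom_of_derivation hs ((φ.restrictScalars 𝒪).comp (dictU 𝒪 R).mkQ) ?_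
    intro u hu
    show φ ((dictU 𝒪 R).mkQ u) = 0
    rw [Submodule.mkQ_apply, (Submodule.Quotient.mk_eq_zero (dictU 𝒪 R)).mpr hu, map_zero]
  choose Φ hΦloc hΦsnd using hΦ
  obtain ⟨g, hg⟩ := hcard
  have hinj : Function.Injective
      (fun φ : Module.Dual (ResidueField 𝒪) (R ⧸ dictU 𝒪 R) => g ⟨Φ φ, hΦloc φ⟩) := by
    intro φ φ' h
    have h1 := hg h
    have h2 : Φ φ = Φ φ' := congrArg Subtype.val h1
    refine LinearMap.ext fun w => ?_
    obtain ⟨a, rfl⟩ := (dictU 𝒪 R).mkQ_surjective w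
    rw [← hΦsnd, ← hΦsnd, h2]
  have hcard2 : Nat.card (Module.Dual (ResidueField 𝒪) (R ⧸ dictU 𝒪 R)) ≤
      Nat.card (ResidueField 𝒪) ^ r := by
    have := Nat.card_le_card_of_injective _ hinj
    rwa [Nat.card_fin] at this
  have hfr : Module.finrank (ResidueField 𝒪) (R ⧸ dictU 𝒪 R) ≤ r := by
    rw [Module.natCard_eq_pow_finrank (K := ResidueField 𝒪), Subspace.dual_finrank_eq] at hcard2
    exact (Nat.pow_le_pow_iff_right Finite.one_lt_card).mp hcard2
  -- a spanning family indexed by `Fin r`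
  set s := Module.finrank (ResidueField 𝒪) (R ⧸ dictU 𝒪 R) with hsdef
  let v : Fin s → R ⧸ dictU 𝒪 R := Module.finBasis (ResidueField 𝒪) (R ⧸ dictU 𝒪 R)
  have hv : Submodule.span (ResidueField 𝒪) (Set.range v) = ⊤ :=
    (Module.finBasis (ResidueField 𝒪) (R ⧸ dictU 𝒪 R)).span_eq
  let w : Fin r → R ⧸ dictU 𝒪 R := fun i => if h : i.1 < s then v ⟨i.1, h⟩ else 0
  have hw : Submodule.span (ResidueField 𝒪) (Set.range w) = ⊤ := by
    rw [eq_top_iff, ← hv]
    refine Submodule.span_mono ?_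
    rintro _ ⟨j, rfl⟩
    refine ⟨⟨j.1, lt_of_lt_of_le j.2 hfr⟩, ?_⟩
    show (if h : j.1 < s then v ⟨j.1, h⟩ else 0) = v j
    rw [dif_pos j.2]
  -- lift to the maximal ideal
  have hlift : ∀ i, ∃ x ∈ maximalIdeal R, (dictU 𝒪 R).mkQ x = w i := by
    intro i
    obtain ⟨y, hy⟩ := (dictU 𝒪 R).mkQ_surjective (w i)
    obtain ⟨α, hα⟩ := Fermat.Agent.S53.exists_algebraMap_sub_mem_of_surjective hs y
    refine ⟨y - algebraMap 𝒪 R α, hα, ?_⟩
    rw [map_sub, hy, Submodule.mkQ_apply (dictU 𝒪 R) (algebraMap 𝒪 R α),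
      (Submodule.Quotient.mk_eq_zero (dictU 𝒪 R)).mpr (dict_algebraMap_mem_dictU α), sub_zero]
  choose x hxm hxw using hlift
  refine ⟨x, hxm, fun y => ?_⟩
  have hy : (dictU 𝒪 R).mkQ y ∈ Submodule.span (ResidueField 𝒪) (Set.range w) := by
    rw [hw]; trivial
  obtain ⟨c, hc⟩ := (Submodule.mem_span_range_iff_exists_fun (ResidueField 𝒪)).mp hy
  choose c' hc' using fun i => residue_surjective (c i)
  have h0 : (dictU 𝒪 R).mkQ (y - ∑ i, c' i • x i) = 0 := by
    rw [map_sub, map_sum, ← hc, sub_eq_zero]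
    refine Finset.sum_congr rfl fun i _ => ?_
    rw [map_smul, hxw, ← hc' i]
    exact algebraMap_smul (ResidueField 𝒪) (c' i) (w i)
  have h1 : y - ∑ i, c' i • x i ∈ dictU 𝒪 R := by
    rwa [Submodule.mkQ_apply, Submodule.Quotient.mk_eq_zero] at h0
  obtain ⟨α, hα⟩ := dict_exists_of_mem_dictU h1
  refine ⟨α, c', ?_⟩
  have e : y - (algebraMap 𝒪 R α + ∑ i, c' i • x i) =
      y - ∑ i, c' i • x i - algebraMap 𝒪 R α := by ring
  rw [e]
  exact hα

end Cotangent

section PowerSeries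

variable {𝒪 : Type} [CommRing 𝒪]

/-- Substitution into a complete local `𝒪`-algebra: for `a_j` in the maximal ideal of `R` there is
an `𝒪`-algebra homomorphism `𝒪⟦X₁..X_r⟧ → R` with `X_j ↦ a_j`. -/
theorem dict_exists_algHom {R : Type} [CommRing R] [IsLocalRing R] [Algebra 𝒪 R]
    [IsAdicComplete (maximalIdeal R) R] {r : ℕ} (a : Fin r → R)
    (ha : ∀ j, a j ∈ maximalIdeal R) :
    ∃ γ : MvPowerSeries (Fin r) 𝒪 →ₐ[𝒪] R, ∀ j, γ (MvPowerSeries.X j) = a j := by
  set 𝔫 := maximalIdeal R with h𝔫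
  have hnil : ∀ (n : ℕ) (j : Fin r), IsNilpotent (Ideal.Quotient.mk (𝔫 ^ n) (a j)) := by
    intro n j
    refine ⟨n, ?_⟩
    rw [← map_pow]
    exact Ideal.Quotient.eq_zero_iff_mem.mpr (Ideal.pow_mem_pow (ha j) n)
  choose f hf using fun n : ℕ =>
    Fermat.Agent.S53.exists_algHom_mvPowerSeries (𝒪 := 𝒪)
      (fun j : Fin r => Ideal.Quotient.mk (𝔫 ^ n) (a j)) (hnil n)
  have hcompat : ∀ {m n : ℕ} (hle : m ≤ n),
      (Ideal.Quotient.factorₐ 𝒪 (Ideal.pow_le_pow_right hle)).comp (f n) = f m := by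
    intro m n hle
    refine Fermat.Agent.S53.algHom_mvPowerSeries_ext _ _ (fun i => ?_) (fun i => ?_)
    · rw [AlgHom.comp_apply, hf n i, hf m i]
      rfl
    · rw [AlgHom.comp_apply, hf n i]
      exact hnil m i
  refine ⟨IsAdicComplete.liftAlgHom 𝔫 f hcompat, fun j => ?_⟩
  rw [← sub_eq_zero]
  refine IsHausdorff.haus' (I := 𝔫) _ fun n => ?_
  rw [smul_eq_mul, Ideal.mul_top, SModEq.zero, ← Ideal.Quotient.eq_zero_iff_mem, map_sub,
    sub_eq_zero]
  have h1 : Ideal.Quotient.mk (𝔫 ^ n) (IsAdicComplete.liftAlgHom 𝔫 f hcompat (MvPowerSeries.X j)) =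
      f n (MvPowerSeries.X j) := IsAdicComplete.mk_liftAlgHom 𝔫 f hcompat n _
  rw [h1, hf n j]

/-- An `𝒪`-algebra map from a local ring to a local `𝒪`-algebra with `𝒪 → R/𝔪_R` onto is a local
homomorphism. -/
theorem dict_isLocalHom_of_residue_surjective [IsLocalRing 𝒪] {P R : Type} [CommRing P]
    [IsLocalRing P] [Algebra 𝒪 P] [CommRing R] [IsLocalRing R] [Algebra 𝒪 R]
    (hs : Function.Surjective (residue R ∘ algebraMap 𝒪 R)) (γ : P →ₐ[𝒪] R) :
    IsLocalHom (γ : P →+* R) := by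
  have hsurj : Function.Surjective ((residue R).comp (γ : P →+* R)) := by
    intro z
    obtain ⟨α, hα⟩ := hs z
    refine ⟨algebraMap 𝒪 P α, ?_⟩
    rw [RingHom.comp_apply, AlgHom.coe_toRingHom, AlgHom.commutes]
    exact hα
  have hmax : (RingHom.ker ((residue R).comp (γ : P →+* R))).IsMaximal :=
    RingHom.ker_isMaximal_of_surjective _ hsurj
  have hker : RingHom.ker ((residue R).comp (γ : P →+* R)) = maximalIdeal P :=
    IsLocalRing.eq_maximalIdeal hmax
  refine ⟨fun p hp => ?_⟩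
  by_contra hnu
  have hmem : p ∈ maximalIdeal P := hnu
  rw [← hker, RingHom.mem_ker, RingHom.comp_apply, residue_eq_zero_iff] at hmem
  exact hmem hp

end PowerSeries

theorem exists_surjective_of_tangentCardLe
    {𝒪 : Type} [CommRing 𝒪] [IsDomain 𝒪] [IsDiscreteValuationRing 𝒪]
    [IsAdicComplete (maximalIdeal 𝒪) 𝒪] [Finite (ResidueField 𝒪)]
    {ρbar : ResidualGaloisRep (ResidueField 𝒪)}
    {𝒟 : ∀ ⦃A : Type⦄ [CommRing A] [IsLocalRing A] [Algebra 𝒪 A], GaloisRepAdic A → Prop}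
    (h𝒟 : GaloisRep.IsDeformationCondition 𝒪 𝒟)
    (D : GaloisRep.DeformationRingData 𝒪 ρbar 𝒟) (r : ℕ)
    (h : TangentCardLe 𝒪 ρbar 𝒟 (Nat.card (ResidueField 𝒪) ^ r)) :
    ∃ γ : MvPowerSeries (Fin r) 𝒪 →ₐ[𝒪] D.R, Function.Surjective γ := by
  letI := Fermat.Agent.S53.dualNumberAlgebra 𝒪
  have hT := Fermat.Agent.S53.isArtinianTestAlgebra_dualNumber (𝒪 := 𝒪)
  obtain ⟨f, hf⟩ := h
  -- at most `|k|^r` local algebra maps `R → k[ε]`
  have hcard : ∃ g : {Ψ : D.R →ₐ[𝒪] DualNumber (ResidueField 𝒪) //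
        IsLocalHom (Ψ : D.R →+* DualNumber (ResidueField 𝒪))} →
      Fin (Nat.card (ResidueField 𝒪) ^ r), Function.Injective g := by
    refine ⟨fun Ψ => f (D.ρ.baseChangeAlong (Ψ.1 : D.R →+* DualNumber (ResidueField 𝒪)) Ψ.2), ?_⟩
    rintro ⟨Ψ, hΨ⟩ ⟨Ψ', hΨ'⟩ hfeq
    have h1 := hf _ _ (dict_isTangentPoint h𝒟 D Ψ hΨ) (dict_isTangentPoint h𝒟 D Ψ' hΨ') hfeq
    exact Subtype.ext (dict_algHom_eq_of_isEquiv h𝒟 D hT Ψ Ψ' hΨ hΨ' h1)
  obtain ⟨x, hxm, hx⟩ := dict_exists_generators (𝒪 := 𝒪) (R := D.R) D.residue_surjective r hcard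
  obtain ⟨γ, hγ⟩ := dict_exists_algHom (𝒪 := 𝒪) x hxm
  refine ⟨γ, ?_⟩
  haveI : IsAdicComplete (maximalIdeal (MvPowerSeries (Fin r) 𝒪)) (MvPowerSeries (Fin r) 𝒪) :=
    Fermat.Agent.S53.mvPowerSeries_isAdicComplete 𝒪 r
  haveI : IsLocalHom (γ : MvPowerSeries (Fin r) 𝒪 →+* D.R) :=
    dict_isLocalHom_of_residue_surjective D.residue_surjective γ
  refine Fermat.Agent.S59.redAux_surjective_of_sq (γ : MvPowerSeries (Fin r) 𝒪 →+* D.R) ?_
  intro y
  obtain ⟨α, c, hy⟩ := hx y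
  refine ⟨algebraMap 𝒪 _ α + ∑ i, c i • MvPowerSeries.X i, ?_⟩
  have e : (γ : MvPowerSeries (Fin r) 𝒪 →+* D.R) (algebraMap 𝒪 _ α + ∑ i, c i • MvPowerSeries.X i)
      = algebraMap 𝒪 D.R α + ∑ i, c i • x i := by
    rw [AlgHom.coe_toRingHom, map_add, AlgHom.commutes, map_sum]
    congr 1
    refine Finset.sum_congr rfl fun i _ => ?_
    rw [map_smul, hγ]
  rw [e]
  exact hy

end Fermat.Agent.S56
end MergeWrap_S56_Dictionary
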