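import Mathlib
import Fermat.Prelude.Thm_IsAdicComplete_of_module_finite
import Fermat.Prelude.Def_GaloisRep_DeformationRingData
import Fermat.Statements.S53
import Fermat.Prelude.Def_GaloisRep_DeformationCondition
import Fermat.Agent.S53.Lift
import Fermat.Agent.S53.MatRepCore
import Fermat.Agent.S53.Defs
import Fermat.Agent.S53.PowerSeries
import Fermat.Agent.S53.TestAlgebra
import Fermat.Agent.S53.ProRepIdeals
import Fermat.Agent.S53.NormDataExists
import Fermat.Agent.S53.LiftDescent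
import Fermat.Agent.S59.Conditions
import Fermat.Agent.S59.DefCond.StrictOrdAlg
import Fermat.Agent.MU.E.Desc.FlatAsmK
import Fermat.Agent.MU.S17.W.Final
import Fermat.Agent.MU.S56.Dictionary

section MergeWrap_S53_RigidCore -- from S53/RigidCore.lean

/-!
# S53 chunk "Rigid" (owner: helper32): rigidification of 2x2 lifts over a local ring

Pure linear algebra over a commutative local ring `A`.  `Y : Fin 3 → M₂(A)` plays the role of the
three matrices `r(g_j)` of a lift, `(a j, b j)` are the three normalised entries and `t j` the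
prescribed values.

* `rigidJac Y a b` : the `3 × 3` Jacobian of `x ↦ ([X(x), Y j]_{a j, b j})_j`, `X(x) = !![x0, x1; x2, 0]`.
* `rigid_unique`  (N2): if `δ` is invertible, `δ * Y j = Y' j * δ`, `Y' j ≡ Y j mod 𝔪`, and the
  normalised entries of `Y` and `Y'` agree, then `δ` is a scalar matrix.  (Any local ring, Nakayama.)
* `rigid_exists`  (N1): if `A` is complete, there is `γ ≡ 1 mod 𝔪` with
  `(γ * Y j * γ⁻¹) (a j) (b j) = t j`.  (Newton iteration.)
-/

namespace Fermat.Agent.S53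

open Matrix IsLocalRing

section Basic

variable {A : Type*} [CommRing A]

/-- The matrix `!![x 0, x 1; x 2, 0]`. -/
def rigidEmb (x : Fin 3 → A) : Matrix (Fin 2) (Fin 2) A := !![x 0, x 1; x 2, 0]

/-- The commutator `[X(x), Z]`. -/
def rigidComm (x : Fin 3 → A) (Z : Matrix (Fin 2) (Fin 2) A) : Matrix (Fin 2) (Fin 2) A :=
  rigidEmb x * Z - Z * rigidEmb x

/-- The `3 × 3` Jacobian matrix of the normalisation conditions. -/
def rigidJac (Y : Fin 3 → Matrix (Fin 2) (Fin 2) A) (a b : Fin 3 → Fin 2) :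
    Matrix (Fin 3) (Fin 3) A :=
  fun j i => rigidComm (Pi.single i 1) (Y j) (a j) (b j)

lemma rigidComm_apply (x : Fin 3 → A) (Z : Matrix (Fin 2) (Fin 2) A) (i i' : Fin 2) :
    rigidComm x Z i i' = ∑ l, rigidComm (Pi.single l 1) Z i i' * x l := by
  obtain ⟨p, q, s, u, rfl⟩ : ∃ p q s u, Z = !![p, q; s, u] := ⟨_, _, _, _, Matrix.eta_fin_two Z⟩
  fin_cases i <;> fin_cases i' <;>
    simp [rigidComm, rigidEmb, Fin.sum_univ_three, Pi.single_apply] <;>
    ring

lemma rigidJac_mulVec (Y : Fin 3 → Matrix (Fin 2) (Fin 2) A) (a b : Fin 3 → Fin 2)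
    (x : Fin 3 → A) (j : Fin 3) :
    (rigidJac Y a b).mulVec x j = rigidComm x (Y j) (a j) (b j) := by
  rw [rigidComm_apply]
  simp [Matrix.mulVec, dotProduct, rigidJac]

lemma one_add_rigidEmb_det (x : Fin 3 → A) :
    (1 + rigidEmb x).det = 1 + x 0 - x 1 * x 2 := by
  simp [rigidEmb, Matrix.det_fin_two, Matrix.one_fin_two]

/-- All entries of a `2 × 2` matrix lie in the ideal `I`. -/
def MatMem (I : Ideal A) (M : Matrix (Fin 2) (Fin 2) A) : Prop := ∀ i j, M i j ∈ I

lemma MatMem.mono {I J : Ideal A} (h : I ≤ J) {M : Matrix (Fin 2) (Fin 2) A} (hM : MatMem I M) :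
    MatMem J M := fun i j => h (hM i j)

lemma MatMem.add {I : Ideal A} {M N : Matrix (Fin 2) (Fin 2) A} (hM : MatMem I M)
    (hN : MatMem I N) : MatMem I (M + N) := fun i j => by
  simpa using I.add_mem (hM i j) (hN i j)

lemma MatMem.sub {I : Ideal A} {M N : Matrix (Fin 2) (Fin 2) A} (hM : MatMem I M)
    (hN : MatMem I N) : MatMem I (M - N) := fun i j => by
  simpa using I.sub_mem (hM i j) (hN i j)

lemma MatMem.neg {I : Ideal A} {M : Matrix (Fin 2) (Fin 2) A} (hM : MatMem I M) :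
    MatMem I (-M) := fun i j => by
  simpa using I.neg_mem (hM i j)

lemma MatMem.zero (I : Ideal A) : MatMem I (0 : Matrix (Fin 2) (Fin 2) A) := fun i j => by
  simp

lemma MatMem.mul_right {I : Ideal A} {M : Matrix (Fin 2) (Fin 2) A} (hM : MatMem I M)
    (N : Matrix (Fin 2) (Fin 2) A) : MatMem I (M * N) := fun i j => by
  rw [Matrix.mul_apply]
  exact I.sum_mem fun l _ => I.mul_mem_right _ (hM i l)

lemma MatMem.mul_left {I : Ideal A} {M : Matrix (Fin 2) (Fin 2) A} (hM : MatMem I M)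
    (N : Matrix (Fin 2) (Fin 2) A) : MatMem I (N * M) := fun i j => by
  rw [Matrix.mul_apply]
  exact I.sum_mem fun l _ => I.mul_mem_left _ (hM l j)

lemma MatMem.mul {I J : Ideal A} {M N : Matrix (Fin 2) (Fin 2) A} (hM : MatMem I M)
    (hN : MatMem J N) : MatMem (I * J) (M * N) := fun i j => by
  rw [Matrix.mul_apply]
  exact (I * J).sum_mem fun l _ => Ideal.mul_mem_mul (hM i l) (hN l j)

lemma matMem_rigidEmb {I : Ideal A} {x : Fin 3 → A} (hx : ∀ i, x i ∈ I) :
    MatMem I (rigidEmb x) := by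
  intro i j
  fin_cases i <;> fin_cases j <;> simp [rigidEmb, hx]

lemma matMem_rigidComm {I : Ideal A} {x : Fin 3 → A} (hx : ∀ i, x i ∈ I)
    (Z : Matrix (Fin 2) (Fin 2) A) : MatMem I (rigidComm x Z) :=
  ((matMem_rigidEmb hx).mul_right Z).sub ((matMem_rigidEmb hx).mul_left Z)

/-- If `Λ` is invertible and `Λ x` has entries in `I`, so has `x`. -/
lemma rigid_mem_of_mulVec_mem {n : Type*} [Fintype n] [DecidableEq n] {Λ : Matrix n n A}
    (hΛ : IsUnit Λ.det) {I : Ideal A} {x : n → A} (h : ∀ j, Λ.mulVec x j ∈ I) (i : n) :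
    x i ∈ I := by
  have hx : x = Λ⁻¹.mulVec (Λ.mulVec x) := by
    rw [Matrix.mulVec_mulVec, Matrix.nonsing_inv_mul _ hΛ, Matrix.one_mulVec]
  rw [hx]
  simp only [Matrix.mulVec, dotProduct]
  exact I.sum_mem fun l _ => I.mul_mem_left _ (h l)

end Basic

section Unique

variable {A : Type*} [CommRing A] [IsLocalRing A]

lemma rigid_isUnit_one_add_of_mem_maximalIdeal {y : A} (h : y ∈ maximalIdeal A) : IsUnit (1 + y) := by
  by_contra hu
  have h1 : (1 + y) ∈ maximalIdeal A := (IsLocalRing.mem_maximalIdeal _).2 hu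
  have h2 : (1 : A) ∈ maximalIdeal A := by
    have := (maximalIdeal A).sub_mem h1 h
    simp at this
  exact (IsLocalRing.mem_maximalIdeal _).1 h2 isUnit_one

lemma isUnit_one_add_rigidEmb_det {x : Fin 3 → A} (hx : ∀ i, x i ∈ maximalIdeal A) :
    IsUnit (1 + rigidEmb x).det := by
  rw [one_add_rigidEmb_det]
  have h : x 0 - x 1 * x 2 ∈ maximalIdeal A :=
    (maximalIdeal A).sub_mem (hx 0) ((maximalIdeal A).mul_mem_left _ (hx 2))
  have := rigid_isUnit_one_add_of_mem_maximalIdeal h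
  rwa [show (1 : A) + x 0 - x 1 * x 2 = 1 + (x 0 - x 1 * x 2) by ring]

/-- Core of (N2): a conjugating matrix of the form `1 + X(x)`, `x ∈ 𝔪³`, between two families
with the same normalised entries is the identity. -/
theorem rigid_unique_core (Y Y' : Fin 3 → Matrix (Fin 2) (Fin 2) A) (a b : Fin 3 → Fin 2)
    (hjac : IsUnit (rigidJac Y a b).det) (x : Fin 3 → A) (hx : ∀ i, x i ∈ maximalIdeal A)
    (hconj : ∀ j, (1 + rigidEmb x) * Y j = Y' j * (1 + rigidEmb x))
    (hnorm : ∀ j, Y' j (a j) (b j) = Y j (a j) (b j)) : x = 0 := by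
  set I : Ideal A := Ideal.span (Set.range x) with hI
  have hxI : ∀ i, x i ∈ I := fun i => Ideal.subset_span ⟨i, rfl⟩
  have hIm : I ≤ maximalIdeal A := by
    rw [hI, Ideal.span_le]
    rintro _ ⟨i, rfl⟩
    exact hx i
  have hu := isUnit_one_add_rigidEmb_det hx
  -- the difference `D j = Y' j - Y j` has entries in `I`
  have hD : ∀ j, (Y' j - Y j) * (1 + rigidEmb x) = rigidComm x (Y j) := by
    intro j
    rw [sub_mul, ← hconj j, rigidComm]
    noncomm_ring
  have hDI : ∀ j, MatMem I (Y' j - Y j) := by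
    intro j
    have h1 : Y' j - Y j = rigidComm x (Y j) * (1 + rigidEmb x)⁻¹ := by
      rw [← hD j, Matrix.mul_assoc, Matrix.mul_nonsing_inv _ hu, Matrix.mul_one]
    rw [h1]
    exact (matMem_rigidComm hxI _).mul_right _
  have hII : ∀ j, (rigidJac Y a b).mulVec x j ∈ I * I := by
    intro j
    rw [rigidJac_mulVec, ← hD j, Matrix.mul_add, Matrix.mul_one, Matrix.add_apply,
      Matrix.sub_apply, hnorm j, sub_self, zero_add]
    exact (hDI j).mul (matMem_rigidEmb hxI) _ _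
  have hle : I ≤ I * I := by
    rw [hI, Ideal.span_le]
    rintro _ ⟨i, rfl⟩
    exact rigid_mem_of_mulVec_mem hjac hII i
  have hbot : I = ⊥ := by
    have := Submodule.eq_bot_of_le_smul_of_le_jacobson_bot I I
      (by rw [hI]; exact Submodule.fg_span (Set.finite_range x)) (by simpa using hle)
      (by rw [IsLocalRing.jacobson_eq_maximalIdeal ⊥ bot_ne_top]; exact hIm)
    exact this
  funext i
  have := hxI i
  rw [hbot] at this
  simpa using this

/-- (N2) Uniqueness: an invertible matrix conjugating the family `Y` into a family `Y'` which is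
congruent to `Y` modulo `𝔪` and has the same normalised entries is a scalar matrix. -/
theorem rigid_unique (Y Y' : Fin 3 → Matrix (Fin 2) (Fin 2) A) (a b : Fin 3 → Fin 2)
    (hjac : IsUnit (rigidJac Y a b).det) (δ : Matrix (Fin 2) (Fin 2) A) (hδ : IsUnit δ.det)
    (hconj : ∀ j, δ * Y j = Y' j * δ)
    (hcong : ∀ j, MatMem (maximalIdeal A) (Y' j - Y j))
    (hnorm : ∀ j, Y' j (a j) (b j) = Y j (a j) (b j)) :
    δ 0 1 = 0 ∧ δ 1 0 = 0 ∧ δ 0 0 = δ 1 1 := by
  set s : A := δ 1 1 with hs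
  set y : Fin 3 → A := ![δ 0 0 - δ 1 1, δ 0 1, δ 1 0] with hy
  have hδy : δ = s • (1 : Matrix (Fin 2) (Fin 2) A) + rigidEmb y := by
    ext i j
    fin_cases i <;> fin_cases j <;> simp [rigidEmb, hy, hs]
  have hcomm : ∀ Z : Matrix (Fin 2) (Fin 2) A, rigidComm y Z = δ * Z - Z * δ := by
    intro Z
    have h1 : rigidEmb y = δ - s • (1 : Matrix (Fin 2) (Fin 2) A) := by
      rw [eq_sub_iff_add_eq, add_comm]; exact hδy.symm
    rw [rigidComm, h1, sub_mul, mul_sub, smul_mul_assoc, mul_smul_comm, Matrix.one_mul,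
      Matrix.mul_one]
    abel
  have hym : ∀ i, y i ∈ maximalIdeal A := by
    apply rigid_mem_of_mulVec_mem hjac
    intro j
    rw [rigidJac_mulVec, hcomm, hconj j, ← sub_mul]
    exact (hcong j).mul_right δ _ _
  have hsu : IsUnit s := by
    by_contra hns
    have hsm : s ∈ maximalIdeal A := (IsLocalRing.mem_maximalIdeal _).2 hns
    have hdet : δ.det ∈ maximalIdeal A := by
      rw [Matrix.det_fin_two]
      have h01 : δ 0 1 ∈ maximalIdeal A := by simpa [hy] using hym 1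
      exact (maximalIdeal A).sub_mem ((maximalIdeal A).mul_mem_left _ hsm)
        ((maximalIdeal A).mul_mem_right _ h01)
    exact (IsLocalRing.mem_maximalIdeal _).1 hdet hδ
  obtain ⟨u, hu⟩ := hsu
  set x : Fin 3 → A := fun i => (↑u⁻¹ : A) * y i with hx
  have hxm : ∀ i, x i ∈ maximalIdeal A := fun i => (maximalIdeal A).mul_mem_left _ (hym i)
  have hx1 : (1 : Matrix (Fin 2) (Fin 2) A) + rigidEmb x = (↑u⁻¹ : A) • δ := by
    rw [hδy, smul_add, smul_smul, ← hu, Units.inv_mul, one_smul]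
    congr 1
    ext i j
    fin_cases i <;> fin_cases j <;> simp [rigidEmb, hx]
  have hx0 : x = 0 := by
    apply rigid_unique_core Y Y' a b hjac x hxm _ hnorm
    intro j
    rw [hx1, smul_mul_assoc, mul_smul_comm, hconj j]
  have hy0 : ∀ i, y i = 0 := by
    intro i
    have h := congrFun hx0 i
    simp only [hx, Pi.zero_apply] at h
    have h2 : (u : A) * ((↑u⁻¹ : A) * y i) = 0 := by rw [h, mul_zero]
    rwa [← mul_assoc, Units.mul_inv, one_mul] at h2
  refine ⟨?_, ?_, ?_⟩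
  · simpa [hy] using hy0 1
  · simpa [hy] using hy0 2
  · have := hy0 0
    simp only [hy, Matrix.cons_val_zero] at this
    exact sub_eq_zero.1 this

/-- Consequence of (N2): the conjugating matrix commutes with everything, so any two matrices
intertwined by it are equal. -/
theorem rigid_unique_eq (Y Y' : Fin 3 → Matrix (Fin 2) (Fin 2) A) (a b : Fin 3 → Fin 2)
    (hjac : IsUnit (rigidJac Y a b).det) (δ : Matrix (Fin 2) (Fin 2) A) (hδ : IsUnit δ.det)
    (hconj : ∀ j, δ * Y j = Y' j * δ)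
    (hcong : ∀ j, MatMem (maximalIdeal A) (Y' j - Y j))
    (hnorm : ∀ j, Y' j (a j) (b j) = Y j (a j) (b j))
    (Z Z' : Matrix (Fin 2) (Fin 2) A) (hZ : δ * Z = Z' * δ) : Z' = Z := by
  obtain ⟨h01, h10, h00⟩ := rigid_unique Y Y' a b hjac δ hδ hconj hcong hnorm
  have hδs : δ = (δ 1 1) • (1 : Matrix (Fin 2) (Fin 2) A) := by
    ext i j
    fin_cases i <;> fin_cases j <;> simp [h01, h10, h00]
  have hu : IsUnit (δ 1 1) := by
    have : δ.det = δ 1 1 * δ 1 1 := by rw [Matrix.det_fin_two, h01, h00]; ring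
    rw [this] at hδ
    exact isUnit_of_mul_isUnit_left hδ
  obtain ⟨u, hu⟩ := hu
  rw [hδs, smul_mul_assoc, mul_smul_comm, Matrix.one_mul, Matrix.mul_one, ← hu] at hZ
  have := congrArg (fun M => (↑u⁻¹ : A) • M) hZ
  simpa [smul_smul] using this.symm

end Unique

section Exists

variable {A : Type*} [CommRing A] [IsLocalRing A]

lemma MatMem.congr_mul {I : Ideal A} {M M' N N' : Matrix (Fin 2) (Fin 2) A}
    (hM : MatMem I (M - M')) (hN : MatMem I (N - N')) : MatMem I (M * N - M' * N') := by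
  have : M * N - M' * N' = (M - M') * N + M' * (N - N') := by noncomm_ring
  rw [this]
  exact (hM.mul_right N).add (hN.mul_left M')

lemma rigidEmb_map {B : Type*} [CommRing B] (f : A →+* B) (x : Fin 3 → A) :
    (rigidEmb x).map f = rigidEmb (fun i => f (x i)) := by
  ext i j
  fin_cases i <;> fin_cases j <;> simp [rigidEmb]

lemma rigidComm_map {B : Type*} [CommRing B] (f : A →+* B) (x : Fin 3 → A)
    (Z : Matrix (Fin 2) (Fin 2) A) :
    (rigidComm x Z).map f = rigidComm (fun i => f (x i)) (Z.map f) := by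
  rw [rigidComm, rigidComm, Matrix.map_sub (f := f) (by intro a b; exact map_sub f a b), Matrix.map_mul,
    Matrix.map_mul, rigidEmb_map]

/-- The Jacobian is compatible with ring homomorphisms. -/
lemma rigidJac_map {B : Type*} [CommRing B] (f : A →+* B)
    (Y : Fin 3 → Matrix (Fin 2) (Fin 2) A) (a b : Fin 3 → Fin 2) :
    (rigidJac Y a b).map f = rigidJac (fun j => (Y j).map f) a b := by
  ext j i
  have h1 : (fun l => f ((Pi.single i 1 : Fin 3 → A) l)) = (Pi.single i 1 : Fin 3 → B) := by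
    funext l
    by_cases hl : l = i
    · subst hl; simp
    · simp [hl]
  have h2 := congrFun (congrFun (rigidComm_map f (Pi.single i 1) (Y j)) (a j)) (b j)
  rw [h1] at h2
  simpa [rigidJac] using h2

lemma map_residue_eq_of_matMem {M N : Matrix (Fin 2) (Fin 2) A}
    (h : MatMem (maximalIdeal A) (M - N)) : M.map (residue A) = N.map (residue A) := by
  ext i j
  have := h i j
  rw [Matrix.sub_apply, ← residue_eq_zero_iff, map_sub, sub_eq_zero] at this
  simpa using this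

/-- Invertibility of the Jacobian only depends on the family modulo `𝔪`. -/
lemma isUnit_rigidJac_det_of_matMem {Y Y' : Fin 3 → Matrix (Fin 2) (Fin 2) A}
    (a b : Fin 3 → Fin 2) (h : ∀ j, MatMem (maximalIdeal A) (Y' j - Y j))
    (hjac : IsUnit (rigidJac Y a b).det) : IsUnit (rigidJac Y' a b).det := by
  have h1 : (rigidJac Y' a b).map (residue A) = (rigidJac Y a b).map (residue A) := by
    rw [rigidJac_map, rigidJac_map]
    congr 1
    funext j
    exact map_residue_eq_of_matMem (h j)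
  have h2 : residue A (rigidJac Y' a b).det = residue A (rigidJac Y a b).det := by
    rw [RingHom.map_det, RingHom.map_det, RingHom.mapMatrix_apply, RingHom.mapMatrix_apply, h1]
  by_contra hn
  have h3 : (rigidJac Y' a b).det ∈ maximalIdeal A := (IsLocalRing.mem_maximalIdeal _).2 hn
  rw [← residue_eq_zero_iff, h2, residue_eq_zero_iff] at h3
  exact (IsLocalRing.mem_maximalIdeal _).1 h3 hjac

/-- One Newton step: if the normalisation error lies in `I ≤ 𝔪`, a conjugation by `1 + X(x)`,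
`x ∈ I³`, makes the error lie in `I * I`. -/
lemma rigid_newton_step (Y : Fin 3 → Matrix (Fin 2) (Fin 2) A) (a b : Fin 3 → Fin 2)
    (t : Fin 3 → A) (hjac : IsUnit (rigidJac Y a b).det) (I : Ideal A)
    (hI : I ≤ maximalIdeal A) (hc : ∀ j, Y j (a j) (b j) - t j ∈ I) :
    ∃ x : Fin 3 → A, (∀ i, x i ∈ I) ∧
      ∀ j, ((1 + rigidEmb x) * Y j * (1 + rigidEmb x)⁻¹) (a j) (b j) - t j ∈ I * I := by
  set c : Fin 3 → A := fun j => Y j (a j) (b j) - t j with hcdef
  set x : Fin 3 → A := -((rigidJac Y a b)⁻¹.mulVec c) with hxdef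
  have hJx : (rigidJac Y a b).mulVec x = -c := by
    rw [hxdef, Matrix.mulVec_neg, Matrix.mulVec_mulVec, Matrix.mul_nonsing_inv _ hjac,
      Matrix.one_mulVec]
  have hxI : ∀ i, x i ∈ I := by
    intro i
    rw [hxdef]
    simp only [Pi.neg_apply, Matrix.mulVec, dotProduct]
    exact I.neg_mem (I.sum_mem fun l _ => I.mul_mem_left _ (hc l))
  refine ⟨x, hxI, fun j => ?_⟩
  have hu := isUnit_one_add_rigidEmb_det (fun i => hI (hxI i))
  set γ : Matrix (Fin 2) (Fin 2) A := 1 + rigidEmb x with hγ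
  set D : Matrix (Fin 2) (Fin 2) A := γ * Y j * γ⁻¹ - Y j with hD
  have hDγ : D * γ = rigidComm x (Y j) := by
    rw [hD, sub_mul, Matrix.mul_assoc, Matrix.nonsing_inv_mul _ hu, Matrix.mul_one, hγ, rigidComm]
    noncomm_ring
  have hDI : MatMem I D := by
    have : D = rigidComm x (Y j) * γ⁻¹ := by
      rw [← hDγ, Matrix.mul_assoc, Matrix.mul_nonsing_inv _ hu, Matrix.mul_one]
    rw [this]
    exact (matMem_rigidComm hxI _).mul_right _
  have hD2 : D = rigidComm x (Y j) - D * rigidEmb x := by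
    rw [← hDγ, hγ, Matrix.mul_add, Matrix.mul_one]
    abel
  have hJ := congrFun hJx j
  rw [rigidJac_mulVec] at hJ
  have hval : (γ * Y j * γ⁻¹) (a j) (b j) - t j = -((D * rigidEmb x) (a j) (b j)) := by
    have h1 : γ * Y j * γ⁻¹ = Y j + D := by rw [hD]; abel
    rw [h1, Matrix.add_apply]
    have h2 : D (a j) (b j) = rigidComm x (Y j) (a j) (b j) - (D * rigidEmb x) (a j) (b j) := by
      conv_lhs => rw [hD2]
      rfl
    rw [h2, hJ]
    simp only [hcdef, Pi.neg_apply]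
    ring
  rw [hval]
  exact (I * I).neg_mem ((hDI.mul (matMem_rigidEmb hxI)) _ _)

/-- State of the Newton iteration after `n` steps. -/
structure RigidNewtonState (Y : Fin 3 → Matrix (Fin 2) (Fin 2) A) (a b : Fin 3 → Fin 2)
    (t : Fin 3 → A) (n : ℕ) where
  /-- the conjugating matrix -/
  γ : Matrix (Fin 2) (Fin 2) A
  /-- its inverse -/
  γ' : Matrix (Fin 2) (Fin 2) A
  mul : γ * γ' = 1
  mul' : γ' * γ = 1
  cong : MatMem (maximalIdeal A) (γ - 1)
  cong' : MatMem (maximalIdeal A) (γ' - 1)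
  err : ∀ j, (γ * Y j * γ') (a j) (b j) - t j ∈ maximalIdeal A ^ (n + 1)

lemma rigid_newton_next (Y : Fin 3 → Matrix (Fin 2) (Fin 2) A) (a b : Fin 3 → Fin 2)
    (t : Fin 3 → A) (hjac : IsUnit (rigidJac Y a b).det) (n : ℕ)
    (s : RigidNewtonState Y a b t n) :
    ∃ s' : RigidNewtonState Y a b t (n + 1),
      MatMem (maximalIdeal A ^ (n + 1)) (s'.γ - s.γ) ∧
      MatMem (maximalIdeal A ^ (n + 1)) (s'.γ' - s.γ') := by
  set I : Ideal A := maximalIdeal A ^ (n + 1) with hI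
  have hIm : I ≤ maximalIdeal A := Ideal.pow_le_self (Nat.succ_ne_zero n)
  set Ys : Fin 3 → Matrix (Fin 2) (Fin 2) A := fun j => s.γ * Y j * s.γ' with hYs
  have hYsY : ∀ j, MatMem (maximalIdeal A) (Ys j - Y j) := by
    intro j
    have h1 : MatMem (maximalIdeal A) (s.γ * Y j - 1 * Y j) :=
      MatMem.congr_mul s.cong (by simpa using MatMem.zero _)
    have h2 := MatMem.congr_mul h1 s.cong'
    simpa [hYs] using h2
  have hjac' : IsUnit (rigidJac Ys a b).det := isUnit_rigidJac_det_of_matMem a b hYsY hjac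
  obtain ⟨x, hxI, hx⟩ := rigid_newton_step Ys a b t hjac' I hIm s.err
  have hu := isUnit_one_add_rigidEmb_det (fun i => hIm (hxI i))
  set X : Matrix (Fin 2) (Fin 2) A := rigidEmb x with hX
  have hXI : MatMem I X := matMem_rigidEmb hxI
  have hinv : MatMem I ((1 + X)⁻¹ - 1) := by
    have : (1 + X)⁻¹ - 1 = -(X * (1 + X)⁻¹) := by
      have h1 : (1 + X) * (1 + X)⁻¹ = 1 := Matrix.mul_nonsing_inv _ hu
      rw [Matrix.add_mul, Matrix.one_mul] at h1
      apply eq_neg_of_add_eq_zero_left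
      rw [sub_add_eq_add_sub, h1, sub_self]
    rw [this]
    exact (hXI.mul_right _).neg
  refine ⟨⟨(1 + X) * s.γ, s.γ' * (1 + X)⁻¹, ?_, ?_, ?_, ?_, ?_⟩, ?_, ?_⟩
  · rw [Matrix.mul_assoc, ← Matrix.mul_assoc s.γ, s.mul, Matrix.one_mul,
      Matrix.mul_nonsing_inv _ hu]
  · rw [Matrix.mul_assoc, ← Matrix.mul_assoc _ (1 + X), Matrix.nonsing_inv_mul _ hu,
      Matrix.one_mul, s.mul']
  · have : (1 + X) * s.γ - 1 = (s.γ - 1) + X * s.γ := by noncomm_ring
    rw [this]
    exact s.cong.add ((hXI.mono hIm).mul_right _)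
  · have : s.γ' * (1 + X)⁻¹ - 1 = (s.γ' - 1) * (1 + X)⁻¹ + ((1 + X)⁻¹ - 1) := by noncomm_ring
    rw [this]
    exact (s.cong'.mul_right _).add (hinv.mono hIm)
  · intro j
    have h1 : (1 + X) * s.γ * Y j * (s.γ' * (1 + X)⁻¹) = (1 + X) * Ys j * (1 + X)⁻¹ := by
      simp only [hYs, Matrix.mul_assoc]
    rw [h1]
    have h2 : I * I ≤ maximalIdeal A ^ (n + 1 + 1) := by
      rw [hI, ← pow_add]
      exact Ideal.pow_le_pow_right (by omega)
    exact h2 (hx j)
  · have : (1 + X) * s.γ - s.γ = X * s.γ := by noncomm_ring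
    change MatMem I ((1 + X) * s.γ - s.γ)
    rw [this]
    exact hXI.mul_right _
  · have : s.γ' * (1 + X)⁻¹ - s.γ' = s.γ' * ((1 + X)⁻¹ - 1) := by noncomm_ring
    change MatMem I (s.γ' * (1 + X)⁻¹ - s.γ')
    rw [this]
    exact hinv.mul_left _

/-- The initial state of the Newton iteration. -/
def rigidNewtonInit (Y : Fin 3 → Matrix (Fin 2) (Fin 2) A) (a b : Fin 3 → Fin 2)
    (t : Fin 3 → A) (ht : ∀ j, Y j (a j) (b j) - t j ∈ maximalIdeal A) :
    RigidNewtonState Y a b t 0 where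
  γ := 1
  γ' := 1
  mul := Matrix.one_mul 1
  mul' := Matrix.one_mul 1
  cong := by simpa using MatMem.zero _
  cong' := by simpa using MatMem.zero _
  err := fun j => by simpa using ht j

/-- The Newton sequence. -/
noncomputable def rigidNewtonSeq (Y : Fin 3 → Matrix (Fin 2) (Fin 2) A) (a b : Fin 3 → Fin 2)
    (t : Fin 3 → A) (hjac : IsUnit (rigidJac Y a b).det)
    (ht : ∀ j, Y j (a j) (b j) - t j ∈ maximalIdeal A) : (n : ℕ) → RigidNewtonState Y a b t n
  | 0 => rigidNewtonInit Y a b t ht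
  | n + 1 => Classical.choose (rigid_newton_next Y a b t hjac n (rigidNewtonSeq Y a b t hjac ht n))

lemma rigidNewtonSeq_succ (Y : Fin 3 → Matrix (Fin 2) (Fin 2) A) (a b : Fin 3 → Fin 2)
    (t : Fin 3 → A) (hjac : IsUnit (rigidJac Y a b).det)
    (ht : ∀ j, Y j (a j) (b j) - t j ∈ maximalIdeal A) (n : ℕ) :
    MatMem (maximalIdeal A ^ (n + 1))
        ((rigidNewtonSeq Y a b t hjac ht (n + 1)).γ - (rigidNewtonSeq Y a b t hjac ht n).γ) ∧
      MatMem (maximalIdeal A ^ (n + 1))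
        ((rigidNewtonSeq Y a b t hjac ht (n + 1)).γ' - (rigidNewtonSeq Y a b t hjac ht n).γ') :=
  Classical.choose_spec (rigid_newton_next Y a b t hjac n (rigidNewtonSeq Y a b t hjac ht n))

omit [IsLocalRing A] in
/-- A sequence whose consecutive differences lie in `I ^ (n + 1)` converges `I`-adically. -/
lemma rigid_exists_adic_limit (I : Ideal A) [IsPrecomplete I A] (f : ℕ → A)
    (hf : ∀ n, f (n + 1) - f n ∈ I ^ (n + 1)) : ∃ L : A, ∀ n, f n - L ∈ I ^ n := by
  have hmn : ∀ m n, m ≤ n → f n - f m ∈ I ^ m := by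
    intro m n hmn
    induction n, hmn using Nat.le_induction with
    | base => simp
    | succ n hmn ih =>
      have h1 : f (n + 1) - f m = (f (n + 1) - f n) + (f n - f m) := by ring
      rw [h1]
      exact (I ^ m).add_mem (Ideal.pow_le_pow_right (by omega) (hf n)) ih
  obtain ⟨L, hL⟩ := IsPrecomplete.prec' (I := I) f (fun {m n} h => by
    rw [SModEq.sub_mem]
    have := hmn m n h
    have h2 : f m - f n = -(f n - f m) := by ring
    rw [h2]
    simpa using (I ^ m).neg_mem this)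
  refine ⟨L, fun n => ?_⟩
  have := hL n
  rw [SModEq.sub_mem] at this
  simpa using this

omit [IsLocalRing A] in
lemma rigid_eq_zero_of_forall_mem_pow (I : Ideal A) [IsHausdorff I A] (x : A)
    (h : ∀ n, x ∈ I ^ n) : x = 0 := by
  apply IsHausdorff.haus' (I := I) x
  intro n
  rw [SModEq.sub_mem]
  simpa using h n

/-- (N1) Existence: over a complete local ring, a family `Y` with invertible Jacobian whose
distinguished entries are congruent to `t` modulo `𝔪` can be conjugated, by a matrix congruent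
to `1` modulo `𝔪`, to a family whose distinguished entries are equal to `t`. -/
theorem rigid_exists [IsAdicComplete (maximalIdeal A) A]
    (Y : Fin 3 → Matrix (Fin 2) (Fin 2) A) (a b : Fin 3 → Fin 2) (t : Fin 3 → A)
    (hjac : IsUnit (rigidJac Y a b).det) (ht : ∀ j, Y j (a j) (b j) - t j ∈ maximalIdeal A) :
    ∃ γ γ' : Matrix (Fin 2) (Fin 2) A, γ * γ' = 1 ∧ γ' * γ = 1 ∧
      MatMem (maximalIdeal A) (γ - 1) ∧ ∀ j, (γ * Y j * γ') (a j) (b j) = t j := by
  set S := rigidNewtonSeq Y a b t hjac ht with hS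
  have hsucc := rigidNewtonSeq_succ Y a b t hjac ht
  have hlim : ∀ i j, ∃ L : A, ∀ n, (S n).γ i j - L ∈ maximalIdeal A ^ n := fun i j =>
    rigid_exists_adic_limit (maximalIdeal A) (fun n => (S n).γ i j) (fun n => (hsucc n).1 i j)
  have hlim' : ∀ i j, ∃ L : A, ∀ n, (S n).γ' i j - L ∈ maximalIdeal A ^ n := fun i j =>
    rigid_exists_adic_limit (maximalIdeal A) (fun n => (S n).γ' i j) (fun n => (hsucc n).2 i j)
  choose L hL using hlim
  choose L' hL' using hlim'
  set γ : Matrix (Fin 2) (Fin 2) A := Matrix.of L with hγ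
  set γ' : Matrix (Fin 2) (Fin 2) A := Matrix.of L' with hγ'
  have hγn : ∀ n, MatMem (maximalIdeal A ^ n) ((S n).γ - γ) := fun n i j => hL i j n
  have hγn' : ∀ n, MatMem (maximalIdeal A ^ n) ((S n).γ' - γ') := fun n i j => hL' i j n
  have hmul : γ * γ' = 1 := by
    ext i j
    rw [← sub_eq_zero]
    apply rigid_eq_zero_of_forall_mem_pow (maximalIdeal A)
    intro n
    have h1 := MatMem.congr_mul (hγn n) (hγn' n)
    rw [(S n).mul] at h1
    have h2 := (h1 i j)
    have h3 : (γ * γ') i j - (1 : Matrix (Fin 2) (Fin 2) A) i j =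
        -((1 - γ * γ' : Matrix (Fin 2) (Fin 2) A) i j) := by
      simp
    rw [h3]
    exact (maximalIdeal A ^ n).neg_mem h2
  have hmul' : γ' * γ = 1 := by
    ext i j
    rw [← sub_eq_zero]
    apply rigid_eq_zero_of_forall_mem_pow (maximalIdeal A)
    intro n
    have h1 := MatMem.congr_mul (hγn' n) (hγn n)
    rw [(S n).mul'] at h1
    have h2 := (h1 i j)
    have h3 : (γ' * γ) i j - (1 : Matrix (Fin 2) (Fin 2) A) i j =
        -((1 - γ' * γ : Matrix (Fin 2) (Fin 2) A) i j) := by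
      simp
    rw [h3]
    exact (maximalIdeal A ^ n).neg_mem h2
  refine ⟨γ, γ', hmul, hmul', ?_, ?_⟩
  · have h1 : γ - 1 = ((S 1).γ - 1) - ((S 1).γ - γ) := by abel
    rw [h1]
    exact (S 1).cong.sub (by simpa using hγn 1)
  · intro j
    rw [← sub_eq_zero]
    apply rigid_eq_zero_of_forall_mem_pow (maximalIdeal A)
    intro n
    have h1 : MatMem (maximalIdeal A ^ n) ((S n).γ * Y j - γ * Y j) :=
      MatMem.congr_mul (hγn n) (by simpa using MatMem.zero _)
    have h2 := MatMem.congr_mul h1 (hγn' n)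
    have h3 := h2 (a j) (b j)
    have h4 := Ideal.pow_le_pow_right (Nat.le_succ n) ((S n).err j)
    have h5 : (γ * Y j * γ') (a j) (b j) - t j =
        ((S n).γ * Y j * (S n).γ') (a j) (b j) - t j -
          ((S n).γ * Y j * (S n).γ' - γ * Y j * γ') (a j) (b j) := by
      simp
    rw [h5]
    exact (maximalIdeal A ^ n).sub_mem h4 h3

end Exists

end Fermat.Agent.S53
end MergeWrap_S53_RigidCore

section MergeWrap_S53_Rigid -- from S53/Rigid.lean

/-!
# S53 chunk B (owner: helper32): rigidification of lifts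

* `IsLift.conj` : conjugating a lift by `h ≡ 1` mod `𝔪` gives a lift.
* `exists_conj_isNormalized` (N1): over a complete Noetherian local ring every lift is conjugate,
  by some `h ≡ 1` mod `𝔪`, to a normalised lift (Newton iteration, `RigidCore.rigid_exists`).
* `eq_of_conj_of_isNormalized` (N2): two normalised lifts that are
  conjugate under `GL₂(A)` are equal (Nakayama, `RigidCore.rigid_unique_eq`).

Only the field `comm_entry` of `NormData` is used.
-/

namespace Fermat.Agent.S53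

open IsLocalRing Matrix

variable {𝒪 : Type} [CommRing 𝒪] [IsLocalRing 𝒪]

section Aux

variable {A : Type*} [CommRing A]

/-- The commutator with an arbitrary matrix `δ` is the commutator with its `rigidEmb` part. -/
lemma rigidComm_of_matrix (δ Z : Matrix (Fin 2) (Fin 2) A) :
    rigidComm ![δ 0 0 - δ 1 1, δ 0 1, δ 1 0] Z = δ * Z - Z * δ := by
  have h1 : rigidEmb ![δ 0 0 - δ 1 1, δ 0 1, δ 1 0] =
      δ - (δ 1 1) • (1 : Matrix (Fin 2) (Fin 2) A) := by
    ext i j
    fin_cases i <;> fin_cases j <;> simp [rigidEmb]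
  rw [rigidComm, h1, sub_mul, mul_sub, smul_mul_assoc, mul_smul_comm, Matrix.one_mul,
    Matrix.mul_one]
  abel

/-- A square matrix congruent to `1` modulo the maximal ideal has unit determinant. -/
lemma rigid_isUnit_det_of_cong_one {n : Type*} [Fintype n] [DecidableEq n] [IsLocalRing A]
    (M : Matrix n n A)
    (h : ∀ j l, M j l - (if j = l then 1 else 0) ∈ maximalIdeal A) : IsUnit M.det := by
  have h1 : (residue A).mapMatrix M = 1 := by
    ext j l
    have := h j l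
    rw [← residue_eq_zero_iff, map_sub, sub_eq_zero] at this
    rw [RingHom.mapMatrix_apply, Matrix.map_apply, this, Matrix.one_apply]
    split_ifs <;> simp
  have h2 : residue A M.det = 1 := by
    rw [RingHom.map_det, h1, Matrix.det_one]
  by_contra hn
  have h3 : M.det ∈ maximalIdeal A := (IsLocalRing.mem_maximalIdeal _).2 hn
  rw [← residue_eq_zero_iff, h2] at h3
  exact one_ne_zero h3

end Aux

section Bridge

variable {A : Type} [CommRing A] [IsLocalRing A] [Algebra 𝒪 A]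

/-- The three distinguished matrices of a point. -/
def rigidY (nd : NormData 𝒪) (x : Entry → A) : Fin 3 → Matrix (Fin 2) (Fin 2) A :=
  fun j => mat x (nd.ω j).1

/-- Row indices of the distinguished entries. -/
def rigidA (nd : NormData 𝒪) : Fin 3 → Fin 2 := fun j => (nd.ω j).2.1

/-- Column indices of the distinguished entries. -/
def rigidB (nd : NormData 𝒪) : Fin 3 → Fin 2 := fun j => (nd.ω j).2.2

lemma rigidY_apply (nd : NormData 𝒪) (x : Entry → A) (j : Fin 3) :
    rigidY nd x j (rigidA nd j) (rigidB nd j) = x (nd.ω j) := rfl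

/-- The Jacobian of a lift is invertible (this uses only `NormData.comm_entry`). -/
lemma isUnit_rigidJac_det [IsLocalHom (algebraMap 𝒪 A)] (nd : NormData 𝒪) {x : Entry → A}
    (hres : ∀ ω, x ω - algebraMap 𝒪 A (nd.c ω) ∈ maximalIdeal A) :
    IsUnit (rigidJac (rigidY nd x) (rigidA nd) (rigidB nd)).det := by
  set f := algebraMap 𝒪 A with hf
  set E' : Fin 3 → Matrix (Fin 2) (Fin 2) A := fun l => (nd.E l).map f with hE'
  set ε : Fin 3 → Fin 3 → A := fun l => ![E' l 0 0 - E' l 1 1, E' l 0 1, E' l 1 0] with hε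
  set Eps : Matrix (Fin 3) (Fin 3) A := fun i l => ε l i with hEps
  have hfm : ∀ z ∈ maximalIdeal 𝒪, f z ∈ maximalIdeal A := by
    intro z hz
    rw [IsLocalRing.mem_maximalIdeal, mem_nonunits_iff] at hz ⊢
    exact fun h => hz (isUnit_of_map_unit f z h)
  -- the constant family
  set C : Fin 3 → Matrix (Fin 2) (Fin 2) A := fun j => (mat nd.c (nd.ω j).1).map f with hC
  have hYC : ∀ j, MatMem (maximalIdeal A) (rigidY nd x j - C j) := by
    intro j i i'
    simpa [rigidY, hC] using hres ((nd.ω j).1, i, i')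
  have hcomm : ∀ l j, (E' l * C j - C j * E' l) (rigidA nd j) (rigidB nd j) -
      (if l = j then 1 else 0) ∈ maximalIdeal A := by
    intro l j
    have h1 := hfm _ (nd.comm_entry l j)
    have h2 : f ((nd.E l * mat nd.c (nd.ω j).1 - mat nd.c (nd.ω j).1 * nd.E l) (nd.ω j).2.1
        (nd.ω j).2.2 - (if l = j then 1 else 0)) =
        (E' l * C j - C j * E' l) (rigidA nd j) (rigidB nd j) - (if l = j then 1 else 0) := by
      rw [map_sub]
      congr 1
      · have := congrFun (congrFun (Matrix.map_sub (f := f) (by intro a b; exact map_sub f a b)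
          (nd.E l * mat nd.c (nd.ω j).1) (mat nd.c (nd.ω j).1 * nd.E l)) (nd.ω j).2.1)
          (nd.ω j).2.2
        rw [Matrix.map_apply, Matrix.map_mul, Matrix.map_mul] at this
        exact this
      · split_ifs <;> simp
    rwa [h2] at h1
  have hcomm' : ∀ l j, (E' l * rigidY nd x j - rigidY nd x j * E' l) (rigidA nd j)
      (rigidB nd j) - (if l = j then 1 else 0) ∈ maximalIdeal A := by
    intro l j
    have h1 : MatMem (maximalIdeal A)
        ((E' l * rigidY nd x j - rigidY nd x j * E' l) - (E' l * C j - C j * E' l)) := by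
      have : (E' l * rigidY nd x j - rigidY nd x j * E' l) - (E' l * C j - C j * E' l) =
          E' l * (rigidY nd x j - C j) - (rigidY nd x j - C j) * E' l := by noncomm_ring
      rw [this]
      exact ((hYC j).mul_left _).sub ((hYC j).mul_right _)
    have h2 := (maximalIdeal A).add_mem (h1 (rigidA nd j) (rigidB nd j)) (hcomm l j)
    simpa using h2
  have hprod : ∀ j l, (rigidJac (rigidY nd x) (rigidA nd) (rigidB nd) * Eps) j l -
      (if j = l then 1 else 0) ∈ maximalIdeal A := by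
    intro j l
    have h1 : (rigidJac (rigidY nd x) (rigidA nd) (rigidB nd) * Eps) j l =
        (rigidJac (rigidY nd x) (rigidA nd) (rigidB nd)).mulVec (ε l) j := by
      rw [Matrix.mul_apply]
      rfl
    rw [h1, rigidJac_mulVec, hε, rigidComm_of_matrix]
    have := hcomm' l j
    simpa [eq_comm] using this
  have hu := rigid_isUnit_det_of_cong_one _ hprod
  rw [Matrix.det_mul] at hu
  exact isUnit_of_mul_isUnit_left hu

end Bridge

section Main

theorem IsLift.conj {nd : NormData 𝒪} {A : Type} [CommRing A] [IsLocalRing A] [Algebra 𝒪 A]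
    {x : Entry → A} (hx : IsLift nd x) (h h' : Matrix (Fin 2) (Fin 2) A)
    (hh : h * h' = 1) (hh' : h' * h = 1) (h1 : ∀ i j, (h - 1) i j ∈ maximalIdeal A) :
    IsLift nd (Fermat.Agent.S53.conj h h' x) := by
  have hmat : ∀ g, mat (Fermat.Agent.S53.conj h h' x) g = h * mat x g * h' := fun g => rfl
  have h1' : MatMem (maximalIdeal A) (h' - 1) := by
    have : h' - 1 = -(h' * (h - 1)) := by
      rw [Matrix.mul_sub, hh', Matrix.mul_one]; abel
    rw [this]
    exact ((show MatMem (maximalIdeal A) (h - 1) from h1).mul_left _).neg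
  refine ⟨?_, ?_, ?_, ?_⟩
  · rw [hmat, hx.one, Matrix.mul_one, hh]
  · intro g g'
    rw [hmat, hmat, hmat, hx.mul]
    calc h * (mat x g * mat x g') * h' = h * mat x g * 1 * mat x g' * h' := by noncomm_ring
      _ = h * mat x g * (h' * h) * mat x g' * h' := by rw [hh']
      _ = h * mat x g * h' * (h * mat x g' * h') := by noncomm_ring
  · intro ω
    have h2 : MatMem (maximalIdeal A) (h * mat x ω.1 - 1 * mat x ω.1) :=
      MatMem.congr_mul h1 (by simpa using MatMem.zero _)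
    have h3 := MatMem.congr_mul h2 h1'
    have h4 := h3 ω.2.1 ω.2.2
    simp only [Matrix.one_mul, Matrix.mul_one, Matrix.sub_apply] at h4
    have h5 := (maximalIdeal A).add_mem h4 (hx.res ω)
    have h6 : Fermat.Agent.S53.conj h h' x ω = (h * mat x ω.1 * h') ω.2.1 ω.2.2 := rfl
    rw [h6]
    have h7 : mat x ω.1 ω.2.1 ω.2.2 = x ω := rfl
    rw [h7] at h5
    simpa using h5
  · intro n
    obtain ⟨L, hL, hLσ⟩ := hx.cont n
    refine ⟨L, hL, fun σ hσ => ?_⟩
    have h2 : MatMem (maximalIdeal A ^ n) (mat x σ - 1) := hLσ σ hσ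
    have h3 : h * mat x σ * h' - 1 = h * (mat x σ - 1) * h' := by
      rw [Matrix.mul_sub, Matrix.sub_mul, Matrix.mul_one, hh]
    rw [hmat, h3]
    exact (h2.mul_left _).mul_right _

/-- (N1) existence of a normalised conjugate. -/
theorem exists_conj_isNormalized (nd : NormData 𝒪) {A : Type} [CommRing A] [IsLocalRing A]
    [IsNoetherianRing A] [IsAdicComplete (maximalIdeal A) A] [Algebra 𝒪 A]
    [IsLocalHom (algebraMap 𝒪 A)] {x : Entry → A} (hx : IsLift nd x) :
    ∃ h h' : Matrix (Fin 2) (Fin 2) A, h * h' = 1 ∧ h' * h = 1 ∧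
      (∀ i j, (h - 1) i j ∈ maximalIdeal A) ∧
      IsNormalized nd (Fermat.Agent.S53.conj h h' x) := by
  obtain ⟨γ, γ', h1, h2, h3, h4⟩ := rigid_exists (rigidY nd x) (rigidA nd) (rigidB nd)
    (fun j => algebraMap 𝒪 A (nd.c (nd.ω j))) (isUnit_rigidJac_det nd hx.res)
    (fun j => by rw [rigidY_apply]; exact hx.res _)
  exact ⟨γ, γ', h1, h2, h3, fun j => h4 j⟩

/-- (N2) uniqueness of normalised lifts in a conjugacy class. -/
theorem eq_of_conj_of_isNormalized (nd : NormData 𝒪) {A : Type} [CommRing A] [IsLocalRing A]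
    [Algebra 𝒪 A] [IsLocalHom (algebraMap 𝒪 A)] [IsHausdorff (maximalIdeal A) A]
    (hsurj : Function.Surjective (residue A ∘ algebraMap 𝒪 A))
    {x x' : Entry → A} (hx : IsLift nd x) (hx' : IsLift nd x')
    (hn : IsNormalized nd x) (hn' : IsNormalized nd x')
    (h h' : Matrix (Fin 2) (Fin 2) A) (hh : h * h' = 1) (hh' : h' * h = 1)
    (hconj : ∀ g, h * mat x g = mat x' g * h) : x = x' := by
  have hdet : IsUnit h.det := (Matrix.isUnit_iff_isUnit_det h).1 ⟨⟨h, h', hh, hh'⟩, rfl⟩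
  have hcong : ∀ j, MatMem (maximalIdeal A) (rigidY nd x' j - rigidY nd x j) := by
    intro j i i'
    have := (maximalIdeal A).sub_mem (hx'.res ((nd.ω j).1, i, i')) (hx.res ((nd.ω j).1, i, i'))
    simpa [rigidY] using this
  have hnorm : ∀ j, rigidY nd x' j (rigidA nd j) (rigidB nd j) =
      rigidY nd x j (rigidA nd j) (rigidB nd j) := by
    intro j
    rw [rigidY_apply, rigidY_apply, hn j, hn' j]
  have key : ∀ g, mat x' g = mat x g := fun g =>
    rigid_unique_eq (rigidY nd x) (rigidY nd x') (rigidA nd) (rigidB nd)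
      (isUnit_rigidJac_det nd hx.res) h hdet (fun j => hconj _) hcong hnorm _ _ (hconj g)
  funext ω
  have := congrFun (congrFun (key ω.1) ω.2.1) ω.2.2
  exact this.symm

end Main

end Fermat.Agent.S53
end MergeWrap_S53_Rigid

section MergeWrap_S53_MatRep -- from S53/MatRep.lean

/-!
# S53 chunk C (owner: helper45): dictionary between `GaloisRepAdic` and matrix lifts

`b` is a basis of `ρbar.V` and `nd.c` lifts the matrix entries of `ρbar` in this basis (`hc`).
The proofs reduce to the generic API of `MatRepCore.lean` through `IsLift.toAdic_eq_ofMat`.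
-/

set_option autoImplicit false

namespace Fermat.Agent.S53

open IsLocalRing

variable {𝒪 : Type} [CommRing 𝒪] [IsLocalRing 𝒪]

theorem IsLift.matAdicContinuous {nd : NormData 𝒪} {A : Type} [CommRing A] [IsLocalRing A]
    [Algebra 𝒪 A] {x : Entry → A} (hx : IsLift nd x) : MatAdicContinuous hx.toMonoidHom :=
  hx.cont

theorem IsLift.toAdic_eq_ofMat {nd : NormData 𝒪} {A : Type} [CommRing A] [IsLocalRing A]
    [Algebra 𝒪 A] {x : Entry → A} (hx : IsLift nd x) :
    hx.toAdic = ofMat hx.toMonoidHom hx.matAdicContinuous := rfl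

theorem ofMat_congr {A : Type} [CommRing A] [IsLocalRing A]
    {r r' : Gal →* Matrix (Fin 2) (Fin 2) A} (h : r = r')
    (hr : MatAdicContinuous r) (hr' : MatAdicContinuous r') : ofMat r hr = ofMat r' hr' := by
  subst h
  rfl

/-- A local ring homomorphism maps the maximal ideal into the maximal ideal. -/
theorem map_mem_maximalIdeal {A B : Type} [CommRing A] [IsLocalRing A] [CommRing B]
    [IsLocalRing B] (φ : A →+* B) (hφ : IsLocalHom φ) {a : A} (ha : a ∈ maximalIdeal A) :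
    φ a ∈ maximalIdeal B := by
  have := map_maximalIdeal_pow_le φ hφ 1 (a := a) (by rwa [pow_one])
  rwa [pow_one] at this

/-- The image of a lift under a local `𝒪`-algebra homomorphism is a lift. -/
theorem IsLift.map {nd : NormData 𝒪} {A B : Type} [CommRing A] [IsLocalRing A] [Algebra 𝒪 A]
    [CommRing B] [IsLocalRing B] [Algebra 𝒪 B] {x : Entry → A} (hx : IsLift nd x)
    (φ : A →ₐ[𝒪] B) (hφ : IsLocalHom (φ : A →+* B)) : IsLift nd (fun ω => φ (x ω)) := by
  have hmat : ∀ g, mat (fun ω => φ (x ω)) g = (mat x g).map φ := fun g => by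
    ext i j; rfl
  refine ⟨?_, ?_, ?_, ?_⟩
  · rw [hmat, hx.one]
    exact Matrix.map_one φ (map_zero φ) (map_one φ)
  · intro g h
    rw [hmat, hmat, hmat, hx.mul, Matrix.map_mul]
  · intro ω
    have h1 : φ (x ω) - algebraMap 𝒪 B (nd.c ω) = (φ : A →+* B) (x ω - algebraMap 𝒪 A (nd.c ω)) := by
      rw [map_sub]
      simp
    rw [h1]
    exact map_mem_maximalIdeal (φ : A →+* B) hφ (hx.res ω)
  · intro n
    obtain ⟨L, hL, h⟩ := hx.cont n
    refine ⟨L, hL, fun σ hσ i j => ?_⟩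
    have h1 : (mat (fun ω => φ (x ω)) σ - 1) i j = (φ : A →+* B) ((mat x σ - 1) i j) := by
      rw [hmat]
      simp only [Matrix.sub_apply, Matrix.map_apply, Matrix.one_apply, map_sub]
      split_ifs <;> simp
    rw [h1]
    exact map_maximalIdeal_pow_le (φ : A →+* B) hφ n (h σ hσ i j)

/-- (M3) base change of `toAdic` is `toAdic` of the image. -/
theorem toAdic_baseChangeAlong {nd : NormData 𝒪} {A B : Type} [CommRing A] [IsLocalRing A]
    [Algebra 𝒪 A] [CommRing B] [IsLocalRing B] [Algebra 𝒪 B] {x : Entry → A} (hx : IsLift nd x)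
    (φ : A →ₐ[𝒪] B) (hφ : IsLocalHom (φ : A →+* B)) :
    (hx.toAdic.baseChangeAlong (φ : A →+* B) hφ).IsEquiv (hx.map φ hφ).toAdic := by
  have h := ofMat_baseChangeAlong (φ : A →+* B) hφ hx.toMonoidHom hx.matAdicContinuous
  have e : mapMat (φ : A →+* B) hx.toMonoidHom = (hx.map φ hφ).toMonoidHom := by
    ext σ i j
    rfl
  rw [IsLift.toAdic_eq_ofMat, IsLift.toAdic_eq_ofMat,
    ← ofMat_congr e (mapMat_adicContinuous (φ : A →+* B) hφ hx.matAdicContinuous)]
  exact h

/-- (M4) equivalence of `toAdic`s is conjugacy of matrices. -/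
theorem toAdic_isEquiv_iff {nd : NormData 𝒪} {A : Type} [CommRing A] [IsLocalRing A]
    [Algebra 𝒪 A] {x x' : Entry → A} (hx : IsLift nd x) (hx' : IsLift nd x') :
    hx.toAdic.IsEquiv hx'.toAdic ↔
      ∃ h h' : Matrix (Fin 2) (Fin 2) A, h * h' = 1 ∧ h' * h = 1 ∧
        ∀ g, h * mat x g = mat x' g * h := by
  rw [IsLift.toAdic_eq_ofMat, IsLift.toAdic_eq_ofMat]
  exact ofMat_isEquiv_iff hx.toMonoidHom hx'.toMonoidHom _ _

/-- Entrywise comparison used for the residual statements. -/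
theorem residue_eq_of_res {nd : NormData 𝒪}
    (ρbar : ResidualGaloisRep (ResidueField 𝒪)) (b : Module.Basis (Fin 2) (ResidueField 𝒪) ρbar.V)
    (hc : ∀ g i j, residue 𝒪 (nd.c (g, i, j)) = LinearMap.toMatrix b b (ρbar.ρ g) i j)
    {A : Type} [CommRing A] [IsLocalRing A] [Algebra 𝒪 A] [IsLocalHom (algebraMap 𝒪 A)]
    {x : Entry → A} (hres : ∀ ω, x ω - algebraMap 𝒪 A (nd.c ω) ∈ maximalIdeal A)
    (σ : Gal) (i j : Fin 2) :
    residue A (x (σ, i, j)) =
      (IsLocalRing.ResidueField.map (algebraMap 𝒪 A)) (resToMat ρbar b σ i j) := by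
  rw [resToMat_apply, ← hc, IsLocalRing.ResidueField.map_residue]
  have := hres (σ, i, j)
  rw [← IsLocalRing.residue_eq_zero_iff, map_sub, sub_eq_zero] at this
  exact this

/-- (M1) a `GaloisRepAdic` with residual representation `ρbar` comes from a lift. -/
theorem exists_isLift_of_residual_isEquiv (nd : NormData 𝒪)
    (ρbar : ResidualGaloisRep (ResidueField 𝒪)) (b : Module.Basis (Fin 2) (ResidueField 𝒪) ρbar.V)
    (hc : ∀ g i j, residue 𝒪 (nd.c (g, i, j)) = LinearMap.toMatrix b b (ρbar.ρ g) i j)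
    {A : Type} [CommRing A] [IsLocalRing A] [Algebra 𝒪 A] [IsLocalHom (algebraMap 𝒪 A)]
    (hsurj : Function.Surjective (residue A ∘ algebraMap 𝒪 A))
    (ρA : GaloisRepAdic A)
    (hres : ρA.residual.IsEquiv
      (ρbar.baseChangeAlong (IsLocalRing.ResidueField.map (algebraMap 𝒪 A)))) :
    ∃ (x : Entry → A) (hx : IsLift nd x), ρA.IsEquiv hx.toAdic := by
  obtain ⟨bA, hbA⟩ := exists_basis_lifting ρA ρbar
    (IsLocalRing.ResidueField.map (algebraMap 𝒪 A)) b hres
  have hx : IsLift nd (pointOf fun g => toMat ρA bA g) := by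
    refine ⟨?_, ?_, ?_, toMat_adicContinuous ρA bA⟩
    · rw [mat_pointOf, map_one]
    · intro g h
      rw [mat_pointOf, mat_pointOf, mat_pointOf, map_mul]
    · rintro ⟨σ, i, j⟩
      rw [← IsLocalRing.residue_eq_zero_iff, map_sub, sub_eq_zero]
      show residue A (toMat ρA bA σ i j) = _
      rw [hbA σ i j, resToMat_apply, ← hc, IsLocalRing.ResidueField.map_residue]
  refine ⟨_, hx, ?_⟩
  have e : toMat ρA bA = hx.toMonoidHom := by
    ext σ i j
    rfl
  rw [IsLift.toAdic_eq_ofMat, ← ofMat_congr e (toMat_adicContinuous ρA bA)]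
  exact isEquiv_ofMat_toMat ρA bA

/-- (M2) the residual representation of a lift is `ρbar`. -/
theorem toAdic_residual_isEquiv (nd : NormData 𝒪)
    (ρbar : ResidualGaloisRep (ResidueField 𝒪)) (b : Module.Basis (Fin 2) (ResidueField 𝒪) ρbar.V)
    (hc : ∀ g i j, residue 𝒪 (nd.c (g, i, j)) = LinearMap.toMatrix b b (ρbar.ρ g) i j)
    {A : Type} [CommRing A] [IsLocalRing A] [Algebra 𝒪 A] [IsLocalHom (algebraMap 𝒪 A)]
    {x : Entry → A} (hx : IsLift nd x) :
    hx.toAdic.residual.IsEquiv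
      (ρbar.baseChangeAlong (IsLocalRing.ResidueField.map (algebraMap 𝒪 A))) := by
  rw [IsLift.toAdic_eq_ofMat]
  exact ofMat_residual_isEquiv hx.toMonoidHom hx.matAdicContinuous ρbar _ b
    (fun σ i j => residue_eq_of_res ρbar b hc hx.res σ i j)

/-- `ofResidualGaloisRep ρbar` is the `toAdic` of the residual lift. -/
theorem isLift_residue (nd : NormData 𝒪) :
    IsLift nd (A := ResidueField 𝒪) (fun ω => algebraMap 𝒪 (ResidueField 𝒪) (nd.c ω)) := by
  have hmat : ∀ g, mat (fun ω => algebraMap 𝒪 (ResidueField 𝒪) (nd.c ω)) g =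
      (mat nd.c g).map (residue 𝒪) := fun g => by
    ext i j; rfl
  have hzero : ∀ (M : Matrix (Fin 2) (Fin 2) 𝒪), (∀ i j, M i j ∈ maximalIdeal 𝒪) →
      M.map (residue 𝒪) = 0 := fun M hM => by
    ext i j
    rw [Matrix.map_apply, Matrix.zero_apply]
    exact (IsLocalRing.residue_eq_zero_iff _).mpr (hM i j)
  have hone : (1 : Matrix (Fin 2) (Fin 2) 𝒪).map (residue 𝒪) = 1 :=
    Matrix.map_one _ (map_zero _) (map_one _)
  refine ⟨?_, ?_, ?_, ?_⟩
  · rw [hmat]
    have := hzero (mat nd.c 1 - 1) nd.c_one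
    rw [Matrix.map_sub (f := residue 𝒪) (fun a b => map_sub _ a b), hone, sub_eq_zero] at this
    exact this
  · intro g h
    rw [hmat, hmat, hmat]
    have := hzero (mat nd.c (g * h) - mat nd.c g * mat nd.c h) (nd.c_mul g h)
    rw [Matrix.map_sub (f := residue 𝒪) (fun a b => map_sub _ a b), sub_eq_zero,
      Matrix.map_mul] at this
    exact this
  · intro ω
    rw [sub_self]
    exact Submodule.zero_mem _
  · intro n
    obtain ⟨L, hL, h⟩ := nd.c_cont
    refine ⟨L, hL, fun σ hσ i j => ?_⟩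
    have h0 : (mat (fun ω => algebraMap 𝒪 (ResidueField 𝒪) (nd.c ω)) σ - 1) i j = 0 := by
      rw [hmat, ← hone, ← Matrix.map_sub (f := residue 𝒪) (fun a b => map_sub _ a b),
        hzero (mat nd.c σ - 1) (h σ hσ)]
      rfl
    rw [h0]
    exact Submodule.zero_mem _

theorem ofResidualGaloisRep_isEquiv (nd : NormData 𝒪)
    (ρbar : ResidualGaloisRep (ResidueField 𝒪)) (b : Module.Basis (Fin 2) (ResidueField 𝒪) ρbar.V)
    (hc : ∀ g i j, residue 𝒪 (nd.c (g, i, j)) = LinearMap.toMatrix b b (ρbar.ρ g) i j) :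
    (GaloisRepAdic.ofResidualGaloisRep ρbar).IsEquiv (isLift_residue nd).toAdic := by
  let ρ : GaloisRepAdic (ResidueField 𝒪) := GaloisRepAdic.ofResidualGaloisRep ρbar
  let bρ : Module.Basis (Fin 2) (ResidueField 𝒪) ρ.V := b
  have e : toMat ρ bρ = (isLift_residue nd).toMonoidHom := by
    ext σ i j
    show LinearMap.toMatrix b b (ρbar.ρ σ) i j = algebraMap 𝒪 (ResidueField 𝒪) (nd.c (σ, i, j))
    rw [← hc]
    rfl
  rw [IsLift.toAdic_eq_ofMat, ← ofMat_congr e (toMat_adicContinuous ρ bρ)]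
  exact isEquiv_ofMat_toMat ρ bρ

end Fermat.Agent.S53
end MergeWrap_S53_MatRep

section MergeWrap_S53_ProRepML -- from S53/ProRepML.lean

/-!
# S53 chunk D (helper76): an abstract Mittag-Leffler lemma for a decreasing family of ideals
in an adically precomplete ring.
-/

namespace Fermat.Agent.S53

/-- telescoping: if `t (n+1) - t n ∈ J n` and `J` is antitone then `t m - t n ∈ J n` for `n ≤ m`. -/
theorem ML_telescope {S : Type*} [CommRing S] (J : ℕ → Ideal S) (h2 : ∀ n, J (n + 1) ≤ J n)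
    (t : ℕ → S) (ht : ∀ n, t (n + 1) - t n ∈ J n) {n m : ℕ} (hnm : n ≤ m) :
    t m - t n ∈ J n := by
  have hanti : ∀ a b, a ≤ b → J b ≤ J a := by
    intro a b hab
    induction hab with
    | refl => exact le_rfl
    | step _ ih => exact (h2 _).trans ih
  induction hnm with
  | refl => simp
  | @step m hm ih =>
    have : t (m + 1) - t n = (t (m + 1) - t m) + (t m - t n) := by ring
    rw [this]
    exact (J n).add_mem (hanti n m hm (ht m)) ih

/-- Mittag-Leffler: compatible systems modulo a decreasing family of ideals `J n` with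
`𝔞^(n+1) ≤ J n ≤ J (n+1) ⊔ 𝔞^(n+1)` lift to elements of a precomplete ring. -/
theorem ML_exists_limit {S : Type*} [CommRing S] (𝔞 : Ideal S) [IsPrecomplete 𝔞 S]
    (J : ℕ → Ideal S) (h1 : ∀ n, 𝔞 ^ (n + 1) ≤ J n) (h2 : ∀ n, J (n + 1) ≤ J n)
    (h3 : ∀ n, J n ≤ J (n + 1) ⊔ 𝔞 ^ (n + 1))
    (t : ℕ → S) (ht : ∀ n, t (n + 1) - t n ∈ J n) (n₀ : ℕ) :
    ∃ s : S, (∀ n, s - t n ∈ J n) ∧ s - t n₀ ∈ 𝔞 ^ (n₀ + 1) := by
  classical
  have hanti : ∀ a b, a ≤ b → J b ≤ J a := by
    intro a b hab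
    induction hab with
    | refl => exact le_rfl
    | step _ ih => exact (h2 _).trans ih
  -- one step of the construction
  have step : ∀ (k : ℕ) (p : S), p - t (n₀ + k) ∈ J (n₀ + k) →
      ∃ q : S, q - t (n₀ + (k + 1)) ∈ J (n₀ + (k + 1)) ∧ q - p ∈ 𝔞 ^ (n₀ + k + 1) := by
    intro k p hp
    have hmem : t (n₀ + (k + 1)) - p ∈ J (n₀ + k) := by
      have : t (n₀ + (k + 1)) - p = (t (n₀ + k + 1) - t (n₀ + k)) - (p - t (n₀ + k)) := by
        rw [show n₀ + (k + 1) = n₀ + k + 1 from rfl]; ring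
      rw [this]
      exact (J _).sub_mem (ht _) hp
    obtain ⟨j, hj, a, ha, hja⟩ := Submodule.mem_sup.1 (h3 _ hmem)
    refine ⟨p + a, ?_, by simpa using ha⟩
    have : p + a - t (n₀ + (k + 1)) = -j := by
      have : a = t (n₀ + (k + 1)) - p - j := by rw [← hja]; ring
      rw [this]; ring
    rw [this]
    exact (J _).neg_mem hj
  -- the sequence
  let v : ∀ k : ℕ, {p : S // p - t (n₀ + k) ∈ J (n₀ + k)} := fun k =>
    Nat.rec (motive := fun k => {p : S // p - t (n₀ + k) ∈ J (n₀ + k)})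
      ⟨t n₀, by simp⟩
      (fun k p => ⟨Classical.choose (step k p.1 p.2), (Classical.choose_spec (step k p.1 p.2)).1⟩) k
  have hv0 : (v 0).1 = t n₀ := rfl
  have hvs : ∀ k, (v (k + 1)).1 - (v k).1 ∈ 𝔞 ^ (n₀ + k + 1) := fun k =>
    (Classical.choose_spec (step k (v k).1 (v k).2)).2
  -- telescoping for v
  have hvt : ∀ m n, m ≤ n → (v n).1 - (v m).1 ∈ 𝔞 ^ (n₀ + m + 1) := by
    intro m n hmn
    induction hmn with
    | refl => simp
    | @step n hn ih =>
      have hn' : m ≤ n := hn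
      have : (v (n + 1)).1 - (v m).1 = ((v (n + 1)).1 - (v n).1) + ((v n).1 - (v m).1) := by ring
      rw [this]
      exact Ideal.add_mem _ (Ideal.pow_le_pow_right (by omega) (hvs n)) ih
  -- the limit
  have hcauchy : ∀ {m n : ℕ}, m ≤ n →
      (v m).1 ≡ (v n).1 [SMOD (𝔞 ^ m • ⊤ : Submodule S S)] := by
    intro m n hmn
    rw [SModEq.sub_mem, smul_eq_mul, Ideal.mul_top]
    have := hvt m n hmn
    have h' : (v m).1 - (v n).1 = -((v n).1 - (v m).1) := by ring
    rw [h']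
    exact neg_mem (Ideal.pow_le_pow_right (by omega) this)
  obtain ⟨L, hL⟩ := IsPrecomplete.prec (I := 𝔞) (M := S) inferInstance hcauchy
  have hL' : ∀ k, L - (v k).1 ∈ 𝔞 ^ (n₀ + k + 1) := by
    intro k
    have h := hL (n₀ + k + 1)
    rw [SModEq.sub_mem, smul_eq_mul, Ideal.mul_top] at h
    have h2' := hvt k (n₀ + k + 1) (by omega)
    have : L - (v k).1 = -((v (n₀ + k + 1)).1 - L) + ((v (n₀ + k + 1)).1 - (v k).1) := by ring
    rw [this]
    exact Ideal.add_mem _ (neg_mem h) h2'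
  have hLn₀ : L - t n₀ ∈ 𝔞 ^ (n₀ + 1) := by
    have := hL' 0
    rwa [hv0, add_zero] at this
  refine ⟨L, fun n => ?_, hLn₀⟩
  rcases le_total n₀ n with h | h
  · obtain ⟨k, rfl⟩ := Nat.exists_eq_add_of_le h
    have : L - t (n₀ + k) = (L - (v k).1) + ((v k).1 - t (n₀ + k)) := by ring
    rw [this]
    exact (J _).add_mem (h1 _ (hL' k)) (v k).2
  · have : L - t n = (L - t n₀) + (t n₀ - t n) := by ring
    rw [this]
    exact (J n).add_mem (hanti n n₀ h (h1 _ hLn₀)) (ML_telescope J h2 t ht h)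

/-- Corollary: `J n ≤ (⨅ j, J j) ⊔ 𝔞 ^ (n+1)`. -/
theorem ML_le_iInf_sup {S : Type*} [CommRing S] (𝔞 : Ideal S) [IsPrecomplete 𝔞 S]
    (J : ℕ → Ideal S) (h1 : ∀ n, 𝔞 ^ (n + 1) ≤ J n) (h2 : ∀ n, J (n + 1) ≤ J n)
    (h3 : ∀ n, J n ≤ J (n + 1) ⊔ 𝔞 ^ (n + 1)) (n : ℕ) :
    J n ≤ (⨅ j, J j) ⊔ 𝔞 ^ (n + 1) := by
  classical
  have hanti : ∀ a b, a ≤ b → J b ≤ J a := by
    intro a b hab
    induction hab with
    | refl => exact le_rfl
    | step _ ih => exact (h2 _).trans ih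
  intro s₀ hs₀
  let t : ℕ → S := fun j => if j ≤ n then s₀ else 0
  have ht : ∀ j, t (j + 1) - t j ∈ J j := by
    intro j
    simp only [t]
    by_cases hj : j + 1 ≤ n
    · have hj' : j ≤ n := by omega
      simp [hj, hj']
    · by_cases hj' : j ≤ n
      · have : j = n := by omega
        subst this
        simp [hs₀]
      · simp [hj, hj']
  obtain ⟨s, hs, hsn⟩ := ML_exists_limit 𝔞 J h1 h2 h3 t ht n
  have htn : t n = s₀ := by simp [t]
  rw [htn] at hsn
  have hsJ : s ∈ ⨅ j, J j := by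
    rw [Ideal.mem_iInf]
    intro j
    have hbig : s ∈ J (max j (n + 1)) := by
      have := hs (max j (n + 1))
      have ht0 : t (max j (n + 1)) = 0 := by
        simp only [t]
        rw [if_neg]
        omega
      rwa [ht0, sub_zero] at this
    exact hanti j _ (le_max_left _ _) hbig
  have : s₀ = s + -(s - s₀) := by ring
  rw [this]
  exact Submodule.add_mem_sup hsJ (neg_mem hsn)

end Fermat.Agent.S53
end MergeWrap_S53_ProRepML

section MergeWrap_S53_ProRepCore -- from S53/ProRepCore.lean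

/-!
# S53 chunk D5–D7 (owner: helper76): the universal ring `UnivRing = 𝒪⟦X⟧ ⧸ ⋂ Jₙ` and its point

`levelIdeal n` = least point ideal containing `𝔪ⁿ⁺¹`, `levelTheta n : S → Λ ⧸ Iₙ`,
`levelKer n = ker θₙ`, `univKer = ⋂ Jₙ`, `UnivRing = S ⧸ univKer`, `univPoint : Ω → UnivRing`.
-/

set_option linter.unusedSectionVars false
set_option linter.style.haveILetI false

namespace Fermat.Agent.S53

open IsLocalRing GaloisRep

section PS

variable {𝒪 : Type} [CommRing 𝒪] [IsDomain 𝒪] [IsDiscreteValuationRing 𝒪]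
  [Finite (ResidueField 𝒪)]

/-- `𝒪 → 𝒪⟦X⟧` is a local homomorphism. -/
theorem isLocalHom_algebraMap_mvPowerSeries (d : ℕ) :
    IsLocalHom (algebraMap 𝒪 (MvPowerSeries (Fin d) 𝒪)) := by
  constructor
  intro a ha
  have h := (MvPowerSeries.isUnit_iff_constantCoeff (σ := Fin d) (R := 𝒪)).1 ha
  rwa [MvPowerSeries.algebraMap_apply, Algebra.algebraMap_self, RingHom.id_apply,
    MvPowerSeries.constantCoeff_C] at h

/-- the residue field of `𝒪⟦X⟧` is that of `𝒪`. -/
theorem residue_surjective_mvPowerSeries (d : ℕ) :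
    Function.Surjective (residue (MvPowerSeries (Fin d) 𝒪) ∘
      algebraMap 𝒪 (MvPowerSeries (Fin d) 𝒪)) := by
  intro y
  obtain ⟨s, rfl⟩ := residue_surjective y
  refine ⟨MvPowerSeries.constantCoeff s, ?_⟩
  simp only [Function.comp_apply]
  rw [← sub_eq_zero, ← map_sub, residue_eq_zero_iff, mem_maximalIdeal, mem_nonunits_iff,
    MvPowerSeries.isUnit_iff_constantCoeff]
  simp [MvPowerSeries.algebraMap_apply]

/-- `𝒪⟦X⟧ ⧸ 𝔪ⁿ⁺¹` is finite. -/
theorem finite_mvPowerSeries_quotient_pow (d n : ℕ) :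
    Finite (MvPowerSeries (Fin d) 𝒪 ⧸ maximalIdeal (MvPowerSeries (Fin d) 𝒪) ^ (n + 1)) := by
  haveI := isLocalRing_quotient_pow (A := MvPowerSeries (Fin d) 𝒪) (n := n + 1) (by omega)
  exact IsArtinianTestAlgebra.finite (isArtinianTestAlgebra_quotient_pow (𝒪 := 𝒪)
    (isLocalHom_algebraMap_mvPowerSeries d) (residue_surjective_mvPowerSeries d) (n + 1))

end PS

section Theta

variable {𝒪 : Type} [CommRing 𝒪] [IsDomain 𝒪] [IsDiscreteValuationRing 𝒪]
  [Finite (ResidueField 𝒪)]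
  {Ω : Type} {F : ∀ (A : Type) [CommRing A] [IsLocalRing A] [Algebra 𝒪 A], Set (Ω → A)}
  {c : Ω → 𝒪}

/-- For a point ideal `I`, the map `θ_I : 𝒪⟦X₁..X_d⟧ → Λ ⧸ I`, `X_i ↦ taut (w i) - c (w i)`. -/
theorem exists_theta (hF : IsPointFunctor 𝒪 Ω F c) {d : ℕ} (w : Fin d → Ω)
    {I : Ideal (MvPolynomial Ω 𝒪)} (hI : I ∈ pointIdeals F) :
    ∃ θ : MvPowerSeries (Fin d) 𝒪 →ₐ[𝒪] MvPolynomial Ω 𝒪 ⧸ I,
      ∀ i, θ (MvPowerSeries.X i) = taut I (w i) - algebraMap 𝒪 _ (c (w i)) := by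
  obtain ⟨hloc, hT, hx⟩ := hI
  exact exists_algHom_mvPowerSeries _ fun i =>
    IsArtinianTestAlgebra.isNilpotent_of_mem hT (hF.residue_eq hT _ hx (w i))

/-- the chosen `θ_I` -/
noncomputable def theta (hF : IsPointFunctor 𝒪 Ω F c) {d : ℕ} (w : Fin d → Ω)
    {I : Ideal (MvPolynomial Ω 𝒪)} (hI : I ∈ pointIdeals F) :
    MvPowerSeries (Fin d) 𝒪 →ₐ[𝒪] MvPolynomial Ω 𝒪 ⧸ I :=
  Classical.choose (exists_theta hF w hI)

theorem theta_X (hF : IsPointFunctor 𝒪 Ω F c) {d : ℕ} (w : Fin d → Ω)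
    {I : Ideal (MvPolynomial Ω 𝒪)} (hI : I ∈ pointIdeals F) (i : Fin d) :
    theta hF w hI (MvPowerSeries.X i) = taut I (w i) - algebraMap 𝒪 _ (c (w i)) :=
  Classical.choose_spec (exists_theta hF w hI) i

theorem isNilpotent_theta_X (hF : IsPointFunctor 𝒪 Ω F c) {d : ℕ} (w : Fin d → Ω)
    {I : Ideal (MvPolynomial Ω 𝒪)} (hI : I ∈ pointIdeals F) (i : Fin d) :
    IsNilpotent (theta hF w hI (MvPowerSeries.X i)) := by
  rw [theta_X]
  obtain ⟨hloc, hT, hx⟩ := hI
  exact IsArtinianTestAlgebra.isNilpotent_of_mem hT (hF.residue_eq hT _ hx (w i))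

/-- `θ` is compatible with the transition maps. -/
theorem factor_comp_theta (hF : IsPointFunctor 𝒪 Ω F c) {d : ℕ} (w : Fin d → Ω)
    {I I' : Ideal (MvPolynomial Ω 𝒪)} (hI : I ∈ pointIdeals F) (hI' : I' ∈ pointIdeals F)
    (hle : I ≤ I') :
    (Ideal.Quotient.factorₐ 𝒪 hle).comp (theta hF w hI) = theta hF w hI' := by
  symm
  refine algHom_mvPowerSeries_ext _ _ (fun i => ?_) (isNilpotent_theta_X hF w hI')
  rw [AlgHom.comp_apply, theta_X, theta_X, map_sub]
  simp [taut]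

/-- `θ_I` is surjective when the `taut (w i)` generate. -/
theorem theta_surjective (hF : IsPointFunctor 𝒪 Ω F c) {d : ℕ} (w : Fin d → Ω)
    {I : Ideal (MvPolynomial Ω 𝒪)} (hI : I ∈ pointIdeals F)
    (hw : Algebra.adjoin 𝒪 (Set.range fun i => taut I (w i)) = ⊤) :
    Function.Surjective (theta hF w hI) := by
  rw [← AlgHom.range_eq_top, eq_top_iff, ← hw]
  refine Algebra.adjoin_le ?_
  rintro _ ⟨i, rfl⟩
  refine ⟨MvPowerSeries.X i + algebraMap 𝒪 _ (c (w i)), ?_⟩
  simp [theta_X]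

/-- the maximal ideal of `Λ ⧸ I` is the image of the base ideal -/
theorem maximalIdeal_quotient_eq_map (hF : IsPointFunctor 𝒪 Ω F c)
    {I : Ideal (MvPolynomial Ω 𝒪)} [IsLocalRing (MvPolynomial Ω 𝒪 ⧸ I)]
    (hT : IsArtinianTestAlgebra 𝒪 (MvPolynomial Ω 𝒪 ⧸ I))
    (hx : taut I ∈ F (MvPolynomial Ω 𝒪 ⧸ I)) :
    maximalIdeal (MvPolynomial Ω 𝒪 ⧸ I) = (baseIdeal c).map (Ideal.Quotient.mk I) := by
  rw [← comap_maximalIdeal_eq_baseIdeal hF hT hx,
    Ideal.map_comap_of_surjective _ Ideal.Quotient.mk_surjective]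

/-- if `𝔪ⁿ⁺¹ ≤ I` then the maximal ideal of `Λ ⧸ I` has vanishing `(n+1)`-st power -/
theorem maximalIdeal_quotient_pow_eq_bot (hF : IsPointFunctor 𝒪 Ω F c)
    {I : Ideal (MvPolynomial Ω 𝒪)} [IsLocalRing (MvPolynomial Ω 𝒪 ⧸ I)]
    (hT : IsArtinianTestAlgebra 𝒪 (MvPolynomial Ω 𝒪 ⧸ I))
    (hx : taut I ∈ F (MvPolynomial Ω 𝒪 ⧸ I)) {n : ℕ} (hn : baseIdeal c ^ n ≤ I) :
    maximalIdeal (MvPolynomial Ω 𝒪 ⧸ I) ^ n = ⊥ := by
  rw [maximalIdeal_quotient_eq_map hF hT hx, ← Ideal.map_pow, eq_bot_iff]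
  calc (baseIdeal c ^ n).map (Ideal.Quotient.mk I) ≤ I.map (Ideal.Quotient.mk I) :=
        Ideal.map_mono hn
    _ = ⊥ := Ideal.map_quotient_self I

/-- `θ_I` kills `𝔪_Sⁿ` if `𝔪ⁿ ≤ I` (given surjectivity). -/
theorem maximalIdeal_pow_le_ker_theta (hF : IsPointFunctor 𝒪 Ω F c) {d : ℕ} (w : Fin d → Ω)
    {I : Ideal (MvPolynomial Ω 𝒪)} (hI : I ∈ pointIdeals F)
    (hsurj : Function.Surjective (theta hF w hI)) {n : ℕ} (hn : baseIdeal c ^ n ≤ I) :
    maximalIdeal (MvPowerSeries (Fin d) 𝒪) ^ n ≤ RingHom.ker (theta hF w hI) := by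
  obtain ⟨hloc, hT, hx⟩ := id hI
  haveI := hloc
  have hmap : (maximalIdeal (MvPowerSeries (Fin d) 𝒪)).map (theta hF w hI) =
      maximalIdeal (MvPolynomial Ω 𝒪 ⧸ I) :=
    map_maximalIdeal_of_surjective (theta hF w hI).toRingHom hsurj
  intro s hs
  rw [RingHom.mem_ker]
  have h1 : theta hF w hI s ∈ (maximalIdeal (MvPowerSeries (Fin d) 𝒪) ^ n).map (theta hF w hI) :=
    Ideal.mem_map_of_mem _ hs
  rw [Ideal.map_pow, hmap, maximalIdeal_quotient_pow_eq_bot hF hT hx hn] at h1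
  simpa using h1

end Theta

section Least

variable {𝒪 : Type} [CommRing 𝒪] [IsDomain 𝒪] [IsDiscreteValuationRing 𝒪]
  [Finite (ResidueField 𝒪)]
  {Ω : Type} {F : ∀ (A : Type) [CommRing A] [IsLocalRing A] [Algebra 𝒪 A], Set (Ω → A)}
  {c : Ω → 𝒪}

theorem baseIdeal_mem_pointIdeals (hF : IsPointFunctor 𝒪 Ω F c) : baseIdeal c ∈ pointIdeals F :=
  ker_aeval_mem_pointIdeals hF isArtinianTestAlgebra_residueField hF.base_mem

theorem finite_quotient_of_mem_pointIdeals {I : Ideal (MvPolynomial Ω 𝒪)}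
    (hI : I ∈ pointIdeals F) : Finite (MvPolynomial Ω 𝒪 ⧸ I) := by
  obtain ⟨hloc, hT, -⟩ := hI
  exact IsArtinianTestAlgebra.finite hT

theorem card_quotient_le (hF : IsPointFunctor 𝒪 Ω F c) {d : ℕ} (w : Fin d → Ω)
    (hw : ∀ I ∈ pointIdeals F, Algebra.adjoin 𝒪 (Set.range fun i => taut I (w i)) = ⊤)
    {I : Ideal (MvPolynomial Ω 𝒪)} (hI : I ∈ pointIdeals F) {n : ℕ}
    (hn : baseIdeal c ^ (n + 1) ≤ I) :
    Nat.card (MvPolynomial Ω 𝒪 ⧸ I) ≤
      Nat.card (MvPowerSeries (Fin d) 𝒪 ⧸ maximalIdeal (MvPowerSeries (Fin d) 𝒪) ^ (n + 1)) := by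
  haveI := finite_mvPowerSeries_quotient_pow (𝒪 := 𝒪) d n
  have hsurj := theta_surjective hF w hI (hw I hI)
  let g : MvPowerSeries (Fin d) 𝒪 ⧸ maximalIdeal (MvPowerSeries (Fin d) 𝒪) ^ (n + 1) →+*
      MvPolynomial Ω 𝒪 ⧸ I :=
    Ideal.Quotient.lift _ (theta hF w hI).toRingHom
      (fun a ha => maximalIdeal_pow_le_ker_theta hF w hI hsurj hn ha)
  have hg : Function.Surjective g := Ideal.Quotient.lift_surjective_of_surjective _ _ hsurj
  exact Nat.card_le_card_of_surjective g hg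

/-- D6: the least point ideal containing `𝔪ⁿ⁺¹`. -/
theorem exists_least_pointIdeal (hF : IsPointFunctor 𝒪 Ω F c) {d : ℕ} (w : Fin d → Ω)
    (hw : ∀ I ∈ pointIdeals F, Algebra.adjoin 𝒪 (Set.range fun i => taut I (w i)) = ⊤)
    (n : ℕ) :
    ∃ I ∈ pointIdeals F, baseIdeal c ^ (n + 1) ≤ I ∧
      ∀ I' ∈ pointIdeals F, baseIdeal c ^ (n + 1) ≤ I' → I ≤ I' := by
  classical
  let 𝒞 : Set (Ideal (MvPolynomial Ω 𝒪)) := {I | I ∈ pointIdeals F ∧ baseIdeal c ^ (n + 1) ≤ I}
  let vals : Set ℕ := (fun I => Nat.card (MvPolynomial Ω 𝒪 ⧸ I)) '' 𝒞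
  have hne : vals.Nonempty :=
    ⟨_, baseIdeal c, ⟨baseIdeal_mem_pointIdeals hF, Ideal.pow_le_self (by omega)⟩, rfl⟩
  have hbdd : BddAbove vals := by
    refine ⟨Nat.card (MvPowerSeries (Fin d) 𝒪 ⧸
      maximalIdeal (MvPowerSeries (Fin d) 𝒪) ^ (n + 1)), ?_⟩
    rintro _ ⟨I, ⟨hI, hn⟩, rfl⟩
    exact card_quotient_le hF w hw hI hn
  obtain ⟨I₀, ⟨hI₀, hn₀⟩, hcard⟩ := Nat.sSup_mem hne hbdd
  refine ⟨I₀, hI₀, hn₀, fun I' hI' hn' => ?_⟩
  have hinf : I₀ ⊓ I' ∈ pointIdeals F := inf_mem_pointIdeals hF hI₀ hI'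
  have hninf : baseIdeal c ^ (n + 1) ≤ I₀ ⊓ I' := le_inf hn₀ hn'
  have hle : Nat.card (MvPolynomial Ω 𝒪 ⧸ (I₀ ⊓ I')) ≤ Nat.card (MvPolynomial Ω 𝒪 ⧸ I₀) := by
    have h1 : Nat.card (MvPolynomial Ω 𝒪 ⧸ (I₀ ⊓ I')) ∈ vals := ⟨_, ⟨hinf, hninf⟩, rfl⟩
    have h2 := le_csSup hbdd h1
    simpa only [← hcard] using h2
  haveI := finite_quotient_of_mem_pointIdeals hinf
  have hbij : Function.Bijective (Ideal.Quotient.factor (inf_le_left : I₀ ⊓ I' ≤ I₀)) :=
    Function.Surjective.bijective_of_nat_card_le (Ideal.Quotient.factor_surjective _) hle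
  intro a ha
  have h0 : Ideal.Quotient.factor (inf_le_left : I₀ ⊓ I' ≤ I₀) (Ideal.Quotient.mk _ a) =
      Ideal.Quotient.factor (inf_le_left : I₀ ⊓ I' ≤ I₀) 0 := by
    rw [Ideal.Quotient.factor_mk, map_zero, Ideal.Quotient.eq_zero_iff_mem]
    exact ha
  have h1 := hbij.1 h0
  rw [Ideal.Quotient.eq_zero_iff_mem] at h1
  exact h1.2

end Least

section Levels

variable {𝒪 : Type} [CommRing 𝒪] [IsDomain 𝒪] [IsDiscreteValuationRing 𝒪]
  [Finite (ResidueField 𝒪)]
  {Ω : Type} {F : ∀ (A : Type) [CommRing A] [IsLocalRing A] [Algebra 𝒪 A], Set (Ω → A)}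
  {c : Ω → 𝒪}
  (hF : IsPointFunctor 𝒪 Ω F c) {d : ℕ} (w : Fin d → Ω)
  (hw : ∀ I ∈ pointIdeals F, Algebra.adjoin 𝒪 (Set.range fun i => taut I (w i)) = ⊤)

/-- the least point ideal containing `𝔪ⁿ⁺¹` -/
noncomputable def levelIdeal (n : ℕ) : Ideal (MvPolynomial Ω 𝒪) :=
  Classical.choose (exists_least_pointIdeal hF w hw n)

theorem levelIdeal_mem (n : ℕ) : levelIdeal hF w hw n ∈ pointIdeals F :=
  (Classical.choose_spec (exists_least_pointIdeal hF w hw n)).1

theorem pow_le_levelIdeal (n : ℕ) : baseIdeal c ^ (n + 1) ≤ levelIdeal hF w hw n :=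
  (Classical.choose_spec (exists_least_pointIdeal hF w hw n)).2.1

theorem levelIdeal_le (n : ℕ) {I' : Ideal (MvPolynomial Ω 𝒪)} (hI' : I' ∈ pointIdeals F)
    (h : baseIdeal c ^ (n + 1) ≤ I') : levelIdeal hF w hw n ≤ I' :=
  (Classical.choose_spec (exists_least_pointIdeal hF w hw n)).2.2 I' hI' h

theorem levelIdeal_succ_le (n : ℕ) : levelIdeal hF w hw (n + 1) ≤ levelIdeal hF w hw n :=
  levelIdeal_le hF w hw (n + 1) (levelIdeal_mem hF w hw n)
    ((Ideal.pow_le_pow_right (by omega)).trans (pow_le_levelIdeal hF w hw n))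

theorem levelIdeal_le_sup (n : ℕ) :
    levelIdeal hF w hw n ≤ levelIdeal hF w hw (n + 1) ⊔ baseIdeal c ^ (n + 1) := by
  refine levelIdeal_le hF w hw n ?_ le_sup_right
  refine mem_pointIdeals_of_le hF (levelIdeal_mem hF w hw (n + 1)) le_sup_left ?_
  intro htop
  have hle : levelIdeal hF w hw (n + 1) ⊔ baseIdeal c ^ (n + 1) ≤ baseIdeal c :=
    sup_le (le_baseIdeal_of_mem_pointIdeals hF (levelIdeal_mem hF w hw (n + 1)))
      (Ideal.pow_le_self (by omega))
  rw [htop, top_le_iff] at hle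
  exact baseIdeal_ne_top c hle

/-- the maps `θₙ : S → Λ ⧸ Iₙ` -/
noncomputable def levelTheta (n : ℕ) :
    MvPowerSeries (Fin d) 𝒪 →ₐ[𝒪] MvPolynomial Ω 𝒪 ⧸ levelIdeal hF w hw n :=
  theta hF w (levelIdeal_mem hF w hw n)

theorem levelTheta_surjective (n : ℕ) : Function.Surjective (levelTheta hF w hw n) :=
  theta_surjective hF w _ (hw _ (levelIdeal_mem hF w hw n))

theorem levelTheta_X (n : ℕ) (i : Fin d) :
    levelTheta hF w hw n (MvPowerSeries.X i) =
      taut (levelIdeal hF w hw n) (w i) - algebraMap 𝒪 _ (c (w i)) :=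
  theta_X hF w _ i

theorem factor_comp_levelTheta (n : ℕ) :
    (Ideal.Quotient.factorₐ 𝒪 (levelIdeal_succ_le hF w hw n)).comp (levelTheta hF w hw (n + 1)) =
      levelTheta hF w hw n :=
  factor_comp_theta hF w _ _ _

/-- the ideals `Jₙ = ker θₙ` of `S` -/
noncomputable def levelKer (n : ℕ) : Ideal (MvPowerSeries (Fin d) 𝒪) :=
  RingHom.ker (levelTheta hF w hw n)

theorem mem_levelKer {n : ℕ} {s : MvPowerSeries (Fin d) 𝒪} :
    s ∈ levelKer hF w hw n ↔ levelTheta hF w hw n s = 0 := RingHom.mem_ker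

theorem pow_le_levelKer (n : ℕ) :
    maximalIdeal (MvPowerSeries (Fin d) 𝒪) ^ (n + 1) ≤ levelKer hF w hw n :=
  maximalIdeal_pow_le_ker_theta hF w _ (levelTheta_surjective hF w hw n)
    (pow_le_levelIdeal hF w hw n)

theorem levelKer_succ_le (n : ℕ) : levelKer hF w hw (n + 1) ≤ levelKer hF w hw n := by
  intro s hs
  rw [mem_levelKer] at hs ⊢
  rw [← factor_comp_levelTheta hF w hw n, AlgHom.comp_apply, hs, map_zero]

theorem levelKer_le_sup (n : ℕ) :
    levelKer hF w hw n ≤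
      levelKer hF w hw (n + 1) ⊔ maximalIdeal (MvPowerSeries (Fin d) 𝒪) ^ (n + 1) := by
  intro s hs
  rw [mem_levelKer] at hs
  obtain ⟨hloc, hT, hx⟩ := id (levelIdeal_mem hF w hw (n + 1))
  haveI := hloc
  -- θ' s is the class of some a ∈ Λ
  obtain ⟨a, ha⟩ := Ideal.Quotient.mk_surjective (levelTheta hF w hw (n + 1) s)
  have ha0 : a ∈ levelIdeal hF w hw n := by
    rw [← Ideal.Quotient.eq_zero_iff_mem, ← hs, ← factor_comp_levelTheta hF w hw n,
      AlgHom.comp_apply, ← ha]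
    rfl
  obtain ⟨a₁, ha₁, a₂, ha₂, rfl⟩ := Submodule.mem_sup.1 (levelIdeal_le_sup hF w hw n ha0)
  have hmem : levelTheta hF w hw (n + 1) s ∈
      (maximalIdeal (MvPolynomial Ω 𝒪 ⧸ levelIdeal hF w hw (n + 1))) ^ (n + 1) := by
    rw [← ha, map_add, Ideal.Quotient.eq_zero_iff_mem.2 ha₁, zero_add,
      maximalIdeal_quotient_eq_map hF hT hx, ← Ideal.map_pow]
    exact Ideal.mem_map_of_mem _ ha₂
  have hmap : (maximalIdeal (MvPowerSeries (Fin d) 𝒪)).map (levelTheta hF w hw (n + 1)) =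
      maximalIdeal (MvPolynomial Ω 𝒪 ⧸ levelIdeal hF w hw (n + 1)) :=
    map_maximalIdeal_of_surjective (levelTheta hF w hw (n + 1)).toRingHom
      (levelTheta_surjective hF w hw (n + 1))
  rw [← hmap, ← Ideal.map_pow] at hmem
  obtain ⟨t, ht, hts⟩ := (Ideal.mem_map_iff_of_surjective _
    (levelTheta_surjective hF w hw (n + 1))).1 hmem
  have : s = (s - t) + t := by ring
  rw [this]
  refine Submodule.add_mem_sup ?_ ht
  rw [mem_levelKer, map_sub, hts, sub_self]

end Levels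

section Ring

variable {𝒪 : Type} [CommRing 𝒪] [IsDomain 𝒪] [IsDiscreteValuationRing 𝒪]
  [IsAdicComplete (maximalIdeal 𝒪) 𝒪] [Finite (ResidueField 𝒪)]
  {Ω : Type} {F : ∀ (A : Type) [CommRing A] [IsLocalRing A] [Algebra 𝒪 A], Set (Ω → A)}
  {c : Ω → 𝒪}
  (hF : IsPointFunctor 𝒪 Ω F c) {d : ℕ} (w : Fin d → Ω)
  (hw : ∀ I ∈ pointIdeals F, Algebra.adjoin 𝒪 (Set.range fun i => taut I (w i)) = ⊤)

/-- `J = ⋂ Jₙ` -/
noncomputable def univKer : Ideal (MvPowerSeries (Fin d) 𝒪) := ⨅ n, levelKer hF w hw n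

theorem univKer_le (n : ℕ) : univKer hF w hw ≤ levelKer hF w hw n := iInf_le _ n

theorem levelKer_le_maximalIdeal (n : ℕ) :
    levelKer hF w hw n ≤ maximalIdeal (MvPowerSeries (Fin d) 𝒪) := by
  obtain ⟨hloc, hT, hx⟩ := id (levelIdeal_mem hF w hw n)
  haveI := hloc
  refine le_maximalIdeal ?_
  exact RingHom.ker_ne_top _

theorem univKer_ne_top : univKer hF w hw ≠ ⊤ := by
  intro h
  have := (univKer_le hF w hw 0).trans (levelKer_le_maximalIdeal hF w hw 0)
  rw [h, top_le_iff] at this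
  exact (maximalIdeal.isMaximal _).ne_top this

/-- Mittag-Leffler: `Jₙ ≤ J ⊔ 𝔪ⁿ⁺¹`. -/
theorem levelKer_le_univKer_sup (n : ℕ) :
    levelKer hF w hw n ≤
      univKer hF w hw ⊔ maximalIdeal (MvPowerSeries (Fin d) 𝒪) ^ (n + 1) := by
  haveI := mvPowerSeries_isAdicComplete 𝒪 d
  exact ML_le_iInf_sup _ _ (pow_le_levelKer hF w hw) (levelKer_succ_le hF w hw)
    (levelKer_le_sup hF w hw) n

/-- lifts of the tautological points to `S`, compatible for all levels -/
theorem exists_univPointS (ω : Ω) :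
    ∃ s : MvPowerSeries (Fin d) 𝒪,
      ∀ n, levelTheta hF w hw n s = taut (levelIdeal hF w hw n) ω := by
  haveI := mvPowerSeries_isAdicComplete 𝒪 d
  choose t ht using fun n => levelTheta_surjective hF w hw n (taut (levelIdeal hF w hw n) ω)
  have hstep : ∀ n, t (n + 1) - t n ∈ levelKer hF w hw n := by
    intro n
    rw [mem_levelKer, map_sub, ht n, ← factor_comp_levelTheta hF w hw n, AlgHom.comp_apply,
      ht (n + 1), sub_eq_zero]
    rfl
  obtain ⟨s, hs, -⟩ := ML_exists_limit _ _ (pow_le_levelKer hF w hw) (levelKer_succ_le hF w hw)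
    (levelKer_le_sup hF w hw) t hstep 0
  refine ⟨s, fun n => ?_⟩
  have := hs n
  rw [mem_levelKer, map_sub, sub_eq_zero] at this
  rw [this, ht n]

/-- the chosen lift -/
noncomputable def univPointS (ω : Ω) : MvPowerSeries (Fin d) 𝒪 :=
  Classical.choose (exists_univPointS hF w hw ω)

theorem levelTheta_univPointS (ω : Ω) (n : ℕ) :
    levelTheta hF w hw n (univPointS hF w hw ω) = taut (levelIdeal hF w hw n) ω :=
  Classical.choose_spec (exists_univPointS hF w hw ω) n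

/-- the universal ring `R = S ⧸ J` -/
abbrev UnivRing : Type := MvPowerSeries (Fin d) 𝒪 ⧸ univKer hF w hw

/-- the universal point -/
noncomputable def univPoint (ω : Ω) : UnivRing hF w hw :=
  Ideal.Quotient.mk _ (univPointS hF w hw ω)

instance : IsLocalRing (UnivRing hF w hw) :=
  isLocalRing_quotient_of_ne_top _ (univKer_ne_top hF w hw)

instance : IsNoetherianRing (UnivRing hF w hw) := inferInstance

instance : IsLocalHom (algebraMap 𝒪 (UnivRing hF w hw)) := by
  haveI := isLocalHom_algebraMap_mvPowerSeries (𝒪 := 𝒪) d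
  haveI : IsLocalHom (Ideal.Quotient.mk (univKer hF w hw)) := isLocalHom_quotient_mk _
  have : algebraMap 𝒪 (UnivRing hF w hw) =
      (Ideal.Quotient.mk (univKer hF w hw)).comp (algebraMap 𝒪 (MvPowerSeries (Fin d) 𝒪)) := rfl
  rw [this]
  infer_instance

instance : IsAdicComplete (maximalIdeal (UnivRing hF w hw)) (UnivRing hF w hw) := by
  haveI := mvPowerSeries_isAdicComplete 𝒪 d
  haveI : IsLocalHom (algebraMap (MvPowerSeries (Fin d) 𝒪) (UnivRing hF w hw)) :=
    isLocalHom_quotient_mk _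
  exact IsLocalRing.isAdicComplete_of_module_finite (𝒪 := MvPowerSeries (Fin d) 𝒪)

theorem univRing_residue_surjective :
    Function.Surjective (residue (UnivRing hF w hw) ∘ algebraMap 𝒪 (UnivRing hF w hw)) :=
  residue_surjective_of_surjective (residue_surjective_mvPowerSeries d)
    (Ideal.Quotient.mkₐ 𝒪 (univKer hF w hw)) Ideal.Quotient.mk_surjective

end Ring

end Fermat.Agent.S53
end MergeWrap_S53_ProRepCore

section MergeWrap_S53_ProRepD8 -- from S53/ProRepD8.lean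

/-!
# S53 chunk D8: every Artinian quotient of the universal point is a point
-/

set_option linter.unusedSectionVars false
set_option linter.style.haveILetI false

namespace Fermat.Agent.S53

open IsLocalRing GaloisRep

variable {𝒪 : Type} [CommRing 𝒪] [IsDomain 𝒪] [IsDiscreteValuationRing 𝒪]
  [IsAdicComplete (maximalIdeal 𝒪) 𝒪] [Finite (ResidueField 𝒪)]
  {Ω : Type} {F : ∀ (A : Type) [CommRing A] [IsLocalRing A] [Algebra 𝒪 A], Set (Ω → A)}
  {c : Ω → 𝒪}
  (hF : IsPointFunctor 𝒪 Ω F c) {d : ℕ} (w : Fin d → Ω)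
  (hw : ∀ I ∈ pointIdeals F, Algebra.adjoin 𝒪 (Set.range fun i => taut I (w i)) = ⊤)

theorem univPoint_mem_of_surjective (B : Type) [CommRing B] [IsLocalRing B] [Algebra 𝒪 B]
    (hB : IsArtinianTestAlgebra 𝒪 B) (q : UnivRing hF w hw →ₐ[𝒪] B)
    (hq : IsLocalHom (q : UnivRing hF w hw →+* B)) (hsurj : Function.Surjective q) :
    (fun ω => q (univPoint hF w hw ω)) ∈ F B := by
  obtain ⟨n, hn⟩ := IsArtinianTestAlgebra.exists_pow_maximalIdeal_eq_bot hB
  obtain ⟨hloc, hT, hx⟩ := id (levelIdeal_mem hF w hw n)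
  haveI := hloc
  -- the composite `g : S → R → B`
  let g : MvPowerSeries (Fin d) 𝒪 →ₐ[𝒪] B := q.comp (Ideal.Quotient.mkₐ 𝒪 (univKer hF w hw))
  have hgsurj : Function.Surjective g := hsurj.comp Ideal.Quotient.mk_surjective
  haveI hgloc : IsLocalHom (g : MvPowerSeries (Fin d) 𝒪 →+* B) :=
    isLocalHom_of_surjective_algHom g hgsurj
  have hgpow : ∀ s ∈ maximalIdeal (MvPowerSeries (Fin d) 𝒪) ^ (n + 1), g s = 0 := by
    intro s hs
    have h1 : g s ∈ (maximalIdeal (MvPowerSeries (Fin d) 𝒪) ^ (n + 1)).map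
        (g : MvPowerSeries (Fin d) 𝒪 →+* B) := Ideal.mem_map_of_mem _ hs
    rw [Ideal.map_pow] at h1
    have h2 : (maximalIdeal (MvPowerSeries (Fin d) 𝒪)).map
        (g : MvPowerSeries (Fin d) 𝒪 →+* B) ^ (n + 1) ≤ maximalIdeal B ^ (n + 1) :=
      Ideal.pow_right_mono (map_maximalIdeal_le _) _
    have h3 : maximalIdeal B ^ (n + 1) = ⊥ := by
      rw [pow_succ, hn, Ideal.bot_mul]
    have := h2 h1
    rw [h3] at this
    simpa using this
  have hker : RingHom.ker (levelTheta hF w hw n).toRingHom ≤ RingHom.ker g.toRingHom := by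
    intro s hs
    have hs' : s ∈ levelKer hF w hw n := hs
    obtain ⟨j, hj, a, ha, rfl⟩ := Submodule.mem_sup.1 (levelKer_le_univKer_sup hF w hw n hs')
    rw [RingHom.mem_ker]
    change g (j + a) = 0
    rw [map_add, hgpow a ha, add_zero]
    change q (Ideal.Quotient.mk _ j) = 0
    rw [Ideal.Quotient.eq_zero_iff_mem.2 hj, map_zero]
  let q' : MvPolynomial Ω 𝒪 ⧸ levelIdeal hF w hw n →ₐ[𝒪] B :=
    AlgHom.liftOfSurjective (levelTheta hF w hw n) (levelTheta_surjective hF w hw n) g hker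
  have hq'surj : Function.Surjective q' := by
    intro b
    obtain ⟨s, rfl⟩ := hgsurj b
    exact ⟨levelTheta hF w hw n s, AlgHom.liftOfSurjective_apply _ _ _ _ _⟩
  have hq'loc : IsLocalHom (q' : MvPolynomial Ω 𝒪 ⧸ levelIdeal hF w hw n →+* B) :=
    isLocalHom_of_surjective_algHom q' hq'surj
  have hmem := hF.map hT hB q' hq'loc _ hx
  have heq : (fun ω => q' (taut (levelIdeal hF w hw n) ω)) =
      fun ω => q (univPoint hF w hw ω) := by
    funext ω
    rw [← levelTheta_univPointS hF w hw ω n]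
    exact AlgHom.liftOfSurjective_apply _ _ _ _ _
  rwa [heq] at hmem

end Fermat.Agent.S53
end MergeWrap_S53_ProRepD8

section MergeWrap_S53_ProRepD9 -- from S53/ProRepD9.lean

/-!
# S53 chunk D9: universality of the universal point (owner: helper76)
-/

set_option linter.unusedSectionVars false
set_option linter.style.haveILetI false
set_option linter.unusedVariables false

namespace Fermat.Agent.S53

open IsLocalRing GaloisRep

section General

variable {𝒪 : Type} [CommRing 𝒪] [IsDomain 𝒪] [IsDiscreteValuationRing 𝒪]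
  [Finite (ResidueField 𝒪)]
  {Ω : Type} {F : ∀ (A : Type) [CommRing A] [IsLocalRing A] [Algebra 𝒪 A], Set (Ω → A)}
  {c : Ω → 𝒪}

/-- the maximal ideal of `A ⧸ 𝔪ⁿ` has vanishing `n`-th power -/
theorem d9_maximalIdeal_quotient_pow_pow (A : Type) [CommRing A] [IsLocalRing A] (n : ℕ)
    [IsLocalRing (A ⧸ maximalIdeal A ^ n)] :
    maximalIdeal (A ⧸ maximalIdeal A ^ n) ^ n = ⊥ := by
  rw [← map_maximalIdeal_of_surjective (Ideal.Quotient.mk (maximalIdeal A ^ n))
    Ideal.Quotient.mk_surjective, ← Ideal.map_pow, Ideal.map_quotient_self]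

/-- `aeval y` kills `𝔪ⁿ` if `𝔪_Bⁿ = 0`. -/
theorem d9_pow_baseIdeal_le_ker_aeval (hF : IsPointFunctor 𝒪 Ω F c)
    {B : Type} [CommRing B] [IsLocalRing B] [Algebra 𝒪 B]
    (hB : IsArtinianTestAlgebra 𝒪 B) {y : Ω → B} (hy : y ∈ F B) {n : ℕ}
    (hn : maximalIdeal B ^ n = ⊥) :
    baseIdeal c ^ n ≤ RingHom.ker (MvPolynomial.aeval y : MvPolynomial Ω 𝒪 →ₐ[𝒪] B) := by
  obtain ⟨hloc, hT, hx⟩ := ker_aeval_mem_pointIdeals hF hB hy
  haveI := hloc
  have hinj : Function.Injective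
      (Ideal.kerLiftAlg (MvPolynomial.aeval y : MvPolynomial Ω 𝒪 →ₐ[𝒪] B)) :=
    Ideal.kerLiftAlg_injective _
  haveI hlh := IsArtinianTestAlgebra.isLocalHom_of_injective hB _ hinj
  have hbase : (baseIdeal c).map (MvPolynomial.aeval y : MvPolynomial Ω 𝒪 →ₐ[𝒪] B) ≤
      maximalIdeal B := by
    rw [Ideal.map_le_iff_le_comap]
    intro p hp
    rw [← comap_maximalIdeal_eq_baseIdeal hF hT hx, Ideal.mem_comap] at hp
    rw [Ideal.mem_comap]
    have := map_nonunit
      (Ideal.kerLiftAlg (MvPolynomial.aeval y : MvPolynomial Ω 𝒪 →ₐ[𝒪] B) : _ →+* B) _ hp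
    rwa [RingHom.coe_coe, Ideal.kerLiftAlg_mk] at this
  intro p hp
  rw [RingHom.mem_ker]
  have h1 : (MvPolynomial.aeval y : MvPolynomial Ω 𝒪 →ₐ[𝒪] B) p ∈
      (baseIdeal c ^ n).map (MvPolynomial.aeval y : MvPolynomial Ω 𝒪 →ₐ[𝒪] B) :=
    Ideal.mem_map_of_mem _ hp
  rw [Ideal.map_pow] at h1
  have h2 := Ideal.pow_right_mono hbase n h1
  rw [hn] at h2
  simpa using h2

/-- an `𝒪`-algebra map into a local ring whose residue field is generated by `𝒪` is local -/
theorem d9_isLocalHom_of_residue_surjective {R A : Type} [CommRing R] [IsLocalRing R]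
    [Algebra 𝒪 R] [CommRing A] [IsLocalRing A] [Algebra 𝒪 A]
    (hres : Function.Surjective (residue A ∘ algebraMap 𝒪 A)) (φ : R →ₐ[𝒪] A) :
    IsLocalHom (φ : R →+* A) := by
  let ψ : R →+* ResidueField A := (residue A).comp (φ : R →+* A)
  have hψ : Function.Surjective ψ := by
    intro z
    obtain ⟨a, ha⟩ := hres z
    refine ⟨algebraMap 𝒪 R a, ?_⟩
    simp only [ψ, RingHom.comp_apply, RingHom.coe_coe, AlgHom.commutes]
    exact ha
  have hmax : (RingHom.ker ψ).IsMaximal := RingHom.ker_isMaximal_of_surjective ψ hψ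
  have hker : RingHom.ker ψ = maximalIdeal R := IsLocalRing.eq_maximalIdeal hmax
  constructor
  intro r hr
  by_contra hnu
  have hr' : r ∈ RingHom.ker ψ := by rw [hker]; exact hnu
  rw [RingHom.mem_ker] at hr'
  have : (φ r) ∈ maximalIdeal A := by
    rw [← residue_eq_zero_iff]
    exact hr'
  exact this hr

end General

section Univ

variable {𝒪 : Type} [CommRing 𝒪] [IsDomain 𝒪] [IsDiscreteValuationRing 𝒪]
  [IsAdicComplete (maximalIdeal 𝒪) 𝒪] [Finite (ResidueField 𝒪)]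
  {Ω : Type} {F : ∀ (A : Type) [CommRing A] [IsLocalRing A] [Algebra 𝒪 A], Set (Ω → A)}
  {c : Ω → 𝒪}
  (hF : IsPointFunctor 𝒪 Ω F c) {d : ℕ} (w : Fin d → Ω)
  (hw : ∀ I ∈ pointIdeals F, Algebra.adjoin 𝒪 (Set.range fun i => taut I (w i)) = ⊤)

/-- the class of `X i` in the universal ring is `univPoint (w i) - c (w i)` -/
theorem d9_mk_X_eq_univPoint (i : Fin d) :
    (Ideal.Quotient.mk (univKer hF w hw) (MvPowerSeries.X i) : UnivRing hF w hw) =
      univPoint hF w hw (w i) - algebraMap 𝒪 _ (c (w i)) := by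
  rw [eq_sub_iff_add_eq, univPoint]
  have halg : algebraMap 𝒪 (UnivRing hF w hw) (c (w i)) =
      Ideal.Quotient.mk (univKer hF w hw) (algebraMap 𝒪 _ (c (w i))) := rfl
  rw [halg, ← map_add, Ideal.Quotient.eq, univKer, Ideal.mem_iInf]
  intro n
  rw [mem_levelKer, map_sub, map_add, levelTheta_X, levelTheta_univPointS, AlgHom.commutes]
  ring

/-- two algebra maps out of the universal ring that agree on the classes of the `X i`, with
nilpotent values, are equal -/
theorem d9_algHom_ext_of_nilpotent {B : Type} [CommRing B] [Algebra 𝒪 B]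
    (ψ ψ' : UnivRing hF w hw →ₐ[𝒪] B)
    (h : ∀ i, ψ (Ideal.Quotient.mk _ (MvPowerSeries.X i)) =
      ψ' (Ideal.Quotient.mk _ (MvPowerSeries.X i)))
    (hnil : ∀ i, IsNilpotent (ψ (Ideal.Quotient.mk _ (MvPowerSeries.X i)))) : ψ = ψ' := by
  have key : ψ.comp (Ideal.Quotient.mkₐ 𝒪 (univKer hF w hw)) =
      ψ'.comp (Ideal.Quotient.mkₐ 𝒪 (univKer hF w hw)) :=
    algHom_mvPowerSeries_ext _ _ (fun i => h i) (fun i => hnil i)
  apply AlgHom.ext
  intro r
  obtain ⟨s, rfl⟩ := Ideal.Quotient.mk_surjective r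
  exact congrArg (fun f => f s) key

/-- the level maps `φₙ : R → A ⧸ 𝔪ⁿ⁺¹` -/
theorem d9_exists_levelMap (A : Type) [CommRing A] [IsLocalRing A] [IsNoetherianRing A]
    [Algebra 𝒪 A] [IsLocalHom (algebraMap 𝒪 A)]
    (hres : Function.Surjective (residue A ∘ algebraMap 𝒪 A)) (y : Ω → A)
    (hy : ∀ (B : Type) [CommRing B] [IsLocalRing B] [Algebra 𝒪 B], IsArtinianTestAlgebra 𝒪 B →
        ∀ (q : A →ₐ[𝒪] B), IsLocalHom (q : A →+* B) → Function.Surjective q →
          (fun ω => q (y ω)) ∈ F B) (n : ℕ) :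
    ∃ φn : UnivRing hF w hw →ₐ[𝒪] A ⧸ maximalIdeal A ^ (n + 1),
      ∀ ω, φn (univPoint hF w hw ω) = Ideal.Quotient.mk _ (y ω) := by
  haveI hloc := isLocalRing_quotient_pow (A := A) (n := n + 1) (by omega)
  have hTn : IsArtinianTestAlgebra 𝒪 (A ⧸ maximalIdeal A ^ (n + 1)) :=
    isArtinianTestAlgebra_quotient_pow inferInstance hres (n + 1)
  have hqn : IsLocalHom (Ideal.Quotient.mkₐ 𝒪 (maximalIdeal A ^ (n + 1)) :
      A →+* A ⧸ maximalIdeal A ^ (n + 1)) := isLocalHom_quotient_mk _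
  have hyn := hy _ hTn (Ideal.Quotient.mkₐ 𝒪 (maximalIdeal A ^ (n + 1))) hqn
    Ideal.Quotient.mk_surjective
  have hpow := d9_maximalIdeal_quotient_pow_pow A (n + 1)
  have hK := d9_pow_baseIdeal_le_ker_aeval hF hTn hyn hpow
  have hIK := levelIdeal_le hF w hw n (ker_aeval_mem_pointIdeals hF hTn hyn) hK
  let gn : MvPolynomial Ω 𝒪 ⧸ levelIdeal hF w hw n →ₐ[𝒪] A ⧸ maximalIdeal A ^ (n + 1) :=
    Ideal.Quotient.liftₐ (levelIdeal hF w hw n) (MvPolynomial.aeval _) (fun a ha => hIK ha)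
  let ρn : UnivRing hF w hw →ₐ[𝒪] MvPolynomial Ω 𝒪 ⧸ levelIdeal hF w hw n :=
    Ideal.Quotient.liftₐ (univKer hF w hw) (levelTheta hF w hw n)
      (fun s hs => univKer_le hF w hw n hs)
  refine ⟨gn.comp ρn, fun ω => ?_⟩
  have h1 : ρn (univPoint hF w hw ω) = taut (levelIdeal hF w hw n) ω := by
    rw [← levelTheta_univPointS hF w hw ω n]
    rfl
  rw [AlgHom.comp_apply, h1]
  change gn (Ideal.Quotient.mk _ (MvPolynomial.X ω)) = _
  exact MvPolynomial.aeval_X (R := 𝒪)
    (fun ω => (Ideal.Quotient.mkₐ 𝒪 (maximalIdeal A ^ (n + 1))) (y ω)) ω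

theorem univPoint_universal (A : Type) [CommRing A] [IsLocalRing A] [IsNoetherianRing A]
    [IsAdicComplete (maximalIdeal A) A] [Algebra 𝒪 A] [IsLocalHom (algebraMap 𝒪 A)]
    (hres : Function.Surjective (residue A ∘ algebraMap 𝒪 A)) (y : Ω → A)
    (hy : ∀ (B : Type) [CommRing B] [IsLocalRing B] [Algebra 𝒪 B], IsArtinianTestAlgebra 𝒪 B →
        ∀ (q : A →ₐ[𝒪] B), IsLocalHom (q : A →+* B) → Function.Surjective q →
          (fun ω => q (y ω)) ∈ F B) :
    ∃ φ : UnivRing hF w hw →ₐ[𝒪] A, IsLocalHom (φ : UnivRing hF w hw →+* A) ∧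
      (∀ ω, φ (univPoint hF w hw ω) = y ω) ∧
      ∀ φ' : UnivRing hF w hw →ₐ[𝒪] A, IsLocalHom (φ' : UnivRing hF w hw →+* A) →
        (∀ ω, φ' (univPoint hF w hw ω) = y ω) → φ' = φ := by
  classical
  choose φn hφn using d9_exists_levelMap hF w hw A hres y hy
  -- `y ω - c ω ∈ 𝔪_A`
  have hyc : ∀ ω, y ω - algebraMap 𝒪 A (c ω) ∈ maximalIdeal A := by
    intro ω
    haveI hloc := isLocalRing_quotient_pow (A := A) (n := 0 + 1) (by omega)
    have hT0 : IsArtinianTestAlgebra 𝒪 (A ⧸ maximalIdeal A ^ (0 + 1)) :=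
      isArtinianTestAlgebra_quotient_pow inferInstance hres (0 + 1)
    haveI hq0 : IsLocalHom (Ideal.Quotient.mk (maximalIdeal A ^ (0 + 1))) :=
      isLocalHom_quotient_mk _
    have hq0' : IsLocalHom (Ideal.Quotient.mkₐ 𝒪 (maximalIdeal A ^ (0 + 1)) :
      A →+* A ⧸ maximalIdeal A ^ (0 + 1)) := hq0
    have hy0 := hy _ hT0 (Ideal.Quotient.mkₐ 𝒪 (maximalIdeal A ^ (0 + 1))) hq0'
      Ideal.Quotient.mk_surjective
    have h := hF.residue_eq hT0 _ hy0 ω
    rw [← maximalIdeal_comap (Ideal.Quotient.mk (maximalIdeal A ^ (0 + 1))), Ideal.mem_comap,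
      map_sub]
    exact h
  let f : ∀ k : ℕ, UnivRing hF w hw →ₐ[𝒪] A ⧸ maximalIdeal A ^ k := fun k =>
    (Ideal.Quotient.factorₐ 𝒪 (Ideal.pow_le_pow_right (Nat.le_succ k))).comp (φn k)
  have hfpt : ∀ k ω, f k (univPoint hF w hw ω) = Ideal.Quotient.mk _ (y ω) := by
    intro k ω
    simp only [f, AlgHom.comp_apply, hφn]
    rfl
  have hmkX : ∀ {B : Type} [CommRing B] [Algebra 𝒪 B] (ψ : UnivRing hF w hw →ₐ[𝒪] B) (i : Fin d),
      ψ (Ideal.Quotient.mk _ (MvPowerSeries.X i)) =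
        ψ (univPoint hF w hw (w i)) - algebraMap 𝒪 B (c (w i)) := by
    intro B _ _ ψ i
    rw [d9_mk_X_eq_univPoint, map_sub, AlgHom.commutes]
  have hnilk : ∀ k ω, IsNilpotent
      (Ideal.Quotient.mk (maximalIdeal A ^ k) (y ω) - algebraMap 𝒪 _ (c ω)) := by
    intro k ω
    refine ⟨k, ?_⟩
    have : (Ideal.Quotient.mk (maximalIdeal A ^ k) (y ω) - algebraMap 𝒪 _ (c ω)) =
        Ideal.Quotient.mk (maximalIdeal A ^ k) (y ω - algebraMap 𝒪 A (c ω)) := by
      rw [map_sub]; rfl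
    rw [this, ← map_pow, Ideal.Quotient.eq_zero_iff_mem]
    exact Ideal.pow_mem_pow (hyc ω) k
  have hf : ∀ {m n : ℕ} (hle : m ≤ n),
      (Ideal.Quotient.factorₐ 𝒪 (Ideal.pow_le_pow_right hle)).comp (f n) = f m := by
    intro m n hle
    refine d9_algHom_ext_of_nilpotent hF w hw _ _ (fun i => ?_) (fun i => ?_)
    · rw [hmkX, hmkX, AlgHom.comp_apply, hfpt, hfpt]
      rfl
    · rw [hmkX, AlgHom.comp_apply, hfpt]
      exact hnilk m (w i)
  let φ : UnivRing hF w hw →ₐ[𝒪] A := IsAdicComplete.liftAlgHom (maximalIdeal A) f hf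
  have hφmk : ∀ k r, Ideal.Quotient.mk (maximalIdeal A ^ k) (φ r) = f k r := fun k r =>
    IsAdicComplete.mk_liftAlgHom (maximalIdeal A) f hf k r
  have hφpt : ∀ ω, φ (univPoint hF w hw ω) = y ω := by
    intro ω
    rw [← sub_eq_zero]
    refine IsHausdorff.haus (I := maximalIdeal A) inferInstance _ (fun k => ?_)
    rw [SModEq.zero, smul_eq_mul, Ideal.mul_top, ← Ideal.Quotient.eq_zero_iff_mem, map_sub,
      hφmk, hfpt, sub_self]
  refine ⟨φ, d9_isLocalHom_of_residue_surjective hres φ, hφpt, fun φ' hφ' h' => ?_⟩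
  refine IsAdicComplete.algHom_ext (maximalIdeal A) (fun k => ?_)
  refine d9_algHom_ext_of_nilpotent hF w hw _ _ (fun i => ?_) (fun i => ?_)
  · rw [hmkX, hmkX, AlgHom.comp_apply, AlgHom.comp_apply, h', hφpt]
  · rw [hmkX, AlgHom.comp_apply, h']
    exact hnilk k (w i)

end Univ

end Fermat.Agent.S53
end MergeWrap_S53_ProRepD9

section MergeWrap_S53_ProRep -- from S53/ProRep.lean

/-!
# S53 chunk D (owner: helper76): abstract pro-representability

Target: `exists_universalPoint`.  The construction is in `ProRepCore.lean` (D5–D7),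
`ProRepD8.lean` and `ProRepD9.lean`.
-/

set_option linter.unusedSectionVars false
set_option linter.style.haveILetI false

namespace Fermat.Agent.S53

open IsLocalRing GaloisRep

theorem exists_universalPoint
    (𝒪 : Type) [CommRing 𝒪] [IsDomain 𝒪] [IsDiscreteValuationRing 𝒪]
    [IsAdicComplete (maximalIdeal 𝒪) 𝒪] [Finite (ResidueField 𝒪)]
    (Ω : Type) (F : ∀ (A : Type) [CommRing A] [IsLocalRing A] [Algebra 𝒪 A], Set (Ω → A))
    (c : Ω → 𝒪) (hF : IsPointFunctor 𝒪 Ω F c) :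
    Nonempty (UniversalPoint 𝒪 Ω F) := by
  classical
  obtain ⟨Ω₀, hΩ₀⟩ := exists_finset_adjoin_eq_top hF
  let w : Fin Ω₀.card → Ω := fun i => (Ω₀.equivFin.symm i : Ω)
  have hw : ∀ I ∈ pointIdeals F, Algebra.adjoin 𝒪 (Set.range fun i => taut I (w i)) = ⊤ := by
    intro I hI
    rw [← hΩ₀ I hI]
    congr 1
    ext z
    constructor
    · rintro ⟨i, rfl⟩
      exact ⟨w i, (Ω₀.equivFin.symm i).2, rfl⟩
    · rintro ⟨ω, hω, rfl⟩
      exact ⟨Ω₀.equivFin ⟨ω, hω⟩, by simp [w]⟩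
  exact ⟨{
    R := UnivRing hF w hw
    residue_surjective := univRing_residue_surjective hF w hw
    x := univPoint hF w hw
    mem_of_surjective := univPoint_mem_of_surjective hF w hw
    universal := univPoint_universal hF w hw }⟩

end Fermat.Agent.S53
end MergeWrap_S53_ProRep

section MergeWrap_S53_Assembly -- from S53/Assembly.lean

/-!
# S53 chunk E (owner: helper88): assembly
-/

set_option autoImplicit false

namespace Fermat.Agent.S53

open IsLocalRing GaloisRep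

section

variable {𝒪 : Type} [CommRing 𝒪] [IsLocalRing 𝒪]

theorem finite_of_quotient {T : Type*} (s : Setoid T) (h : Finite (Quotient s)) {X : Type*}
    (f : X → T) (hf : ∀ x y, s.r (f x) (f y) → x = y) : Finite X :=
  Finite.of_injective (fun x => Quotient.mk s (f x)) (fun x y h => hf x y (Quotient.exact h))

/-- The point functor of normalised lifts of type `𝒟`. -/
def defFunctor (nd : NormData 𝒪)
    (𝒟 : ∀ ⦃A : Type⦄ [CommRing A] [IsLocalRing A] [Algebra 𝒪 A], GaloisRepAdic A → Prop)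
    (A : Type) [CommRing A] [IsLocalRing A] [Algebra 𝒪 A] : Set (Entry → A) :=
  {x | ∃ hx : IsLift nd x, IsNormalized nd x ∧ 𝒟 hx.toAdic}

/-- Equal points have equivalent `toAdic`. -/
theorem toAdic_isEquiv_of_eq {nd : NormData 𝒪} {A : Type} [CommRing A] [IsLocalRing A]
    [Algebra 𝒪 A] {x y : Entry → A} (hx : IsLift nd x) (hy : IsLift nd y) (h : x = y) :
    hx.toAdic.IsEquiv hy.toAdic := by
  subst h
  exact ⟨GaloisRepAdic.Equiv.refl _⟩

theorem IsNormalized.map {nd : NormData 𝒪} {A B : Type} [CommRing A] [Algebra 𝒪 A]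
    [CommRing B] [Algebra 𝒪 B] {x : Entry → A} (hx : IsNormalized nd x) (φ : A →ₐ[𝒪] B) :
    IsNormalized nd (fun ω => φ (x ω)) := by
  intro j
  show φ (x (nd.ω j)) = _
  rw [hx j, AlgHom.commutes]

theorem IsNormalized.of_map_injective {nd : NormData 𝒪} {A B : Type} [CommRing A] [Algebra 𝒪 A]
    [CommRing B] [Algebra 𝒪 B] {x : Entry → A} (φ : A →ₐ[𝒪] B) (hφ : Function.Injective φ)
    (hx : IsNormalized nd (fun ω => φ (x ω))) : IsNormalized nd x := by
  intro j
  apply hφ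
  have := hx j
  simpa [AlgHom.commutes] using this

end

section

variable {𝒪 : Type} [CommRing 𝒪] [IsDomain 𝒪] [IsDiscreteValuationRing 𝒪]
  [IsAdicComplete (maximalIdeal 𝒪) 𝒪] [Finite (ResidueField 𝒪)]

theorem residueFieldMap_dualNumber :
    letI := dualNumberAlgebra 𝒪
    ∀ [IsLocalHom (algebraMap 𝒪 (DualNumber (ResidueField 𝒪)))],
    IsLocalRing.ResidueField.map (algebraMap 𝒪 (DualNumber (ResidueField 𝒪))) =
      (residue (DualNumber (ResidueField 𝒪))).comp
        (algebraMap (ResidueField 𝒪) (DualNumber (ResidueField 𝒪))) := by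
  letI := dualNumberAlgebra 𝒪
  intro _
  ext x
  obtain ⟨a, rfl⟩ := IsLocalRing.residue_surjective x
  rfl

theorem tangent_finite_defFunctor (ρbar : ResidualGaloisRep (ResidueField 𝒪))
    (𝒟 : ∀ ⦃A : Type⦄ [CommRing A] [IsLocalRing A] [Algebra 𝒪 A], GaloisRepAdic A → Prop)
    (nd : NormData 𝒪)
    (b : Module.Basis (Fin 2) (ResidueField 𝒪) ρbar.V)
    (hc : ∀ g i j, residue 𝒪 (nd.c (g, i, j)) = LinearMap.toMatrix b b (ρbar.ρ g) i j)
    (hfin : GaloisRep.TangentFinite 𝒪 ρbar 𝒟) :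
    letI := dualNumberAlgebra 𝒪
    (defFunctor nd 𝒟 (DualNumber (ResidueField 𝒪))).Finite := by
  letI := dualNumberAlgebra 𝒪
  have hT := isArtinianTestAlgebra_dualNumber (𝒪 := 𝒪)
  haveI : IsLocalHom (algebraMap 𝒪 (DualNumber (ResidueField 𝒪))) := hT.isLocalHom
  haveI := hT.isArtinian
  rw [← Set.finite_coe_iff]
  unfold TangentFinite at hfin
  refine finite_of_quotient _ hfin
    (fun x : ↥(defFunctor nd 𝒟 (DualNumber (ResidueField 𝒪))) =>
      ⟨(Classical.choose x.2).toAdic, (Classical.choose_spec x.2).2, ?_⟩) ?_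
  · have h := toAdic_residual_isEquiv nd ρbar b hc (Classical.choose x.2)
    rw [residueFieldMap_dualNumber] at h
    exact h
  · rintro ⟨x, hx⟩ ⟨y, hy⟩ hxy
    have hxy' : (Classical.choose hx).toAdic.IsEquiv (Classical.choose hy).toAdic := hxy
    obtain ⟨g, g', hg, hg', hconj⟩ := (toAdic_isEquiv_iff (Classical.choose hx) (Classical.choose hy)).mp hxy'
    have := eq_of_conj_of_isNormalized nd hT.residue_surjective (Classical.choose hx)
      (Classical.choose hy) (Classical.choose_spec hx).1 (Classical.choose_spec hy).1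
      g g' hg hg' hconj
    exact Subtype.ext this

variable (ρbar : ResidualGaloisRep (ResidueField 𝒪))
  (𝒟 : ∀ ⦃A : Type⦄ [CommRing A] [IsLocalRing A] [Algebra 𝒪 A], GaloisRepAdic A → Prop)

/-- The functor of normalised lifts of type `𝒟` is a point functor. -/
theorem isPointFunctor_defFunctor (nd : NormData 𝒪)
    (b : Module.Basis (Fin 2) (ResidueField 𝒪) ρbar.V)
    (hc : ∀ g i j, residue 𝒪 (nd.c (g, i, j)) = LinearMap.toMatrix b b (ρbar.ρ g) i j)
    (h𝒟 : GaloisRep.IsDeformationCondition 𝒪 𝒟)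
    (hbar : 𝒟 (GaloisRepAdic.ofResidualGaloisRep ρbar))
    (hfin : GaloisRep.TangentFinite 𝒪 ρbar 𝒟) :
    IsPointFunctor 𝒪 Entry (defFunctor nd 𝒟) nd.c where
  map := by
    intro A B _ _ _ _ _ _ hA hB φ hφ x hx
    obtain ⟨hx, hn, hD⟩ := hx
    refine ⟨hx.map φ hφ, hn.map φ, ?_⟩
    exact h𝒟.of_isEquiv hB (toAdic_baseChangeAlong hx φ hφ) (h𝒟.baseChangeAlong hA hB φ hφ hD)
  of_injective := by
    intro A B _ _ _ _ _ _ hA hB φ hφ hinj x hx
    obtain ⟨hx', hn, hD⟩ := hx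
    haveI := hB.isArtinian
    have hx : IsLift nd x := IsLift.of_map_injective φ hφ hinj hx'
    refine ⟨hx, hn.of_map_injective φ hinj, ?_⟩
    apply h𝒟.of_baseChangeAlong_injective hA hB φ hφ hinj
    obtain ⟨e⟩ := toAdic_baseChangeAlong hx φ hφ
    exact h𝒟.of_isEquiv hB ⟨e.symm⟩ hD
  of_fibreProduct := by
    intro A B C P _ _ _ _ _ _ _ _ _ _ _ _ hA hB hC hP f g pA pB hpA hpB hcomp hinj hsurj x hxA hxB
    obtain ⟨hxA, hnA, hDA⟩ := hxA
    obtain ⟨hxB, hnB, hDB⟩ := hxB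
    haveI := hA.isArtinian
    haveI := hB.isArtinian
    have hx : IsLift nd x := IsLift.of_prod_injective pA pB hpA hinj hxA hxB
    have hpAinj : ∀ a b : P, pA a = pA b → pB a = pB b → a = b := fun a b h1 h2 =>
      hinj (Prod.ext h1 h2)
    refine ⟨hx, ?_, ?_⟩
    · intro j
      apply hpAinj
      · simpa [AlgHom.commutes] using hnA j
      · simpa [AlgHom.commutes] using hnB j
    · apply h𝒟.of_fibreProduct hA hB hC hP f g pA pB hpA hpB hcomp hinj hsurj
      · obtain ⟨e⟩ := toAdic_baseChangeAlong hx pA hpA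
        exact h𝒟.of_isEquiv hA ⟨e.symm⟩ hDA
      · obtain ⟨e⟩ := toAdic_baseChangeAlong hx pB hpB
        exact h𝒟.of_isEquiv hB ⟨e.symm⟩ hDB
  residue_eq := by
    intro A _ _ _ hA x hx ω
    obtain ⟨hx, -, -⟩ := hx
    exact hx.res ω
  base_mem := by
    refine ⟨isLift_residue nd, fun j => rfl, ?_⟩
    exact h𝒟.of_isEquiv isArtinianTestAlgebra_residueField
      (ofResidualGaloisRep_isEquiv nd ρbar b hc) hbar
  tangent_finite := tangent_finite_defFunctor ρbar 𝒟 nd b hc hfin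

/-- The deformation ring data built from a universal point. -/
theorem nonempty_deformationRingData_of_universalPoint (nd : NormData 𝒪)
    (b : Module.Basis (Fin 2) (ResidueField 𝒪) ρbar.V)
    (hc : ∀ g i j, residue 𝒪 (nd.c (g, i, j)) = LinearMap.toMatrix b b (ρbar.ρ g) i j)
    (habs : ρbar.IsAbsolutelyIrreducible)
    (h𝒟 : GaloisRep.IsDeformationCondition 𝒪 𝒟)
    (U : UniversalPoint 𝒪 Entry (defFunctor nd 𝒟)) :
    Nonempty (GaloisRep.DeformationRingData 𝒪 ρbar 𝒟) := by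
  -- the universal point is a normalised lift
  have hquot : ∀ (n : ℕ) (_ : n ≠ 0) (_ : IsLocalRing (U.R ⧸ maximalIdeal U.R ^ n)),
      (fun ω => (Ideal.Quotient.mk (maximalIdeal U.R ^ n)) (U.x ω)) ∈
        defFunctor nd 𝒟 (U.R ⧸ maximalIdeal U.R ^ n) := by
    intro n hn inst
    obtain ⟨inst', hA, hloc, -⟩ :=
      exists_isArtinianTestAlgebra_quotient_pow (𝒪 := 𝒪) U.R U.residue_surjective n hn
    obtain rfl : inst = inst' := Subsingleton.elim _ _
    exact U.mem_of_surjective _ hA (Ideal.Quotient.mkₐ 𝒪 (maximalIdeal U.R ^ n)) hloc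
      Ideal.Quotient.mk_surjective
  have hxR : IsLift nd U.x :=
    isLift_of_forall_quotient nd U.residue_surjective U.x fun n hn inst =>
      (hquot n hn inst).1
  have hnR : IsNormalized nd U.x :=
    isNormalized_of_forall_quotient nd U.x fun n hn => by
      obtain ⟨inst, -⟩ :=
        exists_isArtinianTestAlgebra_quotient_pow (𝒪 := 𝒪) U.R U.residue_surjective n hn
      exact (hquot n hn inst).2.1
  have hmem : ∀ (B : Type) [CommRing B] [IsLocalRing B] [Algebra 𝒪 B],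
      IsArtinianTestAlgebra 𝒪 B → ∀ (q : U.R →ₐ[𝒪] B) (hq : IsLocalHom (q : U.R →+* B)),
      Function.Surjective q → 𝒟 (hxR.toAdic.baseChangeAlong (q : U.R →+* B) hq) := by
    intro B _ _ _ hB q hq hqs
    obtain ⟨hxq, -, hD⟩ := U.mem_of_surjective B hB q hq hqs
    obtain ⟨e⟩ := toAdic_baseChangeAlong hxR q hq
    exact h𝒟.of_isEquiv hB ⟨e.symm⟩ hD
  refine ⟨{
    R := U.R
    residue_surjective := U.residue_surjective
    absIrr := habs
    ρ := hxR.toAdic
    isOfType := (h𝒟.iff_forall_surjective inferInstance U.residue_surjective hxR.toAdic).mpr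
      (fun B _ _ _ hB q hq hqs => hmem B hB q hq hqs)
    residual_isEquiv := toAdic_residual_isEquiv nd ρbar b hc hxR
    universal := ?_ }⟩
  intro A _ _ _ _ _ _ hsurjA ρA hDA hresA
  -- matrix form of `ρA`, normalised
  obtain ⟨x₀, hx₀, ⟨e₀⟩⟩ := exists_isLift_of_residual_isEquiv nd ρbar b hc hsurjA ρA hresA
  obtain ⟨h, h', hh, hh', h1, hny⟩ := exists_conj_isNormalized nd hx₀
  have hy : IsLift nd (conj h h' x₀) := hx₀.conj h h' hh hh' h1
  have hxy : hx₀.toAdic.IsEquiv hy.toAdic := by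
    rw [toAdic_isEquiv_iff]
    refine ⟨h, h', hh, hh', fun g => ?_⟩
    show h * mat x₀ g = (h * mat x₀ g * h') * h
    rw [Matrix.mul_assoc (h * mat x₀ g), hh', Matrix.mul_one]
  obtain ⟨e₁⟩ := hxy
  have eA : GaloisRepAdic.Equiv ρA hy.toAdic := e₀.trans e₁
  -- all Artinian quotients of `y` are points
  have hyF : ∀ (B : Type) [CommRing B] [IsLocalRing B] [Algebra 𝒪 B],
      IsArtinianTestAlgebra 𝒪 B → ∀ (q : A →ₐ[𝒪] B), IsLocalHom (q : A →+* B) →
      Function.Surjective q → (fun ω => q (conj h h' x₀ ω)) ∈ defFunctor nd 𝒟 B := by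
    intro B _ _ _ hB q hq hqs
    refine ⟨hy.map q hq, hny.map q, ?_⟩
    have h1 : 𝒟 (ρA.baseChangeAlong (q : A →+* B) hq) :=
      (h𝒟.iff_forall_surjective inferInstance hsurjA ρA).mp hDA hB q hq hqs
    have h2 : 𝒟 (hy.toAdic.baseChangeAlong (q : A →+* B) hq) :=
      h𝒟.of_isEquiv hB ⟨eA.baseChangeAlong (q : A →+* B) hq⟩ h1
    exact h𝒟.of_isEquiv hB (toAdic_baseChangeAlong hy q hq) h2
  obtain ⟨φ, hφ, hφx, hφuniq⟩ := U.universal A hsurjA (conj h h' x₀) hyF
  refine ⟨φ, ⟨hφ, ?_⟩, ?_⟩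
  · obtain ⟨e₂⟩ := toAdic_baseChangeAlong hxR φ hφ
    obtain ⟨e₃⟩ := toAdic_isEquiv_of_eq (hxR.map φ hφ) hy (funext hφx)
    exact ⟨(e₂.trans e₃).trans eA.symm⟩
  · rintro φ' ⟨hφ', ⟨e'⟩⟩
    apply hφuniq φ' hφ'
    obtain ⟨e₂⟩ := toAdic_baseChangeAlong hxR φ' hφ'
    have e₄ : GaloisRepAdic.Equiv (hxR.map φ' hφ').toAdic hy.toAdic :=
      (e₂.symm.trans e').trans eA
    obtain ⟨g, g', hg, hg', hconj⟩ := (toAdic_isEquiv_iff _ _).mp ⟨e₄⟩
    have := eq_of_conj_of_isNormalized nd hsurjA (hxR.map φ' hφ') hy (hnR.map φ') hny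
      g g' hg hg' hconj
    exact fun ω => congrFun this ω

/-- S53 (with explicit hypotheses). -/
theorem nonempty_deformationRingData
    (habs : ρbar.IsAbsolutelyIrreducible)
    (h𝒟 : GaloisRep.IsDeformationCondition 𝒪 𝒟)
    (hbar : 𝒟 (GaloisRepAdic.ofResidualGaloisRep ρbar))
    (hfin : GaloisRep.TangentFinite 𝒪 ρbar 𝒟) :
    Nonempty (GaloisRep.DeformationRingData 𝒪 ρbar 𝒟) := by
  obtain ⟨nd, b, hc⟩ := exists_normData ρbar habs
  obtain ⟨U⟩ := exists_universalPoint 𝒪 Entry (defFunctor nd 𝒟) nd.c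
    (isPointFunctor_defFunctor ρbar 𝒟 nd b hc h𝒟 hbar hfin)
  exact nonempty_deformationRingData_of_universalPoint ρbar 𝒟 nd b hc habs h𝒟 U

end

end Fermat.Agent.S53
end MergeWrap_S53_Assembly

section MergeWrap_S53 -- from S53.lean

set_option autoImplicit false
open GaloisRep

namespace Fermat.Agent.S53

theorem result
    (𝒪 : Type) [CommRing 𝒪] [IsDomain 𝒪] [IsDiscreteValuationRing 𝒪]
    [IsAdicComplete (IsLocalRing.maximalIdeal 𝒪) 𝒪] [Finite (IsLocalRing.ResidueField 𝒪)]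
    (ρbar : ResidualGaloisRep (IsLocalRing.ResidueField 𝒪))
    (𝒟 : ∀ ⦃A : Type⦄ [CommRing A] [IsLocalRing A] [Algebra 𝒪 A], GaloisRepAdic A → Prop)
    (habs : ρbar.IsAbsolutelyIrreducible)
    (h𝒟 : GaloisRep.IsDeformationCondition 𝒪 𝒟)
    (hbar : 𝒟 (GaloisRepAdic.ofResidualGaloisRep ρbar))
    (hfin : GaloisRep.TangentFinite 𝒪 ρbar 𝒟) :
    Nonempty (GaloisRep.DeformationRingData 𝒪 ρbar 𝒟) :=
  nonempty_deformationRingData ρbar 𝒟 habs h𝒟 hbar hfin

end Fermat.Agent.S53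
end MergeWrap_S53

section MergeWrap_S59_DefCond_TestQuot -- from S59/DefCond/TestQuot.lean

set_option autoImplicit false
set_option linter.unusedSectionVars false
set_option linter.style.haveILetI false

namespace Fermat.Agent.S59.TestQuot

open IsLocalRing GaloisRep

variable {𝒪 : Type} [CommRing 𝒪] [IsLocalRing 𝒪]

/-- A nonunit is mapped to a nonunit by a local homomorphism. -/
theorem map_mem_maximalIdeal {A B : Type} [CommRing A] [IsLocalRing A] [CommRing B] [IsLocalRing B]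
    (φ : A →+* B) (hφ : IsLocalHom φ) {a : A} (ha : a ∈ maximalIdeal A) :
    φ a ∈ maximalIdeal B := by
  rw [IsLocalRing.mem_maximalIdeal, mem_nonunits_iff] at ha ⊢
  intro hu
  exact ha (hφ.map_nonunit a hu)

/-- If the image of `a` is a nonunit, then `a` is a nonunit. -/
theorem mem_maximalIdeal_of_map {A B : Type} [CommRing A] [IsLocalRing A] [CommRing B]
    [IsLocalRing B] (φ : A →+* B) {a : A} (ha : φ a ∈ maximalIdeal B) :
    a ∈ maximalIdeal A := by
  rw [IsLocalRing.mem_maximalIdeal, mem_nonunits_iff] at ha ⊢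
  intro hu
  exact ha (hu.map φ)

/-- The maximal ideal of an Artinian local ring is nilpotent. -/
theorem exists_pow_maximalIdeal_eq_bot (A : Type) [CommRing A] [IsLocalRing A]
    [IsArtinianRing A] : ∃ n : ℕ, maximalIdeal A ^ n = ⊥ := by
  obtain ⟨n, hn⟩ := IsArtinianRing.isNilpotent_jacobson_bot (R := A)
  rw [IsLocalRing.jacobson_eq_maximalIdeal _ bot_ne_top] at hn
  exact ⟨n, hn⟩

/-- In an Artinian local ring, an element of the maximal ideal is nilpotent. -/
theorem exists_pow_eq_zero (A : Type) [CommRing A] [IsLocalRing A] [IsArtinianRing A]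
    {a : A} (ha : a ∈ maximalIdeal A) : ∃ n : ℕ, a ^ n = 0 := by
  obtain ⟨n, hn⟩ := exists_pow_maximalIdeal_eq_bot A
  refine ⟨n, ?_⟩
  have : a ^ n ∈ maximalIdeal A ^ n := Ideal.pow_mem_pow ha n
  rw [hn] at this
  exact this

/-- `𝔪^k ≠ ⊤` for `k ≠ 0`. -/
theorem maximalIdeal_pow_ne_top (A : Type) [CommRing A] [IsLocalRing A] {k : ℕ} (hk : k ≠ 0) :
    maximalIdeal A ^ k ≠ ⊤ := by
  intro h
  have hle : maximalIdeal A ^ k ≤ maximalIdeal A := Ideal.pow_le_self hk
  rw [h] at hle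
  exact (IsLocalRing.maximalIdeal.isMaximal A).ne_top (top_le_iff.1 hle)

/-- A proper quotient of a local ring is local. -/
theorem isLocalRing_quotient (A : Type) [CommRing A] [IsLocalRing A] (I : Ideal A)
    (hI : I ≠ ⊤) : IsLocalRing (A ⧸ I) :=
  haveI : Nontrivial (A ⧸ I) := Ideal.Quotient.nontrivial_iff.mpr hI
  IsLocalRing.of_surjective' (Ideal.Quotient.mk I) Ideal.Quotient.mk_surjective

/-- The quotient map onto a local quotient is a local homomorphism. -/
theorem isLocalHom_mk (A : Type) [CommRing A] [IsLocalRing A] (I : Ideal A)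
    [Nontrivial (A ⧸ I)] : IsLocalHom (Ideal.Quotient.mk I) :=
  IsLocalHom.of_surjective (Ideal.Quotient.mk I) Ideal.Quotient.mk_surjective

/-- A quotient `A ⧸ I` with `𝔪^k ≤ I ≠ ⊤` of a Noetherian local ring is Artinian. -/
theorem isArtinianRing_quotient (A : Type) [CommRing A] [IsLocalRing A] [IsNoetherianRing A]
    (I : Ideal A) (hI : I ≠ ⊤) {k : ℕ} (hk : maximalIdeal A ^ k ≤ I) :
    IsArtinianRing (A ⧸ I) := by
  haveI : IsLocalRing (A ⧸ I) := isLocalRing_quotient A I hI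
  rw [isArtinianRing_iff_isNilpotent_maximalIdeal]
  refine ⟨k, ?_⟩
  rw [Ideal.zero_eq_bot, eq_bot_iff]
  -- the maximal ideal of the quotient is the image of the maximal ideal
  have hmap : maximalIdeal (A ⧸ I) ≤ (maximalIdeal A).map (Ideal.Quotient.mk I) := by
    intro y hy
    obtain ⟨a, rfl⟩ := Ideal.Quotient.mk_surjective y
    exact Ideal.mem_map_of_mem _ (mem_maximalIdeal_of_map (Ideal.Quotient.mk I) hy)
  calc maximalIdeal (A ⧸ I) ^ k ≤ ((maximalIdeal A).map (Ideal.Quotient.mk I)) ^ k :=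
        Ideal.pow_right_mono hmap k
    _ = (maximalIdeal A ^ k).map (Ideal.Quotient.mk I) := (Ideal.map_pow _ _ _).symm
    _ ≤ I.map (Ideal.Quotient.mk I) := Ideal.map_mono hk
    _ = ⊥ := Ideal.map_quotient_self I

/-- Quotients of local `𝒪`-algebras with local structure map and `𝒪 → A/𝔪` onto, by an ideal
`𝔪^k ≤ I ≠ ⊤`, are Artinian test algebras. -/
theorem isArtinianTestAlgebra_quotient (A : Type) [CommRing A] [IsLocalRing A]
    [IsNoetherianRing A] [Algebra 𝒪 A] (h1 : IsLocalHom (algebraMap 𝒪 A))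
    (h2 : Function.Surjective (residue A ∘ algebraMap 𝒪 A)) (I : Ideal A) (hI : I ≠ ⊤)
    [IsLocalRing (A ⧸ I)] {k : ℕ} (hk : maximalIdeal A ^ k ≤ I) :
    IsArtinianTestAlgebra 𝒪 (A ⧸ I) := by
  haveI : Nontrivial (A ⧸ I) := Ideal.Quotient.nontrivial_iff.mpr hI
  have hq : IsLocalHom (Ideal.Quotient.mk I) := isLocalHom_mk A I
  refine ⟨⟨fun a ha => ?_⟩, ?_, isArtinianRing_quotient A I hI hk⟩
  · have h : IsUnit (Ideal.Quotient.mk I (algebraMap 𝒪 A a)) := ha
    exact h1.map_nonunit a (hq.map_nonunit _ h)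
  · intro y
    obtain ⟨b, rfl⟩ := IsLocalRing.residue_surjective y
    obtain ⟨a, rfl⟩ := Ideal.Quotient.mk_surjective b
    obtain ⟨c, hc⟩ := h2 (residue A a)
    refine ⟨c, ?_⟩
    have hc' : algebraMap 𝒪 A c - a ∈ maximalIdeal A := by
      rw [← IsLocalRing.residue_eq_zero_iff, map_sub, sub_eq_zero]
      exact hc
    have hmem := map_mem_maximalIdeal (Ideal.Quotient.mk I) hq hc'
    rw [map_sub, ← IsLocalRing.residue_eq_zero_iff, map_sub, sub_eq_zero] at hmem
    exact hmem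

/-- Krull's intersection theorem: in a Noetherian local ring, `⋂ₖ (I + 𝔪^k) = I`. -/
theorem mem_of_forall_mem_sup_pow (A : Type) [CommRing A] [IsLocalRing A] [IsNoetherianRing A]
    (I : Ideal A) {x : A} (hx : ∀ k : ℕ, x ∈ I ⊔ maximalIdeal A ^ k) : x ∈ I := by
  have hbot := Ideal.iInf_pow_smul_eq_bot_of_le_jacobson (M := A ⧸ I) (maximalIdeal A)
    (IsLocalRing.maximalIdeal_le_jacobson _)
  have hmem : (Ideal.Quotient.mk I x : A ⧸ I) ∈
      (⨅ i : ℕ, maximalIdeal A ^ i • ⊤ : Submodule A (A ⧸ I)) := by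
    rw [Submodule.mem_iInf]
    intro k
    obtain ⟨i, hi, y, hy, rfl⟩ := Submodule.mem_sup.mp (hx k)
    have h0 : (Ideal.Quotient.mk I (i + y) : A ⧸ I) = y • (1 : A ⧸ I) := by
      rw [map_add, Ideal.Quotient.eq_zero_iff_mem.mpr hi, zero_add, Algebra.smul_def, mul_one]
      rfl
    rw [h0]
    exact Submodule.smul_mem_smul hy Submodule.mem_top
  rw [hbot, Submodule.mem_bot] at hmem
  exact Ideal.Quotient.eq_zero_iff_mem.mp hmem

/-- Krull's intersection theorem, `I = ⊥`. -/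
theorem eq_zero_of_forall_mem_pow (A : Type) [CommRing A] [IsLocalRing A] [IsNoetherianRing A]
    {x : A} (hx : ∀ k : ℕ, x ∈ maximalIdeal A ^ k) : x = 0 := by
  have := mem_of_forall_mem_sup_pow A ⊥ (x := x) (fun k => by rw [bot_sup_eq]; exact hx k)
  exact (Submodule.mem_bot A).mp this

end Fermat.Agent.S59.TestQuot
end MergeWrap_S59_DefCond_TestQuot

section MergeWrap_S59_DefCond_Det -- from S59/DefCond/Det.lean

set_option autoImplicit false
set_option linter.unusedSectionVars false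
set_option linter.style.haveILetI false

namespace Fermat.Agent.S59

open IsLocalRing GaloisRep

local notation "Γℚ" => (AlgebraicClosure ℚ ≃ₐ[ℚ] AlgebraicClosure ℚ)

/-! ### Determinants and base change -/

/-- The determinant commutes with `baseChangeAlong`. -/
theorem detCond_det_baseChangeAlong {A B : Type} [CommRing A] [IsLocalRing A] [CommRing B]
    [IsLocalRing B] (φ : A →+* B) (hφ : IsLocalHom φ) (ρ : GaloisRepAdic A) (σ : Γℚ) :
    LinearMap.det ((ρ.baseChangeAlong φ hφ).ρ σ) = φ (LinearMap.det (ρ.ρ σ)) := by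
  letI : Algebra A B := φ.toAlgebra
  exact LinearMap.det_baseChange (A := B) (ρ.ρ σ)

/-- The determinant is invariant under equivalence. -/
theorem detCond_det_of_equiv {A : Type} [CommRing A] [IsLocalRing A] {ρ ρ' : GaloisRepAdic A}
    (e : GaloisRepAdic.Equiv ρ ρ') (σ : Γℚ) :
    LinearMap.det (ρ'.ρ σ) = LinearMap.det (ρ.ρ σ) := by
  have h : ρ'.ρ σ = (e.toLinearEquiv : ρ.V →ₗ[A] ρ'.V) ∘ₗ ρ.ρ σ ∘ₗ
      (e.toLinearEquiv.symm : ρ'.V →ₗ[A] ρ.V) := by
    refine LinearMap.ext fun y => ?_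
    simp only [LinearMap.comp_apply, LinearEquiv.coe_coe]
    rw [e.map_apply, LinearEquiv.apply_symm_apply]
  rw [h, LinearMap.det_conj]

/-! ### Roots of unity in `ℚ̄` -/

/-- Every automorphism acts on `μ_{p^N}` as a power map. -/
theorem detCond_exists_pow (p N : ℕ) [Fact p.Prime] (σ : Γℚ) :
    ∃ a : ℕ, ∀ μ : AlgebraicClosure ℚ, μ ^ p ^ N = 1 → σ μ = μ ^ a := by
  haveI : NeZero (p ^ N) := ⟨pow_ne_zero _ (Fact.out : p.Prime).ne_zero⟩
  haveI : NeZero ((p ^ N : ℕ) : AlgebraicClosure ℚ) :=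
    ⟨Nat.cast_ne_zero.mpr (pow_ne_zero _ (Fact.out : p.Prime).ne_zero)⟩
  obtain ⟨ζ, hζ⟩ := HasEnoughRootsOfUnity.exists_primitiveRoot (AlgebraicClosure ℚ) (p ^ N)
  have hσζ : (σ ζ) ^ (p ^ N) = 1 := by rw [← map_pow, hζ.pow_eq_one, map_one]
  obtain ⟨a, -, ha⟩ := hζ.eq_pow_of_pow_eq_one hσζ
  refine ⟨a, fun μ hμ => ?_⟩
  obtain ⟨j, -, rfl⟩ := hζ.eq_pow_of_pow_eq_one hμ
  rw [map_pow, ← ha, ← pow_mul, ← pow_mul, mul_comm]

/-- Two exponents describing the action of `σ` on `μ_{p^n}` are congruent modulo `p^n`. -/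
theorem detCond_modEq (p n : ℕ) [Fact p.Prime] (σ : Γℚ) {a a' : ℕ}
    (ha : ∀ μ : AlgebraicClosure ℚ, μ ^ p ^ n = 1 → σ μ = μ ^ a)
    (ha' : ∀ μ : AlgebraicClosure ℚ, μ ^ p ^ n = 1 → σ μ = μ ^ a') :
    a ≡ a' [MOD p ^ n] := by
  haveI : NeZero (p ^ n) := ⟨pow_ne_zero _ (Fact.out : p.Prime).ne_zero⟩
  obtain ⟨ζ, hζ⟩ := HasEnoughRootsOfUnity.exists_primitiveRoot (AlgebraicClosure ℚ) (p ^ n)
  have h : ζ ^ a = ζ ^ a' := by rw [← ha ζ hζ.pow_eq_one, ← ha' ζ hζ.pow_eq_one]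
  have hu : IsUnit ζ := hζ.isUnit (NeZero.ne _)
  have h' : hu.unit ^ a = hu.unit ^ a' := Units.ext (by simpa using h)
  have h2 := pow_eq_pow_iff_modEq.mp h'
  rwa [← orderOf_units, IsUnit.unit_spec, ← hζ.eq_orderOf] at h2

/-- Congruent natural numbers differ by a multiple in any ring. -/
theorem detCond_cast_sub_mem {A : Type} [CommRing A] {m a a' : ℕ} (h : a ≡ a' [MOD m]) :
    (a : A) - (a' : A) ∈ Ideal.span {((m : ℕ) : A)} := by
  have h2 : (m : ℤ) ∣ (a : ℤ) - (a' : ℤ) := by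
    have := (Int.natCast_modEq_iff.mpr h).symm.dvd
    exact this
  obtain ⟨c, hc⟩ := h2
  rw [Ideal.mem_span_singleton]
  refine ⟨(c : A), ?_⟩
  have : ((a : ℤ) : A) - ((a' : ℤ) : A) = ((m : ℤ) : A) * (c : A) := by
    rw [← Int.cast_sub, hc, Int.cast_mul]
  simpa using this

/-! ### The equality reformulation -/

/-- The equality form of the determinant condition at level `N`. -/
def DetEqAt {A : Type} [CommRing A] [IsLocalRing A] (ρ : GaloisRepAdic A) (p N : ℕ) : Prop :=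
  ∀ (σ : Γℚ) (a : ℕ), (∀ μ : AlgebraicClosure ℚ, μ ^ p ^ N = 1 → σ μ = μ ^ a) →
    LinearMap.det (ρ.ρ σ) = (a : A)

/-- If `p ^ N = 0` in `A`, the determinant condition implies the equality form at level `N`. -/
theorem detEqAt_of_detIsCyclotomic {A : Type} [CommRing A] [IsLocalRing A] {ρ : GaloisRepAdic A}
    {p N : ℕ} (hN : ((p ^ N : ℕ) : A) = 0) (h : ρ.DetIsCyclotomic p) : DetEqAt ρ p N := by
  intro σ a ha
  have := h.2 N σ a ha
  rw [hN, Ideal.span_singleton_zero, Ideal.mem_bot, sub_eq_zero] at this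
  exact this

/-- The equality form at some level implies the determinant condition. -/
theorem detIsCyclotomic_of_detEqAt {A : Type} [CommRing A] [IsLocalRing A] {ρ : GaloisRepAdic A}
    {p N : ℕ} [Fact p.Prime] (hp : (p : A) ∈ maximalIdeal A) (h : DetEqAt ρ p N) :
    ρ.DetIsCyclotomic p := by
  refine ⟨hp, fun n σ a ha => ?_⟩
  obtain ⟨a', ha'⟩ := detCond_exists_pow p (max n N) σ
  have hsub : ∀ k : ℕ, k ≤ max n N → ∀ μ : AlgebraicClosure ℚ, μ ^ p ^ k = 1 → σ μ = μ ^ a' := by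
    intro k hk μ hμ
    refine ha' μ ?_
    obtain ⟨d, hd⟩ := Nat.exists_eq_add_of_le hk
    rw [hd, pow_add, pow_mul, hμ, one_pow]
  rw [h σ a' (hsub N (le_max_right _ _))]
  exact detCond_cast_sub_mem (detCond_modEq p n σ (hsub n (le_max_left _ _)) ha)

/-- In an Artinian local ring with `p ∈ 𝔪`, some power of `p` vanishes. -/
theorem detCond_exists_pow_eq_zero {A : Type} [CommRing A] [IsLocalRing A] [IsArtinianRing A]
    {p : ℕ} (hp : (p : A) ∈ maximalIdeal A) : ∃ N : ℕ, ((p ^ N : ℕ) : A) = 0 := by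
  obtain ⟨N, hN⟩ := TestQuot.exists_pow_eq_zero A hp
  exact ⟨N, by rw [Nat.cast_pow, hN]⟩

/-- Vanishing of `p^N` persists for larger exponents. -/
theorem detCond_pow_eq_zero_of_le {A : Type} [CommRing A] {p N M : ℕ}
    (hN : ((p ^ N : ℕ) : A) = 0) (h : N ≤ M) : ((p ^ M : ℕ) : A) = 0 := by
  obtain ⟨d, rfl⟩ := Nat.exists_eq_add_of_le h
  rw [pow_add, Nat.cast_mul, hN, zero_mul]

/-- The equality form passes to larger levels. -/
theorem DetEqAt.of_le {A : Type} [CommRing A] [IsLocalRing A] {ρ : GaloisRepAdic A}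
    {p N M : ℕ} (h : DetEqAt ρ p N) (hNM : N ≤ M) : DetEqAt ρ p M := by
  intro σ a ha
  refine h σ a fun μ hμ => ha μ ?_
  obtain ⟨d, rfl⟩ := Nat.exists_eq_add_of_le hNM
  rw [pow_add, pow_mul, hμ, one_pow]

/-! ### Base change of the condition -/

/-- The determinant condition is stable under base change along any local homomorphism. -/
theorem detIsCyclotomic_baseChangeAlong {A B : Type} [CommRing A] [IsLocalRing A] [CommRing B]
    [IsLocalRing B] (φ : A →+* B) (hφ : IsLocalHom φ) {ρ : GaloisRepAdic A} {p : ℕ}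
    (h : ρ.DetIsCyclotomic p) : (ρ.baseChangeAlong φ hφ).DetIsCyclotomic p := by
  refine ⟨?_, fun n σ a ha => ?_⟩
  · have := TestQuot.map_mem_maximalIdeal φ hφ h.1
    rwa [map_natCast] at this
  · rw [detCond_det_baseChangeAlong]
    have h1 := h.2 n σ a ha
    rw [Ideal.mem_span_singleton] at h1 ⊢
    obtain ⟨c, hc⟩ := h1
    refine ⟨φ c, ?_⟩
    rw [← map_natCast φ a, ← map_sub, hc, map_mul, map_natCast]

/-- The equality form descends along an injective homomorphism. -/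
theorem detEqAt_of_baseChangeAlong_injective {A B : Type} [CommRing A] [IsLocalRing A]
    [CommRing B] [IsLocalRing B] (φ : A →+* B) (hφ : IsLocalHom φ)
    (hinj : Function.Injective φ) {ρ : GaloisRepAdic A} {p N : ℕ}
    (h : DetEqAt (ρ.baseChangeAlong φ hφ) p N) : DetEqAt ρ p N := by
  intro σ a ha
  apply hinj
  rw [← detCond_det_baseChangeAlong φ hφ, h σ a ha, map_natCast]

/-! ### The theorem -/

theorem condDet_isDeformationCondition (𝒪 : Type) [CommRing 𝒪] [IsLocalRing 𝒪]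
    (p : ℕ) [Fact p.Prime] :
    GaloisRep.IsDeformationCondition 𝒪 (condDet 𝒪 p) where
  of_isEquiv := by
    intro A _ _ _ _ ρ ρ' he hρ
    obtain ⟨e⟩ := he
    refine ⟨hρ.1, fun n σ a ha => ?_⟩
    rw [detCond_det_of_equiv e]
    exact hρ.2 n σ a ha
  baseChangeAlong := by
    intro A B _ _ _ _ _ _ _ _ φ hφ ρ hρ
    exact detIsCyclotomic_baseChangeAlong (φ : A →+* B) hφ hρ
  of_baseChangeAlong_injective := by
    intro A B _ _ _ _ _ _ _ hB φ hφ hinj ρ hρ
    haveI := hB.isArtinian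
    obtain ⟨N, hN⟩ := detCond_exists_pow_eq_zero hρ.1
    have hpA : (p : A) ∈ maximalIdeal A := by
      refine TestQuot.mem_maximalIdeal_of_map (φ : A →+* B) ?_
      rw [map_natCast]
      exact hρ.1
    exact detIsCyclotomic_of_detEqAt hpA
      (detEqAt_of_baseChangeAlong_injective (φ : A →+* B) hφ hinj
        (detEqAt_of_detIsCyclotomic hN hρ))
  of_fibreProduct := by
    intro A B C P _ _ _ _ _ _ _ _ _ _ _ _ hA hB _ _ f g pA pB hpA hpB _ hinj _ ρ h1 h2
    haveI := hA.isArtinian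
    haveI := hB.isArtinian
    obtain ⟨N₁, hN₁⟩ := detCond_exists_pow_eq_zero h1.1
    obtain ⟨N₂, hN₂⟩ := detCond_exists_pow_eq_zero h2.1
    have hpP : (p : P) ∈ maximalIdeal P := by
      refine TestQuot.mem_maximalIdeal_of_map (pA : P →+* A) ?_
      rw [map_natCast]
      exact h1.1
    have e1 := (detEqAt_of_detIsCyclotomic hN₁ h1).of_le (le_max_left N₁ N₂)
    have e2 := (detEqAt_of_detIsCyclotomic hN₂ h2).of_le (le_max_right N₁ N₂)
    refine detIsCyclotomic_of_detEqAt (N := max N₁ N₂) hpP fun σ a ha => ?_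
    apply hinj
    show (pA (LinearMap.det (ρ.ρ σ)), pB (LinearMap.det (ρ.ρ σ))) = (pA (a : P), pB (a : P))
    have q1 := e1 σ a ha
    have q2 := e2 σ a ha
    rw [detCond_det_baseChangeAlong] at q1 q2
    rw [map_natCast, map_natCast]
    exact Prod.ext q1 q2
  iff_forall_surjective := by
    intro A _ _ _ _ _ hloc hres ρ
    constructor
    · intro hρ B _ _ _ _ q hq _
      exact detIsCyclotomic_baseChangeAlong (q : A →+* B) hq hρ
    · intro H
      -- the quotients `A ⧸ 𝔪^k`, `k ≠ 0`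
      have key : ∀ k : ℕ, k ≠ 0 →
          (p : A) ∈ maximalIdeal A ∧ ∀ (n : ℕ) (σ : Γℚ) (a : ℕ),
            (∀ μ : AlgebraicClosure ℚ, μ ^ p ^ n = 1 → σ μ = μ ^ a) →
            LinearMap.det (ρ.ρ σ) - (a : A) ∈
              Ideal.span {((p ^ n : ℕ) : A)} ⊔ maximalIdeal A ^ k := by
        intro k hk
        have hne : maximalIdeal A ^ k ≠ ⊤ := TestQuot.maximalIdeal_pow_ne_top A hk
        haveI : IsLocalRing (A ⧸ maximalIdeal A ^ k) := TestQuot.isLocalRing_quotient A _ hne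
        haveI : Nontrivial (A ⧸ maximalIdeal A ^ k) := Ideal.Quotient.nontrivial_iff.mpr hne
        have hT : IsArtinianTestAlgebra 𝒪 (A ⧸ maximalIdeal A ^ k) :=
          TestQuot.isArtinianTestAlgebra_quotient A hloc hres _ hne le_rfl
        have hq : IsLocalHom ((Ideal.Quotient.mkₐ 𝒪 (maximalIdeal A ^ k) :
            A →ₐ[𝒪] A ⧸ maximalIdeal A ^ k) : A →+* A ⧸ maximalIdeal A ^ k) :=
          TestQuot.isLocalHom_mk A _
        have h := H hT (Ideal.Quotient.mkₐ 𝒪 (maximalIdeal A ^ k)) hq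
          (Ideal.Quotient.mkₐ_surjective 𝒪 _)
        refine ⟨?_, fun n σ a ha => ?_⟩
        · refine TestQuot.mem_maximalIdeal_of_map (Ideal.Quotient.mk (maximalIdeal A ^ k)) ?_
          rw [map_natCast]
          exact h.1
        · have h2 := h.2 n σ a ha
          rw [detCond_det_baseChangeAlong] at h2
          rw [Ideal.mem_span_singleton] at h2
          obtain ⟨c, hc⟩ := h2
          obtain ⟨c', rfl⟩ := Ideal.Quotient.mk_surjective c
          have h3 : Ideal.Quotient.mk (maximalIdeal A ^ k)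
              (LinearMap.det (ρ.ρ σ) - (a : A) - ((p ^ n : ℕ) : A) * c') = 0 := by
            rw [map_sub, map_sub, map_mul, map_natCast, map_natCast, sub_eq_zero]
            exact hc
          rw [Ideal.Quotient.eq_zero_iff_mem] at h3
          have h4 : LinearMap.det (ρ.ρ σ) - (a : A) =
              ((p ^ n : ℕ) : A) * c' +
                (LinearMap.det (ρ.ρ σ) - (a : A) - ((p ^ n : ℕ) : A) * c') := by ring
          rw [h4]
          exact Submodule.add_mem_sup (Ideal.mem_span_singleton.mpr ⟨c', rfl⟩) h3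
      refine ⟨(key 1 one_ne_zero).1, fun n σ a ha => ?_⟩
      refine TestQuot.mem_of_forall_mem_sup_pow A _ fun k => ?_
      rcases Nat.eq_zero_or_pos k with rfl | hk
      · rw [pow_zero, Ideal.one_eq_top, sup_top_eq]
        exact Submodule.mem_top
      · exact (key k hk.ne').2 n σ a ha

end Fermat.Agent.S59
end MergeWrap_S59_DefCond_Det

section MergeWrap_S59_DefCond_Unr -- from S59/DefCond/Unr.lean

set_option autoImplicit false
set_option linter.style.haveILetI false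

namespace Fermat.Agent.S59

open IsLocalRing TensorProduct

/-- If the base change of `f` along `φ` is the identity, then `φ` kills all coordinates of
`f v - v`. -/
theorem unr_coord_of_baseChange_eq_one {A B : Type} [CommRing A] [CommRing B] (φ : A →+* B)
    {V : Type} [AddCommGroup V] [Module A V] {ι : Type} (b : Module.Basis ι A V)
    (f : Module.End A V)
    (h : letI : Algebra A B := φ.toAlgebra; f.baseChange B = 1) (v : V) (i : ι) :
    φ (b.repr (f v - v) i) = 0 := by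
  letI : Algebra A B := φ.toAlgebra
  have h1 : (1 : B) ⊗ₜ[A] (f v - v) = 0 := by
    have h2 := congrArg (fun g : Module.End B (B ⊗[A] V) => g ((1 : B) ⊗ₜ[A] v)) h
    simp only [LinearMap.baseChange_tmul, Module.End.one_apply] at h2
    rw [TensorProduct.tmul_sub, h2, sub_self]
  have h3 := congrArg (fun w => (b.baseChange B).repr w i) h1
  simp only [Module.Basis.baseChange_repr_tmul, map_zero, Finsupp.coe_zero, Pi.zero_apply] at h3
  rw [Algebra.smul_def, mul_one] at h3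
  exact h3

/-- An endomorphism all of whose `f v - v` have zero coordinates is the identity. -/
theorem unr_eq_one_of_coord {A : Type} [CommRing A]
    {V : Type} [AddCommGroup V] [Module A V] {ι : Type} (b : Module.Basis ι A V)
    (f : Module.End A V) (h : ∀ v i, b.repr (f v - v) i = 0) : f = 1 := by
  refine LinearMap.ext fun v => ?_
  rw [Module.End.one_apply, ← sub_eq_zero]
  apply b.repr.injective
  rw [map_zero]
  exact Finsupp.ext fun i => h v i

/-- The condition "`ρ σ = 1` for all `σ ∈ T`". -/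
def condTrivialOn (𝒪 : Type) [CommRing 𝒪]
    (T : Set (AlgebraicClosure ℚ ≃ₐ[ℚ] AlgebraicClosure ℚ)) :
    ∀ ⦃A : Type⦄ [CommRing A] [IsLocalRing A] [Algebra 𝒪 A], GaloisRepAdic A → Prop :=
  fun _A _ _ _ ρ => ∀ σ ∈ T, ρ.ρ σ = 1

/-- Triviality at `σ` is preserved by base change. -/
theorem condTrivialOn_baseChangeAlong {A B : Type} [CommRing A] [IsLocalRing A]
    [CommRing B] [IsLocalRing B] (φ : A →+* B) (hφ : IsLocalHom φ) (ρ : GaloisRepAdic A)
    (σ : AlgebraicClosure ℚ ≃ₐ[ℚ] AlgebraicClosure ℚ) (h : ρ.ρ σ = 1) :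
    (ρ.baseChangeAlong φ hφ).ρ σ = 1 := by
  letI : Algebra A B := φ.toAlgebra
  show (ρ.ρ σ).baseChange B = 1
  rw [h, LinearMap.baseChange_one]

/-- If the base change of `ρ` along `φ` is trivial at `σ`, then `φ` kills the coordinates of
`ρ σ v - v`. -/
theorem condTrivialOn_coord {A B : Type} [CommRing A] [IsLocalRing A]
    [CommRing B] [IsLocalRing B] (φ : A →+* B) (hφ : IsLocalHom φ) (ρ : GaloisRepAdic A)
    (σ : AlgebraicClosure ℚ ≃ₐ[ℚ] AlgebraicClosure ℚ)
    (h : (ρ.baseChangeAlong φ hφ).ρ σ = 1) (v : ρ.V)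
    (i : Module.Free.ChooseBasisIndex A ρ.V) :
    φ ((Module.Free.chooseBasis A ρ.V).repr (ρ.ρ σ v - v) i) = 0 :=
  unr_coord_of_baseChange_eq_one φ (Module.Free.chooseBasis A ρ.V) (ρ.ρ σ) h v i

/-- "`ρ σ = 1` for all `σ ∈ T`" is a deformation condition. -/
theorem isDeformationCondition_trivialOn (𝒪 : Type) [CommRing 𝒪] [IsLocalRing 𝒪]
    (T : Set (AlgebraicClosure ℚ ≃ₐ[ℚ] AlgebraicClosure ℚ)) :
    GaloisRep.IsDeformationCondition 𝒪 (condTrivialOn 𝒪 T) where
  of_isEquiv := by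
    intro A _ _ _ _ ρ ρ' ⟨e⟩ hρ σ hσ
    refine LinearMap.ext fun y => ?_
    obtain ⟨x, rfl⟩ := e.toLinearEquiv.surjective y
    rw [← e.map_apply, hρ σ hσ, Module.End.one_apply, Module.End.one_apply]
  baseChangeAlong := by
    intro A B _ _ _ _ _ _ _ _ φ hφ ρ hρ σ hσ
    exact condTrivialOn_baseChangeAlong _ hφ ρ σ (hρ σ hσ)
  of_baseChangeAlong_injective := by
    intro A B _ _ _ _ _ _ _ _ φ hφ hinj ρ hρ σ hσ
    refine unr_eq_one_of_coord (Module.Free.chooseBasis A ρ.V) _ fun v i => ?_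
    have h := condTrivialOn_coord _ hφ ρ σ (hρ σ hσ) v i
    apply hinj
    rw [map_zero]
    exact h
  of_fibreProduct := by
    intro A B C P _ _ _ _ _ _ _ _ _ _ _ _ _ _ _ _ f g pA pB hpA hpB _ hinj _ ρ h1 h2 σ hσ
    refine unr_eq_one_of_coord (Module.Free.chooseBasis P ρ.V) _ fun v i => ?_
    have hA := condTrivialOn_coord _ hpA ρ σ (h1 σ hσ) v i
    have hB := condTrivialOn_coord _ hpB ρ σ (h2 σ hσ) v i
    apply hinj
    show (pA _, pB _) = (pA 0, pB 0)
    rw [map_zero, map_zero]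
    exact Prod.ext hA hB
  iff_forall_surjective := by
    intro A _ _ _ _ _ hloc hres ρ
    constructor
    · intro hρ B _ _ _ _ q hq _ σ hσ
      exact condTrivialOn_baseChangeAlong _ hq ρ σ (hρ σ hσ)
    · intro H σ hσ
      refine unr_eq_one_of_coord (Module.Free.chooseBasis A ρ.V) _ fun v i => ?_
      refine TestQuot.eq_zero_of_forall_mem_pow A fun n => ?_
      rcases Nat.eq_zero_or_pos n with rfl | hn
      · rw [pow_zero, Ideal.one_eq_top]; exact Submodule.mem_top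
      · have hne : maximalIdeal A ^ n ≠ ⊤ := TestQuot.maximalIdeal_pow_ne_top A hn.ne'
        haveI : IsLocalRing (A ⧸ maximalIdeal A ^ n) := TestQuot.isLocalRing_quotient A _ hne
        have hB : GaloisRep.IsArtinianTestAlgebra 𝒪 (A ⧸ maximalIdeal A ^ n) :=
          TestQuot.isArtinianTestAlgebra_quotient A hloc hres _ hne le_rfl
        have hq : IsLocalHom ((Ideal.Quotient.mkₐ 𝒪 (maximalIdeal A ^ n) :
            A →ₐ[𝒪] A ⧸ maximalIdeal A ^ n) : A →+* A ⧸ maximalIdeal A ^ n) :=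
          TestQuot.isLocalHom_mk A _
        have h := H hB (Ideal.Quotient.mkₐ 𝒪 (maximalIdeal A ^ n)) hq
          (Ideal.Quotient.mkₐ_surjective 𝒪 _) σ hσ
        have h' := condTrivialOn_coord _ hq ρ σ h v i
        exact Ideal.Quotient.eq_zero_iff_mem.mp h'

theorem condUnr_isDeformationCondition (𝒪 : Type) [CommRing 𝒪] [IsLocalRing 𝒪]
    (S : Finset ℕ) :
    GaloisRep.IsDeformationCondition 𝒪 (condUnr 𝒪 S) := by
  refine isDeformationCondition_congr (𝒟 := condTrivialOn 𝒪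
    {σ | ∃ q : ℕ, q.Prime ∧ q ∉ S ∧ ∃ P : ValuationSubring (AlgebraicClosure ℚ),
      P.LiesOverPrime q ∧ σ ∈ P.inertiaSubgroupIn ℚ}) ?_
    (isDeformationCondition_trivialOn 𝒪 _)
  intro A _ _ _ ρ
  constructor
  · intro h q hq hqS P hP σ hσ
    exact h σ ⟨q, hq, hqS, P, hP, hσ⟩
  · rintro h σ ⟨q, hq, hqS, P, hP, hσ⟩
    exact h q hq hqS P hP σ hσ

end Fermat.Agent.S59
end MergeWrap_S59_DefCond_Unr

section MergeWrap_S59_DefCond_Unip -- from S59/DefCond/Unip.lean

set_option autoImplicit false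
set_option linter.unusedSectionVars false
set_option linter.style.haveILetI false

namespace Fermat.Agent.S59

open IsLocalRing GaloisRep Polynomial

local notation "Γℚ" => (AlgebraicClosure ℚ ≃ₐ[ℚ] AlgebraicClosure ℚ)

/-- The characteristic polynomial commutes with `baseChangeAlong`. -/
theorem unipCond_charpoly_baseChangeAlong {A B : Type} [CommRing A] [IsLocalRing A] [CommRing B]
    [IsLocalRing B] (φ : A →+* B) (hφ : IsLocalHom φ) (ρ : GaloisRepAdic A) (σ : Γℚ) :
    LinearMap.charpoly ((ρ.baseChangeAlong φ hφ).ρ σ) = (LinearMap.charpoly (ρ.ρ σ)).map φ := by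
  letI : Algebra A B := φ.toAlgebra
  exact LinearMap.charpoly_baseChange (A := B) (ρ.ρ σ)

/-- The characteristic polynomial is invariant under equivalence. -/
theorem unipCond_charpoly_of_equiv {A : Type} [CommRing A] [IsLocalRing A]
    {ρ ρ' : GaloisRepAdic A} (e : GaloisRepAdic.Equiv ρ ρ') (σ : Γℚ) :
    LinearMap.charpoly (ρ'.ρ σ) = LinearMap.charpoly (ρ.ρ σ) := by
  have h : ρ'.ρ σ = e.toLinearEquiv.conj (ρ.ρ σ) := by
    refine LinearMap.ext fun y => ?_
    rw [LinearEquiv.conj_apply]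
    simp only [LinearMap.comp_apply, LinearEquiv.coe_coe]
    rw [e.map_apply, LinearEquiv.apply_symm_apply]
  rw [h, LinearEquiv.charpoly_conj]

/-- `(X - 1)^2` is preserved by `Polynomial.map`. -/
theorem unipCond_map_sq {A B : Type} [CommRing A] [CommRing B] (φ : A →+* B) :
    ((X - 1 : A[X]) ^ 2).map φ = (X - 1 : B[X]) ^ 2 := by
  simp

/-- Base change of unipotency of a single element. -/
theorem unipCond_baseChangeAlong {A B : Type} [CommRing A] [IsLocalRing A] [CommRing B]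
    [IsLocalRing B] (φ : A →+* B) (hφ : IsLocalHom φ) {ρ : GaloisRepAdic A} {σ : Γℚ}
    (h : LinearMap.charpoly (ρ.ρ σ) = (X - 1) ^ 2) :
    LinearMap.charpoly ((ρ.baseChangeAlong φ hφ).ρ σ) = (X - 1) ^ 2 := by
  rw [unipCond_charpoly_baseChangeAlong, h, unipCond_map_sq]

/-- Injective descent of unipotency of a single element. -/
theorem unipCond_of_baseChangeAlong_injective {A B : Type} [CommRing A] [IsLocalRing A]
    [CommRing B] [IsLocalRing B] (φ : A →+* B) (hφ : IsLocalHom φ) (hinj : Function.Injective φ)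
    {ρ : GaloisRepAdic A} {σ : Γℚ}
    (h : LinearMap.charpoly ((ρ.baseChangeAlong φ hφ).ρ σ) = (X - 1) ^ 2) :
    LinearMap.charpoly (ρ.ρ σ) = (X - 1) ^ 2 := by
  apply Polynomial.map_injective φ hinj
  rw [← unipCond_charpoly_baseChangeAlong φ hφ, h, unipCond_map_sq]

/-- Descent of unipotency of a single element to a fibre product. -/
theorem unipCond_of_fibreProduct {A B P : Type} [CommRing A] [IsLocalRing A]
    [CommRing B] [IsLocalRing B] [CommRing P] [IsLocalRing P] (pA : P →+* A) (pB : P →+* B)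
    (hpA : IsLocalHom pA) (hpB : IsLocalHom pB)
    (hinj : Function.Injective (fun x => (pA x, pB x)))
    {ρ : GaloisRepAdic P} {σ : Γℚ}
    (h1 : LinearMap.charpoly ((ρ.baseChangeAlong pA hpA).ρ σ) = (X - 1) ^ 2)
    (h2 : LinearMap.charpoly ((ρ.baseChangeAlong pB hpB).ρ σ) = (X - 1) ^ 2) :
    LinearMap.charpoly (ρ.ρ σ) = (X - 1) ^ 2 := by
  rw [unipCond_charpoly_baseChangeAlong, ← unipCond_map_sq pA] at h1
  rw [unipCond_charpoly_baseChangeAlong, ← unipCond_map_sq pB] at h2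
  refine Polynomial.ext fun n => hinj ?_
  have e1 := congrArg (fun f => f.coeff n) h1
  have e2 := congrArg (fun f => f.coeff n) h2
  simp only [Polynomial.coeff_map] at e1 e2
  exact Prod.ext e1 e2

/-- Krull: unipotency of a single element modulo all `𝔪^k` implies unipotency. -/
theorem unipCond_of_forall_quotient {A : Type} [CommRing A] [IsLocalRing A] [IsNoetherianRing A]
    {ρ : GaloisRepAdic A} {σ : Γℚ}
    (h : ∀ k : ℕ, k ≠ 0 → (LinearMap.charpoly (ρ.ρ σ)).map (Ideal.Quotient.mk (maximalIdeal A ^ k))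
      = (X - 1) ^ 2) :
    LinearMap.charpoly (ρ.ρ σ) = (X - 1) ^ 2 := by
  refine Polynomial.ext fun n => ?_
  rw [← sub_eq_zero]
  refine TestQuot.eq_zero_of_forall_mem_pow A fun k => ?_
  rcases Nat.eq_zero_or_pos k with rfl | hk
  · rw [pow_zero, Ideal.one_eq_top]
    exact Submodule.mem_top
  · have e := congrArg (fun f => f.coeff n) (h k hk.ne')
    rw [← unipCond_map_sq (Ideal.Quotient.mk (maximalIdeal A ^ k))] at e
    simp only [Polynomial.coeff_map] at e
    rw [← Ideal.Quotient.eq_zero_iff_mem, map_sub, sub_eq_zero]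
    exact e

theorem condUnip_isDeformationCondition (𝒪 : Type) [CommRing 𝒪] [IsLocalRing 𝒪]
    (p : ℕ) (Smin : Finset ℕ) :
    GaloisRep.IsDeformationCondition 𝒪 (condUnip 𝒪 p Smin) where
  of_isEquiv := by
    intro A _ _ _ _ ρ ρ' he hρ q hq hqp hqne P hP σ hσ
    obtain ⟨e⟩ := he
    rw [unipCond_charpoly_of_equiv e]
    exact hρ q hq hqp hqne P hP σ hσ
  baseChangeAlong := by
    intro A B _ _ _ _ _ _ _ _ φ hφ ρ hρ q hq hqp hqne P hP σ hσ
    exact unipCond_baseChangeAlong (φ : A →+* B) hφ (hρ q hq hqp hqne P hP σ hσ)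
  of_baseChangeAlong_injective := by
    intro A B _ _ _ _ _ _ _ _ φ hφ hinj ρ hρ q hq hqp hqne P hP σ hσ
    exact unipCond_of_baseChangeAlong_injective (φ : A →+* B) hφ hinj
      (hρ q hq hqp hqne P hP σ hσ)
  of_fibreProduct := by
    intro A B C P _ _ _ _ _ _ _ _ _ _ _ _ _ _ _ _ f g pA pB hpA hpB _ hinj _ ρ h1 h2
      q hq hqp hqne P' hP σ hσ
    exact unipCond_of_fibreProduct (pA : P →+* A) (pB : P →+* B) hpA hpB hinj
      (h1 q hq hqp hqne P' hP σ hσ) (h2 q hq hqp hqne P' hP σ hσ)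
  iff_forall_surjective := by
    intro A _ _ _ _ _ hloc hres ρ
    constructor
    · intro hρ B _ _ _ _ φ hφ _ q hq hqp hqne P hP σ hσ
      exact unipCond_baseChangeAlong (φ : A →+* B) hφ (hρ q hq hqp hqne P hP σ hσ)
    · intro H q hq hqp hqne P hP σ hσ
      refine unipCond_of_forall_quotient fun k hk => ?_
      have hne : maximalIdeal A ^ k ≠ ⊤ := TestQuot.maximalIdeal_pow_ne_top A hk
      haveI : IsLocalRing (A ⧸ maximalIdeal A ^ k) := TestQuot.isLocalRing_quotient A _ hne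
      haveI : Nontrivial (A ⧸ maximalIdeal A ^ k) := Ideal.Quotient.nontrivial_iff.mpr hne
      have hT : IsArtinianTestAlgebra 𝒪 (A ⧸ maximalIdeal A ^ k) :=
        TestQuot.isArtinianTestAlgebra_quotient A hloc hres _ hne le_rfl
      have hq' : IsLocalHom ((Ideal.Quotient.mkₐ 𝒪 (maximalIdeal A ^ k) :
          A →ₐ[𝒪] A ⧸ maximalIdeal A ^ k) : A →+* A ⧸ maximalIdeal A ^ k) :=
        TestQuot.isLocalHom_mk A _
      have h := H hT (Ideal.Quotient.mkₐ 𝒪 (maximalIdeal A ^ k)) hq'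
        (Ideal.Quotient.mkₐ_surjective 𝒪 _) q hq hqp hqne P hP σ hσ
      rw [unipCond_charpoly_baseChangeAlong] at h
      exact h

end Fermat.Agent.S59
end MergeWrap_S59_DefCond_Unip

section MergeWrap_S59_DefCond_StrictOrd -- from S59/DefCond/StrictOrd.lean

set_option autoImplicit false
set_option linter.style.haveILetI false
set_option linter.unusedSectionVars false
set_option linter.unusedVariables false

namespace Fermat.Agent.S59

open Fermat.Agent.Cyclo TensorProduct IsLocalRing Fermat.Agent.S59.SO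

namespace SO

section Local

variable {A B : Type} [CommRing A] [IsLocalRing A] [CommRing B] [IsLocalRing B]

theorem natCast_mem_maximalIdeal_of_map (φ : A →+* B) {p : ℕ}
    (h : (p : B) ∈ maximalIdeal B) : (p : A) ∈ maximalIdeal A := by
  rw [IsLocalRing.mem_maximalIdeal, mem_nonunits_iff] at h ⊢
  intro hu
  exact h (by simpa using hu.map φ)

theorem natCast_mem_maximalIdeal_map (φ : A →+* B) (hφ : IsLocalHom φ) {p : ℕ}
    (h : (p : A) ∈ maximalIdeal A) : (p : B) ∈ maximalIdeal B := by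
  rw [IsLocalRing.mem_maximalIdeal, mem_nonunits_iff] at h ⊢
  intro hu
  apply h
  apply hφ.map_nonunit
  simpa using hu

theorem exists_natCast_pow_eq_zero [IsArtinianRing B] {p : ℕ} (h : (p : B) ∈ maximalIdeal B) :
    ∃ N : ℕ, ((p ^ N : ℕ) : B) = 0 := by
  have hnil : IsNilpotent (Ideal.jacobson (⊥ : Ideal B)) :=
    IsArtinianRing.isNilpotent_jacobson_bot
  rw [IsLocalRing.jacobson_eq_maximalIdeal ⊥ bot_ne_top] at hnil
  obtain ⟨N, hN⟩ := hnil
  refine ⟨N, ?_⟩
  have h1 : (p : B) ^ N ∈ maximalIdeal B ^ N := Ideal.pow_mem_pow h N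
  rw [hN, Ideal.zero_eq_bot, Ideal.mem_bot] at h1
  rw [Nat.cast_pow]
  exact h1

theorem natCast_pow_eq_zero_of_le {p N N' : ℕ} (hle : N ≤ N') (h : ((p ^ N : ℕ) : B) = 0) :
    ((p ^ N' : ℕ) : B) = 0 := by
  obtain ⟨k, rfl⟩ := Nat.exists_eq_add_of_le hle
  rw [pow_add, Nat.cast_mul, h, zero_mul]

end Local

section Rho

variable {A B : Type} [CommRing A] [IsLocalRing A] [CommRing B] [IsLocalRing B]

theorem so_of_isEquiv {ρ ρ' : GaloisRepAdic A} (e : ρ.IsEquiv ρ') {p : ℕ}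
    (h : ρ.IsStrictOrdinaryAt p) : ρ'.IsStrictOrdinaryAt p := by
  obtain ⟨e⟩ := e
  refine ⟨h.1, fun P hP => ?_⟩
  have h1 : SOAt ρ.ρ p P := h.2 P hP
  obtain ⟨w, hw⟩ := h1.exists_soTri
  exact (hw.map_equiv e.toLinearEquiv e.map_apply).soAt

theorem so_baseChange (φ : A →+* B) (hφ : IsLocalHom φ) {ρ : GaloisRepAdic A} {p : ℕ}
    (h : ρ.IsStrictOrdinaryAt p) : (ρ.baseChangeAlong φ hφ).IsStrictOrdinaryAt p := by
  letI : Algebra A B := φ.toAlgebra
  refine ⟨natCast_mem_maximalIdeal_map φ hφ h.1, fun P hP => ?_⟩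
  have h1 : SOAt ρ.ρ p P := h.2 P hP
  exact SOAt.baseChange (r := ρ.ρ) (ρ.baseChangeAlong φ hφ).ρ (fun σ => rfl) h1

theorem so_pull (φ : A →+* B) (hφ : IsLocalHom φ) {ρ : GaloisRepAdic A} {p : ℕ}
    (hB : (ρ.baseChangeAlong φ hφ).IsStrictOrdinaryAt p) {P : ValuationSubring Qb}
    (hP : P.LiesOverPrime p) (w : Module.Basis (Fin 2) A ρ.V) {σ₀ : GQ}
    (hσ₀ : σ₀ ∈ P.inertiaSubgroupIn ℚ) (hw : w 0 ∈ LinearMap.range (ρ.ρ σ₀ - 1)) :
    (∀ σ ∈ P.decompositionSubgroup ℚ, φ (w.repr (ρ.ρ σ (w 0)) 1) = 0) ∧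
    (∀ σ ∈ P.inertiaSubgroupIn ℚ, φ (w.repr (ρ.ρ σ (w 1)) 1) = 1) ∧
    (∀ σ ∈ P.decompositionSubgroup ℚ,
      CycRel B p σ (φ (w.repr (ρ.ρ σ (w 0)) 0)) (φ (w.repr (ρ.ρ σ (w 1)) 1))) := by
  letI : Algebra A B := φ.toAlgebra
  have h1 : SOAt (ρ.baseChangeAlong φ hφ).ρ p P := hB.2 P hP
  exact soTri_pull (r := ρ.ρ) (ρ.baseChangeAlong φ hφ).ρ (fun σ => rfl) h1 w hσ₀ hw

theorem so_exists_basis (φ : A →+* B) (hφ : IsLocalHom φ) {ρ : GaloisRepAdic A} {p : ℕ}
    [Fact p.Prime] (hp2 : p ≠ 2)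
    (hB : (ρ.baseChangeAlong φ hφ).IsStrictOrdinaryAt p) {P : ValuationSubring Qb}
    (hP : P.LiesOverPrime p) {σ₀ : GQ} (hσ₀ : σ₀ ∈ P.inertiaSubgroupIn ℚ)
    (hinv : ∀ μ : Qb, μ ^ p = 1 → σ₀ μ = μ⁻¹) :
    ∃ w : Module.Basis (Fin 2) A ρ.V, w 0 ∈ LinearMap.range (ρ.ρ σ₀ - 1) := by
  letI : Algebra A B := φ.toAlgebra
  obtain ⟨a₀, ha₀⟩ := SOArith.exists_cycExp p σ₀ 1
  have hne := SOArith.inv_exponent_ne_one p hp2 hinv ha₀
  have hloc : IsLocalHom (algebraMap A B) := hφ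
  have h1 : SOAt (ρ.baseChangeAlong φ hφ).ρ p P := hB.2 P hP
  exact exists_basis_of_soAt hloc (r := ρ.ρ) (ρ.baseChangeAlong φ hφ).ρ (fun σ => rfl) hB.1 h1
    (Module.finBasisOfFinrankEq A ρ.V ρ.finrank_eq) hσ₀ ha₀ hne

end Rho

/-! ### Descent along a jointly injective pair of maps to Artinian local rings -/

section Pair

variable {A B₁ B₂ : Type} [CommRing A] [IsLocalRing A] [CommRing B₁] [IsLocalRing B₁]
  [CommRing B₂] [IsLocalRing B₂]

theorem so_of_pair (φ₁ : A →+* B₁) (hφ₁ : IsLocalHom φ₁) (φ₂ : A →+* B₂) (hφ₂ : IsLocalHom φ₂)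
    (hsep : ∀ y : A, φ₁ y = 0 → φ₂ y = 0 → y = 0) [IsArtinianRing B₁] [IsArtinianRing B₂]
    {ρ : GaloisRepAdic A} {p : ℕ} [Fact p.Prime] (hp2 : p ≠ 2)
    (h₁ : (ρ.baseChangeAlong φ₁ hφ₁).IsStrictOrdinaryAt p)
    (h₂ : (ρ.baseChangeAlong φ₂ hφ₂).IsStrictOrdinaryAt p) : ρ.IsStrictOrdinaryAt p := by
  refine ⟨natCast_mem_maximalIdeal_of_map φ₁ h₁.1, fun P hP => ?_⟩
  obtain ⟨σ₀, hσ₀, hinv⟩ := SOArith.exists_inertia_inv_on_roots p P hP
  obtain ⟨w, hw⟩ := so_exists_basis φ₁ hφ₁ hp2 h₁ hP hσ₀ hinv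
  obtain ⟨d₁, i₁, c₁⟩ := so_pull φ₁ hφ₁ h₁ hP w hσ₀ hw
  obtain ⟨d₂, i₂, c₂⟩ := so_pull φ₂ hφ₂ h₂ hP w hσ₀ hw
  obtain ⟨N₁, hN₁⟩ := exists_natCast_pow_eq_zero h₁.1
  obtain ⟨N₂, hN₂⟩ := exists_natCast_pow_eq_zero h₂.1
  have hN₁' : ((p ^ (max N₁ N₂) : ℕ) : B₁) = 0 :=
    natCast_pow_eq_zero_of_le (le_max_left _ _) hN₁
  have hN₂' : ((p ^ (max N₁ N₂) : ℕ) : B₂) = 0 :=
    natCast_pow_eq_zero_of_le (le_max_right _ _) hN₂
  have hNA : ((p ^ (max N₁ N₂) : ℕ) : A) = 0 :=
    hsep _ (by rw [map_natCast]; exact hN₁') (by rw [map_natCast]; exact hN₂')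
  have htri : SOTri ρ.ρ p P w := by
    refine ⟨fun σ hσ => hsep _ (d₁ σ hσ) (d₂ σ hσ), fun σ hσ => ?_, fun σ hσ => ?_⟩
    · rw [← sub_eq_zero]
      apply hsep
      · rw [map_sub, map_one φ₁, sub_eq_zero]; exact i₁ σ hσ
      · rw [map_sub, map_one φ₂, sub_eq_zero]; exact i₂ σ hσ
    · obtain ⟨aN, haN⟩ := SOArith.exists_cycExp p σ (max N₁ N₂)
      rw [cycRel_iff_of_pow_eq_zero hNA σ haN]
      have e₁ := (cycRel_iff_of_pow_eq_zero hN₁' σ haN _ _).mp (c₁ σ hσ)
      have e₂ := (cycRel_iff_of_pow_eq_zero hN₂' σ haN _ _).mp (c₂ σ hσ)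
      rw [← sub_eq_zero]
      apply hsep
      · rw [map_sub, map_mul, map_natCast, e₁, sub_self]
      · rw [map_sub, map_mul, map_natCast, e₂, sub_self]
  exact htri.soAt

end Pair

/-! ### Descent along `A → A ⧸ 𝔪ⁿ` for a Noetherian local ring -/

section Adic

variable {A : Type} [CommRing A] [IsLocalRing A] [IsNoetherianRing A]

theorem eq_zero_of_forall_mk_pow_eq_zero {y : A}
    (h : ∀ n : ℕ, n ≠ 0 → Ideal.Quotient.mk (maximalIdeal A ^ n) y = 0) : y = 0 := by
  have hK : (⨅ i : ℕ, maximalIdeal A ^ i) = ⊥ :=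
    Ideal.iInf_pow_eq_bot_of_isLocalRing (maximalIdeal A) (maximalIdeal.isMaximal A).ne_top
  have hy : y ∈ (⨅ i : ℕ, maximalIdeal A ^ i) := by
    rw [Ideal.mem_iInf]
    intro n
    by_cases hn : n = 0
    · subst hn; rw [pow_zero, Ideal.one_eq_top]; exact Submodule.mem_top
    · exact Ideal.Quotient.eq_zero_iff_mem.mp (h n hn)
  rw [hK] at hy
  exact hy

/-- Ideals of a Noetherian local ring are closed in the adic topology. -/
theorem mem_of_forall_mk_pow_mem (J : Ideal A) {y : A}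
    (h : ∀ n : ℕ, n ≠ 0 →
      Ideal.Quotient.mk (maximalIdeal A ^ n) y ∈ J.map (Ideal.Quotient.mk (maximalIdeal A ^ n))) :
    y ∈ J := by
  have hK : (⨅ i : ℕ, maximalIdeal A ^ i • ⊤ : Submodule A (A ⧸ J)) = ⊥ :=
    Ideal.iInf_pow_smul_eq_bot_of_isLocalRing (maximalIdeal A) (maximalIdeal.isMaximal A).ne_top
  have hy : (Ideal.Quotient.mk J y : A ⧸ J) ∈
      (⨅ i : ℕ, maximalIdeal A ^ i • ⊤ : Submodule A (A ⧸ J)) := by
    rw [Submodule.mem_iInf]
    intro n
    by_cases hn : n = 0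
    · subst hn
      rw [pow_zero, Ideal.one_eq_top, Submodule.top_smul]
      exact Submodule.mem_top
    · obtain ⟨j, hj, hjy⟩ := (Ideal.mem_map_iff_of_surjective _
        Ideal.Quotient.mk_surjective).mp (h n hn)
      have ht : y - j ∈ maximalIdeal A ^ n := by
        rw [← Ideal.Quotient.eq_zero_iff_mem, map_sub, hjy, sub_self]
      have h1 : (Ideal.Quotient.mk J y : A ⧸ J) = (y - j) • (Ideal.Quotient.mk J 1 : A ⧸ J) := by
        rw [← Ideal.Quotient.mk_eq_mk, ← Ideal.Quotient.mk_eq_mk, ← Submodule.Quotient.mk_smul,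
          Ideal.Quotient.mk_eq_mk, Ideal.Quotient.mk_eq_mk, smul_eq_mul, mul_one, map_sub,
          Ideal.Quotient.eq_zero_iff_mem.mpr hj, sub_zero]
      rw [h1]
      exact Submodule.smul_mem_smul ht Submodule.mem_top
  rw [hK, Submodule.mem_bot, Ideal.Quotient.eq_zero_iff_mem] at hy
  exact hy

theorem so_of_adic {ρ : GaloisRepAdic A} {p : ℕ} [Fact p.Prime] (hp2 : p ≠ 2)
    (H : ∀ n : ℕ, n ≠ 0 → ∃ (_ : IsLocalRing (A ⧸ maximalIdeal A ^ n))
      (q : A →+* A ⧸ maximalIdeal A ^ n) (hq : IsLocalHom q),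
      (∀ a, q a = Ideal.Quotient.mk (maximalIdeal A ^ n) a) ∧
        (ρ.baseChangeAlong q hq).IsStrictOrdinaryAt p) : ρ.IsStrictOrdinaryAt p := by
  obtain ⟨hl1, q1, hq1, hqe1, hso1⟩ := H 1 one_ne_zero
  refine ⟨natCast_mem_maximalIdeal_of_map q1 hso1.1, fun P hP => ?_⟩
  obtain ⟨σ₀, hσ₀, hinv⟩ := SOArith.exists_inertia_inv_on_roots p P hP
  obtain ⟨w, hw⟩ := so_exists_basis q1 hq1 hp2 hso1 hP hσ₀ hinv
  have htri : SOTri ρ.ρ p P w := by
    refine ⟨fun σ hσ => ?_, fun σ hσ => ?_, fun σ hσ => ?_⟩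
    · apply eq_zero_of_forall_mk_pow_eq_zero
      intro n hn
      obtain ⟨hl, q, hq, hqe, hso⟩ := H n hn
      rw [← hqe]
      exact (so_pull q hq hso hP w hσ₀ hw).1 σ hσ
    · rw [← sub_eq_zero]
      apply eq_zero_of_forall_mk_pow_eq_zero
      intro n hn
      obtain ⟨hl, q, hq, hqe, hso⟩ := H n hn
      rw [← hqe, map_sub, map_one q, sub_eq_zero]
      exact (so_pull q hq hso hP w hσ₀ hw).2.1 σ hσ
    · intro m a ha
      apply mem_of_forall_mk_pow_mem
      intro n hn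
      obtain ⟨hl, q, hq, hqe, hso⟩ := H n hn
      have h1 := (so_pull q hq hso hP w hσ₀ hw).2.2 σ hσ m a ha
      rw [Ideal.map_span, Set.image_singleton, ← hqe, ← hqe, map_sub, map_mul, map_natCast,
        map_natCast]
      exact h1
  exact htri.soAt

end Adic

/-! ### Artinian quotients as test algebras -/

section Test

variable {𝒪 : Type} [CommRing 𝒪] [IsLocalRing 𝒪] {A : Type} [CommRing A] [IsLocalRing A]
  [IsNoetherianRing A] [Algebra 𝒪 A]

theorem so_maximalIdeal_pow_ne_top {n : ℕ} (hn : n ≠ 0) : maximalIdeal A ^ n ≠ ⊤ := by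
  intro h
  have hle : maximalIdeal A ^ n ≤ maximalIdeal A := Ideal.pow_le_self hn
  rw [h] at hle
  exact (IsLocalRing.maximalIdeal.isMaximal A).ne_top (top_le_iff.1 hle)

theorem so_isLocalRing_quotient_pow {n : ℕ} (hn : n ≠ 0) :
    IsLocalRing (A ⧸ maximalIdeal A ^ n) :=
  haveI : Nontrivial (A ⧸ maximalIdeal A ^ n) :=
    Ideal.Quotient.nontrivial_iff.mpr (so_maximalIdeal_pow_ne_top hn)
  IsLocalRing.of_surjective' (Ideal.Quotient.mk _) Ideal.Quotient.mk_surjective

theorem so_isArtinianTestAlgebra_quotient_pow (h1 : IsLocalHom (algebraMap 𝒪 A))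
    (h2 : Function.Surjective (residue A ∘ algebraMap 𝒪 A)) (n : ℕ)
    [IsLocalRing (A ⧸ maximalIdeal A ^ n)] :
    GaloisRep.IsArtinianTestAlgebra 𝒪 (A ⧸ maximalIdeal A ^ n) := by
  haveI hq : IsLocalHom (Ideal.Quotient.mk (maximalIdeal A ^ n)) :=
    IsLocalHom.of_surjective _ Ideal.Quotient.mk_surjective
  refine ⟨⟨fun a ha => ?_⟩, ?_, ?_⟩
  · have h : IsUnit (Ideal.Quotient.mk (maximalIdeal A ^ n) (algebraMap 𝒪 A a)) := ha
    exact h1.map_nonunit a (hq.map_nonunit _ h)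
  · intro y
    obtain ⟨b, rfl⟩ := IsLocalRing.residue_surjective y
    obtain ⟨a, rfl⟩ := Ideal.Quotient.mk_surjective b
    obtain ⟨c, hc⟩ := h2 (residue A a)
    refine ⟨c, ?_⟩
    have hc' : algebraMap 𝒪 A c - a ∈ maximalIdeal A := by
      rw [← IsLocalRing.residue_eq_zero_iff, map_sub, sub_eq_zero]
      exact hc
    show residue _ (Ideal.Quotient.mk (maximalIdeal A ^ n) (algebraMap 𝒪 A c)) =
      residue _ (Ideal.Quotient.mk (maximalIdeal A ^ n) a)
    rw [← sub_eq_zero, ← map_sub, ← map_sub, IsLocalRing.residue_eq_zero_iff]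
    rw [IsLocalRing.mem_maximalIdeal, mem_nonunits_iff] at hc' ⊢
    exact fun hu => hc' (hq.map_nonunit _ hu)
  · rw [isArtinianRing_iff_isNilpotent_maximalIdeal]
    refine ⟨n, ?_⟩
    rw [Ideal.zero_eq_bot, eq_bot_iff]
    have hle : maximalIdeal (A ⧸ maximalIdeal A ^ n) ≤
        (maximalIdeal A).map (Ideal.Quotient.mk (maximalIdeal A ^ n)) := by
      intro y hy
      obtain ⟨a, rfl⟩ := Ideal.Quotient.mk_surjective y
      apply Ideal.mem_map_of_mem
      rw [IsLocalRing.mem_maximalIdeal, mem_nonunits_iff] at hy ⊢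
      exact fun hu => hy (hu.map _)
    calc maximalIdeal (A ⧸ maximalIdeal A ^ n) ^ n
        ≤ ((maximalIdeal A).map (Ideal.Quotient.mk (maximalIdeal A ^ n))) ^ n :=
          Ideal.pow_right_mono hle n
      _ = (maximalIdeal A ^ n).map (Ideal.Quotient.mk (maximalIdeal A ^ n)) :=
          (Ideal.map_pow _ _ _).symm
      _ = ⊥ := Ideal.map_quotient_self _

end Test

end SO

/-- **Strict-ordinary at `p` is a deformation condition** (`p` odd). -/
theorem condStrictOrd_isDeformationCondition (𝒪 : Type) [CommRing 𝒪] [IsLocalRing 𝒪]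
    (p : ℕ) [Fact p.Prime] (hp2 : p ≠ 2) :
    GaloisRep.IsDeformationCondition 𝒪 (condStrictOrd 𝒪 p) where
  of_isEquiv := fun A _ _ _ hA ρ ρ' e hρ => SO.so_of_isEquiv e hρ
  baseChangeAlong := fun A B _ _ _ _ _ _ hA hB φ hφ ρ hρ =>
    SO.so_baseChange (φ : A →+* B) hφ hρ
  of_baseChangeAlong_injective := fun A B _ _ _ _ _ _ hA hB φ hφ hinj ρ hρ => by
    haveI := hB.isArtinian
    refine SO.so_of_pair (φ : A →+* B) hφ (φ : A →+* B) hφ (fun y h _ => ?_) hp2 hρ hρ
    apply hinj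
    rw [map_zero]
    exact h
  of_fibreProduct := fun A B C P _ _ _ _ _ _ _ _ _ _ _ _ hA hB hC hP f g pA pB hpA hpB hfg hinj
      hsurj ρ h1 h2 => by
    haveI := hA.isArtinian
    haveI := hB.isArtinian
    refine SO.so_of_pair (pA : P →+* A) hpA (pB : P →+* B) hpB (fun y hy1 hy2 => ?_) hp2 h1 h2
    apply hinj
    show (pA y, pB y) = (pA 0, pB 0)
    rw [map_zero, map_zero]
    exact Prod.ext hy1 hy2
  iff_forall_surjective := fun A _ _ _ _ _ hloc hres ρ => by
    constructor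
    · intro hρ B _ _ _ hB q hq hqs
      exact SO.so_baseChange (q : A →+* B) hq hρ
    · intro H
      refine SO.so_of_adic hp2 fun n hn => ?_
      haveI hl : IsLocalRing (A ⧸ maximalIdeal A ^ n) := SO.so_isLocalRing_quotient_pow hn
      have hq : IsLocalHom ((Ideal.Quotient.mkₐ 𝒪 (maximalIdeal A ^ n) :
          A →ₐ[𝒪] A ⧸ maximalIdeal A ^ n) : A →+* A ⧸ maximalIdeal A ^ n) :=
        IsLocalHom.of_surjective _ (Ideal.Quotient.mkₐ_surjective 𝒪 _)
      exact ⟨hl, _, hq, fun a => rfl,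
        H (SO.so_isArtinianTestAlgebra_quotient_pow hloc hres n)
          (Ideal.Quotient.mkₐ 𝒪 (maximalIdeal A ^ n)) hq (Ideal.Quotient.mkₐ_surjective 𝒪 _)⟩

end Fermat.Agent.S59
end MergeWrap_S59_DefCond_StrictOrd

section MergeWrap_S59_DefCond_Flat -- from S59/DefCond/Flat.lean

set_option autoImplicit false
set_option linter.style.haveILetI false
set_option linter.unusedSectionVars false

namespace Fermat.Agent.S59

open Fermat.Agent.FlatMod IsLocalRing TensorProduct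


/-- The residue field of a local `𝒪`-algebra with local structure map and `𝒪 → A/𝔪` onto is
finite when that of `𝒪` is. -/
theorem cfl_finite_residueField {𝒪 : Type} [CommRing 𝒪] [IsLocalRing 𝒪]
    [Finite (ResidueField 𝒪)] {A : Type} [CommRing A] [IsLocalRing A] [Algebra 𝒪 A]
    (h1 : IsLocalHom (algebraMap 𝒪 A))
    (h2 : Function.Surjective (residue A ∘ algebraMap 𝒪 A)) : Finite (ResidueField A) := by
  have := h1
  refine Finite.of_surjective (ResidueField.map (algebraMap 𝒪 A)) fun y => ?_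
  obtain ⟨x, hx⟩ := h2 y
  exact ⟨residue 𝒪 x, by rw [ResidueField.map_residue]; exact hx⟩

/-- An Artinian test algebra over `𝒪` with finite residue field is a finite ring. -/
theorem cfl_finite_of_artinian {𝒪 : Type} [CommRing 𝒪] [IsLocalRing 𝒪]
    [Finite (ResidueField 𝒪)] {A : Type} [CommRing A] [IsLocalRing A] [Algebra 𝒪 A]
    (hA : GaloisRep.IsArtinianTestAlgebra 𝒪 A) : Finite A := by
  have := hA.isArtinian
  have := cfl_finite_residueField hA.isLocalHom hA.residue_surjective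
  obtain ⟨n, hn⟩ := IsArtinianRing.isNilpotent_jacobson_bot (R := A)
  rw [IsLocalRing.jacobson_eq_maximalIdeal _ bot_ne_top] at hn
  have h : Finite (A ⧸ (⊥ : Ideal A)) :=
    IsLocalRing.finite_quotient_iff.2 ⟨n, hn.le⟩
  exact Finite.of_equiv _ (RingEquiv.quotientBot A).toEquiv

theorem cfl_finite_quot_bot {B : Type} [CommRing B] [Finite B] :
    Finite (B ⧸ (⊥ : Ideal B)) :=
  Finite.of_surjective (Ideal.Quotient.mk ⊥) Ideal.Quotient.mk_surjective

variable {p : ℕ}

/-- Finite powers of a flat Galois module are flat. -/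
theorem cfl_pi [Fact p.Prime] {M : Type} [AddCommGroup M]
    {act : (AlgebraicClosure ℚ ≃ₐ[ℚ] AlgebraicClosure ℚ) → M → M}
    (h : IsFlatGaloisModule p M act) (n : ℕ) :
    IsFlatGaloisModule p (Fin n → M) (fun σ x i => act σ (x i)) := by
  induction n with
  | zero => exact isFlatGaloisModule_of_subsingleton _
  | succ n ih =>
    refine IsFlatGaloisModule.of_injective (h.prod ih)
      (AddMonoidHom.prod (Pi.evalAddMonoidHom (fun _ : Fin (n + 1) => M) 0)
        { toFun := fun x => Fin.tail x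
          map_zero' := rfl
          map_add' := fun _ _ => rfl }) ?_ ?_
    · intro x y hxy
      have h0 : x 0 = y 0 := congrArg Prod.fst hxy
      have ht : Fin.tail x = Fin.tail y := congrArg Prod.snd hxy
      funext i
      refine Fin.cases h0 (fun j => ?_) i
      exact congrFun ht j
    · intro σ x
      rfl


section maps

variable {A B : Type} [CommRing A] [IsLocalRing A] [CommRing B] [IsLocalRing B]
  (φ : A →+* B) (hφ : IsLocalHom φ) (ρ : GaloisRepAdic A) (I : Ideal A) (J : Ideal B)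

/-- The additive map `V ⧸ I V → (B ⊗ V) ⧸ J (B ⊗ V)`, `[v] ↦ [b ⊗ v]`, for `φ(I) ⊆ J`. -/
noncomputable def cfl_t (hIJ : I ≤ J.comap φ) (b : B) :
    (ρ.V ⧸ (I • (⊤ : Submodule A ρ.V))) →+
      ((ρ.baseChangeAlong φ hφ).V ⧸ (J • (⊤ : Submodule B (ρ.baseChangeAlong φ hφ).V))) :=
  letI : Algebra A B := φ.toAlgebra
  ((I • (⊤ : Submodule A ρ.V)).liftQ
    (((J • (⊤ : Submodule B (B ⊗[A] ρ.V))).mkQ.restrictScalars A).comp
      (TensorProduct.mk A B ρ.V b))
    (by
      refine Submodule.smul_le.2 fun a ha v _ => ?_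
      rw [LinearMap.mem_ker, LinearMap.comp_apply, TensorProduct.mk_apply,
        LinearMap.restrictScalars_apply, Submodule.mkQ_apply, Submodule.Quotient.mk_eq_zero,
        TensorProduct.tmul_smul, TensorProduct.smul_tmul', Algebra.smul_def,
        RingHom.algebraMap_toAlgebra]
      have : (φ a * b) ⊗ₜ[A] v = (φ a * b) • ((1 : B) ⊗ₜ[A] v) := by
        rw [TensorProduct.smul_tmul', smul_eq_mul, mul_one]
      rw [this]
      exact Submodule.smul_mem_smul (Ideal.mul_mem_right _ _ (hIJ ha)) Submodule.mem_top)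
    ).toAddMonoidHom

theorem cfl_t_mk (hIJ : I ≤ J.comap φ) (b : B) (v : ρ.V) :
    letI : Algebra A B := φ.toAlgebra
    cfl_t φ hφ ρ I J hIJ b (Submodule.Quotient.mk v) =
      Submodule.Quotient.mk (p := (J • (⊤ : Submodule B (B ⊗[A] ρ.V)))) (b ⊗ₜ[A] v) :=
  rfl

theorem cfl_t_equivariant (hIJ : I ≤ J.comap φ) (b : B)
    (σ : AlgebraicClosure ℚ ≃ₐ[ℚ] AlgebraicClosure ℚ) (x : ρ.V ⧸ (I • (⊤ : Submodule A ρ.V))) :
    cfl_t φ hφ ρ I J hIJ b (ρ.levelAction I σ x) =
      (ρ.baseChangeAlong φ hφ).levelAction J σ (cfl_t φ hφ ρ I J hIJ b x) := by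
  letI : Algebra A B := φ.toAlgebra
  obtain ⟨v, rfl⟩ := Submodule.Quotient.mk_surjective _ x
  show cfl_t φ hφ ρ I J hIJ b (Submodule.Quotient.mk (ρ.ρ σ v)) =
    Submodule.Quotient.mk ((ρ.ρ σ).baseChange B (b ⊗ₜ[A] v))
  rw [LinearMap.baseChange_tmul]
  rfl

/-- Elements of `J (B ⊗ V)`. -/
theorem cfl_tmul_mem (c : B) (hc : c ∈ J) (v : ρ.V) :
    letI : Algebra A B := φ.toAlgebra
    c ⊗ₜ[A] v ∈ (J • (⊤ : Submodule B (B ⊗[A] ρ.V))) := by
  letI : Algebra A B := φ.toAlgebra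
  have : c ⊗ₜ[A] v = c • ((1 : B) ⊗ₜ[A] v) := by
    rw [TensorProduct.smul_tmul', smul_eq_mul, mul_one]
  rw [this]
  exact Submodule.smul_mem_smul hc Submodule.mem_top

/-- The sum of the maps `cfl_t` over a family of elements of `B`. -/
noncomputable def cfl_sum (hIJ : I ≤ J.comap φ) {n : ℕ} (b : Fin n → B) :
    (Fin n → (ρ.V ⧸ (I • (⊤ : Submodule A ρ.V)))) →+
      ((ρ.baseChangeAlong φ hφ).V ⧸ (J • (⊤ : Submodule B (ρ.baseChangeAlong φ hφ).V))) :=
  ∑ i, (cfl_t φ hφ ρ I J hIJ (b i)).comp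
    (Pi.evalAddMonoidHom (fun _ : Fin n => (ρ.V ⧸ (I • (⊤ : Submodule A ρ.V)))) i)

theorem cfl_sum_apply (hIJ : I ≤ J.comap φ) {n : ℕ} (b : Fin n → B)
    (x : Fin n → (ρ.V ⧸ (I • (⊤ : Submodule A ρ.V)))) :
    cfl_sum φ hφ ρ I J hIJ b x = ∑ i, cfl_t φ hφ ρ I J hIJ (b i) (x i) := by
  simp only [cfl_sum, AddMonoidHom.finsetSum_apply, AddMonoidHom.comp_apply,
    Pi.evalAddMonoidHom_apply]

theorem cfl_sum_surjective (hIJ : I ≤ J.comap φ) {n : ℕ} (b : Fin n → B)
    (hb : ∀ c : B, ∃ i, c - b i ∈ J) :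
    Function.Surjective (cfl_sum φ hφ ρ I J hIJ b) := by
  letI : Algebra A B := φ.toAlgebra
  intro w
  obtain ⟨z, rfl⟩ := Submodule.Quotient.mk_surjective _ w
  change B ⊗[A] ρ.V at z
  induction z using TensorProduct.induction_on with
  | zero => exact ⟨0, map_zero _⟩
  | tmul c v =>
    obtain ⟨i, hi⟩ := hb c
    refine ⟨Pi.single i (Submodule.Quotient.mk v), ?_⟩
    rw [cfl_sum_apply, Finset.sum_eq_single i]
    · rw [Pi.single_eq_same, cfl_t_mk]
      refine (Submodule.Quotient.eq (J • (⊤ : Submodule B (B ⊗[A] ρ.V)))).2 ?_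
      rw [← TensorProduct.sub_tmul]
      exact cfl_tmul_mem φ ρ J (b i - c) (by rw [← neg_sub]; exact J.neg_mem hi) v
    · intro j _ hj
      rw [Pi.single_eq_of_ne hj, map_zero]
    · intro h
      exact absurd (Finset.mem_univ i) h
  | add x y hx hy =>
    obtain ⟨x', hx'⟩ := hx
    obtain ⟨y', hy'⟩ := hy
    exact ⟨x' + y', by rw [map_add, hx', hy']; rfl⟩

theorem cfl_sum_equivariant (hIJ : I ≤ J.comap φ) {n : ℕ} (b : Fin n → B)
    (σ : AlgebraicClosure ℚ ≃ₐ[ℚ] AlgebraicClosure ℚ)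
    (x : Fin n → (ρ.V ⧸ (I • (⊤ : Submodule A ρ.V)))) :
    cfl_sum φ hφ ρ I J hIJ b (fun i => ρ.levelAction I σ (x i)) =
      (ρ.baseChangeAlong φ hφ).levelAction J σ (cfl_sum φ hφ ρ I J hIJ b x) := by
  rw [cfl_sum_apply, cfl_sum_apply, map_sum]
  exact Finset.sum_congr rfl fun i _ => cfl_t_equivariant φ hφ ρ I J hIJ (b i) σ (x i)

/-- Base change preserves flatness (no finiteness assumption on `A`). -/
theorem cfl_baseChange [Fact p.Prime] (hρ : ρ.IsFlatAt p) (hB : Finite (ResidueField B)) :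
    (ρ.baseChangeAlong φ hφ).IsFlatAt p := by
  refine ⟨hB, fun J hJ => ?_⟩
  have hIJ : J.comap φ ≤ J.comap φ := le_rfl
  have hfin : Finite (A ⧸ J.comap φ) :=
    Finite.of_injective (Ideal.quotientMap J φ le_rfl) (Ideal.quotientMap_injective)
  have hM := hρ.2 (J.comap φ) hfin
  obtain ⟨n, ⟨e⟩⟩ := Finite.exists_equiv_fin (B ⧸ J)
  have hb : ∀ c : B, ∃ i, c - (fun i => Quotient.out (e.symm i)) i ∈ J := by
    intro c
    refine ⟨e (Ideal.Quotient.mk J c), ?_⟩
    rw [← Ideal.Quotient.eq]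
    simp only [Equiv.symm_apply_apply]
    exact (Quotient.out_eq _).symm
  exact IsFlatGaloisModule.quot (cfl_pi hM n)
    (cfl_sum φ hφ ρ _ J hIJ fun i => Quotient.out (e.symm i))
    (cfl_sum_surjective φ hφ ρ _ J hIJ _ hb)
    (fun σ x => cfl_sum_equivariant φ hφ ρ _ J hIJ _ σ x)

/-- Coordinates of an element of `I M` lie in `I`. -/
theorem cfl_repr_mem_of_mem {R M ι : Type} [CommRing R] [AddCommGroup M] [Module R M]
    (b : Module.Basis ι R M) (I : Ideal R) {x : M} (hx : x ∈ I • (⊤ : Submodule R M)) (i : ι) :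
    b.repr x i ∈ I := by
  refine Submodule.smul_induction_on hx (fun a ha m _ => ?_) (fun x y hx hy => ?_)
  · rw [map_smul, Finsupp.smul_apply, smul_eq_mul]
    exact I.mul_mem_right _ ha
  · rw [map_add, Finsupp.add_apply]
    exact I.add_mem hx hy

/-- An element all of whose coordinates lie in `I` lies in `I M`. -/
theorem cfl_mem_of_repr_mem {R M ι : Type} [CommRing R] [AddCommGroup M] [Module R M]
    (b : Module.Basis ι R M) (I : Ideal R) {x : M} (h : ∀ i, b.repr x i ∈ I) :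
    x ∈ I • (⊤ : Submodule R M) := by
  rw [← b.linearCombination_repr x, Finsupp.linearCombination_apply]
  exact Submodule.sum_mem _ fun i _ => Submodule.smul_mem_smul (h i) Submodule.mem_top

/-- If `[1 ⊗ v] = 0` in `(B ⊗ V) ⧸ J (B ⊗ V)`, the coordinates of `v` are mapped into `J`. -/
theorem cfl_t_one_eq_zero (hIJ : I ≤ J.comap φ) {ι : Type} (b : Module.Basis ι A ρ.V) (v : ρ.V)
    (h : cfl_t φ hφ ρ I J hIJ 1 (Submodule.Quotient.mk v) = 0) (i : ι) :
    φ (b.repr v i) ∈ J := by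
  letI : Algebra A B := φ.toAlgebra
  rw [cfl_t_mk] at h
  have h1 : (1 : B) ⊗ₜ[A] v ∈ (J • (⊤ : Submodule B (B ⊗[A] ρ.V))) :=
    (Submodule.Quotient.mk_eq_zero _).1 h
  have h2 := cfl_repr_mem_of_mem (b.baseChange B) J h1 i
  rw [Module.Basis.baseChange_repr_tmul, Algebra.smul_def, mul_one,
    RingHom.algebraMap_toAlgebra] at h2
  exact h2

theorem cfl_t_one_injective (hIJ : I ≤ J.comap φ) (hJI : J.comap φ ≤ I) :
    Function.Injective (cfl_t φ hφ ρ I J hIJ 1) := by
  rw [injective_iff_map_eq_zero]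
  intro x hx
  obtain ⟨v, rfl⟩ := Submodule.Quotient.mk_surjective _ x
  rw [Submodule.Quotient.mk_eq_zero]
  exact cfl_mem_of_repr_mem (Module.Free.chooseBasis A ρ.V) I fun i =>
    hJI (cfl_t_one_eq_zero φ hφ ρ I J hIJ _ v hx i)

/-- The map `V → (B ⊗ V) ⧸ ⊥ (B ⊗ V)`, `v ↦ [1 ⊗ v]`. -/
noncomputable def cfl_psi :
    ρ.V →+ ((ρ.baseChangeAlong φ hφ).V ⧸
      ((⊥ : Ideal B) • (⊤ : Submodule B (ρ.baseChangeAlong φ hφ).V))) :=
  (cfl_t φ hφ ρ ⊥ ⊥ bot_le 1).comp ((⊥ : Ideal A) • (⊤ : Submodule A ρ.V)).mkQ.toAddMonoidHom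

theorem cfl_psi_equivariant (σ : AlgebraicClosure ℚ ≃ₐ[ℚ] AlgebraicClosure ℚ) (v : ρ.V) :
    cfl_psi φ hφ ρ (ρ.ρ σ v) = (ρ.baseChangeAlong φ hφ).levelAction ⊥ σ (cfl_psi φ hφ ρ v) :=
  cfl_t_equivariant φ hφ ρ ⊥ ⊥ bot_le 1 σ (Submodule.Quotient.mk v)

theorem cfl_psi_eq_zero {ι : Type} (b : Module.Basis ι A ρ.V) (v : ρ.V)
    (h : cfl_psi φ hφ ρ v = 0) (i : ι) : φ (b.repr v i) = 0 :=
  cfl_t_one_eq_zero φ hφ ρ ⊥ ⊥ bot_le b v h i

/-- Flatness from an equivariant embedding of `V` in a flat Galois module. -/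
theorem cfl_of_injective [Fact p.Prime] (hA : Finite (ResidueField A)) {W : Type}
    [AddCommGroup W] {actW : (AlgebraicClosure ℚ ≃ₐ[ℚ] AlgebraicClosure ℚ) → W → W}
    (hW : IsFlatGaloisModule p W actW) (ψ : ρ.V →+ W) (hψ : Function.Injective ψ)
    (hequiv : ∀ σ v, ψ (ρ.ρ σ v) = actW σ (ψ v)) : ρ.IsFlatAt p := by
  refine ⟨hA, fun I _ => ?_⟩
  have hV : IsFlatGaloisModule p ρ.V (fun σ v => ρ.ρ σ v) := hW.of_injective ψ hψ hequiv
  exact hV.quot (I • (⊤ : Submodule A ρ.V)).mkQ.toAddMonoidHom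
    (Submodule.Quotient.mk_surjective _) (fun σ x => rfl)

/-- Flatness is invariant under equivalence. -/
theorem cfl_of_isEquiv [Fact p.Prime] {ρ ρ' : GaloisRepAdic A} (e : ρ.Equiv ρ')
    (hρ : ρ.IsFlatAt p) : ρ'.IsFlatAt p := by
  refine ⟨hρ.1, fun I hI => ?_⟩
  have hle : I • (⊤ : Submodule A ρ.V) ≤
      (I • (⊤ : Submodule A ρ'.V)).comap e.toLinearEquiv.toLinearMap := by
    rw [← Submodule.map_le_iff_le_comap, Submodule.map_smul'']
    exact Submodule.smul_mono le_rfl le_top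
  have hM : IsFlatGaloisModule p (ρ.V ⧸ (I • (⊤ : Submodule A ρ.V)))
      (fun σ x => ρ.levelAction I σ x) := hρ.2 I hI
  refine IsFlatGaloisModule.quot (act' := fun σ x => ρ'.levelAction I σ x) hM
    (Submodule.mapQ _ _ e.toLinearEquiv.toLinearMap hle).toAddMonoidHom ?_ ?_
  · intro y
    obtain ⟨v', rfl⟩ := Submodule.Quotient.mk_surjective _ y
    refine ⟨Submodule.Quotient.mk (e.toLinearEquiv.symm v'), ?_⟩
    show Submodule.Quotient.mk (e.toLinearEquiv (e.toLinearEquiv.symm v')) = _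
    rw [LinearEquiv.apply_symm_apply]
  · intro σ x
    obtain ⟨v, rfl⟩ := Submodule.Quotient.mk_surjective _ x
    show Submodule.Quotient.mk (e.toLinearEquiv (ρ.ρ σ v)) =
      Submodule.Quotient.mk (ρ'.ρ σ (e.toLinearEquiv v))
    rw [e.map_apply]

end maps

theorem condFlat_isDeformationCondition (𝒪 : Type) [CommRing 𝒪] [IsLocalRing 𝒪]
    [Finite (IsLocalRing.ResidueField 𝒪)] (p : ℕ) [Fact p.Prime] :
    GaloisRep.IsDeformationCondition 𝒪 (condFlat 𝒪 p) where
  of_isEquiv := fun A _ _ _ _ ρ ρ' e hρ => by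
    obtain ⟨e⟩ := e
    exact cfl_of_isEquiv e hρ
  baseChangeAlong := fun A B _ _ _ _ _ _ _ hB φ hφ ρ hρ =>
    cfl_baseChange (φ : A →+* B) hφ ρ hρ
      (cfl_finite_residueField hB.isLocalHom hB.residue_surjective)
  of_baseChangeAlong_injective := fun A B _ _ _ _ _ _ hA hB φ hφ hinj ρ hρ => by
    have hfinB : Finite B := cfl_finite_of_artinian hB
    have hW : IsFlatGaloisModule p _
        (fun σ x => (ρ.baseChangeAlong (φ : A →+* B) hφ).levelAction ⊥ σ x) :=
      hρ.2 ⊥ cfl_finite_quot_bot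
    refine cfl_of_injective ρ (cfl_finite_residueField hA.isLocalHom hA.residue_surjective) hW
      (cfl_psi (φ : A →+* B) hφ ρ) ?_ (cfl_psi_equivariant _ hφ ρ)
    rw [injective_iff_map_eq_zero]
    intro v hv
    have h0 := cfl_psi_eq_zero (φ : A →+* B) hφ ρ (Module.Free.chooseBasis A ρ.V) v hv
    apply (Module.Free.chooseBasis A ρ.V).repr.injective
    ext i
    rw [map_zero, Finsupp.zero_apply]
    exact hinj (by rw [map_zero]; exact h0 i)
  of_fibreProduct := fun A B C P _ _ _ _ _ _ _ _ _ _ _ _ hA hB hC hP f g pA pB hpA hpB hfg hinj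
      hsurj ρ h1 h2 => by
    have hfinA : Finite A := cfl_finite_of_artinian hA
    have hfinB : Finite B := cfl_finite_of_artinian hB
    have hWA : IsFlatGaloisModule p _
        (fun σ x => (ρ.baseChangeAlong (pA : P →+* A) hpA).levelAction ⊥ σ x) :=
      h1.2 ⊥ cfl_finite_quot_bot
    have hWB : IsFlatGaloisModule p _
        (fun σ x => (ρ.baseChangeAlong (pB : P →+* B) hpB).levelAction ⊥ σ x) :=
      h2.2 ⊥ cfl_finite_quot_bot
    refine cfl_of_injective ρ (cfl_finite_residueField hP.isLocalHom hP.residue_surjective)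
      (hWA.prod hWB)
      ((cfl_psi (pA : P →+* A) hpA ρ).prod (cfl_psi (pB : P →+* B) hpB ρ)) ?_ ?_
    · rw [injective_iff_map_eq_zero]
      intro v hv
      have hvA : cfl_psi (pA : P →+* A) hpA ρ v = 0 := congrArg Prod.fst hv
      have hvB : cfl_psi (pB : P →+* B) hpB ρ v = 0 := congrArg Prod.snd hv
      apply (Module.Free.chooseBasis P ρ.V).repr.injective
      ext i
      rw [map_zero, Finsupp.zero_apply]
      apply hinj
      show (pA _, pB _) = (pA 0, pB 0)
      rw [map_zero, map_zero]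
      exact Prod.ext (cfl_psi_eq_zero _ hpA ρ _ v hvA i) (cfl_psi_eq_zero _ hpB ρ _ v hvB i)
    · intro σ v
      exact Prod.ext (cfl_psi_equivariant _ hpA ρ σ v) (cfl_psi_equivariant _ hpB ρ σ v)
  iff_forall_surjective := fun A _ _ _ _ _ hloc hres ρ => by
    constructor
    · intro hρ B _ _ _ hB q hq hqs
      exact cfl_baseChange (q : A →+* B) hq ρ hρ
        (cfl_finite_residueField hB.isLocalHom hB.residue_surjective)
    · intro H
      refine ⟨cfl_finite_residueField hloc hres, fun I hI => ?_⟩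
      by_cases hItop : I = ⊤
      · subst hItop
        have hsub : Subsingleton (ρ.V ⧸ ((⊤ : Ideal A) • (⊤ : Submodule A ρ.V))) := by
          rw [Submodule.top_smul]
          exact Submodule.Quotient.subsingleton_iff.2 rfl
        exact isFlatGaloisModule_of_subsingleton _
      · have hnt : Nontrivial (A ⧸ I) := Ideal.Quotient.nontrivial_iff.2 hItop
        have hlocal : IsLocalRing (A ⧸ I) :=
          IsLocalRing.of_surjective' (Ideal.Quotient.mk I) Ideal.Quotient.mk_surjective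
        have hq : IsLocalHom ((Ideal.Quotient.mkₐ 𝒪 I : A →ₐ[𝒪] A ⧸ I) : A →+* A ⧸ I) :=
          IsLocalHom.of_surjective _ (Ideal.Quotient.mkₐ_surjective 𝒪 I)
        have hB : GaloisRep.IsArtinianTestAlgebra 𝒪 (A ⧸ I) := by
          refine ⟨?_, ?_, inferInstance⟩
          · have : IsLocalHom (Ideal.Quotient.mk I) :=
              IsLocalHom.of_surjective _ Ideal.Quotient.mk_surjective
            have := hloc
            exact RingHom.isLocalHom_comp (Ideal.Quotient.mk I) (algebraMap 𝒪 A)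
          · intro y
            obtain ⟨z, rfl⟩ := IsLocalRing.residue_surjective y
            obtain ⟨a, rfl⟩ := Ideal.Quotient.mk_surjective z
            obtain ⟨c, hc⟩ := hres (residue A a)
            refine ⟨c, ?_⟩
            have h1 : a - algebraMap 𝒪 A c ∈ maximalIdeal A := by
              rw [← IsLocalRing.residue_eq_zero_iff, map_sub, sub_eq_zero]
              exact hc.symm
            have h2 : Ideal.Quotient.mk I (a - algebraMap 𝒪 A c) ∈ maximalIdeal (A ⧸ I) := by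
              have : IsLocalHom (Ideal.Quotient.mk I) :=
                IsLocalHom.of_surjective _ Ideal.Quotient.mk_surjective
              exact map_nonunit (Ideal.Quotient.mk I) _ h1
            rw [← IsLocalRing.residue_eq_zero_iff] at h2
            rw [map_sub, map_sub, sub_eq_zero] at h2
            exact h2.symm
        have hflat := H hB (Ideal.Quotient.mkₐ 𝒪 I) hq (Ideal.Quotient.mkₐ_surjective 𝒪 I)
        have hW : IsFlatGaloisModule p _ (fun σ x => (ρ.baseChangeAlong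
            ((Ideal.Quotient.mkₐ 𝒪 I : A →ₐ[𝒪] A ⧸ I) : A →+* A ⧸ I) hq).levelAction ⊥ σ x) :=
          hflat.2 ⊥ cfl_finite_quot_bot
        have hIJ : I ≤ (⊥ : Ideal (A ⧸ I)).comap
            ((Ideal.Quotient.mkₐ 𝒪 I : A →ₐ[𝒪] A ⧸ I) : A →+* A ⧸ I) := by
          intro a ha
          rw [Ideal.mem_comap, Ideal.mem_bot]
          exact Ideal.Quotient.eq_zero_iff_mem.2 ha
        have hJI : (⊥ : Ideal (A ⧸ I)).comap
            ((Ideal.Quotient.mkₐ 𝒪 I : A →ₐ[𝒪] A ⧸ I) : A →+* A ⧸ I) ≤ I := by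
          intro a ha
          rw [Ideal.mem_comap, Ideal.mem_bot] at ha
          exact Ideal.Quotient.eq_zero_iff_mem.1 ha
        exact IsFlatGaloisModule.of_injective hW (cfl_t _ hq ρ I ⊥ hIJ 1)
          (cfl_t_one_injective _ hq ρ I ⊥ hIJ hJI)
          (fun σ x => cfl_t_equivariant _ hq ρ I ⊥ hIJ 1 σ x)

end Fermat.Agent.S59
end MergeWrap_S59_DefCond_Flat

section MergeWrap_S59_DefCond_TangentAux -- from S59/DefCond/TangentAux.lean

/-!
# Cluster J (S59), J3t: finiteness of the tangent space, auxiliary results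

Deformations to the dual numbers `k[ε]` of a residual representation `ρbar`, unramified outside
`S`, all factor through one finite quotient of `G_ℚ` (by `KFin.kfin`): hence there are finitely
many of them up to equivalence.
-/

set_option autoImplicit false

open IsLocalRing Fermat.Agent.S53 Fermat.Agent.FrobExists

namespace Fermat.Agent.KFin

section DualNumber

variable {k : Type} [Field k]

theorem kf_maximalIdeal_sq : (maximalIdeal (DualNumber k)) ^ 2 = ⊥ := by
  rw [DualNumber.maximalIdeal_eq_span_singleton_eps, Ideal.span_singleton_pow, sq,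
    DualNumber.eps_mul_eps]
  simp

theorem kf_mul_eq_zero_of_mem {x y : DualNumber k} (hx : x ∈ maximalIdeal (DualNumber k))
    (hy : y ∈ maximalIdeal (DualNumber k)) : x * y = 0 := by
  have h : x * y ∈ maximalIdeal (DualNumber k) ^ 2 := by
    rw [sq]
    exact Ideal.mul_mem_mul hx hy
  rwa [kf_maximalIdeal_sq, Ideal.mem_bot] at h

theorem kf_matrix_mul_eq_zero {A B : Matrix (Fin 2) (Fin 2) (DualNumber k)}
    (hA : ∀ i j, A i j ∈ maximalIdeal (DualNumber k))
    (hB : ∀ i j, B i j ∈ maximalIdeal (DualNumber k)) : A * B = 0 := by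
  refine Matrix.ext fun i j => ?_
  rw [Matrix.mul_apply]
  exact Finset.sum_eq_zero fun l _ => kf_mul_eq_zero_of_mem (hA i l) (hB l j)

theorem kf_one_add_pow {R : Type*} [Ring R] {a : R} (ha : a * a = 0) (n : ℕ) :
    (1 + a) ^ n = 1 + n • a := by
  induction n with
  | zero => simp
  | succ n ih =>
    rw [pow_succ, ih, mul_add, mul_one, add_mul, one_mul, smul_mul_assoc, ha, smul_zero, add_zero,
      succ_nsmul]
    abel

theorem kf_natCast_eq_zero (p : ℕ) [CharP k p] : ((p : ℕ) : DualNumber k) = 0 := by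
  have h : ((p : ℕ) : DualNumber k) = algebraMap k (DualNumber k) ((p : ℕ) : k) := by
    rw [map_natCast]
  rw [h, CharP.cast_eq_zero, map_zero]

/-- **One level for all deformations to the dual numbers.** -/
theorem kf_exists_level (p : ℕ) (hp : p.Prime) [CharP k p] (S : Finset ℕ) (H : Subgroup GQ)
    (hH : ∃ L₀ : IntermediateField ℚ Qb, FiniteDimensional ℚ L₀ ∧ L₀.fixingSubgroup ≤ H) :
    ∃ F : IntermediateField ℚ Qb, FiniteDimensional ℚ F ∧
      ∀ r : GQ →* Matrix (Fin 2) (Fin 2) (DualNumber k), MatAdicContinuous r →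
        (∀ σ, r σ = 1 → σ ∈ H) →
        (∀ σ ∈ H, ∀ i j, (r σ - 1) i j ∈ maximalIdeal (DualNumber k)) →
        (∀ q : ℕ, q.Prime → q ∉ S → ∀ A : ValuationSubring Qb, A.LiesOverPrime q →
          ∀ σ ∈ A.inertiaSubgroupIn ℚ, r σ = 1) →
        ∀ σ ∈ F.fixingSubgroup, r σ = 1 := by
  obtain ⟨F, hFfin, -, hF⟩ := kfin p hp S H hH
  refine ⟨F, hFfin, fun r hr hrH hHr hunr σ hσ => ?_⟩
  have hcommute : ∀ σ ∈ H, ∀ τ ∈ H, r σ * r τ = r τ * r σ := by
    intro σ hσ τ hτ
    have h1 := kf_matrix_mul_eq_zero (hHr σ hσ) (hHr τ hτ)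
    have h2 := kf_matrix_mul_eq_zero (hHr τ hτ) (hHr σ hσ)
    have h3 : r σ * r τ - r τ * r σ = (r σ - 1) * (r τ - 1) - (r τ - 1) * (r σ - 1) := by
      noncomm_ring
    rw [h1, h2, sub_zero] at h3
    exact sub_eq_zero.mp h3
  have hmem : σ ∈ r.ker := by
    refine hF r.ker (fun σ hσ => hrH σ (MonoidHom.mem_ker.mp hσ)) ?_ ?_ ?_ ?_ hσ
    · obtain ⟨L, hL, h⟩ := hr 2
      refine ⟨L, hL, fun σ hσ => ?_⟩
      rw [MonoidHom.mem_ker]
      have h1 := h σ ((IntermediateField.mem_fixingSubgroup_iff L σ).mp hσ)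
      refine Matrix.ext fun i j => ?_
      have h2 := h1 i j
      rw [kf_maximalIdeal_sq, Ideal.mem_bot, Matrix.sub_apply] at h2
      exact sub_eq_zero.mp h2
    · intro σ hσ τ hτ
      rw [MonoidHom.mem_ker]
      have h1 : σ * τ * σ⁻¹ * τ⁻¹ = (σ * τ) * (τ * σ)⁻¹ := by group
      rw [h1, map_mul, map_mul, hcommute σ hσ τ hτ, ← map_mul, ← map_mul, mul_inv_cancel,
        map_one]
    · intro σ hσ
      rw [MonoidHom.mem_ker, map_pow]
      have h0 := kf_matrix_mul_eq_zero (hHr σ hσ) (hHr σ hσ)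
      have h1 : r σ = 1 + (r σ - 1) := by abel
      rw [h1, kf_one_add_pow h0, ← Nat.cast_smul_eq_nsmul (DualNumber k), kf_natCast_eq_zero p,
        zero_smul, add_zero]
    · intro q hq hqS A hA σ hσ
      exact MonoidHom.mem_ker.mpr (hunr q hq hqS A hA σ hσ)
  exact MonoidHom.mem_ker.mp hmem

end DualNumber

section Quotient

variable {k : Type} [Field k]

theorem kf_isEquiv_of_toMat_eq {A : Type} [CommRing A] [IsLocalRing A] (ρ ρ' : GaloisRepAdic A)
    (b : Module.Basis (Fin 2) A ρ.V) (b' : Module.Basis (Fin 2) A ρ'.V)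
    (h : toMat ρ b = toMat ρ' b') : ρ.IsEquiv ρ' := by
  have key : ∀ (r r' : (AlgebraicClosure ℚ ≃ₐ[ℚ] AlgebraicClosure ℚ) →* Matrix (Fin 2) (Fin 2) A)
      (hr : MatAdicContinuous r) (hr' : MatAdicContinuous r'), r = r' →
      ofMat r hr = ofMat r' hr' := by
    intro r r' hr hr' h
    subst h
    rfl
  have e1 := isEquiv_ofMat_toMat ρ b
  have e2 := isEquiv_ofMat_toMat ρ' b'
  rw [← key _ _ (toMat_adicContinuous ρ b) (toMat_adicContinuous ρ' b') h] at e2
  obtain ⟨E1⟩ := e1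
  obtain ⟨E2⟩ := e2
  exact ⟨E1.trans E2.symm⟩

/-- **Finiteness of the set of deformations to the dual numbers unramified outside `S`.** -/
theorem kf_finite_quotient [Finite k] (ψ : k →+* ResidueField (DualNumber k))
    (ρbar : ResidualGaloisRep k) (S : Finset ℕ)
    {X : Type*} (f : X → GaloisRepAdic (DualNumber k))
    (hunr : ∀ x, ∀ q : ℕ, q.Prime → q ∉ S → (f x).IsUnramifiedAt q)
    (hres : ∀ x, (f x).residual.IsEquiv (ρbar.baseChangeAlong ψ))
    (s : Setoid X) (hs : ∀ x y, (f x).IsEquiv (f y) → s.r x y) :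
    Finite (Quotient s) := by
  classical
  obtain ⟨p, hpchar⟩ := CharP.exists k
  have hp : p.Prime :=
    (CharP.char_is_prime_or_zero k p).resolve_right (CharP.char_ne_zero_of_finite k p)
  obtain ⟨bbar⟩ := exists_basis_residual ρbar
  let H : Subgroup GQ := ρbar.ρ.ker
  have hH : ∃ L₀ : IntermediateField ℚ Qb, FiniteDimensional ℚ L₀ ∧ L₀.fixingSubgroup ≤ H := by
    obtain ⟨L, hL, h⟩ := ρbar.factorsThroughFiniteLevel
    exact ⟨L, hL, fun σ hσ =>
      MonoidHom.mem_ker.mpr (h σ ((IntermediateField.mem_fixingSubgroup_iff L σ).mp hσ))⟩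
  obtain ⟨F, hFfin, hF⟩ := kf_exists_level (k := k) p hp S H hH
  have hb : ∀ x, ∃ b : Module.Basis (Fin 2) (DualNumber k) (f x).V, ∀ σ i j,
      residue (DualNumber k) (toMat (f x) b σ i j) = ψ (resToMat ρbar bbar σ i j) := fun x =>
    exists_basis_lifting (f x) ρbar ψ bbar (hres x)
  choose b hb using hb
  have hone : ∀ i j : Fin 2, residue (DualNumber k) ((1 : Matrix (Fin 2) (Fin 2) (DualNumber k)) i j)
      = ψ ((1 : Matrix (Fin 2) (Fin 2) k) i j) := by
    intro i j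
    by_cases hij : i = j
    · subst hij
      rw [Matrix.one_apply_eq, Matrix.one_apply_eq, map_one, map_one]
    · rw [Matrix.one_apply_ne hij, Matrix.one_apply_ne hij, map_zero, map_zero]
  have htriv : ∀ x, ∀ σ ∈ F.fixingSubgroup, toMat (f x) (b x) σ = 1 := by
    intro x
    apply hF (toMat (f x) (b x)) (toMat_adicContinuous _ _)
    · intro σ hσ
      rw [MonoidHom.mem_ker]
      have h1 : resToMat ρbar bbar σ = 1 := by
        refine Matrix.ext fun i j => ?_
        apply ψ.injective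
        rw [← hb x σ i j, hσ, hone]
      rw [resToMat_apply] at h1
      apply (LinearMap.toMatrix bbar bbar).injective
      rw [h1, LinearMap.toMatrix_one]
    · intro σ hσ i j
      have h1 : resToMat ρbar bbar σ = 1 := by
        rw [resToMat_apply, MonoidHom.mem_ker.mp hσ, LinearMap.toMatrix_one]
      rw [← residue_eq_zero_iff, Matrix.sub_apply, map_sub, hb x σ i j, h1, hone, sub_self]
    · intro q hq hqS A hA σ hσ
      rw [toMat_apply, hunr x q hq hqS A hA σ hσ, LinearMap.toMatrix_one]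
  have hfinΦ : F.fixingSubgroup.FiniteIndex := kf_finiteIndex_fixingSubgroup F
  have hfinQ : Finite (GQ ⧸ F.fixingSubgroup) := inferInstance
  have hfinD : Finite (DualNumber k) := inferInstanceAs (Finite (k × k))
  let J : X → (GQ ⧸ F.fixingSubgroup → Matrix (Fin 2) (Fin 2) (DualNumber k)) :=
    fun x q => toMat (f x) (b x) (Quotient.out q)
  have hred : ∀ x (σ : GQ), toMat (f x) (b x) σ =
      toMat (f x) (b x) (Quotient.out (QuotientGroup.mk σ : GQ ⧸ F.fixingSubgroup)) := by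
    intro x σ
    have h2 : (Quotient.out (QuotientGroup.mk σ : GQ ⧸ F.fixingSubgroup))⁻¹ * σ ∈
        F.fixingSubgroup := by
      rw [← QuotientGroup.eq, QuotientGroup.out_eq']
    have h3 := htriv x _ h2
    rw [map_mul] at h3
    have h4 : toMat (f x) (b x) (Quotient.out (QuotientGroup.mk σ : GQ ⧸ F.fixingSubgroup)) *
        (toMat (f x) (b x) (Quotient.out (QuotientGroup.mk σ : GQ ⧸ F.fixingSubgroup))⁻¹ *
          toMat (f x) (b x) σ) =
        toMat (f x) (b x) (Quotient.out (QuotientGroup.mk σ : GQ ⧸ F.fixingSubgroup)) * 1 := by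
      rw [h3]
    rw [← mul_assoc, ← map_mul, mul_inv_cancel, map_one, one_mul, mul_one] at h4
    exact h4
  have hJ : ∀ x y, J x = J y → (f x).IsEquiv (f y) := by
    intro x y hxy
    refine kf_isEquiv_of_toMat_eq (f x) (f y) (b x) (b y) ?_
    apply MonoidHom.ext
    intro σ
    rw [hred x σ, hred y σ]
    exact congrFun hxy (QuotientGroup.mk σ)
  have hfinT : Finite (GQ ⧸ F.fixingSubgroup → Matrix (Fin 2) (Fin 2) (DualNumber k)) :=
    inferInstance
  refine Finite.of_injective (fun a : Quotient s => J (Quotient.out a)) ?_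
  intro a a' h
  have h1 := hs _ _ (hJ _ _ h)
  rw [← Quotient.out_eq a, ← Quotient.out_eq a']
  exact Quotient.sound h1

end Quotient

end Fermat.Agent.KFin
end MergeWrap_S59_DefCond_TangentAux

section MergeWrap_S59_DefCond_Tangent -- from S59/DefCond/Tangent.lean

set_option autoImplicit false

namespace Fermat.Agent.S59

theorem tangentFinite_of_unramified_outside (𝒪 : Type) [CommRing 𝒪] [IsLocalRing 𝒪]
    [Finite (IsLocalRing.ResidueField 𝒪)]
    (ρbar : ResidualGaloisRep (IsLocalRing.ResidueField 𝒪)) (S : Finset ℕ)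
    (𝒟 : ∀ ⦃A : Type⦄ [CommRing A] [IsLocalRing A] [Algebra 𝒪 A], GaloisRepAdic A → Prop)
    (h𝒟 : ∀ ⦃A : Type⦄ [CommRing A] [IsLocalRing A] [Algebra 𝒪 A] (ρ : GaloisRepAdic A),
      𝒟 ρ → ∀ q : ℕ, q.Prime → q ∉ S → ρ.IsUnramifiedAt q) :
    GaloisRep.TangentFinite 𝒪 ρbar 𝒟 := by
  unfold GaloisRep.TangentFinite
  exact Fermat.Agent.KFin.kf_finite_quotient
    ((IsLocalRing.residue (DualNumber (IsLocalRing.ResidueField 𝒪))).comp
      (algebraMap (IsLocalRing.ResidueField 𝒪) (DualNumber (IsLocalRing.ResidueField 𝒪))))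
    ρbar S (fun x => x.1)
    (fun x => @h𝒟 _ _ _ (((algebraMap (IsLocalRing.ResidueField 𝒪)
      (DualNumber (IsLocalRing.ResidueField 𝒪))).comp
        (algebraMap 𝒪 (IsLocalRing.ResidueField 𝒪))).toAlgebra) x.1 x.2.1)
    (fun x => x.2.2) _ (fun _ _ h => h)

end Fermat.Agent.S59
end MergeWrap_S59_DefCond_Tangent

section MergeWrap_S59_DefCond_All -- from S59/DefCond/All.lean

set_option autoImplicit false

namespace Fermat.Agent.S59

variable (𝒪 : Type) [CommRing 𝒪] [IsLocalRing 𝒪] (p : ℕ) [Fact p.Prime] (Smin Q : Finset ℕ)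

theorem condSO_isDeformationCondition (hp2 : p ≠ 2) :
    GaloisRep.IsDeformationCondition 𝒪 (condSO 𝒪 p Smin Q) :=
  condSO_isDeformationCondition_of (condDet_isDeformationCondition 𝒪 p)
    (condStrictOrd_isDeformationCondition 𝒪 p hp2) (condUnr_isDeformationCondition 𝒪 _)
    (condUnip_isDeformationCondition 𝒪 p Smin)

theorem condFl_isDeformationCondition [Finite (IsLocalRing.ResidueField 𝒪)] :
    GaloisRep.IsDeformationCondition 𝒪 (condFl 𝒪 p Smin Q) :=
  condFl_isDeformationCondition_of (condDet_isDeformationCondition 𝒪 p)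
    (condFlat_isDeformationCondition 𝒪 p) (condUnr_isDeformationCondition 𝒪 _)
    (condUnip_isDeformationCondition 𝒪 p Smin)

theorem condSO_tangentFinite [Finite (IsLocalRing.ResidueField 𝒪)]
    (ρbar : ResidualGaloisRep (IsLocalRing.ResidueField 𝒪)) :
    GaloisRep.TangentFinite 𝒪 ρbar (condSO 𝒪 p Smin Q) :=
  tangentFinite_of_unramified_outside 𝒪 ρbar (Smin ∪ Q) _ fun _ _ _ _ _ hρ => hρ.1.2.2

theorem condFl_tangentFinite [Finite (IsLocalRing.ResidueField 𝒪)]
    (ρbar : ResidualGaloisRep (IsLocalRing.ResidueField 𝒪)) :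
    GaloisRep.TangentFinite 𝒪 ρbar (condFl 𝒪 p Smin Q) :=
  tangentFinite_of_unramified_outside 𝒪 ρbar (Smin ∪ Q) _ fun _ _ _ _ _ hρ => hρ.1.2.2

end Fermat.Agent.S59

namespace Fermat.Agent.S59

variable (𝒪 : Type) [CommRing 𝒪] [IsDomain 𝒪] [IsDiscreteValuationRing 𝒪]
  [IsAdicComplete (IsLocalRing.maximalIdeal 𝒪) 𝒪] [Finite (IsLocalRing.ResidueField 𝒪)]
  (p : ℕ) [Fact p.Prime] (Smin Q : Finset ℕ)

/-- Existence of the strict-ordinary Taylor-Wiles deformation rings. -/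
theorem nonempty_deformationRingData_condSO (hp2 : p ≠ 2)
    (ρbar : ResidualGaloisRep (IsLocalRing.ResidueField 𝒪))
    (habs : ρbar.IsAbsolutelyIrreducible)
    (hbar : condSO 𝒪 p Smin Q (GaloisRepAdic.ofResidualGaloisRep ρbar)) :
    Nonempty (GaloisRep.DeformationRingData 𝒪 ρbar (condSO 𝒪 p Smin Q)) :=
  Fermat.Agent.S53.result 𝒪 ρbar _ habs (condSO_isDeformationCondition 𝒪 p Smin Q hp2) hbar
    (condSO_tangentFinite 𝒪 p Smin Q ρbar)

/-- Existence of the flat Taylor-Wiles deformation rings. -/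
theorem nonempty_deformationRingData_condFl
    (ρbar : ResidualGaloisRep (IsLocalRing.ResidueField 𝒪))
    (habs : ρbar.IsAbsolutelyIrreducible)
    (hbar : condFl 𝒪 p Smin Q (GaloisRepAdic.ofResidualGaloisRep ρbar)) :
    Nonempty (GaloisRep.DeformationRingData 𝒪 ρbar (condFl 𝒪 p Smin Q)) :=
  Fermat.Agent.S53.result 𝒪 ρbar _ habs (condFl_isDeformationCondition 𝒪 p Smin Q) hbar
    (condFl_tangentFinite 𝒪 p Smin Q ρbar)

end Fermat.Agent.S59
end MergeWrap_S59_DefCond_All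

section MergeWrap_S56_Assembly -- from S56/Assembly.lean

set_option autoImplicit false

open Polynomial IsLocalRing

namespace Fermat.Agent.S56

/-- One half of S56 from its wall. -/
theorem half_of_TWBound
    {𝒪 : Type} [CommRing 𝒪] [IsDomain 𝒪] [IsDiscreteValuationRing 𝒪]
    [IsAdicComplete (maximalIdeal 𝒪) 𝒪] [Finite (ResidueField 𝒪)]
    (p : ℕ) (ρbar : ResidualGaloisRep (ResidueField 𝒪)) (S : Finset ℕ)
    (cond : Finset ℕ → ∀ ⦃A : Type⦄ [CommRing A] [IsLocalRing A] [Algebra 𝒪 A],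
      GaloisRepAdic A → Prop)
    (hcond : ∀ Q, GaloisRep.IsDeformationCondition 𝒪 (cond Q))
    (h : TWBound 𝒪 p ρbar S cond) :
    ∃ r : ℕ, ∀ n : ℕ, ∃ qv : Fin r → ℕ, Function.Injective qv ∧
      (∀ i, (qv i).Prime ∧ qv i ∉ S ∧ p ^ (n + 1) ∣ qv i - 1) ∧
      (∀ i, ∀ P : ValuationSubring (AlgebraicClosure ℚ), P.LiesOverPrime (qv i) →
        ∀ φ : AlgebraicClosure ℚ ≃ₐ[ℚ] AlgebraicClosure ℚ, P.IsFrobeniusAt φ (qv i) →
          ∃ α β : ResidueField 𝒪, α ≠ β ∧
            LinearMap.charpoly (ρbar.ρ φ) = (X - C α) * (X - C β)) ∧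
      ∀ DQ : GaloisRep.DeformationRingData 𝒪 ρbar (cond (Finset.univ.image qv)),
        ∃ γ : MvPowerSeries (Fin r) 𝒪 →ₐ[𝒪] DQ.R, Function.Surjective γ := by
  obtain ⟨r, hr⟩ := h
  refine ⟨r, fun n => ?_⟩
  obtain ⟨qv, hinj, hq, hfrob, hcard⟩ := hr n
  exact ⟨qv, hinj, hq, hfrob, fun DQ =>
    exists_surjective_of_tangentCardLe (hcond _) DQ r hcard⟩

/-- **S56 from the two walls.** -/
theorem result_of
    {𝒪 : Type} [CommRing 𝒪] [IsDomain 𝒪] [IsDiscreteValuationRing 𝒪]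
    [IsAdicComplete (maximalIdeal 𝒪) 𝒪] [Finite (ResidueField 𝒪)]
    (p : ℕ) [Fact p.Prime] (hp2 : p ≠ 2)
    (ρbar : ResidualGaloisRep (ResidueField 𝒪))
    (S Smin : Finset ℕ)
    (hSO : TWBound 𝒪 p ρbar S (fun Q => Fermat.Agent.S59.condSO 𝒪 p Smin Q))
    (hFl : TWBound 𝒪 p ρbar S (fun Q => Fermat.Agent.S59.condFl 𝒪 p Smin Q)) :
    (∃ r : ℕ, ∀ n : ℕ, ∃ qv : Fin r → ℕ, Function.Injective qv ∧
      (∀ i, (qv i).Prime ∧ qv i ∉ S ∧ p ^ (n + 1) ∣ qv i - 1) ∧
      (∀ i, ∀ P : ValuationSubring (AlgebraicClosure ℚ), P.LiesOverPrime (qv i) →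
        ∀ φ : AlgebraicClosure ℚ ≃ₐ[ℚ] AlgebraicClosure ℚ, P.IsFrobeniusAt φ (qv i) →
          ∃ α β : ResidueField 𝒪, α ≠ β ∧ LinearMap.charpoly (ρbar.ρ φ) = (X - C α) * (X - C β)) ∧
      ∀ DQ : GaloisRep.DeformationRingData 𝒪 ρbar (fun _A _ _ _ ρ =>
          GaloisRep.strictOrdinaryCondition 𝒪 p (Smin ∪ Finset.univ.image qv) ρ ∧
            ∀ q ∈ Smin, q.Prime → q ≠ p → ρ.IsUnipotentOnInertiaAt q),
        ∃ γ : MvPowerSeries (Fin r) 𝒪 →ₐ[𝒪] DQ.R, Function.Surjective γ) ∧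
    (∃ r : ℕ, ∀ n : ℕ, ∃ qv : Fin r → ℕ, Function.Injective qv ∧
      (∀ i, (qv i).Prime ∧ qv i ∉ S ∧ p ^ (n + 1) ∣ qv i - 1) ∧
      (∀ i, ∀ P : ValuationSubring (AlgebraicClosure ℚ), P.LiesOverPrime (qv i) →
        ∀ φ : AlgebraicClosure ℚ ≃ₐ[ℚ] AlgebraicClosure ℚ, P.IsFrobeniusAt φ (qv i) →
          ∃ α β : ResidueField 𝒪, α ≠ β ∧ LinearMap.charpoly (ρbar.ρ φ) = (X - C α) * (X - C β)) ∧
      ∀ DQ : GaloisRep.DeformationRingData 𝒪 ρbar (fun _A _ _ _ ρ =>
          GaloisRep.flatCondition 𝒪 p (Smin ∪ Finset.univ.image qv) ρ ∧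
            ∀ q ∈ Smin, q.Prime → q ≠ p → ρ.IsUnipotentOnInertiaAt q),
        ∃ γ : MvPowerSeries (Fin r) 𝒪 →ₐ[𝒪] DQ.R, Function.Surjective γ) :=
  ⟨half_of_TWBound p ρbar S _
      (fun Q => Fermat.Agent.S59.condSO_isDeformationCondition 𝒪 p Smin Q hp2) hSO,
    half_of_TWBound p ρbar S _
      (fun Q => Fermat.Agent.S59.condFl_isDeformationCondition 𝒪 p Smin Q) hFl⟩

end Fermat.Agent.S56
end MergeWrap_S56_Assembly
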