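import Fermat.Agent.S56.Interfaces
import Fermat.Agent.MU.S56.Selmer.Defs

section MergeWrap_S56_Walls -- from S56/Walls.lean

set_option autoImplicit false

namespace Fermat.Agent.S56

open Fermat.Agent.F4 Polynomial IsLocalRing

/-- `q` is a Taylor-Wiles prime of level `n` for `ρbar`: a prime outside `S`, `≡ 1 mod p^(n+1)`,
at which every Frobenius element has two distinct eigenvalues in `k`. -/
def IsTWPrime {k : Type} [Field k] (p n : ℕ) (ρbar : ResidualGaloisRep k) (S : Finset ℕ)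
    (q : ℕ) : Prop :=
  (q.Prime ∧ q ∉ S ∧ p ^ (n + 1) ∣ q - 1) ∧
    ∀ P : ValuationSubring (AlgebraicClosure ℚ), P.LiesOverPrime q →
      ∀ φ : AlgebraicClosure ℚ ≃ₐ[ℚ] AlgebraicClosure ℚ, P.IsFrobeniusAt φ q →
        ∃ α β : k, α ≠ β ∧ LinearMap.charpoly (ρbar.ρ φ) = (X - C α) * (X - C β)

theorem IsTWPrime.mono {k : Type} [Field k] {p n m : ℕ} {ρbar : ResidualGaloisRep k}
    {S : Finset ℕ} {q : ℕ} (h : IsTWPrime p n ρbar S q) (hmn : m ≤ n) :
    IsTWPrime p m ρbar S q :=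
  ⟨⟨h.1.1, h.1.2.1, dvd_trans (pow_dvd_pow p (Nat.succ_le_succ hmn)) h.1.2.2⟩, h.2⟩

/-- The set `Q` of primes kills the space `Ψ` of classes: a class of `Ψ` which vanishes at (some
Frobenius element over) every `q ∈ Q` is zero. -/
def Kills {k : Type} [Field k] (ρbar : ResidualGaloisRep k)
    (Ψ : Submodule k (H1sm levelsAll (ad0Dual ρbar))) (Q : Finset ℕ) : Prop :=
  ∀ c : ↥(Z1 levelsAll (ad0Dual ρbar)), H1smπ levelsAll (ad0Dual ρbar) c ∈ Ψ →
    (∀ q ∈ Q, VanishesAt (ad0Dual ρbar) c.1 q) → H1smπ levelsAll (ad0Dual ρbar) c = 0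

/-- **Wall W5** (Taylor-Wiles primes exist). -/
def TWPrimesStatement {k : Type} [Field k] (p : ℕ) (ρbar : ResidualGaloisRep k)
    (S : Finset ℕ) : Prop :=
  ∀ Ψ : Submodule k (H1sm levelsAll (ad0Dual ρbar)), FiniteDimensional k Ψ → ∀ n : ℕ,
    ∃ qv : Fin (Module.finrank k Ψ) → ℕ, Function.Injective qv ∧
      (∀ i, IsTWPrime p n ρbar S (qv i)) ∧ Kills ρbar Ψ (Finset.univ.image qv)

/-- **Walls W1-W4** (Selmer bound): a finite-dimensional space of dual classes controls the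
tangent spaces of all Taylor-Wiles deformation problems. -/
def SelmerWall (𝒪 : Type) [CommRing 𝒪] [IsLocalRing 𝒪] (p : ℕ)
    (ρbar : ResidualGaloisRep (ResidueField 𝒪)) (S : Finset ℕ)
    (cond : Finset ℕ → ∀ ⦃A : Type⦄ [CommRing A] [IsLocalRing A] [Algebra 𝒪 A],
      GaloisRepAdic A → Prop) : Prop :=
  ∃ Ψ : Submodule (ResidueField 𝒪) (H1sm levelsAll (ad0Dual ρbar)),
    FiniteDimensional (ResidueField 𝒪) Ψ ∧
    ∀ Q : Finset ℕ, (∀ q ∈ Q, IsTWPrime p 0 ρbar S q) → Kills ρbar Ψ Q →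
      TangentCardLe 𝒪 ρbar (cond Q) (Nat.card (ResidueField 𝒪) ^ Q.card)

/-- `TWBound` from the two walls. -/
theorem TWBound_of_walls {𝒪 : Type} [CommRing 𝒪] [IsLocalRing 𝒪] {p : ℕ}
    {ρbar : ResidualGaloisRep (ResidueField 𝒪)} {S : Finset ℕ}
    {cond : Finset ℕ → ∀ ⦃A : Type⦄ [CommRing A] [IsLocalRing A] [Algebra 𝒪 A],
      GaloisRepAdic A → Prop}
    (h5 : TWPrimesStatement p ρbar S) (hW : SelmerWall 𝒪 p ρbar S cond) :
    TWBound 𝒪 p ρbar S cond := by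
  obtain ⟨Ψ, hΨ, hW⟩ := hW
  refine ⟨Module.finrank (ResidueField 𝒪) Ψ, fun n => ?_⟩
  obtain ⟨qv, hinj, hq, hkill⟩ := h5 Ψ hΨ n
  refine ⟨qv, hinj, fun i => (hq i).1, fun i => (hq i).2, ?_⟩
  have hcard : (Finset.univ.image qv).card = Module.finrank (ResidueField 𝒪) Ψ := by
    rw [Finset.card_image_of_injective _ hinj, Finset.card_univ, Fintype.card_fin]
  have := hW (Finset.univ.image qv) (fun q hq' => by
    obtain ⟨i, -, rfl⟩ := Finset.mem_image.1 hq'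
    exact (hq i).mono (Nat.zero_le n)) hkill
  rwa [hcard] at this

end Fermat.Agent.S56
end MergeWrap_S56_Walls
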