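import Mathlib
import Fermat.Prelude.Def_GaloisRep_LocalConditions
import Fermat.Agent.MU.S56.TW.Hyp
import Fermat.Agent.MU.S56.TW.Ad0Irr.Line
import Fermat.Agent.S56.TW.Ad0Irr.Plane
import Fermat.Agent.MU.F4.Cf.CharGQ
import Fermat.Agent.MU.F4.BR.LevelsBridge
import Fermat.Agent.S56.TW.GT.Defs
import Fermat.Agent.S56.TW.GT.Average.TadBasic
import Fermat.Agent.MU.S56.TW.GT.Fixed
import Fermat.Agent.MU.S56.TW.GT.CuspsDecomp
import Fermat.Agent.MU.S56.TW.GT.Cusps.Par
import Fermat.Agent.S56.TW.GT.Average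
import Fermat.Agent.MU.S56.TW.GT.Borel
import Fermat.Agent.S56.TW.Bridge.TraceForm
import Fermat.Agent.MU.F4.Datum
import Fermat.Agent.MU.Lib.FrobDensity.Main
import Fermat.Agent.MU.F4.Dict.PlaceSurj
import Fermat.Agent.S56.TW.FrobConj.Ram
import Fermat.Agent.Lib.FrobDensity.Bridge
import Fermat.Agent.MU.S56.Walls

section MergeWrap_S56_TW_Ad0Irr -- from S56/TW/Ad0Irr.lean

set_option autoImplicit false
set_option linter.style.haveILetI false

namespace Fermat.Agent.S56.TW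

open Fermat.Agent.F4 Polynomial

variable {k : Type} [Field k]

/-- Conjugation is multiplicative. -/
theorem ad0irr_conj_mul (ρbar : ResidualGaloisRep k) (g : GQ) (X Y : Module.End k ρbar.V) :
    ρbar.ρ g * (X * Y) * ρbar.ρ g⁻¹ =
      (ρbar.ρ g * X * ρbar.ρ g⁻¹) * (ρbar.ρ g * Y * ρbar.ρ g⁻¹) := by
  calc ρbar.ρ g * (X * Y) * ρbar.ρ g⁻¹
      = ρbar.ρ g * X * 1 * Y * ρbar.ρ g⁻¹ := by simp only [mul_assoc, one_mul]
    _ = ρbar.ρ g * X * (ρbar.ρ g⁻¹ * ρbar.ρ g) * Y * ρbar.ρ g⁻¹ := by rw [ad0irr_ρ_inv_mul]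
    _ = _ := by simp only [mul_assoc]

/-- A conjugation-stable subspace of the trace-zero endomorphisms is `0` or everything. -/
theorem ad0Sub_irreducible {p : ℕ} {ρbar : ResidualGaloisRep k} (H : Hyp p ρbar)
    (W : Submodule k (Module.End k ρbar.V)) (hW0 : W ≤ ad0Sub ρbar)
    (hW : ∀ g : GQ, ∀ f ∈ W, ρbar.ρ g * f * ρbar.ρ g⁻¹ ∈ W) : W = ⊥ ∨ W = ad0Sub ρbar := by
  by_contra hcon
  push Not at hcon
  obtain ⟨hbot, htop⟩ := hcon
  have h2 : (2 : k) ≠ 0 := ad0irr_two_ne_zero H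
  haveI : Module.Finite k ρbar.V := Module.finite_of_finrank_eq_succ ρbar.finrank_eq
  have h3 : Module.finrank k (ad0Sub ρbar) = 3 := ad0irr_finrank_ker_trace ρbar.finrank_eq h2
  have hlt : Module.finrank k W < 3 := by
    rw [← h3]
    exact Submodule.finrank_lt_finrank_of_lt (lt_of_le_of_ne hW0 htop)
  have hpos : 0 < Module.finrank k W := by
    rw [Module.finrank_pos_iff]
    exact Submodule.nontrivial_iff_ne_bot.2 hbot
  have htrW : ∀ f ∈ W, LinearMap.trace k ρbar.V f = 0 := fun f hf => hW0 hf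
  have hcases : Module.finrank k W = 1 ∨ Module.finrank k W = 2 := by omega
  rcases hcases with h1 | h1
  · -- a line
    obtain ⟨⟨X, hX⟩, hX0, hspan⟩ := finrank_eq_one_iff'.1 h1
    have hX0' : X ≠ 0 := fun h => hX0 (Subtype.ext h)
    refine ad0irr_no_stable_line H X hX0' (htrW X hX) fun g => ?_
    obtain ⟨c, hc⟩ := hspan ⟨ρbar.ρ g * X * ρbar.ρ g⁻¹, hW g X hX⟩
    exact ⟨c, (congrArg Subtype.val hc).symm⟩
  · -- a plane
    let b := Module.finBasisOfFinrankEq k W h1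
    have hli := b.linearIndependent
    have hrepr : ∀ f ∈ W, ∃ s t : k, f = s • (b 0 : Module.End k ρbar.V) + t • (b 1 : _) := by
      intro f hf
      refine ⟨b.repr ⟨f, hf⟩ 0, b.repr ⟨f, hf⟩ 1, ?_⟩
      have := b.sum_repr ⟨f, hf⟩
      rw [Fin.sum_univ_two] at this
      have h4 := congrArg Subtype.val this
      simpa using h4.symm
    set X : Module.End k ρbar.V := (b 0 : Module.End k ρbar.V) with hXdef
    set Y : Module.End k ρbar.V := (b 1 : Module.End k ρbar.V) with hYdef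
    have hXW : X ∈ W := (b 0).2
    have hYW : Y ∈ W := (b 1).2
    have hcomm : X * Y - Y * X ≠ 0 := by
      intro h
      obtain ⟨s, t, hst, hdep⟩ := ad0irr_end_dependent ρbar.finrank_eq h2 X Y (htrW X hXW)
        (htrW Y hYW) (sub_eq_zero.1 h)
      have hdep' : s • b 0 + t • b 1 = 0 := by
        apply Subtype.ext
        simpa using hdep
      have := (LinearIndependent.pair_iff.1 (by
        have h5 := hli
        have h6 : (fun i => b i) = ![b 0, b 1] := by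
          ext i
          fin_cases i <;> rfl
        rw [show (⇑b : Fin 2 → W) = ![b 0, b 1] from h6] at h5
        exact h5)) s t hdep'
      rcases hst with h | h
      · exact h this.1
      · exact h this.2
    have htrA : LinearMap.trace k ρbar.V (X * Y - Y * X) = 0 := by
      rw [map_sub, LinearMap.trace_mul_comm, sub_self]
    refine ad0irr_no_stable_line H (X * Y - Y * X) hcomm htrA fun g => ?_
    obtain ⟨s, t, hs⟩ := hrepr _ (hW g X hXW)
    obtain ⟨u, v, hu⟩ := hrepr _ (hW g Y hYW)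
    refine ⟨s * v - t * u, ?_⟩
    rw [mul_sub, sub_mul, ad0irr_conj_mul, ad0irr_conj_mul, hs, hu]
    simp only [add_mul, mul_add, smul_mul_assoc, mul_smul_comm, smul_add, smul_smul, sub_smul,
      smul_sub]
    module

/-- An element of `ad⁰` as an endomorphism. -/
def ad0irrVal (ρbar : ResidualGaloisRep k) (a : ad0 ρbar) : Module.End k ρbar.V :=
  Subtype.val (p := fun f => f ∈ ad0Sub ρbar) a

/-- An element of `N` as a linear form on the trace-zero endomorphisms. -/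
def ad0irrForm (ρbar : ResidualGaloisRep k) (f : ad0Dual ρbar) :
    Module.Dual k ↥(ad0Sub ρbar) := f

/-- The action of `ad⁰` in terms of endomorphisms. -/
theorem ad0irr_ad0_ρ_coe (ρbar : ResidualGaloisRep k) (g : GQ) (a : ↥(ad0Sub ρbar)) :
    ad0irrVal ρbar ((ad0 ρbar).ρ g a) =
      ρbar.ρ g * (a : Module.End k ρbar.V) * ρbar.ρ g⁻¹ := by
  show ρbar.ρ g * ((a : Module.End k ρbar.V) * ρbar.ρ g⁻¹) = _
  rw [mul_assoc]

/-- The action of `N = (ad⁰)^* ⊗ det`. -/
theorem ad0irr_ad0Dual_ρ_apply (ρbar : ResidualGaloisRep k) (g : GQ)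
    (f : ad0Dual ρbar) (a : ↥(ad0Sub ρbar)) :
    ad0irrForm ρbar ((ad0Dual ρbar).ρ g f) a =
      LinearMap.det (ρbar.ρ g) * ad0irrForm ρbar f ((ad0 ρbar).ρ g⁻¹ a) := rfl

theorem ad0irr_det_ne_zero (ρbar : ResidualGaloisRep k) (g : GQ) :
    LinearMap.det (ρbar.ρ g) ≠ 0 := by
  intro h
  have h1 : LinearMap.det (ρbar.ρ g) * LinearMap.det (ρbar.ρ g⁻¹) = 1 := by
    rw [← map_mul, ad0irr_ρ_mul_inv, map_one]
  rw [h, zero_mul] at h1
  exact zero_ne_one h1

/-- A scalar endomorphism has no two distinct "eigenvalues" in its characteristic polynomial. -/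
theorem ad0irr_not_scalar_of_regular {ρbar : ResidualGaloisRep k} (σ : GQ)
    (hreg : IsRegular ρbar σ) (c : k) : ρbar.ρ σ ≠ c • (1 : Module.End k ρbar.V) := by
  haveI : Module.Finite k ρbar.V := Module.finite_of_finrank_eq_succ ρbar.finrank_eq
  obtain ⟨α, β, hαβ, hchar⟩ := hreg
  intro h
  have key : ∀ γ : k, (LinearMap.charpoly (ρbar.ρ σ)).IsRoot γ → γ = c := by
    intro γ hγ
    have h1 := (Module.End.hasEigenvalue_iff_isRoot_charpoly (ρbar.ρ σ) γ).2 hγ
    obtain ⟨v, hv⟩ := h1.exists_hasEigenvector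
    have h2 := hv.apply_eq_smul
    rw [h, LinearMap.smul_apply, Module.End.one_apply] at h2
    have h3 : (c - γ) • v = 0 := by rw [sub_smul, h2, sub_self]
    rcases smul_eq_zero.1 h3 with h4 | h4
    · exact (sub_eq_zero.1 h4).symm
    · exact absurd h4 hv.2
  have hα : α = c := key α (by rw [hchar, IsRoot, eval_mul, eval_sub, eval_X, eval_C, sub_self,
    zero_mul])
  have hβ : β = c := key β (by rw [hchar, IsRoot, eval_mul, eval_sub, eval_X, eval_C,
    eval_sub, eval_X, eval_C, sub_self, mul_zero])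
  exact hαβ (hα.trans hβ.symm)

/-- `det ρbar(σ) = 1` if `σ` fixes the `p`-th roots of unity. -/
theorem ad0irr_det_eq_one {p : ℕ} {ρbar : ResidualGaloisRep k} (H : Hyp p ρbar)
    (σ : GQ) (hσ : FixesRoots p σ) : LinearMap.det (ρbar.ρ σ) = 1 := by
  have h1 := H.hdet.2 1 σ 1 (fun μ hμ => by
    rw [pow_one] at hμ ⊢
    exact hσ μ hμ)
  have h0 : ((p ^ 1 : ℕ) : k) = 0 := by rw [pow_one]; exact H.char
  rw [h0, Ideal.span_singleton_eq_bot.2 rfl, Ideal.mem_bot, Nat.cast_one, sub_eq_zero] at h1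
  exact h1

/-- An element which fixes `μ_p` and has two distinct eigenvalues has a nonzero fixed vector in
`N`, so `σ - 1` is not surjective on `N`. -/
theorem exists_not_inRange_of_regular {p : ℕ} {ρbar : ResidualGaloisRep k} (H : Hyp p ρbar)
    (σ : GQ) (hσ : FixesRoots p σ) (hreg : IsRegular ρbar σ) :
    ∃ y : ad0Dual ρbar, ∀ x : ad0Dual ρbar, y ≠ (ad0Dual ρbar).ρ σ x - x := by
  have h2 : (2 : k) ≠ 0 := ad0irr_two_ne_zero H
  have hdet := ad0irr_det_eq_one H σ hσ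
  set t : k := LinearMap.trace k ρbar.V (ρbar.ρ σ) with ht
  set a0 : Module.End k ρbar.V := ρbar.ρ σ - (t / 2) • (1 : Module.End k ρbar.V) with ha0
  have ha0tr : LinearMap.trace k ρbar.V a0 = 0 := by
    rw [ha0, map_sub, ad0irr_trace_smul_one ρbar.finrank_eq, ← ht]
    field_simp
    ring
  have ha0ne : a0 ≠ 0 := fun h =>
    ad0irr_not_scalar_of_regular σ hreg (t / 2) (sub_eq_zero.1 h)
  have ha0fix : ρbar.ρ σ⁻¹ * a0 * ρbar.ρ σ = a0 := by
    rw [ha0, mul_sub, sub_mul, mul_smul_comm, mul_one, smul_mul_assoc, ad0irr_ρ_inv_mul,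
      one_mul]
  let a : ↥(ad0Sub ρbar) := ⟨a0, ha0tr⟩
  have hane : a ≠ 0 := fun h => ha0ne (congrArg Subtype.val h)
  have hfix : (ad0 ρbar).ρ σ⁻¹ a = a := by
    apply Subtype.ext
    have h1 := ad0irr_ad0_ρ_coe ρbar σ⁻¹ a
    rw [inv_inv] at h1
    exact h1.trans ha0fix
  obtain ⟨φ, hφ⟩ : ∃ φ : Module.Dual k ↥(ad0Sub ρbar), φ a ≠ 0 := by
    by_contra hcon
    push Not at hcon
    exact hane ((Module.forall_dual_apply_eq_zero_iff k a).1 hcon)
  refine ⟨(φ : Module.Dual k ↥(ad0Sub ρbar)), fun x hx => hφ ?_⟩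
  have h3 : ad0irrForm ρbar ((ad0Dual ρbar).ρ σ x - x) a = 0 := by
    have h4 : ad0irrForm ρbar ((ad0Dual ρbar).ρ σ x - x) a =
        ad0irrForm ρbar ((ad0Dual ρbar).ρ σ x) a - ad0irrForm ρbar x a := rfl
    rw [h4, ad0irr_ad0Dual_ρ_apply, hdet, one_mul, hfix, sub_self]
  rw [← hx] at h3
  exact h3

/-- `N = ad0Dual ρbar` is irreducible. -/
theorem ad0Dual_irreducible {p : ℕ} {ρbar : ResidualGaloisRep k} (H : Hyp p ρbar)
    (W : Submodule k (ad0Dual ρbar))
    (hW : ∀ g : GQ, ∀ x ∈ W, (ad0Dual ρbar).ρ g x ∈ W) : W = ⊥ ∨ W = ⊤ := by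
  haveI : Module.Finite k ρbar.V := Module.finite_of_finrank_eq_succ ρbar.finrank_eq
  -- `W` as a subspace of the dual of the trace-zero endomorphisms
  let Φ : Submodule k (Module.Dual k ↥(ad0Sub ρbar)) := W
  have hΦ : ∀ g : GQ, ∀ φ ∈ Φ, ad0irrForm ρbar ((ad0Dual ρbar).ρ g φ) ∈ Φ :=
    fun g φ hφ => hW g φ hφ
  let W' : Submodule k (Module.End k ρbar.V) := Φ.dualCoannihilator.map (ad0Sub ρbar).subtype
  have hW'le : W' ≤ ad0Sub ρbar := by
    rintro _ ⟨a, -, rfl⟩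
    exact a.2
  have hW'st : ∀ g : GQ, ∀ f ∈ W', ρbar.ρ g * f * ρbar.ρ g⁻¹ ∈ W' := by
    rintro g _ ⟨a, ha, rfl⟩
    have ha' := (Submodule.mem_dualCoannihilator a).1 ha
    refine ⟨(ad0 ρbar).ρ g a, (Submodule.mem_dualCoannihilator (Φ := Φ) _).2 (fun φ hφ => ?_),
      ad0irr_ad0_ρ_coe ρbar g a⟩
    have h0 := ha' _ (hΦ g⁻¹ φ hφ)
    have h1 : LinearMap.det (ρbar.ρ g⁻¹) * φ ((ad0 ρbar).ρ (g⁻¹)⁻¹ a) = 0 := h0
    rw [inv_inv] at h1
    rcases mul_eq_zero.1 h1 with h | h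
    · exact absurd h (ad0irr_det_ne_zero ρbar g⁻¹)
    · exact h
  have hfin : FiniteDimensional k ↥Φ := inferInstance
  have hΦeq : Φ.dualCoannihilator.dualAnnihilator = Φ :=
    Subspace.dualCoannihilator_dualAnnihilator_eq
  rcases ad0Sub_irreducible H W' hW'le hW'st with h | h
  · -- coannihilator is zero: `W = ⊤`
    right
    have h1 : Φ.dualCoannihilator = ⊥ := by
      rw [eq_bot_iff]
      intro a ha
      have h2 : (ad0Sub ρbar).subtype a ∈ W' := ⟨a, ha, rfl⟩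
      rw [h, Submodule.mem_bot] at h2
      rw [Submodule.mem_bot]
      exact Subtype.ext h2
    have h3 : Φ = ⊤ := by rw [← hΦeq, h1, Submodule.dualAnnihilator_bot]
    exact h3
  · -- coannihilator is everything: `W = ⊥`
    left
    have h1 : Φ.dualCoannihilator = ⊤ := by
      rw [eq_top_iff]
      intro a _
      have h2 : (a : Module.End k ρbar.V) ∈ W' := by rw [h]; exact a.2
      obtain ⟨b, hb, hba⟩ := h2
      have : b = a := Subtype.ext hba
      rw [← this]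
      exact hb
    have h3 : Φ = ⊥ := by rw [← hΦeq, h1, Submodule.dualAnnihilator_top]
    exact h3

/-- `N` has no nonzero invariants. -/
theorem ad0Dual_invariants {p : ℕ} {ρbar : ResidualGaloisRep k} (H : Hyp p ρbar)
    (x : ad0Dual ρbar) (hx : ∀ g : GQ, (ad0Dual ρbar).ρ g x = x) : x = 0 := by
  haveI : Module.Finite k ρbar.V := Module.finite_of_finrank_eq_succ ρbar.finrank_eq
  have h2 : (2 : k) ≠ 0 := ad0irr_two_ne_zero H
  by_contra hx0
  have hst : ∀ g : GQ, ∀ y ∈ Submodule.span k {x}, (ad0Dual ρbar).ρ g y ∈ Submodule.span k {x} := by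
    intro g y hy
    obtain ⟨c, rfl⟩ := Submodule.mem_span_singleton.1 hy
    rw [map_smul, hx g]
    exact Submodule.smul_mem _ c (Submodule.mem_span_singleton_self x)
  rcases ad0Dual_irreducible H (Submodule.span k {x}) hst with h | h
  · exact hx0 (Submodule.span_singleton_eq_bot.1 h)
  · have h3 : Module.finrank k (ad0Sub ρbar) = 3 := ad0irr_finrank_ker_trace ρbar.finrank_eq h2
    have h4 : Module.finrank k (Module.Dual k ↥(ad0Sub ρbar)) = 3 := by
      rw [Subspace.dual_finrank_eq, h3]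
    have h5 : Module.finrank k (Submodule.span k {(x : Module.Dual k ↥(ad0Sub ρbar))}) = 1 :=
      finrank_span_singleton hx0
    have h6 : Submodule.span k {(x : Module.Dual k ↥(ad0Sub ρbar))} = ⊤ := h
    rw [h6, finrank_top] at h5
    have h7 : (3 : ℕ) = 1 := h4.symm.trans h5
    omega

end Fermat.Agent.S56.TW
end MergeWrap_S56_TW_Ad0Irr

section MergeWrap_S56_TW_Cyclo -- from S56/TW/Cyclo.lean

set_option autoImplicit false

namespace Fermat.Agent.S56.TW

open Fermat.Agent.F4 Polynomial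

variable {k : Type} [Field k]

/-- An element with trivial mod `m` cyclotomic character fixes the `m`-th roots of unity. -/
theorem cyc_fixesRoots_of_modChar (m : ℕ) [NeZero m] (σ : GQ) (h : Cyclo.modChar m σ = 1) :
    FixesRoots m σ := by
  intro t ht
  have h1 := Cyclo.modChar_spec m σ ht
  rw [h] at h1
  rcases Nat.lt_or_ge 1 m with hn | hn
  · have : Fact (1 < m) := ⟨hn⟩
    rw [Units.val_one, ZMod.val_one, pow_one] at h1
    exact h1
  · have hn1 : m = 1 := le_antisymm hn (Nat.pos_of_ne_zero (NeZero.ne m))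
    subst hn1
    have : t = 1 := by simpa using ht
    rw [this, map_one]

/-- An element fixing the `m`-th roots of unity has trivial mod `m` cyclotomic character. -/
theorem cyc_modChar_of_fixesRoots (m : ℕ) [NeZero m] (σ : GQ) (h : FixesRoots m σ) :
    Cyclo.modChar m σ = 1 :=
  Cyclo.modChar_eq_one_of_fix m σ h

/-- A Frobenius element at `q ≠ p` which fixes the `p^(n+1)`-th roots of unity: `q ≡ 1`. -/
theorem pow_dvd_sub_one_of_frobenius (p n q : ℕ) (hp : p.Prime) (hq : q.Prime) (hqp : q ≠ p)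
    (P : ValuationSubring (AlgebraicClosure ℚ)) (hP : P.LiesOverPrime q) (φ : GQ)
    (hφ : P.IsFrobeniusAt φ q) (hfix : FixesRoots (p ^ (n + 1)) φ) : p ^ (n + 1) ∣ q - 1 := by
  have : NeZero (p ^ (n + 1)) := ⟨pow_ne_zero _ hp.ne_zero⟩
  have hndvd : ¬ q ∣ p ^ (n + 1) := by
    intro h
    have h1 := hq.dvd_of_dvd_pow h
    exact hqp ((Nat.prime_dvd_prime_iff_eq hq hp).1 h1)
  have h1 := Cyclo.modChar_frobenius (p ^ (n + 1)) hq hndvd P hP φ hφ
  rw [cyc_modChar_of_fixesRoots (p ^ (n + 1)) φ hfix, Units.val_one] at h1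
  have h2 : ((q - 1 : ℕ) : ZMod (p ^ (n + 1))) = 0 := by
    rw [Nat.cast_sub hq.one_lt.le, Nat.cast_one, ← h1, sub_self]
  exact (ZMod.natCast_eq_zero_iff _ _).1 h2

/-- The roots of unity of order `m` are fixed by a level. -/
theorem exists_level_fixesRoots (m : ℕ) (hm : m ≠ 0) :
    ∃ U ∈ levelsAll.sets, ∀ σ ∈ U, FixesRoots m σ := by
  have : NeZero m := ⟨hm⟩
  refine ⟨(Cyclo.cycloField m).fixingSubgroup, Loc.cycloField_mem_levelsAll m, ?_⟩
  intro σ hσ t ht
  exact (IntermediateField.mem_fixingSubgroup_iff _ _).1 hσ t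
    (Cyclo.mem_cycloField_of_pow_eq_one m ht)

/-- `ρbar` is trivial on a level. -/
theorem exists_level_ker (ρbar : ResidualGaloisRep k) :
    ∃ U ∈ levelsAll.sets, ∀ σ ∈ U, ρbar.ρ σ = 1 := by
  obtain ⟨L, hL, h1⟩ := ρbar.factorsThroughFiniteLevel
  obtain ⟨F', hle, hfin, hst, -⟩ := br_exists_stable L hL
  refine ⟨F'.fixingSubgroup, ⟨F', hfin, hst, rfl⟩, ?_⟩
  intro σ hσ
  refine h1 σ fun x hx => ?_
  exact (IntermediateField.mem_fixingSubgroup_iff _ _).1 hσ x (hle hx)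

/-- `det ρbar σ = a` if `σ` raises the `p`-th roots of unity to the power `a`. -/
theorem cyc_det_eq_natCast {p : ℕ} {ρbar : ResidualGaloisRep k} (H : Hyp p ρbar) (σ : GQ) (a : ℕ)
    (hσ : ∀ μ : AlgebraicClosure ℚ, μ ^ p = 1 → σ μ = μ ^ a) :
    LinearMap.det (ρbar.ρ σ) = (a : k) := by
  have h := H.hdet.2 1 σ a (by simpa using hσ)
  have h0 : ((p ^ 1 : ℕ) : k) = 0 := by rw [pow_one]; exact H.char
  rw [h0, Ideal.span_singleton_eq_bot.2 rfl, Ideal.mem_bot, sub_eq_zero] at h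
  exact h

/-- `det ρbar` is the mod `p` cyclotomic character: it is trivial on the elements fixing `μ_p`. -/
theorem det_eq_one_of_fixesRoots {p : ℕ} {ρbar : ResidualGaloisRep k} (H : Hyp p ρbar) (σ : GQ)
    (hσ : FixesRoots p σ) : LinearMap.det (ρbar.ρ σ) = 1 := by
  have h := cyc_det_eq_natCast H σ 1 (fun μ hμ => by rw [hσ μ hμ, pow_one])
  rw [h, Nat.cast_one]

/-- `det ρbar` is the mod `p` cyclotomic character: it is onto `𝔽_pˣ`, which is cyclic of order
`p - 1 ≥ 4` if `p ≥ 5`. -/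
theorem exists_det_sq_ne_one {p : ℕ} {ρbar : ResidualGaloisRep k} (H : Hyp p ρbar) (hp3 : p ≠ 3) :
    ∃ σ : GQ, LinearMap.det (ρbar.ρ σ) ^ 2 ≠ 1 := by
  have hp := H.prime
  have : Fact p.Prime := ⟨hp⟩
  have : NeZero p := ⟨hp.ne_zero⟩
  have hp2 : 2 < p := lt_of_le_of_ne hp.two_le (Ne.symm H.odd)
  have hcop : Nat.Coprime 2 p := by
    rw [Nat.coprime_comm]
    exact (Nat.coprime_primes hp Nat.prime_two).2 H.odd
  obtain ⟨σ, hσ⟩ := F4Cf.modChar_surjective_GQ p (ZMod.unitOfCoprime 2 hcop)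
  refine ⟨σ, ?_⟩
  have hpow : ∀ μ : AlgebraicClosure ℚ, μ ^ p = 1 → σ μ = μ ^ 2 := by
    intro μ hμ
    have h1 := Cyclo.modChar_spec p σ hμ
    rw [hσ, ZMod.coe_unitOfCoprime] at h1
    have h2 : ((2 : ℕ) : ZMod p).val = 2 := by
      rw [ZMod.val_natCast]
      exact Nat.mod_eq_of_lt hp2
    rw [h2] at h1
    exact h1
  rw [cyc_det_eq_natCast H σ 2 hpow]
  have : CharP k p := (CharP.charP_iff_prime_eq_zero hp).2 H.char
  intro h
  have h3 : ((3 : ℕ) : k) = 0 := by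
    have : ((2 : ℕ) : k) ^ 2 - 1 = ((3 : ℕ) : k) := by push_cast; ring
    rw [← this, h, sub_self]
  have h4 : p ∣ 3 := (CharP.cast_eq_zero_iff k p 3).1 h3
  exact hp3 ((Nat.prime_dvd_prime_iff_eq hp Nat.prime_three).1 h4)

/-- The elements fixing the `p^(n+1)`-th roots of unity form a normal subgroup with cyclic
quotient (`p` odd); stated without quotients: there is `γ` such that every `σ` is `γ ^ i` times
an element fixing the roots of unity. -/
theorem exists_cyclic_generator (p n : ℕ) (hp : p.Prime) (hp2 : p ≠ 2) :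
    ∃ γ : GQ, ∀ σ : GQ, ∃ (i : ℕ) (τ : GQ), FixesRoots (p ^ (n + 1)) τ ∧ σ = γ ^ i * τ := by
  have : NeZero (p ^ (n + 1)) := ⟨pow_ne_zero _ hp.ne_zero⟩
  have : IsCyclic (ZMod (p ^ (n + 1)))ˣ := ZMod.isCyclic_units_of_prime_pow p hp hp2 (n + 1)
  obtain ⟨g, hg⟩ := IsCyclic.exists_generator (α := (ZMod (p ^ (n + 1)))ˣ)
  obtain ⟨γ, hγ⟩ := F4Cf.modChar_surjective_GQ (p ^ (n + 1)) g
  refine ⟨γ, fun σ => ?_⟩
  have hmem := hg (Cyclo.modChar (p ^ (n + 1)) σ)
  rw [← mem_powers_iff_mem_zpowers] at hmem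
  obtain ⟨i, hi⟩ := hmem
  refine ⟨i, (γ ^ i)⁻¹ * σ, ?_, ?_⟩
  · apply cyc_fixesRoots_of_modChar
    rw [map_mul, map_inv, map_pow, hγ]
    have : g ^ i = Cyclo.modChar (p ^ (n + 1)) σ := hi
    rw [this, inv_mul_cancel]
  · rw [mul_inv_cancel_left]

theorem fixesRoots_conj (m : ℕ) (σ τ : GQ) (hτ : FixesRoots m τ) :
    FixesRoots m (σ * τ * σ⁻¹) := by
  intro t ht
  have h1 : (σ⁻¹ t) ^ m = 1 := by rw [← map_pow, ht, map_one]
  have h2 : (σ * τ * σ⁻¹) t = σ (τ (σ⁻¹ t)) := rfl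
  rw [h2, hτ _ h1]
  have h3 : σ (σ⁻¹ t) = (σ * σ⁻¹) t := rfl
  rw [h3, mul_inv_cancel]
  rfl

theorem fixesRoots_mul (m : ℕ) (σ τ : GQ) (hσ : FixesRoots m σ) (hτ : FixesRoots m τ) :
    FixesRoots m (σ * τ) := by
  intro t ht
  have h2 : (σ * τ) t = σ (τ t) := rfl
  rw [h2, hτ t ht, hσ t ht]

theorem fixesRoots_commutator (m : ℕ) (hm : m ≠ 0) (σ τ : GQ) :
    FixesRoots m (σ * τ * σ⁻¹ * τ⁻¹) := by
  have : NeZero m := ⟨hm⟩
  apply cyc_fixesRoots_of_modChar
  rw [map_mul, map_mul, map_mul, map_inv, map_inv, mul_comm (Cyclo.modChar m σ), mul_assoc,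
    mul_assoc, mul_inv_cancel_left, mul_inv_cancel]

end Fermat.Agent.S56.TW
end MergeWrap_S56_TW_Cyclo

section MergeWrap_S56_TW_Regular -- from S56/TW/Regular.lean

set_option autoImplicit false
set_option linter.unusedSectionVars false
set_option linter.style.haveILetI false

namespace Fermat.Agent.S56.TW

open Fermat.Agent.F4 Polynomial


section LinAlg

variable {k : Type*} [Field k] {K : Type*} [Field K] [Algebra k K] {V : Type*} [AddCommGroup V] [Module k V]
  [Module.Finite k V]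

/-- base change of a submodule over a field extension: same dimension -/
theorem regular_finrank_baseChange (W : Submodule k V) :
    Module.finrank K (W.baseChange K) = Module.finrank k W := by
  rw [← (Submodule.toBaseChange.toLinearEquiv K W).finrank_eq, Module.finrank_baseChange]

/-- a stable submodule stays stable after base change -/
theorem regular_baseChange_stable (W : Submodule k V) (f : Module.End k V)
    (hf : ∀ x ∈ W, f x ∈ W) : ∀ y ∈ W.baseChange K, f.baseChange K y ∈ W.baseChange K := by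
  intro y hy
  rw [Submodule.baseChange_eq_span] at hy ⊢
  induction hy using Submodule.span_induction with
  | mem x hx =>
    obtain ⟨w, hw, rfl⟩ := hx
    apply Submodule.subset_span
    refine ⟨f w, hf w hw, ?_⟩
    simp [LinearMap.baseChange_tmul]
  | zero => simp
  | add x y _ _ hx hy => rw [map_add]; exact Submodule.add_mem _ hx hy
  | smul a x _ hx => rw [map_smul]; exact Submodule.smul_mem _ a hx

end LinAlg

section Mat

variable {F : Type*} [Field F]

/-- double root ⇒ discriminant zero -/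
theorem regular_disc_of_charpoly (M : Matrix (Fin 2) (Fin 2) F) (a : F)
    (h : M.charpoly = (X - C a) * (X - C a)) : M.trace ^ 2 = 4 * M.det := by
  rw [Matrix.charpoly_fin_two] at h
  have e0 := congrArg (eval 0) h
  have e1 := congrArg (eval 1) h
  simp only [eval_add, eval_sub, eval_mul, eval_pow, eval_X, eval_C] at e0 e1
  linear_combination (M.trace + 2 * a) * (e0 - e1) - 4 * e0

/-- the key computation: if `g`, `g u`, `g u²` all have discriminant zero, `u = [α, 1; 0, α]`,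
then `g` is upper triangular. -/
theorem regular_lower_zero (g : Matrix (Fin 2) (Fin 2) F) (α : F) (h2 : (2 : F) ≠ 0)
    (hα : α ≠ 0) (h0 : g.trace ^ 2 = 4 * g.det)
    (h1 : (g * !![α, 1; 0, α]).trace ^ 2 = 4 * (g * !![α, 1; 0, α]).det)
    (h3 : (g * !![α, 1; 0, α] * !![α, 1; 0, α]).trace ^ 2
      = 4 * (g * !![α, 1; 0, α] * !![α, 1; 0, α]).det) : g 1 0 = 0 := by
  simp only [Matrix.trace_fin_two, Matrix.det_fin_two, Matrix.mul_apply, Fin.sum_univ_two,
    Matrix.of_apply, Matrix.cons_val', Matrix.cons_val_zero, Matrix.cons_val_one,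
    Matrix.cons_val_fin_one] at h0 h1 h3
  by_contra hc
  have e1 : 2 * α * (g 0 0 + g 1 1) + g 1 0 = 0 := by
    apply mul_left_cancel₀ hc
    linear_combination h1 - α ^ 2 * h0
  have e2 : α * (g 0 0 + g 1 1) + g 1 0 = 0 := by
    have h4 : (4 : F) ≠ 0 := by
      have : (4 : F) = 2 * 2 := by norm_num
      rw [this]; exact mul_ne_zero h2 h2
    apply mul_left_cancel₀ hc
    apply mul_left_cancel₀ (pow_ne_zero 2 hα)
    apply mul_left_cancel₀ h4
    linear_combination h3 - α ^ 4 * h0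
  have e3 : α * (g 0 0 + g 1 1) = 0 := by linear_combination e1 - e2
  exact hc (by linear_combination e2 - e3)

end Mat

section Grp

variable {k : Type*} [Field k] {G : Type*} [Group G] {V : Type*} [AddCommGroup V] [Module k V]

/-- the images of group elements are injective -/
theorem regular_rho_inj (ρ : G →* Module.End k V) (σ : G) {v : V} (h : ρ σ v = 0) : v = 0 := by
  have h1 : ρ σ⁻¹ (ρ σ v) = v := by
    rw [← Module.End.mul_apply, ← map_mul, inv_mul_cancel, map_one, Module.End.one_apply]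
  rw [← h1, h, map_zero]

/-- Case (1): all elements of the normal subgroup act by scalars. -/
theorem regular_line_of_scalar [Module.Finite k V] (ρ : G →* Module.End k V) (P : G → Prop)
    (γ : G) (hγ : ∀ σ : G, ∃ (i : ℕ) (τ : G), P τ ∧ σ = γ ^ i * τ)
    (hsplitγ : ∃ α β : k, LinearMap.charpoly (ρ γ) = (X - C α) * (X - C β))
    (hsc : ∀ τ, P τ → ∃ c : k, ρ τ = c • (1 : Module.End k V)) :
    ∃ v : V, v ≠ 0 ∧ ∀ σ : G, ∃ c : k, ρ σ v = c • v := by
  obtain ⟨α, β, hαβ⟩ := hsplitγ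
  have hroot : (LinearMap.charpoly (ρ γ)).IsRoot α := by
    rw [hαβ, IsRoot.def]
    simp
  have hev := (Module.End.hasEigenvalue_iff_isRoot_charpoly (ρ γ) α).mpr hroot
  obtain ⟨v, hv⟩ := hev.exists_hasEigenvector
  have hv1 : ρ γ v = α • v := hv.apply_eq_smul
  have hpow : ∀ i : ℕ, (ρ γ ^ i) v = α ^ i • v := by
    intro i
    induction i with
    | zero => simp
    | succ n ih =>
      rw [pow_succ, Module.End.mul_apply, hv1, map_smul, ih, smul_smul, pow_succ, mul_comm]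
  refine ⟨v, hv.2, fun σ => ?_⟩
  obtain ⟨i, τ, hτ, rfl⟩ := hγ σ
  obtain ⟨c, hc⟩ := hsc τ hτ
  refine ⟨α ^ i * c, ?_⟩
  rw [map_mul, map_pow, Module.End.mul_apply, hc, LinearMap.smul_apply, Module.End.one_apply,
    map_smul, hpow, smul_smul, mul_comm]

/-- Case (2): some element of the normal subgroup is not scalar. -/
theorem regular_line_of_nonscalar [Module.Finite k V] (hV : Module.finrank k V = 2)
    (h2 : (2 : k) ≠ 0)
    (ρ : G →* Module.End k V) (P : G → Prop)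
    (hmul : ∀ σ τ, P σ → P τ → P (σ * τ)) (hconj : ∀ σ τ, P τ → P (σ * τ * σ⁻¹))
    (hdbl : ∀ τ, P τ → ∃ α : k, LinearMap.charpoly (ρ τ) = (X - C α) * (X - C α))
    (σ₁ : G) (hσ₁ : P σ₁) (hns : ∀ c : k, ρ σ₁ ≠ c • (1 : Module.End k V)) :
    ∃ v : V, v ≠ 0 ∧ ∀ σ : G, ∃ c : k, ρ σ v = c • v := by
  obtain ⟨α, hα⟩ := hdbl σ₁ hσ₁
  set N : Module.End k V := ρ σ₁ - α • (1 : Module.End k V) with hN
  have hN0 : N ≠ 0 := fun h => hns α (sub_eq_zero.mp h)
  have hNapp : ∀ x : V, N x = ρ σ₁ x - α • x := by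
    intro x
    simp [hN]
  have hNN : ∀ x : V, N (N x) = 0 := by
    intro x
    have h1 := LinearMap.aeval_self_charpoly (ρ σ₁)
    rw [hα] at h1
    have h3 : Polynomial.aeval (ρ σ₁) (X - C α : k[X]) = N := by
      rw [hN, map_sub, aeval_X, aeval_C, Algebra.algebraMap_eq_smul_one]
    rw [map_mul, h3] at h1
    have := congrArg (fun f : Module.End k V => f x) h1
    simpa using this
  obtain ⟨e₂, he₂⟩ : ∃ e₂ : V, N e₂ ≠ 0 := by
    by_contra hc
    push Not at hc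
    exact hN0 (LinearMap.ext hc)
  have hNe₁ : N (N e₂) = 0 := hNN e₂
  have hα0 : α ≠ 0 := by
    intro h0
    have h1 := hNapp (N e₂)
    rw [hNe₁, h0, zero_smul, sub_zero] at h1
    exact he₂ (regular_rho_inj ρ σ₁ h1.symm)
  -- basis
  have hli : LinearIndependent k ![N e₂, e₂] := by
    rw [LinearIndependent.pair_iff]
    intro s t hst
    have h1 := congrArg N hst
    rw [map_add, map_smul, map_smul, hNe₁, smul_zero, zero_add, map_zero] at h1
    have ht : t = 0 := by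
      rcases smul_eq_zero.mp h1 with h | h
      · exact h
      · exact absurd h he₂
    rw [ht, zero_smul, add_zero] at hst
    rcases smul_eq_zero.mp hst with h | h
    · exact ⟨h, ht⟩
    · exact absurd h he₂
  let b : Module.Basis (Fin 2) k V :=
    basisOfLinearIndependentOfCardEqFinrank hli (by simp [hV])
  have hb0 : b 0 = N e₂ := by simp [b]
  have hb1 : b 1 = e₂ := by simp [b]
  have hexp : ∀ w : V, w = b.repr w 0 • b 0 + b.repr w 1 • b 1 := by
    intro w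
    conv_lhs => rw [← b.sum_repr w, Fin.sum_univ_two]
  have hρb0 : ρ σ₁ (b 0) = α • b 0 := by
    have h1 := hNapp (N e₂)
    rw [hNe₁] at h1
    rw [hb0]
    exact (sub_eq_zero.mp h1.symm)
  have hρb1 : ρ σ₁ (b 1) = b 0 + α • b 1 := by
    have h1 := hNapp e₂
    rw [hb0, hb1, h1]
    abel
  have hu : LinearMap.toMatrix b b (ρ σ₁) = !![α, 1; 0, α] := by
    ext i j
    rw [LinearMap.toMatrix_apply]
    fin_cases i <;> fin_cases j <;>
      simp [hρb0, hρb1]
  have hdisc : ∀ τ, P τ → (LinearMap.toMatrix b b (ρ τ)).trace ^ 2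
      = 4 * (LinearMap.toMatrix b b (ρ τ)).det := by
    intro τ hτ
    obtain ⟨a, ha⟩ := hdbl τ hτ
    exact regular_disc_of_charpoly _ a (by rw [LinearMap.charpoly_toMatrix]; exact ha)
  have hupper : ∀ τ, P τ → ∃ a : k, ρ τ (b 0) = a • b 0 := by
    intro τ hτ
    have h0 := hdisc τ hτ
    have h1 := hdisc (τ * σ₁) (hmul _ _ hτ hσ₁)
    have h3 := hdisc (τ * σ₁ * σ₁) (hmul _ _ (hmul _ _ hτ hσ₁) hσ₁)
    rw [map_mul ρ, LinearMap.toMatrix_mul, hu] at h1
    rw [map_mul ρ, map_mul ρ, LinearMap.toMatrix_mul, LinearMap.toMatrix_mul, hu] at h3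
    have hc := regular_lower_zero _ α h2 hα0 h0 h1 h3
    rw [LinearMap.toMatrix_apply] at hc
    refine ⟨b.repr (ρ τ (b 0)) 0, ?_⟩
    conv_lhs => rw [hexp (ρ τ (b 0)), hc, zero_smul, add_zero]
  have hb0ne : b 0 ≠ 0 := b.ne_zero 0
  refine ⟨b 0, hb0ne, fun σ => ?_⟩
  have hτ : P (σ⁻¹ * σ₁ * σ) := by
    have := hconj σ⁻¹ σ₁ hσ₁
    rwa [inv_inv] at this
  obtain ⟨a, ha⟩ := hupper _ hτ
  set w := ρ σ (b 0) with hw
  have hw0 : w ≠ 0 := fun h => hb0ne (regular_rho_inj ρ σ h)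
  have hσ₁w : ρ σ₁ w = a • w := by
    have h1 : ρ σ (ρ (σ⁻¹ * σ₁ * σ) (b 0)) = ρ σ₁ w := by
      rw [← Module.End.mul_apply, ← map_mul, mul_assoc, mul_inv_cancel_left, map_mul,
        Module.End.mul_apply]
    rw [← h1, ha, map_smul]
  have hNw : N w = (a - α) • w := by
    rw [hNapp, hσ₁w, sub_smul]
  have haα : a - α = 0 := by
    have h1 := hNN w
    rw [hNw, map_smul, hNw, smul_smul] at h1
    rcases smul_eq_zero.mp h1 with h | h
    · exact mul_self_eq_zero.mp h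
    · exact absurd h hw0
  rw [haα, zero_smul] at hNw
  have h1 := hexp w
  have h2' : N w = b.repr w 1 • b 0 := by
    conv_lhs => rw [h1, map_add, map_smul, map_smul, hb0, hNe₁, smul_zero, zero_add, hb1, ← hb0]
  rw [hNw] at h2'
  have hy : b.repr w 1 = 0 := by
    rcases smul_eq_zero.mp h2'.symm with h | h
    · exact h
    · exact absurd h hb0ne
  refine ⟨b.repr w 0, ?_⟩
  conv_lhs => rw [h1, hy, zero_smul, add_zero]

/-- A stable line, if no element of `P` is regular. -/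
theorem regular_exists_stable_line [Module.Finite k V] (hV : Module.finrank k V = 2)
    (h2 : (2 : k) ≠ 0)
    (ρ : G →* Module.End k V) (P : G → Prop)
    (hmul : ∀ σ τ, P σ → P τ → P (σ * τ)) (hconj : ∀ σ τ, P τ → P (σ * τ * σ⁻¹))
    (γ : G) (hγ : ∀ σ : G, ∃ (i : ℕ) (τ : G), P τ ∧ σ = γ ^ i * τ)
    (hsplitγ : ∃ α β : k, LinearMap.charpoly (ρ γ) = (X - C α) * (X - C β))
    (hdbl : ∀ τ, P τ → ∃ α : k, LinearMap.charpoly (ρ τ) = (X - C α) * (X - C α)) :
    ∃ v : V, v ≠ 0 ∧ ∀ σ : G, ∃ c : k, ρ σ v = c • v := by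
  by_cases hsc : ∀ τ, P τ → ∃ c : k, ρ τ = c • (1 : Module.End k V)
  · exact regular_line_of_scalar ρ P γ hγ hsplitγ hsc
  · push Not at hsc
    obtain ⟨σ₁, hσ₁, hns⟩ := hsc
    exact regular_line_of_nonscalar hV h2 ρ P hmul hconj hdbl σ₁ hσ₁ hns

end Grp

variable {k : Type} [Field k]

/-- `habs` implies irreducibility over `k`. -/
theorem isIrreducible_of_hyp {p : ℕ} {ρbar : ResidualGaloisRep k} (H : Hyp p ρbar) :
    ρbar.IsIrreducible := by
  intro W hW
  have habs := H.habs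
  have h1 := habs (W.baseChange (AlgebraicClosure k))
    (fun σ y hy => regular_baseChange_stable W (ρbar.ρ σ) (hW σ) y hy)
  rcases h1 with h1 | h1
  · left
    have h2 := regular_finrank_baseChange (K := AlgebraicClosure k) W
    rw [h1, finrank_bot] at h2
    exact Submodule.finrank_eq_zero.mp h2.symm
  · right
    have h2 := regular_finrank_baseChange (K := AlgebraicClosure k) W
    rw [h1, finrank_top, Module.finrank_baseChange] at h2
    exact Submodule.eq_top_of_finrank_eq h2.symm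

theorem exists_regular {p : ℕ} {ρbar : ResidualGaloisRep k} (H : Hyp p ρbar) (n : ℕ) :
    ∃ σ : GQ, FixesRoots (p ^ (n + 1)) σ ∧ IsRegular ρbar σ := by
  by_contra hno
  push Not at hno
  have h2 : (2 : k) ≠ 0 := by
    intro h
    have hchar : CharP k p := (CharP.charP_iff_prime_eq_zero H.prime).mpr H.char
    have h2' : ((2 : ℕ) : k) = 0 := by exact_mod_cast h
    have hd := (CharP.cast_eq_zero_iff k p 2).mp h2'
    exact H.odd ((Nat.prime_dvd_prime_iff_eq H.prime Nat.prime_two).mp hd)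
  have hdbl : ∀ τ : GQ, FixesRoots (p ^ (n + 1)) τ →
      ∃ α : k, LinearMap.charpoly (ρbar.ρ τ) = (X - C α) * (X - C α) := by
    intro τ hτ
    obtain ⟨α, β, h⟩ := H.hsplit τ
    by_cases hαβ : α = β
    · subst hαβ
      exact ⟨α, h⟩
    · exact absurd ⟨α, β, hαβ, h⟩ (hno τ hτ)
  obtain ⟨γ, hγ⟩ := exists_cyclic_generator p n H.prime H.odd
  obtain ⟨v, hv0, hv⟩ := regular_exists_stable_line ρbar.finrank_eq h2 ρbar.ρ
    (FixesRoots (p ^ (n + 1))) (fun σ τ => fixesRoots_mul _ σ τ)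
    (fun σ τ => fixesRoots_conj _ σ τ) γ hγ (H.hsplit γ) hdbl
  have hirr := isIrreducible_of_hyp H
  have hst : ∀ σ : GQ, ∀ x ∈ Submodule.span k {v}, ρbar.ρ σ x ∈ Submodule.span k {v} := by
    intro σ x hx
    obtain ⟨a, rfl⟩ := Submodule.mem_span_singleton.mp hx
    obtain ⟨c, hc⟩ := hv σ
    rw [map_smul, hc, smul_smul]
    exact Submodule.mem_span_singleton.mpr ⟨a * c, rfl⟩
  rcases hirr (Submodule.span k {v}) hst with h | h
  · have hmem : v ∈ Submodule.span k {v} := Submodule.mem_span_singleton_self v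
    rw [h] at hmem
    exact hv0 ((Submodule.mem_bot k).mp hmem)
  · have h1 : Module.finrank k (Submodule.span k {v}) = 1 := finrank_span_singleton hv0
    rw [h, finrank_top, ρbar.finrank_eq] at h1
    omega

end Fermat.Agent.S56.TW
end MergeWrap_S56_TW_Regular

section MergeWrap_S56_TW_Soft -- from S56/TW/Soft.lean

set_option autoImplicit false

namespace Fermat.Agent.S56.TW

open Fermat.Agent.F4 Polynomial

variable {k : Type} [Field k]

/-! ### the kernel of `ρbar` acts trivially on `N` -/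

theorem soft_ρ_inv_eq_one {ρbar : ResidualGaloisRep k} {τ : GQ} (hτ : ρbar.ρ τ = 1) :
    ρbar.ρ τ⁻¹ = 1 := by
  have h := map_mul ρbar.ρ τ⁻¹ τ
  rw [inv_mul_cancel, map_one, hτ, mul_one] at h
  exact h.symm

/-- The kernel of `ρbar` acts trivially on `N = ad0Dual ρbar`. -/
theorem soft_ρ_eq_self {ρbar : ResidualGaloisRep k} {τ : GQ} (hτ : ρbar.ρ τ = 1)
    (x : ad0Dual ρbar) : (ad0Dual ρbar).ρ τ x = x := by
  have hτ' := soft_ρ_inv_eq_one hτ
  have hdet : ((detChar ρbar τ : kˣ) : k) = 1 := by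
    show LinearMap.det (ρbar.ρ τ) = 1
    rw [hτ, map_one]
  have hfix : ∀ m : ad0 ρbar, (ad0 ρbar).ρ τ⁻¹ m = m := by
    intro m
    apply Subtype.ext
    show ρbar.ρ τ⁻¹ * ((m : ↥(ad0Sub ρbar)).1 * ρbar.ρ τ⁻¹⁻¹) = (m : ↥(ad0Sub ρbar)).1
    rw [inv_inv, hτ, hτ', mul_one, one_mul]
  have key : ∀ f' : Module.Dual k (ad0 ρbar),
      ((ad0 ρbar).dualTwist (detChar ρbar)).ρ τ f' = f' := by
    intro f'
    rw [Rep.dualTwist_ρ_apply, hdet, one_smul]
    refine LinearMap.ext fun m => ?_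
    show f' ((ad0 ρbar).ρ τ⁻¹ m) = f' m
    rw [hfix m]
  exact key x

/-- `c (τ g) = c τ + c g`-type rules for `τ` in the kernel. -/
theorem soft_coc_one {N : Rep k GQ} {c : GQ → N} (hc : IsCoc N c) : c 1 = 0 := by
  have h := hc 1 1
  rw [mul_one, map_one, Module.End.one_apply] at h
  exact left_eq_add.mp h

theorem soft_coc_inv {N : Rep k GQ} {c : GQ → N} (hc : IsCoc N c) (g : GQ) :
    N.ρ g (c g⁻¹) + c g = 0 := by
  rw [← hc g g⁻¹, mul_inv_cancel, soft_coc_one hc]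

/-- `c (g τ g⁻¹) = g • c τ` for `τ` in the kernel of `ρbar`. -/
theorem soft_coc_conj {ρbar : ResidualGaloisRep k} {c : GQ → ad0Dual ρbar}
    (hc : IsCoc (ad0Dual ρbar) c) {τ : GQ} (hτ : ρbar.ρ τ = 1) (g : GQ) :
    c (g * τ * g⁻¹) = (ad0Dual ρbar).ρ g (c τ) := by
  rw [mul_assoc, hc g (τ * g⁻¹), hc τ g⁻¹, soft_ρ_eq_self hτ, map_add, add_assoc,
    add_comm ((ad0Dual ρbar).ρ g (c τ)), ← add_assoc, soft_coc_inv hc g, zero_add]

/-- `c (τ g) = c g + c τ` for `τ` in the kernel of `ρbar`. -/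
theorem soft_coc_ker_mul {ρbar : ResidualGaloisRep k} {c : GQ → ad0Dual ρbar}
    (hc : IsCoc (ad0Dual ρbar) c) {τ : GQ} (hτ : ρbar.ρ τ = 1) (g : GQ) :
    c (τ * g) = c g + c τ := by
  rw [hc τ g, soft_ρ_eq_self hτ]

theorem soft_ρ_conj {ρbar : ResidualGaloisRep k} {τ : GQ} (hτ : ρbar.ρ τ = 1) (g : GQ) :
    ρbar.ρ (g * τ * g⁻¹) = 1 := by
  rw [map_mul, map_mul, hτ, mul_one, ← map_mul, mul_inv_cancel, map_one]

theorem soft_fixesRoots_of_pow {p n : ℕ} {σ : GQ} (h : FixesRoots (p ^ (n + 1)) σ) :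
    FixesRoots p σ := by
  intro t ht
  apply h t
  rw [pow_succ', pow_mul, ht, one_pow]

theorem vanish_ker_of_vanish {p : ℕ} {ρbar : ResidualGaloisRep k} (H : Hyp p ρbar) (n : ℕ)
    (c : GQ → ad0Dual ρbar) (hc : IsCoc (ad0Dual ρbar) c)
    (h : ∀ τ : GQ, ρbar.ρ τ = 1 → FixesRoots (p ^ (n + 1)) τ → c τ = 0) :
    ∀ τ : GQ, ρbar.ρ τ = 1 → c τ = 0 := by
  intro τ hτ
  apply ad0Dual_invariants H
  intro g
  have hm : p ^ (n + 1) ≠ 0 := pow_ne_zero _ H.prime.ne_zero
  have hτ' := soft_ρ_inv_eq_one hτ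
  -- the commutator
  have hη : ρbar.ρ (g * τ * g⁻¹ * τ⁻¹) = 1 := by
    rw [map_mul, soft_ρ_conj hτ g, hτ', mul_one]
  have hcη : c (g * τ * g⁻¹ * τ⁻¹) = 0 := h _ hη (fixesRoots_commutator _ hm g τ)
  have h1 : g * τ * g⁻¹ = (g * τ * g⁻¹ * τ⁻¹) * τ := by group
  have h2 := soft_coc_conj hc hτ g
  rw [h1, soft_coc_ker_mul hc hη, hcη, add_zero] at h2
  exact h2.symm

theorem exists_sigma_of_ne_zero {p : ℕ} {ρbar : ResidualGaloisRep k} (H : Hyp p ρbar) (n : ℕ)
    (c : GQ → ad0Dual ρbar) (hc : IsCoc (ad0Dual ρbar) c)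
    (τ : GQ) (hτρ : ρbar.ρ τ = 1) (hτμ : FixesRoots (p ^ (n + 1)) τ) (hτ : c τ ≠ 0) :
    ∃ σ : GQ, FixesRoots (p ^ (n + 1)) σ ∧ IsRegular ρbar σ ∧ ¬ InRange (ad0Dual ρbar) c σ := by
  -- the span of the values of `c` on `Hn`
  set W : Submodule k (ad0Dual ρbar) :=
    Submodule.span k {y | ∃ τ' : GQ, ρbar.ρ τ' = 1 ∧ FixesRoots (p ^ (n + 1)) τ' ∧ c τ' = y}
    with hW
  have hWstab : ∀ g : GQ, ∀ x ∈ W, (ad0Dual ρbar).ρ g x ∈ W := by
    intro g x hx
    induction hx using Submodule.span_induction with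
    | mem y hy =>
      obtain ⟨τ', h1, h2, rfl⟩ := hy
      refine Submodule.subset_span ⟨g * τ' * g⁻¹, soft_ρ_conj h1 g, fixesRoots_conj _ g τ' h2, ?_⟩
      exact soft_coc_conj hc h1 g
    | zero => rw [map_zero]; exact W.zero_mem
    | add x y _ _ hx hy => rw [map_add]; exact W.add_mem hx hy
    | smul a x _ hx => rw [map_smul]; exact W.smul_mem a hx
  have hWtop : W = ⊤ := by
    rcases ad0Dual_irreducible H W hWstab with h | h
    · exfalso
      apply hτ
      have : c τ ∈ W := Submodule.subset_span ⟨τ, hτρ, hτμ, rfl⟩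
      rw [h] at this
      exact (Submodule.mem_bot k).mp this
    · exact h
  -- a regular element
  obtain ⟨σ₀, hσ₀μ, hσ₀reg⟩ := exists_regular H n
  obtain ⟨y, hy⟩ := exists_not_inRange_of_regular H σ₀ (soft_fixesRoots_of_pow hσ₀μ) hσ₀reg
  set R : Submodule k (ad0Dual ρbar) :=
    LinearMap.range ((ad0Dual ρbar).ρ σ₀ - 1) with hR
  have hRmem : ∀ z : ad0Dual ρbar, z ∈ R ↔ ∃ x : ad0Dual ρbar, z = (ad0Dual ρbar).ρ σ₀ x - x := by
    intro z
    constructor
    · rintro ⟨x, hx⟩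
      exact ⟨x, hx.symm⟩
    · rintro ⟨x, hx⟩
      exact ⟨x, hx.symm⟩
  have hyR : y ∉ R := fun h => by
    obtain ⟨x, hx⟩ := (hRmem y).mp h
    exact hy x hx
  -- some `c τ'` is not in `R`
  have hex : ∃ τ' : GQ, ρbar.ρ τ' = 1 ∧ FixesRoots (p ^ (n + 1)) τ' ∧ c τ' ∉ R := by
    by_contra hno
    have hno' : ∀ τ' : GQ, ρbar.ρ τ' = 1 → FixesRoots (p ^ (n + 1)) τ' → c τ' ∈ R :=
      fun τ' h1 h2 => by
        by_contra h3
        exact hno ⟨τ', h1, h2, h3⟩
    have hle : W ≤ R := by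
      rw [hW]
      apply Submodule.span_le.mpr
      rintro _ ⟨τ', h1, h2, rfl⟩
      exact hno' τ' h1 h2
    apply hyR
    apply hle
    rw [hWtop]
    exact Submodule.mem_top
  obtain ⟨τ', hτ'ρ, hτ'μ, hτ'R⟩ := hex
  by_cases hcase : c σ₀ ∈ R
  · refine ⟨τ' * σ₀, fixesRoots_mul _ τ' σ₀ hτ'μ hσ₀μ, ?_, ?_⟩
    · obtain ⟨α, β, hαβ, hch⟩ := hσ₀reg
      refine ⟨α, β, hαβ, ?_⟩
      rw [map_mul, hτ'ρ, one_mul]
      exact hch
    · rintro ⟨x, hx⟩
      apply hτ'R
      rw [soft_coc_ker_mul hc hτ'ρ σ₀] at hx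
      have h1 : (ad0Dual ρbar).ρ (τ' * σ₀) x = (ad0Dual ρbar).ρ σ₀ x := by
        rw [map_mul, Module.End.mul_apply, soft_ρ_eq_self hτ'ρ]
      rw [h1] at hx
      have h2 : c τ' = ((ad0Dual ρbar).ρ σ₀ x - x) - c σ₀ := by
        rw [← hx]
        abel
      rw [h2]
      exact R.sub_mem ((hRmem _).mpr ⟨x, rfl⟩) hcase
  · refine ⟨σ₀, hσ₀μ, hσ₀reg, ?_⟩
    rintro ⟨x, hx⟩
    exact hcase ((hRmem _).mpr ⟨x, hx⟩)

end Fermat.Agent.S56.TW
end MergeWrap_S56_TW_Soft

section MergeWrap_S56_TW_GT_Conj -- from S56/TW/GT/Conj.lean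

set_option autoImplicit false

namespace Fermat.Agent.S56.GT

variable {k : Type} [Field k]

theorem conj_mem_conjSub (c : GL (Fin 2) k) {Γ : Subgroup (GL (Fin 2) k)} {g : GL (Fin 2) k}
    (hg : g ∈ Γ) : c * g * c⁻¹ ∈ conjSub c Γ := by
  rw [mem_conjSub]
  have : c⁻¹ * (c * g * c⁻¹) * c = g := by group
  rw [this]
  exact hg

theorem isTCob_of_conjSub (c : GL (Fin 2) k) (Γ : Subgroup (GL (Fin 2) k))
    (h : ∀ ψ' : GL (Fin 2) k → Matrix (Fin 2) (Fin 2) k,
      IsTCocycle (conjSub c Γ) ψ' → IsTCob (conjSub c Γ) ψ')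
    (ψ : GL (Fin 2) k → Matrix (Fin 2) (Fin 2) k) (hψ : IsTCocycle Γ ψ) : IsTCob Γ ψ := by
  have hcoc : IsTCocycle (conjSub c Γ) (fun g => tad c (ψ (c⁻¹ * g * c))) := by
    refine ⟨fun g hg => ?_, fun g hg g' hg' => ?_⟩
    · exact avg_trace_tad_eq_zero c (hψ.trace_zero _ (mem_conjSub.mp hg))
    · have h1 : c⁻¹ * (g * g') * c = (c⁻¹ * g * c) * (c⁻¹ * g' * c) := by group
      show tad c (ψ (c⁻¹ * (g * g') * c))
        = tad c (ψ (c⁻¹ * g * c)) + tad g (tad c (ψ (c⁻¹ * g' * c)))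
      rw [h1, hψ.map_mul _ (mem_conjSub.mp hg) _ (mem_conjSub.mp hg'), avg_tad_add,
        ← avg_tad_mul, ← avg_tad_mul]
      congr 2
      group
  obtain ⟨X', hX', hX⟩ := h _ hcoc
  refine ⟨tad c⁻¹ X', avg_trace_tad_eq_zero _ hX', fun g hg => ?_⟩
  have h2 := hX (c * g * c⁻¹) (conj_mem_conjSub c hg)
  have h3 : c⁻¹ * (c * g * c⁻¹) * c = g := by group
  simp only [h3] at h2
  have h4 : ψ g = tad c⁻¹ (tad c (ψ g)) := by
    rw [← avg_tad_mul, inv_mul_cancel, avg_tad_one]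
  rw [h4, h2, avg_tad_sub, ← avg_tad_mul, ← avg_tad_mul]
  congr 2
  group

/-- Irreducibility (no common eigenvector) is invariant under conjugation. -/
theorem irr_conjSub (c : GL (Fin 2) k) (Γ : Subgroup (GL (Fin 2) k))
    (hirr : ¬ ∃ v : Fin 2 → k, v ≠ 0 ∧
      ∀ g ∈ Γ, ∃ a : k, (g : Matrix (Fin 2) (Fin 2) k).mulVec v = a • v) :
    ¬ ∃ v : Fin 2 → k, v ≠ 0 ∧
      ∀ g ∈ conjSub c Γ, ∃ a : k, (g : Matrix (Fin 2) (Fin 2) k).mulVec v = a • v := by
  rintro ⟨v, hv, hv'⟩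
  apply hirr
  have hcc : (c : Matrix (Fin 2) (Fin 2) k) * ((c⁻¹ : GL (Fin 2) k) : Matrix (Fin 2) (Fin 2) k)
      = 1 := by
    rw [← Units.val_mul, mul_inv_cancel, Units.val_one]
  have hcc' : ((c⁻¹ : GL (Fin 2) k) : Matrix (Fin 2) (Fin 2) k) * (c : Matrix (Fin 2) (Fin 2) k)
      = 1 := by
    rw [← Units.val_mul, inv_mul_cancel, Units.val_one]
  refine ⟨((c⁻¹ : GL (Fin 2) k) : Matrix (Fin 2) (Fin 2) k).mulVec v, ?_, fun g hg => ?_⟩
  · intro h0
    apply hv
    have := congrArg (fun w => (c : Matrix (Fin 2) (Fin 2) k).mulVec w) h0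
    simp only [Matrix.mulVec_mulVec, hcc, Matrix.one_mulVec, Matrix.mulVec_zero] at this
    exact this
  · obtain ⟨a, ha⟩ := hv' _ (conj_mem_conjSub c hg)
    refine ⟨a, ?_⟩
    have := congrArg (fun w => ((c⁻¹ : GL (Fin 2) k) : Matrix (Fin 2) (Fin 2) k).mulVec w) ha
    simp only [Units.val_mul, Matrix.mulVec_mulVec, Matrix.mulVec_smul] at this
    rw [← Matrix.mul_assoc, ← Matrix.mul_assoc, hcc', Matrix.one_mul] at this
    rw [Matrix.mulVec_mulVec]
    exact this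

/-- Splitting of the characteristic polynomials is invariant under conjugation. -/
theorem split_conjSub (c : GL (Fin 2) k) (Γ : Subgroup (GL (Fin 2) k))
    (hsplit : ∀ g ∈ Γ, ∃ α β : k, (g : Matrix (Fin 2) (Fin 2) k).charpoly =
      (Polynomial.X - Polynomial.C α) * (Polynomial.X - Polynomial.C β)) :
    ∀ g ∈ conjSub c Γ, ∃ α β : k, (g : Matrix (Fin 2) (Fin 2) k).charpoly =
      (Polynomial.X - Polynomial.C α) * (Polynomial.X - Polynomial.C β) := by
  intro g hg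
  obtain ⟨α, β, hαβ⟩ := hsplit _ (mem_conjSub.mp hg)
  refine ⟨α, β, ?_⟩
  rw [← hαβ]
  have h1 : g = c * ((c⁻¹ * g * c) * c⁻¹) := by group
  have h2 : (g : Matrix (Fin 2) (Fin 2) k)
      = (c : Matrix (Fin 2) (Fin 2) k) *
        (((c⁻¹ * g * c : GL (Fin 2) k) : Matrix (Fin 2) (Fin 2) k)
          * ((c⁻¹ : GL (Fin 2) k) : Matrix (Fin 2) (Fin 2) k)) := by
    rw [← Units.val_mul, ← Units.val_mul, ← h1]
  have hcc' : ((c⁻¹ : GL (Fin 2) k) : Matrix (Fin 2) (Fin 2) k) * (c : Matrix (Fin 2) (Fin 2) k)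
      = 1 := by
    rw [← Units.val_mul, inv_mul_cancel, Units.val_one]
  rw [h2, Matrix.charpoly_mul_comm, Matrix.mul_assoc, hcc', Matrix.mul_one]

theorem card_conjSub [Finite k] (c : GL (Fin 2) k) (Γ : Subgroup (GL (Fin 2) k)) :
    Nat.card (conjSub c Γ) = Nat.card Γ :=
  Subgroup.card_map_of_injective (MulAut.conj c).injective

theorem exists_det_sq_ne_one_conjSub (c : GL (Fin 2) k) (Γ : Subgroup (GL (Fin 2) k))
    (h : ∃ g ∈ Γ, ((Matrix.GeneralLinearGroup.det g : kˣ) : k) ^ 2 ≠ 1) :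
    ∃ g ∈ conjSub c Γ, ((Matrix.GeneralLinearGroup.det g : kˣ) : k) ^ 2 ≠ 1 := by
  obtain ⟨g, hg, hdet⟩ := h
  refine ⟨c * g * c⁻¹, conj_mem_conjSub c hg, ?_⟩
  have : Matrix.GeneralLinearGroup.det (c * g * c⁻¹) = Matrix.GeneralLinearGroup.det g := by
    rw [map_mul, map_mul, map_inv, mul_comm, ← mul_assoc, inv_mul_cancel, one_mul]
  rw [this]
  exact hdet

end Fermat.Agent.S56.GT
end MergeWrap_S56_TW_GT_Conj

section MergeWrap_S56_TW_GT_Cusps -- from S56/TW/GT/Cusps.lean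

set_option autoImplicit false

namespace Fermat.Agent.S56.GT

open Matrix OnePoint

variable {k : Type} [Field k] [DecidableEq k]

theorem exists_conj_cusp [Finite k] (p : ℕ) [Fact p.Prime] [CharP k p]
    (Γ : Subgroup (GL (Fin 2) k)) (hp : p ∣ Nat.card Γ) :
    ∃ (c : GL (Fin 2) k) (a : k), a ≠ 0 ∧ uMat a ∈ conjSub c Γ := by
  exact cus_exists_conj_cusp p Γ hp

theorem card_unipSub [Finite k] (Γ : Subgroup (GL (Fin 2) k)) :
    Nat.card (unipSub Γ) = Nat.card (unipAdd Γ) := by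
  exact cus_card_unipSub Γ

theorem index_unipAdd [Finite k] (p : ℕ) [Fact p.Prime] [CharP k p] (hp2 : p ≠ 2)
    (Γ : Subgroup (GL (Fin 2) k)) (hcusp : ∃ a : k, a ≠ 0 ∧ uMat a ∈ Γ) :
    ¬ p ∣ Nat.card Γ / Nat.card (unipAdd Γ) := by
  exact cus_index_unipAdd p Γ hcusp

/-- `#A` is a power of `p`, at least `3`. -/
theorem three_le_card_unipAdd [Finite k] (p : ℕ) [Fact p.Prime] [CharP k p] (hp2 : p ≠ 2)
    (Γ : Subgroup (GL (Fin 2) k)) (hcusp : ∃ a : k, a ≠ 0 ∧ uMat a ∈ Γ) :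
    3 ≤ Nat.card (unipAdd Γ) := by
  exact cus_three_le_card p hp2 Γ hcusp

theorem par_decomp [Finite k] (p : ℕ) [Fact p.Prime] [CharP k p] (hp2 : p ≠ 2)
    (Γ : Subgroup (GL (Fin 2) k)) (g : GL (Fin 2) k) (hg : g ∈ Γ) (hpar : g.IsParabolic) :
    ∃ z u : GL (Fin 2) k, z ∈ scal Γ ∧ u ∈ Γ ∧ IsUnip u ∧ u ≠ 1 ∧ g = z * u := by
  exact cus_par_decomp p hp2 Γ g hg hpar

theorem par_fixed_mem_cuspSet [Finite k] (p : ℕ) [Fact p.Prime] [CharP k p] (hp2 : p ≠ 2)
    (Γ : Subgroup (GL (Fin 2) k)) (hcusp : ∃ a : k, a ≠ 0 ∧ uMat a ∈ Γ)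
    (g : GL (Fin 2) k) (hg : g ∈ Γ) (hpar : g.IsParabolic) (x : OnePoint k) (hx : g • x = x) :
    x ∈ cuspSet Γ := by
  exact cus_par_fixed_mem_cuspSet p hp2 Γ hcusp g hg hpar x hx

/-- The parabolic elements of `Γ` fixing `∞` are the products of a scalar of `Γ` and an element
of `unipSub Γ`. -/
theorem par_borel_mem [Finite k] (p : ℕ) [Fact p.Prime] [CharP k p] (hp2 : p ≠ 2)
    (Γ : Subgroup (GL (Fin 2) k)) (g : GL (Fin 2) k) (hg : g ∈ Γ) (hpar : g.IsParabolic)
    (h : g • (∞ : OnePoint k) = ∞) : g ∈ scal Γ ⊔ unipSub Γ := by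
  exact cus_par_borel_mem p hp2 Γ g hg hpar h

theorem ncard_parabolic [Finite k] (p : ℕ) [Fact p.Prime] [CharP k p] (hp2 : p ≠ 2)
    (Γ : Subgroup (GL (Fin 2) k)) (hcusp : ∃ a : k, a ≠ 0 ∧ uMat a ∈ Γ) :
    {g : GL (Fin 2) k | g ∈ Γ ∧ g.IsParabolic}.ncard =
      Nat.card (scal Γ) * (cuspSet Γ).ncard * (Nat.card (unipAdd Γ) - 1) := by
  exact ncard_parabolic_of p hp2 Γ (par_decomp p hp2 Γ) (par_fixed_mem_cuspSet p hp2 Γ hcusp)

end Fermat.Agent.S56.GT
end MergeWrap_S56_TW_GT_Cusps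

section MergeWrap_S56_TW_GT_ClassEq -- from S56/TW/GT/ClassEq.lean

set_option autoImplicit false
set_option linter.unusedSectionVars false
set_option linter.style.haveILetI false

namespace Fermat.Agent.S56.GT

section aux

open Classical

variable {G X : Type} [Group G] [Fintype G] [Fintype X] [MulAction G X]

theorem classEq_card_stab (x : X) :
    Nat.card (MulAction.stabilizer G x) = (Finset.univ.filter fun g : G => g • x = x).card := by
  have h1 : Nat.card (MulAction.stabilizer G x)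
      = Set.ncard ((MulAction.stabilizer G x : Subgroup G) : Set G) := Nat.card_coe_set_eq _
  rw [h1, ← Set.ncard_coe_finset]
  congr 1
  ext g
  simp [MulAction.mem_stabilizer_iff]

theorem classEq_card_orbit (x : X) :
    Nat.card (MulAction.orbit G x)
      = (Finset.univ.filter fun w : X => w ∈ MulAction.orbit G x).card := by
  have h1 : Nat.card (MulAction.orbit G x) = Set.ncard (MulAction.orbit G x) :=
    Nat.card_coe_set_eq _
  rw [h1, ← Set.ncard_coe_finset]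
  congr 1
  ext g
  simp

theorem classEq_double_count :
    ∑ x : X, (Finset.univ.filter fun g : G => g • x = x).card
      = ∑ g : G, (Finset.univ.filter fun x : X => g • x = x).card := by
  simp only [Finset.card_filter]
  exact Finset.sum_comm

theorem classEq_orbit_stab (x : X) :
    (Finset.univ.filter fun w : X => w ∈ MulAction.orbit G x).card
      * Nat.card (MulAction.stabilizer G x) = Nat.card G := by
  rw [← classEq_card_orbit]
  have := MulAction.card_orbit_mul_card_stabilizer_eq_card_group G x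
  simpa [Nat.card_eq_fintype_card] using this

theorem classEq_stab_smul (g : G) (x : X) :
    Nat.card (MulAction.stabilizer G (g • x)) = Nat.card (MulAction.stabilizer G x) := by
  have h1 := classEq_orbit_stab (G := G) (g • x)
  rw [MulAction.orbit_smul] at h1
  have h2 := classEq_orbit_stab (G := G) x
  have hpos : 0 < (Finset.univ.filter fun w : X => w ∈ MulAction.orbit G x).card :=
    Finset.card_pos.mpr ⟨x, by simp⟩
  exact Nat.eq_of_mul_eq_mul_left hpos (h1.trans h2.symm)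

/-- the sum of the stabiliser orders over an orbit -/
theorem classEq_sum_orbit (x : X) :
    ∑ w ∈ Finset.univ.filter (fun w : X => w ∈ MulAction.orbit G x),
      Nat.card (MulAction.stabilizer G w) = Nat.card G := by
  rw [Finset.sum_const_nat (m := Nat.card (MulAction.stabilizer G x))]
  · exact classEq_orbit_stab x
  · intro w hw
    rw [Finset.mem_filter] at hw
    obtain ⟨g, rfl⟩ := hw.2
    exact classEq_stab_smul g x

/-- the count of the fixed points -/
theorem classEq_sum_fix (Z : Subgroup G) (P : G → Prop)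
    (hZfix : ∀ g ∈ Z, ∀ x : X, g • x = x)
    (hfix1 : ∀ g : G, g ∉ Z → P g → ∃ x : X, ∀ w : X, g • w = w ↔ w = x)
    (hfix2 : ∀ g : G, g ∉ Z → ¬ P g → ∃ x y : X, x ≠ y ∧ ∀ w : X, g • w = w ↔ w = x ∨ w = y) :
    ∑ g : G, (Finset.univ.filter fun x : X => g • x = x).card
      = (Finset.univ.filter fun g : G => g ∈ Z).card * Fintype.card X
        + (Finset.univ.filter fun g : G => g ∉ Z ∧ P g).card
        + 2 * (Finset.univ.filter fun g : G => g ∉ Z ∧ ¬ P g).card := by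
  rw [← Finset.sum_filter_add_sum_filter_not Finset.univ (fun g : G => g ∈ Z),
    ← Finset.sum_filter_add_sum_filter_not (Finset.univ.filter fun g : G => ¬ g ∈ Z) P,
    Finset.filter_filter, Finset.filter_filter]
  rw [Finset.sum_const_nat (m := Fintype.card X), Finset.sum_const_nat (m := 1),
    Finset.sum_const_nat (m := 2)]
  · ring
  · intro g hg
    rw [Finset.mem_filter] at hg
    obtain ⟨x, y, hxy, h⟩ := hfix2 g hg.2.1 hg.2.2
    rw [Finset.card_eq_two]
    refine ⟨x, y, hxy, ?_⟩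
    ext w
    simp [h w]
  · intro g hg
    rw [Finset.mem_filter] at hg
    obtain ⟨x, h⟩ := hfix1 g hg.2.1 hg.2.2
    rw [Finset.card_eq_one]
    refine ⟨x, ?_⟩
    ext w
    simp [h w]
  · intro g hg
    rw [Finset.mem_filter] at hg
    rw [Finset.filter_true_of_mem fun x _ => hZfix g hg.2 x]
    rfl

/-- the partition of `G` -/
theorem classEq_card_G (Z : Subgroup G) (P : G → Prop) :
    (Finset.univ.filter fun g : G => g ∈ Z).card
        + (Finset.univ.filter fun g : G => g ∉ Z ∧ P g).card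
        + (Finset.univ.filter fun g : G => g ∉ Z ∧ ¬ P g).card = Nat.card G := by
  have h1 := Finset.card_filter_add_card_filter_not (s := (Finset.univ : Finset G))
    (fun g : G => g ∈ Z)
  have h2 := Finset.card_filter_add_card_filter_not
    (s := (Finset.univ.filter fun g : G => ¬ g ∈ Z)) P
  rw [Finset.filter_filter, Finset.filter_filter] at h2
  rw [Nat.card_eq_fintype_card, ← Finset.card_univ, ← h1, ← h2]
  ring

theorem classEq_card_sub (Z : Subgroup G) :
    Nat.card Z = (Finset.univ.filter fun g : G => g ∈ Z).card := by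
  have h1 : Nat.card Z = Set.ncard (Z : Set G) := Nat.card_coe_set_eq _
  rw [h1, ← Set.ncard_coe_finset]
  congr 1
  ext g
  simp

end aux

theorem classEq_abstract {G X : Type} [Group G] [Finite G] [Finite X] [MulAction G X]
    (Z : Subgroup G) (P : G → Prop) (Ω : Set X) (q : ℕ)
    (hω : 2 ≤ Ω.ncard) (hq : 2 ≤ q)
    (hZfix : ∀ g ∈ Z, ∀ x : X, g • x = x)
    (hfix1 : ∀ g : G, g ∉ Z → P g → ∃ x : X, ∀ w : X, g • w = w ↔ w = x)
    (hfix2 : ∀ g : G, g ∉ Z → ¬ P g → ∃ x y : X, x ≠ y ∧ ∀ w : X, g • w = w ↔ w = x ∨ w = y)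
    (hpar : {g : G | g ∉ Z ∧ P g}.ncard = Nat.card Z * Ω.ncard * (q - 1))
    (hΩ : ∀ g : G, ∀ x ∈ Ω, g • x ∈ Ω)
    (htrans : ∀ x ∈ Ω, ∀ y ∈ Ω, ∃ g : G, g • x = y)
    (hstab : ∃ x ∈ Ω, Nat.card Z * q ≤ Nat.card (MulAction.stabilizer G x)) :
    (∃ y : X, y ∉ Ω ∧ Nat.card (MulAction.stabilizer G y) ≠ Nat.card Z) ∧
      ∀ y : X, y ∉ Ω → Nat.card (MulAction.stabilizer G y) ≠ Nat.card Z →
        Nat.card G = Nat.card (MulAction.stabilizer G y) * (2 + Ω.ncard * (q - 2)) := by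
  classical
  letI : Fintype G := Fintype.ofFinite G
  letI : Fintype X := Fintype.ofFinite X
  obtain ⟨q', rfl⟩ : ∃ q', q = q' + 2 := ⟨q - 2, by omega⟩
  have hq1 : q' + 2 - 1 = q' + 1 := rfl
  have hq2 : q' + 2 - 2 = q' := rfl
  rw [hq1] at hpar
  rw [hq2]
  -- the stabiliser orders
  have hZle : ∀ x : X, Z ≤ MulAction.stabilizer G x := fun x g hg =>
    MulAction.mem_stabilizer_iff.mpr (hZfix g hg x)
  have hzpos : 0 < Nat.card Z := Nat.card_pos
  have hs_ge : ∀ x : X, Nat.card Z ≤ Nat.card (MulAction.stabilizer G x) := fun x =>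
    Subgroup.card_le_of_le (hZle x)
  have hs_two : ∀ x : X, Nat.card (MulAction.stabilizer G x) ≠ Nat.card Z →
      2 * Nat.card Z ≤ Nat.card (MulAction.stabilizer G x) := by
    intro x hx
    obtain ⟨k, hk⟩ := Subgroup.card_dvd_of_le (hZle x)
    have h1 := hs_ge x
    rcases k with _ | _ | k
    · rw [hk, mul_zero] at h1
      omega
    · rw [zero_add, mul_one] at hk
      exact absurd hk hx
    · rw [hk]
      nlinarith
  -- the counts of group elements
  have hzc : (Finset.univ.filter fun g : G => g ∈ Z).card = Nat.card Z :=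
    (classEq_card_sub Z).symm
  have hparc : (Finset.univ.filter fun g : G => g ∉ Z ∧ P g).card
      = Nat.card Z * Ω.ncard * (q' + 1) := by
    rw [← hpar, ← Set.ncard_coe_finset]
    congr 1
    ext g
    simp
  have hG := classEq_card_G Z P
  have hfix := classEq_sum_fix (X := X) Z P hZfix hfix1 hfix2
  rw [← classEq_double_count] at hfix
  simp only [← classEq_card_stab] at hfix
  rw [hzc, hparc] at hfix hG
  -- the orbit `Ω`
  have hAcard : (Finset.univ.filter fun x : X => x ∈ Ω).card = Ω.ncard := by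
    rw [← Set.ncard_coe_finset]
    congr 1
    ext x
    simp
  have hABcard : (Finset.univ.filter fun x : X => x ∈ Ω).card
      + (Finset.univ.filter fun x : X => ¬ x ∈ Ω).card = Fintype.card X := by
    rw [← Finset.card_univ]
    exact Finset.card_filter_add_card_filter_not _
  obtain ⟨x₀, hx₀, hx₀s⟩ := hstab
  have hAorb : (Finset.univ.filter fun x : X => x ∈ Ω)
      = Finset.univ.filter (fun w : X => w ∈ MulAction.orbit G x₀) := by
    ext x
    simp only [Finset.mem_filter, Finset.mem_univ, true_and]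
    constructor
    · intro hx
      obtain ⟨g, hg⟩ := htrans x₀ hx₀ x hx
      exact ⟨g, hg⟩
    · rintro ⟨g, rfl⟩
      exact hΩ g x₀ hx₀
  have hSA : ∑ x ∈ Finset.univ.filter (fun x : X => x ∈ Ω),
      Nat.card (MulAction.stabilizer G x) = Nat.card G := by
    rw [hAorb]
    exact classEq_sum_orbit x₀
  have hnω : Ω.ncard * Nat.card (MulAction.stabilizer G x₀) = Nat.card G := by
    rw [← hAcard, hAorb]
    exact classEq_orbit_stab x₀
  -- the excess `t x = #G_x - z`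
  have hst : ∀ x : X, Nat.card (MulAction.stabilizer G x)
      = Nat.card Z + (Nat.card (MulAction.stabilizer G x) - Nat.card Z) := fun x => by
    have := hs_ge x
    omega
  have hSB : ∑ x ∈ Finset.univ.filter (fun x : X => ¬ x ∈ Ω),
      Nat.card (MulAction.stabilizer G x)
      = (Finset.univ.filter fun x : X => ¬ x ∈ Ω).card * Nat.card Z
        + ∑ x ∈ Finset.univ.filter (fun x : X => ¬ x ∈ Ω),
            (Nat.card (MulAction.stabilizer G x) - Nat.card Z) := by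
    rw [← smul_eq_mul, ← Finset.sum_const, ← Finset.sum_add_distrib]
    exact Finset.sum_congr rfl fun x _ => hst x
  rw [← Finset.sum_filter_add_sum_filter_not Finset.univ (fun x : X => x ∈ Ω), hSA, hSB,
    ← hABcard, hAcard] at hfix
  -- abbreviations
  set z := Nat.card Z with hz
  set n := Nat.card G with hn
  set ω := Ω.ncard with hωd
  set B : Finset X := Finset.univ.filter (fun x : X => ¬ x ∈ Ω) with hB
  set T : ℕ := ∑ x ∈ B, (Nat.card (MulAction.stabilizer G x) - z) with hT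
  set npar := (Finset.univ.filter fun g : G => g ∉ Z ∧ ¬ P g).card with hnpar
  -- (★)
  have e1 : z * ω * (q' + 1) = z * ω * q' + z * ω := by ring
  have e2 : ω * (z * (q' + 2)) = z * ω * q' + 2 * (z * ω) := by ring
  have e3 : 2 * z ≤ z * ω := by
    rw [mul_comm 2 z]
    exact Nat.mul_le_mul_left z hω
  have e4 : ω * (z * (q' + 2)) ≤ n := by
    rw [← hnω]
    exact Nat.mul_le_mul_left ω hx₀s
  have e5 : z * (ω + B.card) = z * ω + B.card * z := by ring
  rw [e5] at hfix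
  have hstar : n + T = z * ω + z * ω * (q' + 1) + 2 * npar := by omega
  -- orbits outside `Ω`
  have horbB : ∀ y : X, y ∉ Ω →
      Finset.univ.filter (fun w : X => w ∈ MulAction.orbit G y) ⊆ B := by
    intro y hy w hw
    rw [Finset.mem_filter] at hw
    obtain ⟨g, rfl⟩ := hw.2
    rw [hB, Finset.mem_filter]
    refine ⟨Finset.mem_univ _, fun hgy => hy ?_⟩
    have := hΩ g⁻¹ _ hgy
    rwa [inv_smul_smul] at this
  have horbT : ∀ y : X,
      (Finset.univ.filter (fun w : X => w ∈ MulAction.orbit G y)).card * z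
        + ∑ x ∈ Finset.univ.filter (fun w : X => w ∈ MulAction.orbit G y),
            (Nat.card (MulAction.stabilizer G x) - z) = n := by
    intro y
    rw [← smul_eq_mul, ← Finset.sum_const, ← Finset.sum_add_distrib]
    exact (Finset.sum_congr rfl fun x _ => (hst x).symm).trans (classEq_sum_orbit (G := G) y)
  have horb2 : ∀ y : X, Nat.card (MulAction.stabilizer G y) ≠ z →
      2 * ((Finset.univ.filter (fun w : X => w ∈ MulAction.orbit G y)).card * z) ≤ n := by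
    intro y hy
    have h1 := classEq_orbit_stab (G := G) y
    have h2 := hs_two y hy
    calc 2 * ((Finset.univ.filter (fun w : X => w ∈ MulAction.orbit G y)).card * z)
        = (Finset.univ.filter (fun w : X => w ∈ MulAction.orbit G y)).card * (2 * z) := by ring
      _ ≤ (Finset.univ.filter (fun w : X => w ∈ MulAction.orbit G y)).card
            * Nat.card (MulAction.stabilizer G y) := Nat.mul_le_mul_left _ h2
      _ = n := h1
  refine ⟨?_, ?_⟩
  · -- existence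
    by_contra hcon
    push Not at hcon
    have hT0 : T = 0 := by
      rw [hT]
      refine Finset.sum_eq_zero fun x hx => ?_
      rw [hB, Finset.mem_filter] at hx
      rw [hcon x hx.2]
      exact Nat.sub_self _
    omega
  · -- the formula
    intro y hy hsy
    set O : Finset X := Finset.univ.filter (fun w : X => w ∈ MulAction.orbit G y) with hO
    have hOB : O ⊆ B := horbB y hy
    have hOt : O.card * z + ∑ w ∈ O, (Nat.card (MulAction.stabilizer G w) - z) = n := horbT y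
    have hO2 : 2 * (O.card * z) ≤ n := horb2 y hsy
    -- all other points outside `Ω` have stabiliser `Z`
    have hrest : ∀ x ∈ B, x ∉ O → Nat.card (MulAction.stabilizer G x) - z = 0 := by
      intro x hxB hxO
      by_contra hne
      have hsx : Nat.card (MulAction.stabilizer G x) ≠ z := by
        intro h
        rw [h] at hne
        exact hne (Nat.sub_self _)
      have hxΩ : x ∉ Ω := by
        rw [hB, Finset.mem_filter] at hxB
        exact hxB.2
      set O' : Finset X := Finset.univ.filter (fun w : X => w ∈ MulAction.orbit G x) with hO'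
      have hO'B : O' ⊆ B := horbB x hxΩ
      have hO't : O'.card * z + ∑ w ∈ O', (Nat.card (MulAction.stabilizer G w) - z) = n :=
        horbT x
      have hO'2 : 2 * (O'.card * z) ≤ n := horb2 x hsx
      have hdisj : Disjoint O O' := by
        rw [Finset.disjoint_left]
        intro w hw hw'
        rw [hO, Finset.mem_filter] at hw
        rw [hO', Finset.mem_filter] at hw'
        apply hxO
        rw [hO, Finset.mem_filter]
        refine ⟨Finset.mem_univ _, ?_⟩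
        have h1 := MulAction.orbit_eq_iff.mpr hw.2
        have h2 := MulAction.orbit_eq_iff.mpr hw'.2
        rw [← h1, h2]
        exact MulAction.mem_orbit_self x
      have hle : ∑ w ∈ O ∪ O', (Nat.card (MulAction.stabilizer G w) - z) ≤ T :=
        Finset.sum_le_sum_of_subset (Finset.union_subset hOB hO'B)
      rw [Finset.sum_union hdisj] at hle
      clear_value T npar n z ω O O' B
      clear hfix hABcard hSB e2 e4 e5 hx₀s hnω hAcard hs_ge hs_two hst
      omega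
    have hTO : T = ∑ w ∈ O, (Nat.card (MulAction.stabilizer G w) - z) :=
      (Finset.sum_subset hOB hrest).symm
    have hOcard : O.card * z = z * (2 + ω * q') := by
      have e6 : z * (2 + ω * q') = 2 * z + z * ω * q' := by ring
      omega
    have hOc : O.card = 2 + ω * q' := by
      rw [mul_comm] at hOcard
      exact Nat.eq_of_mul_eq_mul_left hzpos hOcard
    have h1 : O.card * Nat.card (MulAction.stabilizer G y) = n :=
      classEq_orbit_stab (G := G) y
    rw [hOc] at h1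
    rw [← h1, mul_comm]

end Fermat.Agent.S56.GT
end MergeWrap_S56_TW_GT_ClassEq

section MergeWrap_S56_TW_GT_ClassEqC -- from S56/TW/GT/ClassEqC.lean

set_option autoImplicit false
set_option linter.unusedSectionVars false
set_option linter.style.haveILetI false

namespace Fermat.Agent.S56.GT

open Matrix OnePoint

variable {k : Type} [Field k] [DecidableEq k]

theorem infty_mem_cuspSet (Γ : Subgroup (GL (Fin 2) k)) : (∞ : OnePoint k) ∈ cuspSet Γ :=
  ⟨1, Γ.one_mem, one_smul _ _⟩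

theorem smul_mem_cuspSet (Γ : Subgroup (GL (Fin 2) k)) {g : GL (Fin 2) k} (hg : g ∈ Γ)
    {x : OnePoint k} (hx : x ∈ cuspSet Γ) : g • x ∈ cuspSet Γ := by
  obtain ⟨h, hh, rfl⟩ := hx
  exact ⟨g * h, Γ.mul_mem hg hh, mul_smul g h _⟩

/-! ### auxiliary statements (helper69) -/

theorem classEqC_finite_onePoint [Finite k] : Finite (OnePoint k) :=
  inferInstanceAs (Finite (Option k))

/-- the stabiliser of `x` in `↥Γ` is `stab Γ x`, as a subgroup of `↥Γ` -/
theorem classEqC_stabilizer_eq (Γ : Subgroup (GL (Fin 2) k)) (x : OnePoint k) :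
    MulAction.stabilizer Γ x = (stab Γ x).subgroupOf Γ := by
  ext g
  rw [MulAction.mem_stabilizer_iff, Subgroup.mem_subgroupOf]
  unfold stab
  rw [Subgroup.mem_inf, MulAction.mem_stabilizer_iff]
  constructor
  · intro h
    exact ⟨g.2, h⟩
  · intro h
    exact h.2

theorem classEqC_card_subgroupOf {G : Type*} [Group G] {H K : Subgroup G} (h : H ≤ K) :
    Nat.card (H.subgroupOf K) = Nat.card H :=
  Nat.card_congr (Subgroup.subgroupOfEquivOfLe h).toEquiv

theorem classEqC_card_stabilizer (Γ : Subgroup (GL (Fin 2) k)) (x : OnePoint k) :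
    Nat.card (MulAction.stabilizer Γ x) = Nat.card (stab Γ x) := by
  rw [classEqC_stabilizer_eq]
  exact classEqC_card_subgroupOf inf_le_left

theorem classEqC_orbit_eq (Γ : Subgroup (GL (Fin 2) k)) :
    MulAction.orbit Γ (∞ : OnePoint k) = cuspSet Γ := by
  ext x
  constructor
  · rintro ⟨g, rfl⟩
    exact ⟨g.1, g.2, rfl⟩
  · rintro ⟨g, hg, rfl⟩
    exact ⟨⟨g, hg⟩, rfl⟩

/-- a parabolic element is not central -/
theorem classEqC_not_mem_center (g : GL (Fin 2) k) (hg : g.IsParabolic) :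
    g ∉ Subgroup.center (GL (Fin 2) k) := by
  intro hc
  rw [mem_center_iff_entries] at hc
  obtain ⟨h01, h10, h00⟩ := hc
  apply hg.1
  refine ⟨g 0 0, ?_⟩
  ext i j
  fin_cases i <;> fin_cases j <;> simp [Matrix.scalar_apply, Matrix.diagonal, h01, h10, h00]

/-- `scal Γ` and `unipSub Γ` meet trivially -/
theorem classEqC_disjoint (Γ : Subgroup (GL (Fin 2) k)) : Disjoint (scal Γ) (unipSub Γ) := by
  rw [Subgroup.disjoint_def]
  intro g hs hu
  obtain ⟨-, a, rfl⟩ := hu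
  have hc : uMat a ∈ Subgroup.center (GL (Fin 2) k) := hs.2
  rw [mem_center_iff_entries] at hc
  have ha : a = 0 := by
    have := hc.1
    simpa using this
  rw [ha, uMat_zero]

theorem two_le_ncard_cuspSet [Finite k] (Γ : Subgroup (GL (Fin 2) k))
    (hirr : ¬ ∃ v : Fin 2 → k, v ≠ 0 ∧
      ∀ g ∈ Γ, ∃ a : k, (g : Matrix (Fin 2) (Fin 2) k).mulVec v = a • v) :
    2 ≤ (cuspSet Γ).ncard := by
  haveI := classEqC_finite_onePoint (k := k)
  obtain ⟨g, hg, hne⟩ := exists_smul_ne_of_irr Γ hirr (∞ : OnePoint k)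
  have h1 : (1 : ℕ) < (cuspSet Γ).ncard := by
    rw [Set.one_lt_ncard_iff (Set.toFinite _)]
    exact ⟨g • ∞, ∞, smul_mem_cuspSet Γ hg (infty_mem_cuspSet Γ), infty_mem_cuspSet Γ, hne⟩
  exact h1

/-- Orbit-stabiliser for the orbit `cuspSet Γ` of `∞`. -/
theorem card_eq_ncard_cuspSet_mul_card_borel [Finite k] (Γ : Subgroup (GL (Fin 2) k)) :
    Nat.card Γ = (cuspSet Γ).ncard * Nat.card (borel Γ) := by
  classical
  haveI := classEqC_finite_onePoint (k := k)
  letI : Fintype Γ := Fintype.ofFinite Γ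
  letI : Fintype (OnePoint k) := Fintype.ofFinite _
  have h1 := classEq_orbit_stab (G := Γ) (∞ : OnePoint k)
  rw [← classEq_card_orbit, classEqC_card_stabilizer] at h1
  have h2 : Nat.card (MulAction.orbit Γ (∞ : OnePoint k)) = (cuspSet Γ).ncard := by
    rw [Nat.card_coe_set_eq, classEqC_orbit_eq]
  rw [h2] at h1
  exact h1.symm

theorem card_scal_dvd_card_stab [Finite k] (Γ : Subgroup (GL (Fin 2) k)) (x : OnePoint k) :
    Nat.card (scal Γ) ∣ Nat.card (stab Γ x) := by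
  refine Subgroup.card_dvd_of_le ?_
  intro g hg
  exact ⟨hg.1, MulAction.mem_stabilizer_iff.mpr (smul_eq_self_of_mem_center g hg.2 x)⟩

theorem classEq_concrete [Finite k] (p : ℕ) [Fact p.Prime] [CharP k p] (hp2 : p ≠ 2)
    (Γ : Subgroup (GL (Fin 2) k))
    (hirr : ¬ ∃ v : Fin 2 → k, v ≠ 0 ∧
      ∀ g ∈ Γ, ∃ a : k, (g : Matrix (Fin 2) (Fin 2) k).mulVec v = a • v)
    (hsplit : ∀ g ∈ Γ, ∃ α β : k, (g : Matrix (Fin 2) (Fin 2) k).charpoly =
      (Polynomial.X - Polynomial.C α) * (Polynomial.X - Polynomial.C β))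
    (hcusp : ∃ a : k, a ≠ 0 ∧ uMat a ∈ Γ) :
    (∃ y : OnePoint k, y ∉ cuspSet Γ ∧ Nat.card (stab Γ y) ≠ Nat.card (scal Γ)) ∧
      ∀ y : OnePoint k, y ∉ cuspSet Γ → Nat.card (stab Γ y) ≠ Nat.card (scal Γ) →
        Nat.card Γ =
          Nat.card (stab Γ y) * (2 + (cuspSet Γ).ncard * (Nat.card (unipAdd Γ) - 2)) := by
  classical
  haveI := classEqC_finite_onePoint (k := k)
  have h2 : (2 : k) ≠ 0 := by
    intro h
    have h' : ((2 : ℕ) : k) = 0 := by exact_mod_cast h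
    have hdvd := (CharP.cast_eq_zero_iff k p 2).mp h'
    have hp := (Fact.out : p.Prime)
    have := (Nat.prime_dvd_prime_iff_eq hp Nat.prime_two).mp hdvd
    exact hp2 this
  have hZcard : Nat.card ((scal Γ).subgroupOf Γ) = Nat.card (scal Γ) :=
    classEqC_card_subgroupOf inf_le_left
  have hmemZ : ∀ g : Γ, g ∈ (scal Γ).subgroupOf Γ ↔
      (g : GL (Fin 2) k) ∈ Subgroup.center (GL (Fin 2) k) := by
    intro g
    rw [Subgroup.mem_subgroupOf]
    exact ⟨fun h => h.2, fun h => ⟨g.2, h⟩⟩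
  have key := classEq_abstract (G := Γ) (X := OnePoint k) ((scal Γ).subgroupOf Γ)
    (fun g => (g : GL (Fin 2) k).IsParabolic) (cuspSet Γ) (Nat.card (unipAdd Γ))
    (two_le_ncard_cuspSet Γ hirr)
    (le_trans (by norm_num) (three_le_card_unipAdd p hp2 Γ hcusp))
    (fun g hg x => smul_eq_self_of_mem_center (g : GL (Fin 2) k) ((hmemZ g).mp hg) x)
    (fun g _ hP => exists_unique_fixed_of_isParabolic h2 (g : GL (Fin 2) k) hP)
    (fun g hg hP => exists_two_fixed h2 (g : GL (Fin 2) k) (fun hc => hg ((hmemZ g).mpr hc)) hP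
      (hsplit g g.2))
    (by
      rw [hZcard, ← ncard_parabolic p hp2 Γ hcusp]
      have himg : (Subtype.val : Γ → GL (Fin 2) k) ''
          {g : Γ | g ∉ (scal Γ).subgroupOf Γ ∧ (g : GL (Fin 2) k).IsParabolic}
          = {g : GL (Fin 2) k | g ∈ Γ ∧ g.IsParabolic} := by
        ext g
        constructor
        · rintro ⟨g', hg', rfl⟩
          exact ⟨g'.2, hg'.2⟩
        · rintro ⟨hg, hP⟩
          exact ⟨⟨g, hg⟩, ⟨fun hZ => classEqC_not_mem_center g hP ((hmemZ ⟨g, hg⟩).mp hZ), hP⟩,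
            rfl⟩
      rw [← himg, Set.ncard_image_of_injective _ Subtype.val_injective])
    (fun g x hx => smul_mem_cuspSet Γ g.2 hx)
    (by
      rintro x ⟨g, hg, rfl⟩ y ⟨h, hh, rfl⟩
      refine ⟨⟨h * g⁻¹, Γ.mul_mem hh (Γ.inv_mem hg)⟩, ?_⟩
      show (h * g⁻¹) • g • (∞ : OnePoint k) = h • ∞
      rw [mul_smul, inv_smul_smul])
    (by
      refine ⟨∞, infty_mem_cuspSet Γ, ?_⟩
      rw [hZcard, classEqC_card_stabilizer, ← card_unipSub, ← Nat.card_prod]
      have hinj := Subgroup.mul_injective_of_disjoint (classEqC_disjoint Γ)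
      refine Nat.card_le_card_of_injective
        (fun zu : scal Γ × unipSub Γ =>
          (⟨(zu.1 : GL (Fin 2) k) * (zu.2 : GL (Fin 2) k), ?_⟩ : stab Γ (∞ : OnePoint k))) ?_
      · refine ⟨Γ.mul_mem zu.1.2.1 zu.2.2.1, ?_⟩
        show (zu.1 : GL (Fin 2) k) * (zu.2 : GL (Fin 2) k)
          ∈ MulAction.stabilizer (GL (Fin 2) k) (∞ : OnePoint k)
        rw [MulAction.mem_stabilizer_iff, mul_smul]
        obtain ⟨a, ha⟩ := zu.2.2.2
        rw [ha, uMat_smul_infty]
        exact smul_eq_self_of_mem_center _ zu.1.2.2 _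
      · intro zu zu' h
        exact hinj (congrArg Subtype.val h))
  simp only [hZcard, classEqC_card_stabilizer] at key
  exact key

end Fermat.Agent.S56.GT
end MergeWrap_S56_TW_GT_ClassEqC

section MergeWrap_S56_TW_GT_BorelCount -- from S56/TW/GT/BorelCount.lean

set_option autoImplicit false
set_option linter.unusedSectionVars false
set_option linter.style.haveILetI false

namespace Fermat.Agent.S56.GT

theorem arith_endgame (N q d d₂ : ℕ) (hq : 3 ≤ q) (hN : 1 ≤ N) (hd : 1 ≤ d)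
    (h1 : d ∣ q - 1) (h2 : d ∣ N - 1)
    (h3 : (1 + N * q) * d = d₂ * (1 + N * (q - 2))) : N = 1 ∨ q = 3 := by
  by_cases hN1 : N = 1
  · exact Or.inl hN1
  right
  obtain ⟨r, rfl⟩ : ∃ r, q = r + 2 := ⟨q - 2, by omega⟩
  have hr : r + 2 - 2 = r := rfl
  rw [hr] at h3
  have hdN : d ≤ N - 1 := Nat.le_of_dvd (by omega) h2
  -- `D = 1 + N r` divides `2 d`
  have hcop : Nat.Coprime (1 + N * r) N := by
    rw [Nat.coprime_add_mul_left_left]
    exact Nat.coprime_one_left N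
  have hdvd : (1 + N * r) ∣ N * (2 * d) + (1 + N * r) * d := by
    refine ⟨d₂, ?_⟩
    rw [mul_comm (1 + N * r) d₂, ← h3]
    ring
  have hdvd2 : (1 + N * r) ∣ N * (2 * d) :=
    (Nat.dvd_add_left (Dvd.intro _ rfl)).1 hdvd
  have hdvd3 : (1 + N * r) ∣ 2 * d := hcop.dvd_of_dvd_mul_left hdvd2
  have hle : 1 + N * r ≤ 2 * d := Nat.le_of_dvd (by omega) hdvd3
  have hr2 : r < 2 := by
    by_contra hcon
    have hr2 : 2 ≤ r := by omega
    have := Nat.mul_le_mul_left N hr2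
    omega
  omega

section bcaux

open Classical

variable {B Y : Type} [Group B] [Fintype B] [Fintype Y] [MulAction B Y]

theorem bc_card_sup (Z U : Subgroup B) [U.Normal] (hZU : Z ⊓ U = ⊥) :
    Nat.card (Z ⊔ U : Subgroup B) = Nat.card Z * Nat.card U := by
  have h1 : U.relIndex (Z ⊔ U) = Nat.card Z := by
    rw [Subgroup.relIndex_sup_right, ← Subgroup.inf_relIndex_right, inf_comm, hZU,
      Subgroup.relIndex_bot_left]
  have h2 := Subgroup.relIndex_mul_relIndex ⊥ U (Z ⊔ U) bot_le le_sup_right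
  rw [Subgroup.relIndex_bot_left, Subgroup.relIndex_bot_left, h1] at h2
  rw [← h2, mul_comm]

theorem bc_burnside [Nonempty Y] :
    ∃ n : ℕ, 1 ≤ n ∧
      ∑ g : B, (Finset.univ.filter fun y : Y => g • y = y).card = n * Nat.card B := by
  have : Nonempty (MulAction.orbitRel.Quotient B Y) :=
    ⟨Quotient.mk'' (Classical.arbitrary Y)⟩
  refine ⟨Fintype.card (MulAction.orbitRel.Quotient B Y), Fintype.card_pos, ?_⟩
  have := MulAction.sum_card_fixedBy_eq_card_orbits_mul_card_group B Y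
  rw [Nat.card_eq_fintype_card, ← this]
  refine Finset.sum_congr rfl fun g _ => ?_
  symm
  apply Fintype.card_of_subtype
  intro y
  simp [MulAction.mem_fixedBy]

theorem bc_sum_fix (Z U : Subgroup B)
    (hZfix : ∀ g ∈ Z, ∀ y : Y, g • y = y)
    (hfree : ∀ g ∈ Z ⊔ U, g ∉ Z → ∀ y : Y, g • y ≠ y)
    (hone : ∀ g : B, g ∉ Z ⊔ U → ∃ x : Y, ∀ y : Y, g • y = y ↔ y = x) :
    ∑ g : B, (Finset.univ.filter fun y : Y => g • y = y).card
      = Nat.card Z * Fintype.card Y + (Nat.card B - Nat.card (Z ⊔ U : Subgroup B)) := by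
  have hZH : Z ≤ Z ⊔ U := le_sup_left
  rw [← Finset.sum_filter_add_sum_filter_not Finset.univ (fun g : B => g ∈ Z ⊔ U),
    ← Finset.sum_filter_add_sum_filter_not (Finset.univ.filter fun g : B => g ∈ Z ⊔ U)
      (fun g : B => g ∈ Z),
    Finset.filter_filter, Finset.filter_filter]
  rw [Finset.sum_const_nat (m := Fintype.card Y), Finset.sum_const_nat (m := 0),
    Finset.sum_const_nat (m := 1)]
  · have e1 : (Finset.univ.filter fun g : B => g ∈ Z ⊔ U ∧ g ∈ Z)
        = Finset.univ.filter fun g : B => g ∈ Z := by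
      ext g
      simp only [Finset.mem_filter, Finset.mem_univ, true_and]
      exact ⟨fun h => h.2, fun h => ⟨hZH h, h⟩⟩
    have e2 := Finset.card_filter_add_card_filter_not (s := (Finset.univ : Finset B))
      (fun g : B => g ∈ Z ⊔ U)
    rw [Finset.card_univ, ← Nat.card_eq_fintype_card, ← classEq_card_sub] at e2
    rw [e1, ← classEq_card_sub]
    omega
  · intro g hg
    rw [Finset.mem_filter] at hg
    obtain ⟨x, h⟩ := hone g hg.2
    rw [Finset.card_eq_one]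
    refine ⟨x, ?_⟩
    ext w
    simp [h w]
  · intro g hg
    rw [Finset.mem_filter] at hg
    rw [Finset.card_eq_zero, Finset.filter_eq_empty_iff]
    intro y _
    exact hfree g hg.2.1 hg.2.2 y
  · intro g hg
    rw [Finset.mem_filter] at hg
    rw [Finset.filter_true_of_mem fun x _ => hZfix g hg.2.2 x]
    rfl

/-- the orbit analysis: if `d ≥ 2` some stabiliser has `z d` elements -/
theorem bc_exists_stab (Z : Subgroup B) (q d : ℕ) (hq : 1 ≤ q) (hd : 2 ≤ d)
    (hcard : Nat.card B = Nat.card Z * q * d)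
    (hZfix : ∀ g ∈ Z, ∀ y : Y, g • y = y)
    (hsum : ∑ y : Y, Nat.card (MulAction.stabilizer B y)
      = Nat.card Z * Fintype.card Y + (Nat.card B - Nat.card Z * q)) :
    ∃ y : Y, Nat.card (MulAction.stabilizer B y) = Nat.card Z * d := by
  have hZle : ∀ x : Y, Z ≤ MulAction.stabilizer B x := fun x g hg =>
    MulAction.mem_stabilizer_iff.mpr (hZfix g hg x)
  have hzpos : 0 < Nat.card Z := Nat.card_pos
  have hs_ge : ∀ x : Y, Nat.card Z ≤ Nat.card (MulAction.stabilizer B x) := fun x =>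
    Subgroup.card_le_of_le (hZle x)
  have hs_two : ∀ x : Y, Nat.card (MulAction.stabilizer B x) ≠ Nat.card Z →
      2 * Nat.card Z ≤ Nat.card (MulAction.stabilizer B x) := by
    intro x hx
    obtain ⟨k, hk⟩ := Subgroup.card_dvd_of_le (hZle x)
    have h1 := hs_ge x
    rcases k with _ | _ | k
    · rw [hk, mul_zero] at h1
      omega
    · rw [zero_add, mul_one] at hk
      exact absurd hk hx
    · rw [hk]
      nlinarith
  have hst : ∀ x : Y, Nat.card (MulAction.stabilizer B x)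
      = Nat.card Z + (Nat.card (MulAction.stabilizer B x) - Nat.card Z) := fun x => by
    have := hs_ge x
    omega
  have hS : ∑ x : Y, Nat.card (MulAction.stabilizer B x)
      = Fintype.card Y * Nat.card Z
        + ∑ x : Y, (Nat.card (MulAction.stabilizer B x) - Nat.card Z) := by
    rw [← Finset.card_univ, ← smul_eq_mul, ← Finset.sum_const, ← Finset.sum_add_distrib]
    exact Finset.sum_congr rfl fun x _ => hst x
  set z := Nat.card Z with hz
  set n := Nat.card B with hn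
  set T : ℕ := ∑ x : Y, (Nat.card (MulAction.stabilizer B x) - z) with hT
  have hzq : z * q ≤ n := by
    rw [hcard]
    exact Nat.le_mul_of_pos_right _ (by omega)
  have hzq0 : 0 < z * q := Nat.mul_pos hzpos hq
  have hzq2 : 2 * (z * q) ≤ n := by
    rw [hcard, mul_comm 2]
    exact Nat.mul_le_mul_left _ hd
  have hTn : T + z * q = n := by
    rw [hS, mul_comm] at hsum
    omega
  have horbT : ∀ y : Y,
      (Finset.univ.filter (fun w : Y => w ∈ MulAction.orbit B y)).card * z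
        + ∑ x ∈ Finset.univ.filter (fun w : Y => w ∈ MulAction.orbit B y),
            (Nat.card (MulAction.stabilizer B x) - z) = n := by
    intro y
    rw [← smul_eq_mul, ← Finset.sum_const, ← Finset.sum_add_distrib]
    exact (Finset.sum_congr rfl fun x _ => (hst x).symm).trans (classEq_sum_orbit (G := B) y)
  have horb2 : ∀ y : Y, Nat.card (MulAction.stabilizer B y) ≠ z →
      2 * ((Finset.univ.filter (fun w : Y => w ∈ MulAction.orbit B y)).card * z) ≤ n := by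
    intro y hy
    have h1 := classEq_orbit_stab (G := B) y
    have h2 := hs_two y hy
    calc 2 * ((Finset.univ.filter (fun w : Y => w ∈ MulAction.orbit B y)).card * z)
        = (Finset.univ.filter (fun w : Y => w ∈ MulAction.orbit B y)).card * (2 * z) := by ring
      _ ≤ (Finset.univ.filter (fun w : Y => w ∈ MulAction.orbit B y)).card
            * Nat.card (MulAction.stabilizer B y) := Nat.mul_le_mul_left _ h2
      _ = n := h1
  -- some stabiliser is bigger than `Z`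
  obtain ⟨y, hy⟩ : ∃ y : Y, Nat.card (MulAction.stabilizer B y) ≠ z := by
    by_contra hcon
    push Not at hcon
    have hT0 : T = 0 := by
      rw [hT]
      refine Finset.sum_eq_zero fun x _ => ?_
      rw [hcon x]
      exact Nat.sub_self _
    omega
  refine ⟨y, ?_⟩
  set O : Finset Y := Finset.univ.filter (fun w : Y => w ∈ MulAction.orbit B y) with hO
  have hOt : O.card * z + ∑ w ∈ O, (Nat.card (MulAction.stabilizer B w) - z) = n := horbT y
  have hO2 : 2 * (O.card * z) ≤ n := horb2 y hy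
  have hrest : ∀ x ∈ (Finset.univ : Finset Y), x ∉ O →
      Nat.card (MulAction.stabilizer B x) - z = 0 := by
    intro x _ hxO
    by_contra hne
    have hsx : Nat.card (MulAction.stabilizer B x) ≠ z := by
      intro h
      rw [h] at hne
      exact hne (Nat.sub_self _)
    set O' : Finset Y := Finset.univ.filter (fun w : Y => w ∈ MulAction.orbit B x) with hO'
    have hO't : O'.card * z + ∑ w ∈ O', (Nat.card (MulAction.stabilizer B w) - z) = n :=
      horbT x
    have hO'2 : 2 * (O'.card * z) ≤ n := horb2 x hsx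
    have hdisj : Disjoint O O' := by
      rw [Finset.disjoint_left]
      intro w hw hw'
      rw [hO, Finset.mem_filter] at hw
      rw [hO', Finset.mem_filter] at hw'
      apply hxO
      rw [hO, Finset.mem_filter]
      refine ⟨Finset.mem_univ _, ?_⟩
      have h1 := MulAction.orbit_eq_iff.mpr hw.2
      have h2 := MulAction.orbit_eq_iff.mpr hw'.2
      rw [← h1, h2]
      exact MulAction.mem_orbit_self x
    have hle : ∑ w ∈ O ∪ O', (Nat.card (MulAction.stabilizer B w) - z) ≤ T :=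
      Finset.sum_le_sum_of_subset (Finset.subset_univ _)
    rw [Finset.sum_union hdisj] at hle
    clear_value T n z O O'
    omega
  have hTO : T = ∑ w ∈ O, (Nat.card (MulAction.stabilizer B w) - z) :=
    (Finset.sum_subset (Finset.subset_univ O) hrest).symm
  have hOcard : O.card * z = z * q := by omega
  have hOc : O.card = q := by
    rw [mul_comm] at hOcard
    exact Nat.eq_of_mul_eq_mul_left hzpos hOcard
  have h1 : O.card * Nat.card (MulAction.stabilizer B y) = n :=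
    classEq_orbit_stab (G := B) y
  rw [hOc, hcard] at h1
  have h2 : q * Nat.card (MulAction.stabilizer B y) = q * (z * d) := by
    rw [h1]
    ring
  exact Nat.eq_of_mul_eq_mul_left hq h2

end bcaux

/-- the formula for `#Y` (Burnside) -/
theorem bc_card_formula {B Y : Type} [Group B] [Finite B] [Finite Y] [Nonempty Y]
    [MulAction B Y] (Z U : Subgroup B) [U.Normal] (d : ℕ)
    (hcard : Nat.card B = Nat.card Z * Nat.card U * d)
    (hZU : Z ⊓ U = ⊥)
    (hZfix : ∀ g ∈ Z, ∀ y : Y, g • y = y)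
    (hfree : ∀ g ∈ Z ⊔ U, g ∉ Z → ∀ y : Y, g • y ≠ y)
    (hone : ∀ g : B, g ∉ Z ⊔ U → ∃ x : Y, ∀ y : Y, g • y = y ↔ y = x) :
    ∃ m : ℕ, Nat.card Y = Nat.card U + m * (Nat.card U * d) := by
  classical
  letI : Fintype B := Fintype.ofFinite B
  letI : Fintype Y := Fintype.ofFinite Y
  have hzpos : 0 < Nat.card Z := Nat.card_pos
  have hqpos : 0 < Nat.card U := Nat.card_pos
  have hBpos : 0 < Nat.card B := Nat.card_pos
  have hd : 1 ≤ d := by
    rcases Nat.eq_zero_or_pos d with h | h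
    · rw [h, mul_zero] at hcard
      omega
    · exact h
  have hfix := bc_sum_fix (Y := Y) Z U hZfix hfree hone
  obtain ⟨n, hn1, hn⟩ := bc_burnside (B := B) (Y := Y)
  rw [hn, bc_card_sup Z U hZU, hcard, ← Nat.card_eq_fintype_card] at hfix
  obtain ⟨m, rfl⟩ : ∃ m, n = m + 1 := ⟨n - 1, by omega⟩
  refine ⟨m, ?_⟩
  have hle : Nat.card Z * Nat.card U ≤ Nat.card Z * Nat.card U * d :=
    Nat.le_mul_of_pos_right _ hd
  have e1 : (m + 1) * (Nat.card Z * Nat.card U * d)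
      = Nat.card Z * (m * (Nat.card U * d)) + Nat.card Z * Nat.card U * d := by ring
  have e2 : Nat.card Z * Nat.card Y = Nat.card Z * (Nat.card U + m * (Nat.card U * d)) := by
    rw [mul_add]
    omega
  exact Nat.eq_of_mul_eq_mul_left hzpos e2

theorem borelCount_abstract {B Y : Type} [Group B] [Finite B] [Finite Y] [Nonempty Y]
    [MulAction B Y] (Z U : Subgroup B) [Z.Normal] [U.Normal] (d : ℕ)
    (hcard : Nat.card B = Nat.card Z * Nat.card U * d)
    (hZU : Z ⊓ U = ⊥)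
    (hZfix : ∀ g ∈ Z, ∀ y : Y, g • y = y)
    (hfree : ∀ g ∈ Z ⊔ U, g ∉ Z → ∀ y : Y, g • y ≠ y)
    (hone : ∀ g : B, g ∉ Z ⊔ U → ∃ x : Y, ∀ y : Y, g • y = y ↔ y = x) :
    d ∣ Nat.card U - 1 ∧ ∃ m : ℕ, Nat.card Y = Nat.card U + m * (Nat.card U * d) := by
  obtain ⟨m, hm⟩ := bc_card_formula Z U d hcard hZU hZfix hfree hone
  refine ⟨?_, m, hm⟩
  have hqpos : 0 < Nat.card U := Nat.card_pos
  have hBpos : 0 < Nat.card B := Nat.card_pos
  have hd : 1 ≤ d := by
    rcases Nat.eq_zero_or_pos d with h | h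
    · rw [h, mul_zero] at hcard
      omega
    · exact h
  rcases Nat.lt_or_ge d 2 with hd2 | hd2
  · have : d = 1 := by omega
    rw [this]
    exact one_dvd _
  -- a point `y₁` whose stabiliser `T` has `z d` elements
  obtain ⟨y₁, hy₁⟩ : ∃ y : Y, Nat.card (MulAction.stabilizer B y) = Nat.card Z * d := by
    classical
    letI : Fintype B := Fintype.ofFinite B
    letI : Fintype Y := Fintype.ofFinite Y
    refine bc_exists_stab (Y := Y) Z (Nat.card U) d hqpos hd2 hcard hZfix ?_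
    have hfix := bc_sum_fix (Y := Y) Z U hZfix hfree hone
    rw [bc_card_sup Z U hZU, ← classEq_double_count] at hfix
    simp only [← classEq_card_stab] at hfix
    exact hfix
  -- `T` acts on `Y`, `Z` acts trivially, the other elements have exactly one fixed point
  have hZT : Z ≤ MulAction.stabilizer B y₁ := fun g hg =>
    MulAction.mem_stabilizer_iff.mpr (hZfix g hg y₁)
  have hcardZT : Nat.card (Z.subgroupOf (MulAction.stabilizer B y₁)) = Nat.card Z :=
    Nat.card_congr (Subgroup.subgroupOfEquivOfLe hZT).toEquiv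
  obtain ⟨m', hm'⟩ := bc_card_formula (B := MulAction.stabilizer B y₁) (Y := Y)
    (Z.subgroupOf (MulAction.stabilizer B y₁)) ⊥ d
    (by rw [hcardZT, Subgroup.card_bot, mul_one, hy₁])
    (inf_bot_eq _)
    (fun g hg y => hZfix (g : B) (Subgroup.mem_subgroupOf.1 hg) y)
    (fun g hg hg' => absurd (by rwa [sup_bot_eq] at hg) hg')
    (fun g hg => by
      rw [sup_bot_eq, Subgroup.mem_subgroupOf] at hg
      have hgH : (g : B) ∉ Z ⊔ U := fun h =>
        hfree (g : B) h hg y₁ (MulAction.mem_stabilizer_iff.1 g.2)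
      exact hone (g : B) hgH)
  rw [Subgroup.card_bot, one_mul] at hm'
  rw [hm] at hm'
  have e : Nat.card U - 1 + m * (Nat.card U * d) = m' * d := by omega
  have hdvd : d ∣ Nat.card U - 1 + m * (Nat.card U * d) := ⟨m', by rw [e, mul_comm]⟩
  exact (Nat.dvd_add_left ⟨m * Nat.card U, by ring⟩).1 hdvd

end Fermat.Agent.S56.GT
end MergeWrap_S56_TW_GT_BorelCount

section MergeWrap_S56_TW_GT_BorelCountC -- from S56/TW/GT/BorelCountC.lean

set_option autoImplicit false
set_option linter.unusedSectionVars false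
set_option linter.style.haveILetI false

namespace Fermat.Agent.S56.GT

open Matrix OnePoint

variable {k : Type} [Field k] [DecidableEq k]

/-! ### auxiliary statements (helper69) -/

theorem borelC_two_ne_zero (p : ℕ) [Fact p.Prime] [CharP k p] (hp2 : p ≠ 2) : (2 : k) ≠ 0 := by
  intro h
  have h' : ((2 : ℕ) : k) = 0 := by exact_mod_cast h
  have hdvd := (CharP.cast_eq_zero_iff k p 2).mp h'
  have hp := (Fact.out : p.Prime)
  exact hp2 ((Nat.prime_dvd_prime_iff_eq hp Nat.prime_two).mp hdvd)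

theorem borelC_scal_le_stab (Γ : Subgroup (GL (Fin 2) k)) (x : OnePoint k) :
    scal Γ ≤ stab Γ x := fun g hg =>
  ⟨hg.1, MulAction.mem_stabilizer_iff.mpr (smul_eq_self_of_mem_center g hg.2 x)⟩

theorem borelC_unipSub_le_borel (Γ : Subgroup (GL (Fin 2) k)) : unipSub Γ ≤ borel Γ := by
  rintro g ⟨hg, a, rfl⟩
  exact ⟨hg, MulAction.mem_stabilizer_iff.mpr (uMat_smul_infty a)⟩

/-- a `uMat a` fixing a finite point is trivial -/
theorem borelC_uMat_fix {a : k} {y : OnePoint k} (hy : y ≠ ∞) (h : uMat a • y = y) : a = 0 := by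
  obtain ⟨x, rfl⟩ := OnePoint.ne_infty_iff_exists.mp hy
  rw [uMat_smul_coe] at h
  have h' : x + a = x := OnePoint.coe_injective h
  simpa using h'

theorem borelC_disjoint_stab (Γ : Subgroup (GL (Fin 2) k)) {y : OnePoint k} (hy : y ≠ ∞) :
    Disjoint (stab Γ y) (unipSub Γ) := by
  rw [Subgroup.disjoint_def]
  rintro g hs ⟨-, a, rfl⟩
  have h := MulAction.mem_stabilizer_iff.mp hs.2
  rw [borelC_uMat_fix hy h, uMat_zero]

/-- two subgroups of `H` meeting trivially: `#A * #A' ≤ #H` -/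
theorem borelC_card_mul_le {G : Type*} [Group G] {A A' H : Subgroup G} [Finite H]
    (hA : A ≤ H) (hA' : A' ≤ H) (hd : Disjoint A A') :
    Nat.card A * Nat.card A' ≤ Nat.card H := by
  rw [← Nat.card_prod]
  have hinj := Subgroup.mul_injective_of_disjoint hd
  refine Nat.card_le_card_of_injective
    (fun zu : A × A' => (⟨(zu.1 : G) * (zu.2 : G), H.mul_mem (hA zu.1.2) (hA' zu.2.2)⟩ : H)) ?_
  intro zu zu' h
  exact hinj (congrArg Subtype.val h)

/-- **KEY**: the second fixed point of a non-scalar element of the Borel subgroup with two fixed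
points is a cusp. -/
theorem borelC_key [Finite k] (p : ℕ) [Fact p.Prime] [CharP k p] (hp2 : p ≠ 2)
    (Γ : Subgroup (GL (Fin 2) k))
    (hirr : ¬ ∃ v : Fin 2 → k, v ≠ 0 ∧
      ∀ g ∈ Γ, ∃ a : k, (g : Matrix (Fin 2) (Fin 2) k).mulVec v = a • v)
    (hcusp : ∃ a : k, a ≠ 0 ∧ uMat a ∈ Γ)
    (hE1 : ∀ y : OnePoint k, y ∉ cuspSet Γ → Nat.card (stab Γ y) ≠ Nat.card (scal Γ) →
      Nat.card Γ =
        Nat.card (stab Γ y) * (2 + (cuspSet Γ).ncard * (Nat.card (unipAdd Γ) - 2)))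
    (g : GL (Fin 2) k) (hg : g ∈ Γ) (hgc : g ∉ Subgroup.center (GL (Fin 2) k))
    (hginf : g • (∞ : OnePoint k) = ∞)
    (y : OnePoint k) (hy : y ≠ ∞) (hgy : g • y = y)
    (hfix : ∀ w : OnePoint k, g • w = w → w = ∞ ∨ w = y) : y ∈ cuspSet Γ := by
  by_contra hyc
  -- the stabiliser of `y` lies in the Borel subgroup
  have hle : stab Γ y ≤ borel Γ := by
    intro h hh
    have hhΓ : h ∈ Γ := hh.1
    have hhy : h • y = y := MulAction.mem_stabilizer_iff.mp hh.2
    refine ⟨hhΓ, MulAction.mem_stabilizer_iff.mpr ?_⟩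
    have hcΓ : g * h * g⁻¹ * h⁻¹ ∈ Γ :=
      Γ.mul_mem (Γ.mul_mem (Γ.mul_mem hg hhΓ) (Γ.inv_mem hg)) (Γ.inv_mem hhΓ)
    have hcU := isUnip_commutator g h y hgy hhy
    have hcy : (g * h * g⁻¹ * h⁻¹) • y = y := by
      have e1 : h⁻¹ • y = y := by
        rw [inv_smul_eq_iff]
        exact hhy.symm
      have e2 : g⁻¹ • y = y := by
        rw [inv_smul_eq_iff]
        exact hgy.symm
      rw [mul_smul, mul_smul, mul_smul, e1, e2, hhy, hgy]
    have hc1 : g * h * g⁻¹ * h⁻¹ = 1 := by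
      by_contra hne
      exact hyc (par_fixed_mem_cuspSet p hp2 Γ hcusp _ hcΓ
        (isParabolic_of_isUnip _ hcU hne) y hcy)
    have hcomm : g * h = h * g := by
      have := hc1
      rw [mul_inv_eq_one, mul_inv_eq_iff_eq_mul] at this
      exact this
    have h1 : g • (h • (∞ : OnePoint k)) = h • ∞ := by
      rw [← mul_smul, hcomm, mul_smul, hginf]
    rcases hfix _ h1 with h2 | h2
    · exact h2
    · exfalso
      apply hy
      have h3 : h • (∞ : OnePoint k) = h • y := by rw [h2, hhy]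
      exact (MulAction.injective h h3).symm
  have hd := borelC_disjoint_stab Γ hy
  have hmul := borelC_card_mul_le hle (borelC_unipSub_le_borel Γ) hd
  rw [card_unipSub] at hmul
  have hne : Nat.card (stab Γ y) ≠ Nat.card (scal Γ) := by
    intro heq
    have h1 := Subgroup.eq_of_le_of_card_ge (borelC_scal_le_stab Γ y) heq.le
    have h2 : g ∈ stab Γ y := ⟨hg, MulAction.mem_stabilizer_iff.mpr hgy⟩
    rw [← h1] at h2
    exact hgc h2.2
  have hE := hE1 y hyc hne
  have hΓ := card_eq_ncard_cuspSet_mul_card_borel Γ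
  have hω := two_le_ncard_cuspSet Γ hirr
  have hq := three_le_card_unipAdd p hp2 Γ hcusp
  have hspos : 0 < Nat.card (stab Γ y) := Nat.card_pos
  obtain ⟨q', hq'⟩ : ∃ q', Nat.card (unipAdd Γ) = q' + 2 := ⟨Nat.card (unipAdd Γ) - 2, by omega⟩
  rw [hq'] at hE hmul
  have hq2 : q' + 2 - 2 = q' := rfl
  rw [hq2] at hE
  have h3 : Nat.card (stab Γ y) * ((cuspSet Γ).ncard * (q' + 2))
      ≤ Nat.card (stab Γ y) * (2 + (cuspSet Γ).ncard * q') := by
    calc Nat.card (stab Γ y) * ((cuspSet Γ).ncard * (q' + 2))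
        = (cuspSet Γ).ncard * (Nat.card (stab Γ y) * (q' + 2)) := by ring
      _ ≤ (cuspSet Γ).ncard * Nat.card (borel Γ) := Nat.mul_le_mul_left _ hmul
      _ = Nat.card (stab Γ y) * (2 + (cuspSet Γ).ncard * q') := by rw [← hΓ, hE]
  have h4 := Nat.le_of_mul_le_mul_left h3 hspos
  have h5 : (cuspSet Γ).ncard * (q' + 2) = (cuspSet Γ).ncard * q' + 2 * (cuspSet Γ).ncard := by
    ring
  omega

/-- the cusps other than `∞`, with the action of the Borel subgroup -/
def borelC_cusps (Γ : Subgroup (GL (Fin 2) k)) : SubMulAction (borel Γ) (OnePoint k) where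
  carrier := cuspSet Γ \ {∞}
  smul_mem' := by
    rintro b x ⟨hx, hx'⟩
    refine ⟨smul_mem_cuspSet Γ b.2.1 hx, ?_⟩
    intro h
    apply hx'
    have hb : (b : GL (Fin 2) k) • (∞ : OnePoint k) = ∞ := MulAction.mem_stabilizer_iff.mp b.2.2
    have h' : (b : GL (Fin 2) k) • x = (b : GL (Fin 2) k) • ∞ := by
      rw [hb]
      exact h
    exact MulAction.injective _ h'

theorem borelC_mem_cusps (Γ : Subgroup (GL (Fin 2) k)) (x : OnePoint k) :
    x ∈ borelC_cusps Γ ↔ x ∈ cuspSet Γ ∧ x ≠ ∞ := Iff.rfl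

theorem borelC_normal_Z (Γ : Subgroup (GL (Fin 2) k)) :
    ((scal Γ).subgroupOf (borel Γ)).Normal := by
  constructor
  intro z hz b
  rw [Subgroup.mem_subgroupOf] at hz ⊢
  have hc : (z : GL (Fin 2) k) ∈ Subgroup.center (GL (Fin 2) k) := hz.2
  have hcoe : ((b * z * b⁻¹ : borel Γ) : GL (Fin 2) k)
      = (b : GL (Fin 2) k) * z * (b : GL (Fin 2) k)⁻¹ := rfl
  rw [Subgroup.mem_center_iff] at hc
  rw [hcoe, hc (b : GL (Fin 2) k), mul_inv_cancel_right]
  exact hz

theorem borelC_normal_U (Γ : Subgroup (GL (Fin 2) k)) :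
    ((unipSub Γ).subgroupOf (borel Γ)).Normal := by
  constructor
  intro u hu b
  rw [Subgroup.mem_subgroupOf] at hu ⊢
  obtain ⟨huΓ, a, ha⟩ := hu
  have hb : (b : GL (Fin 2) k) • (∞ : OnePoint k) = ∞ := MulAction.mem_stabilizer_iff.mp b.2.2
  have hb' : (b : GL (Fin 2) k)⁻¹ • (∞ : OnePoint k) = ∞ := by
    rw [inv_smul_eq_iff]
    exact hb.symm
  have hcoe : ((b * u * b⁻¹ : borel Γ) : GL (Fin 2) k)
      = (b : GL (Fin 2) k) * u * (b : GL (Fin 2) k)⁻¹ := rfl
  rw [hcoe]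
  refine ⟨Γ.mul_mem (Γ.mul_mem b.2.1 huΓ) (Γ.inv_mem b.2.1), ?_⟩
  apply eq_uMat_of_isUnip
  · rw [ha]
    exact isUnip_conj _ _ (isUnip_uMat a)
  · rw [mul_smul, mul_smul, hb', ha, uMat_smul_infty, hb]

theorem borelC_inf (Γ : Subgroup (GL (Fin 2) k)) :
    (scal Γ).subgroupOf (borel Γ) ⊓ (unipSub Γ).subgroupOf (borel Γ) = ⊥ := by
  rw [eq_bot_iff]
  intro g hg
  rw [Subgroup.mem_inf, Subgroup.mem_subgroupOf, Subgroup.mem_subgroupOf] at hg
  rw [Subgroup.mem_bot]
  exact Subtype.ext (Subgroup.disjoint_def.mp (classEqC_disjoint Γ) hg.1 hg.2)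

/-- `#Z * #U` divides `#B` -/
theorem borelC_dvd [Finite k] (Γ : Subgroup (GL (Fin 2) k)) :
    Nat.card ((scal Γ).subgroupOf (borel Γ)) * Nat.card ((unipSub Γ).subgroupOf (borel Γ))
      ∣ Nat.card (borel Γ) := by
  have comm : ∀ (z : (scal Γ).subgroupOf (borel Γ)) (u : (unipSub Γ).subgroupOf (borel Γ)),
      Commute (((scal Γ).subgroupOf (borel Γ)).subtype z)
        (((unipSub Γ).subgroupOf (borel Γ)).subtype u) := by
    intro z u
    have hc : ((z : borel Γ) : GL (Fin 2) k) ∈ Subgroup.center (GL (Fin 2) k) :=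
      (Subgroup.mem_subgroupOf.mp z.2).2
    rw [Subgroup.mem_center_iff] at hc
    show (z : borel Γ) * (u : borel Γ) = (u : borel Γ) * (z : borel Γ)
    apply Subtype.ext
    exact (hc _).symm
  have hinj : Function.Injective (MonoidHom.noncommCoprod _ _ comm) := by
    intro a b hab
    have h := Subgroup.mul_injective_of_disjoint (disjoint_iff.mpr (borelC_inf Γ))
    apply h
    simpa [MonoidHom.noncommCoprod_apply] using hab
  have := Subgroup.card_dvd_of_injective _ hinj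
  rwa [Nat.card_prod] at this

theorem borelCount_concrete [Finite k] (p : ℕ) [Fact p.Prime] [CharP k p] (hp2 : p ≠ 2)
    (Γ : Subgroup (GL (Fin 2) k))
    (hirr : ¬ ∃ v : Fin 2 → k, v ≠ 0 ∧
      ∀ g ∈ Γ, ∃ a : k, (g : Matrix (Fin 2) (Fin 2) k).mulVec v = a • v)
    (hsplit : ∀ g ∈ Γ, ∃ α β : k, (g : Matrix (Fin 2) (Fin 2) k).charpoly =
      (Polynomial.X - Polynomial.C α) * (Polynomial.X - Polynomial.C β))
    (hcusp : ∃ a : k, a ≠ 0 ∧ uMat a ∈ Γ)
    (hE1 : ∀ y : OnePoint k, y ∉ cuspSet Γ → Nat.card (stab Γ y) ≠ Nat.card (scal Γ) →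
      Nat.card Γ =
        Nat.card (stab Γ y) * (2 + (cuspSet Γ).ncard * (Nat.card (unipAdd Γ) - 2))) :
    ∃ d m : ℕ, 1 ≤ d ∧
      Nat.card (borel Γ) = Nat.card (scal Γ) * Nat.card (unipAdd Γ) * d ∧
      d ∣ Nat.card (unipAdd Γ) - 1 ∧
      (cuspSet Γ).ncard = 1 + Nat.card (unipAdd Γ) + m * (Nat.card (unipAdd Γ) * d) := by
  classical
  haveI := classEqC_finite_onePoint (k := k)
  have h2 : (2 : k) ≠ 0 := borelC_two_ne_zero p hp2
  haveI hZn := borelC_normal_Z Γ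
  haveI hUn := borelC_normal_U Γ
  have hscal_le : scal Γ ≤ borel Γ := borelC_scal_le_stab Γ ∞
  have hunip_le : unipSub Γ ≤ borel Γ := borelC_unipSub_le_borel Γ
  have hZcard : Nat.card ((scal Γ).subgroupOf (borel Γ)) = Nat.card (scal Γ) :=
    classEqC_card_subgroupOf hscal_le
  have hUcard : Nat.card ((unipSub Γ).subgroupOf (borel Γ)) = Nat.card (unipAdd Γ) := by
    rw [classEqC_card_subgroupOf hunip_le, card_unipSub]
  -- `Y` is nonempty
  haveI hYne : Nonempty (borelC_cusps Γ) := by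
    obtain ⟨g, hg, hne⟩ := exists_smul_ne_of_irr Γ hirr (∞ : OnePoint k)
    exact ⟨⟨g • ∞, smul_mem_cuspSet Γ hg (infty_mem_cuspSet Γ), hne⟩⟩
  -- the cardinality of `Y`
  have hYcard : Nat.card (borelC_cusps Γ) + 1 = (cuspSet Γ).ncard := by
    have h1 : Nat.card (borelC_cusps Γ) = (cuspSet Γ \ {∞}).ncard := Nat.card_coe_set_eq _
    rw [h1]
    exact Set.ncard_sdiff_singleton_add_one (infty_mem_cuspSet Γ) (Set.toFinite _)
  -- `d`
  have hdvd := borelC_dvd Γ
  obtain ⟨d, hd⟩ := hdvd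
  have hdpos : 1 ≤ d := by
    rcases Nat.eq_zero_or_pos d with h0 | h0
    · rw [h0, mul_zero] at hd
      have : 0 < Nat.card (borel Γ) := Nat.card_pos
      omega
    · exact h0
  -- the abstract count
  obtain ⟨hd1, m, hm⟩ := borelCount_abstract (B := borel Γ) (Y := borelC_cusps Γ)
    ((scal Γ).subgroupOf (borel Γ)) ((unipSub Γ).subgroupOf (borel Γ)) d hd (borelC_inf Γ)
    (by
      intro g hg y
      apply Subtype.ext
      exact smul_eq_self_of_mem_center (g : GL (Fin 2) k) (Subgroup.mem_subgroupOf.mp hg).2 y.1)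
    (by
      intro g hg hgZ y hgy
      have hmem : g ∈ ((↑((scal Γ).subgroupOf (borel Γ) ⊔ (unipSub Γ).subgroupOf (borel Γ)))
          : Set (borel Γ)) := hg
      rw [Subgroup.mul_normal] at hmem
      obtain ⟨z, hz, u, hu, rfl⟩ := Set.mem_mul.mp hmem
      obtain ⟨-, a, ha⟩ := Subgroup.mem_subgroupOf.mp hu
      have hzc : ((z : borel Γ) : GL (Fin 2) k) ∈ Subgroup.center (GL (Fin 2) k) :=
        (Subgroup.mem_subgroupOf.mp hz).2
      have hy' : ((z * u : borel Γ) : GL (Fin 2) k) • (y : OnePoint k) = y :=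
        congrArg Subtype.val hgy
      have hcoe : ((z * u : borel Γ) : GL (Fin 2) k)
          = (z : GL (Fin 2) k) * (u : GL (Fin 2) k) := rfl
      rw [hcoe, mul_smul, smul_eq_self_of_mem_center _ hzc, ha] at hy'
      have ha0 := borelC_uMat_fix y.2.2 hy'
      apply hgZ
      have hu1 : u = 1 := by
        apply Subtype.ext
        rw [ha, ha0, uMat_zero]
        rfl
      rw [hu1, mul_one]
      exact hz)
    (by
      intro g hg
      have hgΓ : (g : GL (Fin 2) k) ∈ Γ := g.2.1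
      have hginf : (g : GL (Fin 2) k) • (∞ : OnePoint k) = ∞ :=
        MulAction.mem_stabilizer_iff.mp g.2.2
      have hgc : (g : GL (Fin 2) k) ∉ Subgroup.center (GL (Fin 2) k) := by
        intro hc
        apply hg
        exact Subgroup.mem_sup_left (Subgroup.mem_subgroupOf.mpr ⟨hgΓ, hc⟩)
      have hnp : ¬ (g : GL (Fin 2) k).IsParabolic := by
        intro hpar
        apply hg
        have h1 := par_borel_mem p hp2 Γ (g : GL (Fin 2) k) hgΓ hpar hginf
        rw [← Subgroup.subgroupOf_sup hscal_le hunip_le, Subgroup.mem_subgroupOf]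
        exact h1
      obtain ⟨x, y, hxy, hfix⟩ := exists_two_fixed h2 (g : GL (Fin 2) k) hgc hnp
        (hsplit _ hgΓ)
      -- normalise: the fixed points are `∞` and `y₀ ≠ ∞`
      obtain ⟨y₀, hy₀, hfix'⟩ : ∃ y₀ : OnePoint k, y₀ ≠ ∞ ∧
          ∀ w : OnePoint k, (g : GL (Fin 2) k) • w = w ↔ w = ∞ ∨ w = y₀ := by
        rcases (hfix ∞).mp hginf with h | h
        · refine ⟨y, fun hy => hxy (h.symm.trans hy.symm), fun w => ?_⟩
          rw [hfix w, h]
        · refine ⟨x, fun hx => hxy (hx.trans h), fun w => ?_⟩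
          rw [hfix w, h, or_comm]
      have hy₀g : (g : GL (Fin 2) k) • y₀ = y₀ := (hfix' y₀).mpr (Or.inr rfl)
      have hy₀c : y₀ ∈ cuspSet Γ := borelC_key p hp2 Γ hirr hcusp hE1 _ hgΓ hgc hginf y₀ hy₀ hy₀g
        (fun w hw => (hfix' w).mp hw)
      refine ⟨⟨y₀, hy₀c, hy₀⟩, fun y' => ?_⟩
      constructor
      · intro h
        have h' : (g : GL (Fin 2) k) • (y' : OnePoint k) = y' := congrArg Subtype.val h
        rcases (hfix' _).mp h' with h3 | h3
        · exact absurd h3 y'.2.2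
        · exact Subtype.ext h3
      · rintro rfl
        exact Subtype.ext hy₀g)
  rw [hZcard, hUcard] at hd
  rw [hUcard] at hd1 hm
  exact ⟨d, m, hdpos, hd, hd1, by omega⟩

end Fermat.Agent.S56.GT
end MergeWrap_S56_TW_GT_BorelCountC

section MergeWrap_S56_TW_GT_Torus -- from S56/TW/GT/Torus.lean

set_option autoImplicit false

namespace Fermat.Agent.S56.GT

open Matrix OnePoint

variable {k : Type} [Field k] [DecidableEq k]

theorem torus_finite_onePoint [Finite k] : Finite (OnePoint k) :=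
  inferInstanceAs (Finite (Option k))

/-- The points `∞` and `a ∈ A`. -/
def torusSet (Γ : Subgroup (GL (Fin 2) k)) : Set (OnePoint k) :=
  insert (∞ : OnePoint k) ((fun a : k => (a : OnePoint k)) '' (unipAdd Γ : Set k))

theorem torusSet_subset (Γ : Subgroup (GL (Fin 2) k))
    (h0 : ((0 : k) : OnePoint k) ∈ cuspSet Γ) : torusSet Γ ⊆ cuspSet Γ := by
  rintro x (rfl | ⟨a, ha, rfl⟩)
  · exact infty_mem_cuspSet Γ
  · have h := smul_mem_cuspSet Γ (mem_unipAdd.mp ha) h0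
    rwa [uMat_smul_coe, zero_add] at h

theorem ncard_torusSet [Finite k] (Γ : Subgroup (GL (Fin 2) k)) :
    (torusSet Γ).ncard = Nat.card (unipAdd Γ) + 1 := by
  haveI := torus_finite_onePoint (k := k)
  unfold torusSet
  rw [Set.ncard_insert_of_notMem, Set.ncard_image_of_injective _ OnePoint.coe_injective]
  · rfl
  · rintro ⟨a, -, ha⟩
    exact OnePoint.coe_ne_infty a ha

theorem isNOne_or_card_eq_three [Finite k] (p : ℕ) [Fact p.Prime] [CharP k p] (hp2 : p ≠ 2)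
    (Γ : Subgroup (GL (Fin 2) k))
    (hirr : ¬ ∃ v : Fin 2 → k, v ≠ 0 ∧
      ∀ g ∈ Γ, ∃ a : k, (g : Matrix (Fin 2) (Fin 2) k).mulVec v = a • v)
    (hsplit : ∀ g ∈ Γ, ∃ α β : k, (g : Matrix (Fin 2) (Fin 2) k).charpoly =
      (Polynomial.X - Polynomial.C α) * (Polynomial.X - Polynomial.C β))
    (hcusp : ∃ a : k, a ≠ 0 ∧ uMat a ∈ Γ)
    (h0 : ((0 : k) : OnePoint k) ∈ cuspSet Γ) :
    IsNOne Γ ∨ Nat.card (unipAdd Γ) = 3 := by
  haveI := torus_finite_onePoint (k := k)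
  obtain ⟨⟨y₂, hy₂, hy₂z⟩, hE1⟩ := classEq_concrete p hp2 Γ hirr hsplit hcusp
  obtain ⟨d, m, hd, hB, hdq, hω⟩ := borelCount_concrete p hp2 Γ hirr hsplit hcusp hE1
  have hq := three_le_card_unipAdd p hp2 Γ hcusp
  have hΓ := card_eq_ncard_cuspSet_mul_card_borel Γ
  have hE := hE1 y₂ hy₂ hy₂z
  obtain ⟨d₂, hd₂⟩ := card_scal_dvd_card_stab Γ y₂
  set q := Nat.card (unipAdd Γ) with hqdef
  set z := Nat.card (scal Γ) with hzdef
  set ω := (cuspSet Γ).ncard with hωdef
  have hz : 0 < z := Nat.card_pos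
  -- `N = 1 + m d`
  have hωN : ω = 1 + (1 + m * d) * q := by rw [hω]; ring
  have hkey : 2 + ω * (q - 2) = q * (1 + (1 + m * d) * (q - 2)) := by
    obtain ⟨r, hr⟩ : ∃ r, q = r + 2 := ⟨q - 2, by omega⟩
    rw [hωN, hr]
    simp only [Nat.add_sub_cancel]
    ring
  have h3 : (1 + (1 + m * d) * q) * d = d₂ * (1 + (1 + m * d) * (q - 2)) := by
    have h4 : z * q * ((1 + (1 + m * d) * q) * d) =
        z * q * (d₂ * (1 + (1 + m * d) * (q - 2))) := by
      calc z * q * ((1 + (1 + m * d) * q) * d) = ω * (z * q * d) := by rw [hωN]; ring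
        _ = Nat.card Γ := by rw [hΓ, hB]
        _ = z * d₂ * (2 + ω * (q - 2)) := by rw [hE, hd₂]
        _ = z * q * (d₂ * (1 + (1 + m * d) * (q - 2))) := by rw [hkey]; ring
    exact Nat.eq_of_mul_eq_mul_left (Nat.mul_pos hz (by omega)) h4
  have hdN : d ∣ (1 + m * d) - 1 := by
    rw [Nat.add_sub_cancel_left]
    exact Dvd.intro_left m rfl
  rcases arith_endgame (1 + m * d) q d d₂ hq (by omega) hd hdq hdN h3 with hN | hq3
  · left
    have hmd : m * d = 0 := by omega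
    have hcard : ω = q + 1 := by rw [hωN, hmd]; ring
    have hsub := torusSet_subset Γ h0
    have heq : torusSet Γ = cuspSet Γ :=
      Set.eq_of_subset_of_ncard_le hsub (by rw [ncard_torusSet, ← hωdef, hcard]) (Set.toFinite _)
    intro x hx
    rw [← heq] at hx
    rcases hx with rfl | ⟨a, ha, rfl⟩
    · exact Or.inl rfl
    · exact Or.inr ⟨a, ha, rfl⟩
  · exact Or.inr hq3

end Fermat.Agent.S56.GT
end MergeWrap_S56_TW_GT_Torus

section MergeWrap_S56_TW_GT_Hua -- from S56/TW/GT/Hua.lean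

set_option autoImplicit false
set_option linter.unusedSimpArgs false

namespace Fermat.Agent.S56.GT

open Matrix OnePoint

variable {k : Type} [Field k]

theorem hua_subfield (p : ℕ) [Fact p.Prime] [CharP k p] (hp2 : p ≠ 2) (A A' : AddSubgroup k)
    (h1 : (1 : k) ∈ A) (hinv : ∀ a : k, a ≠ 0 → (a ∈ A ↔ a⁻¹ ∈ A')) :
    (∀ a ∈ A, ∀ b ∈ A, a * b ∈ A) ∧ ∀ a : k, a ∈ A' ↔ a ∈ A := by
  have h1' : (1 : k) ∈ A' := by
    have := (hinv 1 one_ne_zero).mp h1
    rwa [inv_one] at this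
  -- `A` is closed under inversion
  have hAinv : ∀ b ∈ A, b⁻¹ ∈ A := by
    intro b hb
    by_cases hb0 : b = 0
    · rw [hb0, _root_.inv_zero]
      exact A.zero_mem
    by_cases hb1 : b = 1
    · rw [hb1, inv_one]
      exact h1
    have haA : b - 1 ∈ A := A.sub_mem hb h1
    have ha0 : b - 1 ≠ 0 := sub_ne_zero.mpr hb1
    have ha' : (b - 1)⁻¹ ∈ A' := (hinv _ ha0).mp haA
    have h2 : (b - 1)⁻¹ + 1 ∈ A' := A'.add_mem ha' h1'
    have hx0 : (b - 1) / b ≠ 0 := div_ne_zero ha0 hb0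
    have hxinv : ((b - 1) / b)⁻¹ = (b - 1)⁻¹ + 1 := by
      field_simp
      ring
    have hx : (b - 1) / b ∈ A := (hinv _ hx0).mpr (by rw [hxinv]; exact h2)
    have e : b⁻¹ = 1 - (b - 1) / b := by
      field_simp
      ring
    rw [e]
    exact A.sub_mem h1 hx
  have hAA' : ∀ a : k, a ∈ A' ↔ a ∈ A := by
    intro a
    by_cases ha0 : a = 0
    · rw [ha0]
      exact ⟨fun _ => A.zero_mem, fun _ => A'.zero_mem⟩
    constructor
    · intro ha
      have h3 : a⁻¹ ∈ A := (hinv a⁻¹ (inv_ne_zero ha0)).mpr (by rwa [inv_inv])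
      have h4 := hAinv _ h3
      rwa [inv_inv] at h4
    · intro ha
      have h3 := (hinv a⁻¹ (inv_ne_zero ha0)).mp (hAinv a ha)
      rwa [inv_inv] at h3
  -- squares (Hua's identity with `b = 1`)
  have hsq : ∀ a ∈ A, a * a ∈ A := by
    intro a ha
    by_cases ha0 : a = 0
    · rw [ha0, mul_zero]
      exact A.zero_mem
    by_cases ha1 : a = 1
    · rw [ha1, mul_one]
      exact h1
    have h3 : (1 - a) ≠ 0 := sub_ne_zero.mpr (Ne.symm ha1)
    have e : a * a = a - (a⁻¹ + (1 - a)⁻¹)⁻¹ := by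
      have e1 : a⁻¹ + (1 - a)⁻¹ = (a * (1 - a))⁻¹ := by
        field_simp
        ring
      rw [e1, inv_inv]
      ring
    rw [e]
    exact A.sub_mem ha (hAinv _ (A.add_mem (hAinv a ha) (hAinv _ (A.sub_mem h1 ha))))
  -- `2 a b = (a + b)² - a² - b²`
  have h2ab : ∀ a ∈ A, ∀ b ∈ A, 2 * (a * b) ∈ A := by
    intro a ha b hb
    have e : 2 * (a * b) = (a + b) * (a + b) - a * a - b * b := by ring
    rw [e]
    exact A.sub_mem (A.sub_mem (hsq _ (A.add_mem ha hb)) (hsq a ha)) (hsq b hb)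
  refine ⟨fun a ha b hb => ?_, hAA'⟩
  -- division by `2` inside the additive group `A` (characteristic `p` odd)
  have hpodd : p % 2 = 1 := (Fact.out : p.Prime).eq_two_or_odd.resolve_left hp2
  have hm : (((p + 1) / 2 : ℕ) : k) * 2 = 1 := by
    have h4 : (p + 1) / 2 * 2 = p + 1 := by omega
    have h5 : ((((p + 1) / 2 * 2 : ℕ)) : k) = ((p + 1 : ℕ) : k) := by rw [h4]
    push_cast at h5
    rw [h5, CharP.cast_eq_zero, zero_add]
  have e : a * b = ((p + 1) / 2) • (2 * (a * b)) := by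
    rw [nsmul_eq_mul, ← mul_assoc, hm, one_mul]
  rw [e]
  exact A.nsmul_mem (h2ab a ha b hb) _

/-! ### matrix computations -/

theorem hua_gl_ext {g h : GL (Fin 2) k} (h00 : g 0 0 = h 0 0) (h01 : g 0 1 = h 0 1)
    (h10 : g 1 0 = h 1 0) (h11 : g 1 1 = h 1 1) : g = h := by
  apply Units.ext
  ext i j
  fin_cases i <;> fin_cases j
  · exact h00
  · exact h01
  · exact h10
  · exact h11

theorem hua_lMat_add (a b : k) : lMat (a + b) = lMat a * lMat b := by
  apply hua_gl_ext <;>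
    simp [Matrix.mul_apply, Fin.sum_univ_two, add_comm]

theorem hua_lMat_zero : lMat (0 : k) = 1 := by
  apply hua_gl_ext <;> simp

theorem hua_lMat_neg (a : k) : lMat (-a) = (lMat a)⁻¹ := by
  rw [eq_inv_iff_mul_eq_one, ← hua_lMat_add, neg_add_cancel, hua_lMat_zero]

/-- `A' = {b | [1, 0; b, 1] ∈ Γ}`. -/
def lowAdd (Γ : Subgroup (GL (Fin 2) k)) : AddSubgroup k where
  carrier := {b | lMat b ∈ Γ}
  add_mem' {a b} ha hb := by
    show lMat (a + b) ∈ Γ
    rw [hua_lMat_add]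
    exact Γ.mul_mem ha hb
  zero_mem' := by
    show lMat (0 : k) ∈ Γ
    rw [hua_lMat_zero]
    exact Γ.one_mem
  neg_mem' {a} ha := by
    show lMat (-a) ∈ Γ
    rw [hua_lMat_neg]
    exact Γ.inv_mem ha

theorem mem_lowAdd {Γ : Subgroup (GL (Fin 2) k)} {b : k} : b ∈ lowAdd Γ ↔ lMat b ∈ Γ :=
  Iff.rfl

/-- the Weyl element `w t = [0, t; - t⁻¹, 0]` -/
def wMat (t : k) : GL (Fin 2) k := uMat t * lMat (-t⁻¹) * uMat t

theorem hua_coe_wMat (t : k) (ht : t ≠ 0) :
    (wMat t : Matrix (Fin 2) (Fin 2) k) = !![0, t; -t⁻¹, 0] := by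
  unfold wMat
  rw [Matrix.GeneralLinearGroup.coe_mul, Matrix.GeneralLinearGroup.coe_mul, coe_uMat, coe_lMat]
  ext i j
  fin_cases i <;> fin_cases j <;>
    simp [Matrix.mul_apply, Fin.sum_univ_two, ht]

theorem hua_dMat_eq (t : kˣ) : dMat t = wMat (t : k) * (wMat (1 : k))⁻¹ := by
  rw [eq_mul_inv_iff_mul_eq]
  apply Units.ext
  rw [Matrix.GeneralLinearGroup.coe_mul, hua_coe_wMat _ t.ne_zero, hua_coe_wMat _ one_ne_zero,
    coe_dMat]
  ext i j
  fin_cases i <;> fin_cases j <;>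
    simp [Matrix.mul_apply, Fin.sum_univ_two]

theorem hua_det_uMat (a : k) : Matrix.GeneralLinearGroup.det (uMat a) = 1 := by
  apply Units.ext
  simp [Matrix.det_fin_two]

theorem hua_det_lMat (a : k) : Matrix.GeneralLinearGroup.det (lMat a) = 1 := by
  apply Units.ext
  simp [Matrix.det_fin_two]

theorem hua_det_wMat (t : k) : Matrix.GeneralLinearGroup.det (wMat t) = 1 := by
  unfold wMat
  rw [map_mul, map_mul, hua_det_uMat, hua_det_lMat, one_mul, one_mul]

/-- conjugation of `uMat c` by an element `γ` with `γ • ∞ = 0` -/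
theorem hua_conj (γ : GL (Fin 2) k) (h00 : γ 0 0 = 0) (h01 : γ 0 1 ≠ 0) (c : k) :
    γ * uMat c * γ⁻¹ = lMat (γ 1 0 / γ 0 1 * c) := by
  rw [mul_inv_eq_iff_eq_mul]
  apply hua_gl_ext
  · simp [Matrix.mul_apply, Fin.sum_univ_two, h00]
  · simp [Matrix.mul_apply, Fin.sum_univ_two, h00]
  · simp [Matrix.mul_apply, Fin.sum_univ_two, h00]
  · simp [Matrix.mul_apply, Fin.sum_univ_two, h00]
    field_simp

theorem borelData_of_isNOne [DecidableEq k] [Finite k] (p : ℕ) [Fact p.Prime] [CharP k p]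
    (hp2 : p ≠ 2) (Γ : Subgroup (GL (Fin 2) k)) (h1 : uMat (1 : k) ∈ Γ)
    (h0 : ((0 : k) : OnePoint k) ∈ cuspSet Γ) (hN : IsNOne Γ) :
    BorelData p Γ (unipAdd Γ) := by
  classical
  -- the element `γ` with `γ • ∞ = 0`
  obtain ⟨γ, hγ, hγ0⟩ := h0
  have hγ10 : γ 1 0 ≠ 0 := by
    intro h
    rw [smul_infty_eq_ite, if_pos h] at hγ0
    exact infty_ne_coe _ hγ0
  have hγ00 : γ 0 0 = 0 := by
    rw [smul_infty_eq_ite, if_neg hγ10] at hγ0
    have := OnePoint.coe_injective hγ0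
    rcases div_eq_zero_iff.mp this with h | h
    · exact h
    · exact absurd h hγ10
  have hγ01 : γ 0 1 ≠ 0 := by
    intro h
    have hdet := γ.det_ne_zero
    rw [Matrix.det_fin_two] at hdet
    apply hdet
    show γ 0 0 * γ 1 1 - γ 0 1 * γ 1 0 = 0
    rw [hγ00, h]
    ring
  set μ : k := γ 1 0 / γ 0 1 with hμ
  have hμ0 : μ ≠ 0 := div_ne_zero hγ10 hγ01
  -- `μ A ⊆ A'`
  have hμA : ∀ c ∈ unipAdd Γ, μ * c ∈ lowAdd Γ := by
    intro c hc
    show lMat (μ * c) ∈ Γ
    rw [hμ, ← hua_conj γ hγ00 hγ01 c]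
    exact Γ.mul_mem (Γ.mul_mem hγ hc) (Γ.inv_mem hγ)
  -- `(A' ∖ 0)⁻¹ ⊆ A`
  have hA'inv : ∀ b ∈ lowAdd Γ, b⁻¹ ∈ unipAdd Γ := by
    intro b hb
    by_cases hb0 : b = 0
    · rw [hb0, _root_.inv_zero]
      exact (unipAdd Γ).zero_mem
    have hcusp : ((b⁻¹ : k) : OnePoint k) ∈ cuspSet Γ := by
      refine ⟨lMat b, hb, ?_⟩
      rw [smul_infty_eq_ite]
      have e1 : (lMat b) 1 0 = b := by simp
      have e2 : (lMat b) 0 0 = 1 := by simp
      rw [e1, e2, if_neg hb0, one_div]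
    rcases hN _ hcusp with h | ⟨a, ha, h⟩
    · exact absurd h (coe_ne_infty _)
    · rw [OnePoint.coe_injective h]
      exact ha
  -- pigeonhole: `c ↦ (μ c)⁻¹` is a bijection of `A`
  have hinv : ∀ a : k, a ≠ 0 → (a ∈ unipAdd Γ ↔ a⁻¹ ∈ lowAdd Γ) := by
    intro a ha0
    constructor
    · intro ha
      let f : unipAdd Γ → unipAdd Γ := fun c => ⟨(μ * c)⁻¹, hA'inv _ (hμA c c.2)⟩
      have hf : Function.Injective f := by
        intro c c' hcc
        have h2 : (μ * (c : k))⁻¹ = (μ * (c' : k))⁻¹ := congrArg Subtype.val hcc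
        have h3 := inv_injective h2
        exact Subtype.ext (mul_left_cancel₀ hμ0 h3)
      obtain ⟨c, hc⟩ := (Finite.injective_iff_surjective.mp hf) ⟨a, ha⟩
      have h2 : (μ * (c : k))⁻¹ = a := congrArg Subtype.val hc
      rw [← h2, inv_inv]
      exact hμA c c.2
    · intro ha
      have := hA'inv _ ha
      rwa [inv_inv] at this
  obtain ⟨hmul, hAA'⟩ := hua_subfield p hp2 (unipAdd Γ) (lowAdd Γ) h1 hinv
  -- the Weyl elements
  have hw : ∀ t : k, t ≠ 0 → t ∈ unipAdd Γ → wMat t ∈ Γ := by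
    intro t ht0 ht
    unfold wMat
    have h2 : -t⁻¹ ∈ lowAdd Γ := (lowAdd Γ).neg_mem ((hinv t ht0).mp ht)
    exact Γ.mul_mem (Γ.mul_mem ht h2) ht
  have hw1 : wMat (1 : k) ∈ Γ := hw 1 one_ne_zero h1
  refine ⟨fun a => Iff.rfl, h1, index_unipAdd p hp2 Γ ⟨1, one_ne_zero, h1⟩, Or.inr ⟨hmul, ?_, ?_⟩⟩
  · intro t ht
    rw [hua_dMat_eq]
    exact Γ.mul_mem (hw _ t.ne_zero ht) (Γ.inv_mem hw1)
  · intro g hg
    by_cases hg10 : g 1 0 = 0
    · exact ⟨1, Γ.one_mem, map_one _, by rw [one_mul]; exact hg10⟩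
    · have hcusp : (((g 0 0 / g 1 0 : k)) : OnePoint k) ∈ cuspSet Γ := by
        refine ⟨g, hg, ?_⟩
        rw [smul_infty_eq_ite, if_neg hg10]
      have ha : g 0 0 / g 1 0 ∈ unipAdd Γ := by
        rcases hN _ hcusp with h | ⟨a, ha, h⟩
        · exact absurd h (coe_ne_infty _)
        · rw [OnePoint.coe_injective h]
          exact ha
      refine ⟨wMat 1 * uMat (-(g 0 0 / g 1 0)), Γ.mul_mem hw1 ((unipAdd Γ).neg_mem ha), ?_, ?_⟩
      · rw [map_mul, hua_det_wMat, hua_det_uMat, one_mul]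
      · rw [Matrix.GeneralLinearGroup.coe_mul, Matrix.GeneralLinearGroup.coe_mul,
          hua_coe_wMat _ one_ne_zero, coe_uMat]
        simp [Matrix.mul_apply, Fin.sum_univ_two]
        field_simp
        ring

end Fermat.Agent.S56.GT
end MergeWrap_S56_TW_GT_Hua

section MergeWrap_S56_TW_GT_Structure -- from S56/TW/GT/Structure.lean

set_option autoImplicit false

namespace Fermat.Agent.S56.GT

open Matrix OnePoint

variable {k : Type} [Field k]

theorem conjSub_conjSub (c₁ c₂ : GL (Fin 2) k) (Γ : Subgroup (GL (Fin 2) k)) :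
    conjSub c₂ (conjSub c₁ Γ) = conjSub (c₂ * c₁) Γ := by
  ext g
  rw [mem_conjSub, mem_conjSub, mem_conjSub]
  have : c₁⁻¹ * (c₂⁻¹ * g * c₂) * c₁ = (c₂ * c₁)⁻¹ * g * (c₂ * c₁) := by group
  rw [this]

/-- `[s, 0; 0, 1]`. -/
def sMat (s : kˣ) : GL (Fin 2) k :=
  ⟨!![(s : k), 0; 0, 1], !![((s⁻¹ : kˣ) : k), 0; 0, 1],
    by simp [Matrix.one_fin_two], by simp [Matrix.one_fin_two]⟩

theorem sMat_conj_uMat (s : kˣ) (a : k) : sMat s * uMat a * (sMat s)⁻¹ = uMat ((s : k) * a) := by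
  apply Units.ext
  simp only [Units.val_mul]
  show (!![(s : k), 0; 0, 1] : Matrix (Fin 2) (Fin 2) k) * !![1, a; 0, 1] *
    !![((s⁻¹ : kˣ) : k), 0; 0, 1] = !![1, (s : k) * a; 0, 1]
  ext i j
  fin_cases i <;> fin_cases j <;> simp [Matrix.mul_apply, Fin.sum_univ_two]

theorem sMat_smul_infty [DecidableEq k] (s : kˣ) : sMat s • (∞ : OnePoint k) = ∞ := by
  rw [OnePoint.smul_infty_eq_self_iff]
  rfl

theorem sMat_smul_zero [DecidableEq k] (s : kˣ) :
    sMat s • ((0 : k) : OnePoint k) = ((0 : k) : OnePoint k) := by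
  rw [OnePoint.smul_some_eq_ite]
  have h10 : (sMat s : GL (Fin 2) k) 1 0 = 0 := rfl
  have h11 : (sMat s : GL (Fin 2) k) 1 1 = 1 := rfl
  have h01 : (sMat s : GL (Fin 2) k) 0 1 = 0 := rfl
  simp [h10, h11, h01]

/-- Conjugation by an element fixing `∞` transports the cusps. -/
theorem smul_mem_cuspSet_conjSub [DecidableEq k] (c : GL (Fin 2) k)
    (hc : c • (∞ : OnePoint k) = ∞) (Γ : Subgroup (GL (Fin 2) k)) {x : OnePoint k}
    (hx : x ∈ cuspSet Γ) : c • x ∈ cuspSet (conjSub c Γ) := by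
  obtain ⟨g, hg, rfl⟩ := hx
  refine ⟨c * g * c⁻¹, conj_mem_conjSub c hg, ?_⟩
  have hc' : c⁻¹ • (∞ : OnePoint k) = ∞ := by
    rw [inv_smul_eq_iff, hc]
  rw [mul_smul, mul_smul, hc']

theorem exists_borelData [Finite k] (p : ℕ) [Fact p.Prime] [CharP k p] (hp2 : p ≠ 2)
    (Γ : Subgroup (GL (Fin 2) k))
    (hirr : ¬ ∃ v : Fin 2 → k, v ≠ 0 ∧
      ∀ g ∈ Γ, ∃ a : k, (g : Matrix (Fin 2) (Fin 2) k).mulVec v = a • v)
    (hsplit : ∀ g ∈ Γ, ∃ α β : k, (g : Matrix (Fin 2) (Fin 2) k).charpoly =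
      (Polynomial.X - Polynomial.C α) * (Polynomial.X - Polynomial.C β))
    (hp : p ∣ Nat.card Γ) :
    ∃ (c : GL (Fin 2) k) (A : AddSubgroup k), BorelData p (conjSub c Γ) A := by
  classical
  -- step 1: `∞` is a cusp
  obtain ⟨c₁, a₀, ha₀, hmem₁⟩ := exists_conj_cusp p Γ hp
  have hirr₁ := irr_conjSub c₁ Γ hirr
  -- step 2: `0` is a cusp
  obtain ⟨g, hg, hgx⟩ := exists_smul_ne_of_irr (conjSub c₁ Γ) hirr₁ (∞ : OnePoint k)
  obtain ⟨t, ht⟩ : ∃ t : k, g • (∞ : OnePoint k) = ((t : k) : OnePoint k) := by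
    rcases h : g • (∞ : OnePoint k) with _ | t
    · exact absurd h hgx
    · exact ⟨t, rfl⟩
  have hmem₂ : uMat a₀ ∈ conjSub (uMat (-t)) (conjSub c₁ Γ) := by
    have h2 := conj_mem_conjSub (uMat (-t)) hmem₁
    have h3 : uMat (-t) * uMat a₀ * (uMat (-t))⁻¹ = uMat a₀ := by
      rw [← uMat_neg, ← uMat_add, ← uMat_add]
      congr 1
      ring
    rwa [h3] at h2
  have h0₂ : ((0 : k) : OnePoint k) ∈ cuspSet (conjSub (uMat (-t)) (conjSub c₁ Γ)) := by
    have h2 := smul_mem_cuspSet_conjSub (uMat (-t)) (uMat_smul_infty _) (conjSub c₁ Γ)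
      (⟨g, hg, rfl⟩ : g • (∞ : OnePoint k) ∈ cuspSet (conjSub c₁ Γ))
    rwa [ht, uMat_smul_coe, add_neg_cancel] at h2
  -- step 3: `uMat 1 ∈ Γ`
  set s : kˣ := (Units.mk0 a₀ ha₀)⁻¹ with hs
  have h1 : uMat (1 : k) ∈ conjSub (sMat s) (conjSub (uMat (-t)) (conjSub c₁ Γ)) := by
    have h2 := conj_mem_conjSub (sMat s) hmem₂
    rw [sMat_conj_uMat] at h2
    have h3 : (s : k) * a₀ = 1 := by
      rw [hs, Units.val_inv_eq_inv_val, Units.val_mk0, inv_mul_cancel₀ ha₀]
    rwa [h3] at h2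
  have h0 : ((0 : k) : OnePoint k) ∈
      cuspSet (conjSub (sMat s) (conjSub (uMat (-t)) (conjSub c₁ Γ))) := by
    have h2 := smul_mem_cuspSet_conjSub (sMat s) (sMat_smul_infty s) _ h0₂
    rwa [sMat_smul_zero] at h2
  rw [conjSub_conjSub, conjSub_conjSub] at h1 h0
  generalize sMat s * uMat (-t) * c₁ = c at h1 h0
  have hirr₂ := irr_conjSub c Γ hirr
  have hsplit₂ := split_conjSub c Γ hsplit
  have hcusp : ∃ a : k, a ≠ 0 ∧ uMat a ∈ conjSub c Γ := ⟨1, one_ne_zero, h1⟩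
  refine ⟨c, unipAdd (conjSub c Γ), ?_⟩
  rcases isNOne_or_card_eq_three p hp2 (conjSub c Γ) hirr₂ hsplit₂ hcusp h0 with hN | h3
  · exact borelData_of_isNOne p hp2 (conjSub c Γ) h1 h0 hN
  · exact ⟨fun a => Iff.rfl, h1, index_unipAdd p hp2 (conjSub c Γ) hcusp, Or.inl h3⟩

end Fermat.Agent.S56.GT
end MergeWrap_S56_TW_GT_Structure

section MergeWrap_S56_TW_GT_Main -- from S56/TW/GT/Main.lean

set_option autoImplicit false

namespace Fermat.Agent.S56.GT

variable {k : Type} [Field k]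

/-- The unipotent subgroup `{uMat a | a ∈ A}`. -/
def gtUSub (A : AddSubgroup k) : Subgroup (GL (Fin 2) k) where
  carrier := uMat '' (A : Set k)
  one_mem' := ⟨0, A.zero_mem, AddChar.map_zero_eq_one _⟩
  mul_mem' := by
    rintro _ _ ⟨a, ha, rfl⟩ ⟨b, hb, rfl⟩
    exact ⟨a + b, A.add_mem ha hb, AddChar.map_add_eq_mul _ a b⟩
  inv_mem' := by
    rintro _ ⟨a, ha, rfl⟩
    exact ⟨-a, A.neg_mem ha, AddChar.map_neg_eq_inv _ a⟩

theorem mem_gtUSub {A : AddSubgroup k} {g : GL (Fin 2) k} :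
    g ∈ gtUSub A ↔ ∃ a ∈ A, uMat a = g := Iff.rfl

theorem card_gtUSub (A : AddSubgroup k) : Nat.card (gtUSub A) = Nat.card A :=
  Nat.card_image_of_injective Matrix.GeneralLinearGroup.injective_upperRightHom (A : Set k)

/-- A twisted cocycle vanishes at `1`. -/
theorem gt_cocycle_one {Γ : Subgroup (GL (Fin 2) k)}
    {ψ : GL (Fin 2) k → Matrix (Fin 2) (Fin 2) k} (hψ : IsTCocycle Γ ψ) : ψ 1 = 0 := by
  have h := hψ.map_mul 1 Γ.one_mem 1 Γ.one_mem
  rw [mul_one, avg_tad_one] at h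
  exact left_eq_add.mp h

theorem gt_main [Finite k] (p : ℕ) [Fact p.Prime] [CharP k p] (hp2 : p ≠ 2)
    (Γ : Subgroup (GL (Fin 2) k))
    (hirr : ¬ ∃ v : Fin 2 → k, v ≠ 0 ∧
      ∀ g ∈ Γ, ∃ a : k, (g : Matrix (Fin 2) (Fin 2) k).mulVec v = a • v)
    (hsplit : ∀ g ∈ Γ, ∃ α β : k, (g : Matrix (Fin 2) (Fin 2) k).charpoly =
      (Polynomial.X - Polynomial.C α) * (Polynomial.X - Polynomial.C β))
    (hdet : p ≠ 3 → ∃ g ∈ Γ, ((Matrix.GeneralLinearGroup.det g : kˣ) : k) ^ 2 ≠ 1)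
    (ψ : GL (Fin 2) k → Matrix (Fin 2) (Fin 2) k) (hψ : IsTCocycle Γ ψ) : IsTCob Γ ψ := by
  by_cases hp : p ∣ Nat.card Γ
  · -- the structure theorem, after conjugation
    obtain ⟨c, A, hB⟩ := exists_borelData p hp2 Γ hirr hsplit hp
    refine isTCob_of_conjSub c Γ (fun ψ' hψ' => ?_) ψ hψ
    obtain ⟨X, hX, hX'⟩ := isTCob_unip_of_borelData p hp2 (conjSub c Γ) A hB
      (fun h3 => exists_det_sq_ne_one_conjSub c Γ (hdet h3)) ψ' hψ'
    have hle : gtUSub A ≤ conjSub c Γ := by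
      rintro _ ⟨a, ha, rfl⟩
      exact (hB.mem_iff a).mpr ha
    refine isTCob_of_isTCob_subgroup p (conjSub c Γ) (gtUSub A) hle ?_ ψ' hψ' ?_
    · rw [card_gtUSub]
      exact hB.index
    · refine ⟨X, hX, ?_⟩
      rintro _ ⟨a, ha, rfl⟩
      exact hX' a ha
  · -- averaging over the trivial subgroup
    refine isTCob_of_isTCob_subgroup p Γ ⊥ bot_le ?_ ψ hψ ?_
    · rw [Subgroup.card_bot, Nat.div_one]
      exact hp
    · refine ⟨0, Matrix.trace_zero _ _, fun g hg => ?_⟩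
      rw [Subgroup.mem_bot] at hg
      rw [hg, gt_cocycle_one hψ, avg_tad_zero, sub_zero]

end Fermat.Agent.S56.GT
end MergeWrap_S56_TW_GT_Main

section MergeWrap_S56_TW_Bridge -- from S56/TW/Bridge.lean

set_option autoImplicit false
set_option linter.style.haveILetI false

namespace Fermat.Agent.S56.TW

open Fermat.Agent.F4 Polynomial Fermat.Agent.S56.GT

variable {k : Type} [Field k]

/-! ### the matrix form of `ρbar` -/

/-- a basis of `ρbar.V` -/
noncomputable def brBasis (ρbar : ResidualGaloisRep k) : Module.Basis (Fin 2) k ρbar.V :=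
  Module.finBasisOfFinrankEq k ρbar.V ρbar.finrank_eq

/-- the matrix of an endomorphism -/
noncomputable def brMat (ρbar : ResidualGaloisRep k) :
    Module.End k ρbar.V ≃ₐ[k] Matrix (Fin 2) (Fin 2) k :=
  LinearMap.toMatrixAlgEquiv (brBasis ρbar)

/-- `ρbar` in matrix form -/
noncomputable def brRep (ρbar : ResidualGaloisRep k) : GQ →* GL (Fin 2) k :=
  (((brMat ρbar : Module.End k ρbar.V →ₐ[k] Matrix (Fin 2) (Fin 2) k) :
    Module.End k ρbar.V →* Matrix (Fin 2) (Fin 2) k).comp ρbar.ρ).toHomUnits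

theorem brRep_coe (ρbar : ResidualGaloisRep k) (σ : GQ) :
    ((brRep ρbar σ : GL (Fin 2) k) : Matrix (Fin 2) (Fin 2) k) = brMat ρbar (ρbar.ρ σ) := rfl

theorem brRep_inv_coe (ρbar : ResidualGaloisRep k) (σ : GQ) :
    (((brRep ρbar σ)⁻¹ : GL (Fin 2) k) : Matrix (Fin 2) (Fin 2) k) = brMat ρbar (ρbar.ρ σ⁻¹) := by
  rw [← map_inv, brRep_coe]

theorem brRep_det (ρbar : ResidualGaloisRep k) (σ : GQ) :
    ((Matrix.GeneralLinearGroup.det (brRep ρbar σ) : kˣ) : k) = LinearMap.det (ρbar.ρ σ) := by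
  rw [Matrix.GeneralLinearGroup.val_det_apply, brRep_coe]
  exact LinearMap.det_toMatrix (brBasis ρbar) (ρbar.ρ σ)

theorem brMat_trace (ρbar : ResidualGaloisRep k) (f : Module.End k ρbar.V) :
    (brMat ρbar f).trace = LinearMap.trace k ρbar.V f :=
  (LinearMap.trace_eq_matrix_trace k (brBasis ρbar) f).symm

theorem brRep_eq_iff (ρbar : ResidualGaloisRep k) (σ τ : GQ) :
    brRep ρbar σ = brRep ρbar τ ↔ ρbar.ρ σ = ρbar.ρ τ := by
  constructor
  · intro h
    have := congrArg (fun g : GL (Fin 2) k => (g : Matrix (Fin 2) (Fin 2) k)) h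
    simp only [brRep_coe] at this
    exact (brMat ρbar).injective this
  · intro h
    apply Units.ext
    rw [brRep_coe, brRep_coe, h]

/-! ### the hypotheses of `GT.gt_main` for the image of `ρbar` -/

theorem br_hsplit {p : ℕ} {ρbar : ResidualGaloisRep k} (H : Hyp p ρbar) :
    ∀ g ∈ (brRep ρbar).range, ∃ α β : k, (g : Matrix (Fin 2) (Fin 2) k).charpoly =
      (Polynomial.X - Polynomial.C α) * (Polynomial.X - Polynomial.C β) := by
  rintro _ ⟨σ, rfl⟩
  obtain ⟨α, β, h⟩ := H.hsplit σ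
  refine ⟨α, β, ?_⟩
  rw [brRep_coe, ← h]
  exact LinearMap.charpoly_toMatrix (ρbar.ρ σ) (brBasis ρbar)

theorem br_hdet {p : ℕ} {ρbar : ResidualGaloisRep k} (H : Hyp p ρbar) (hp3 : p ≠ 3) :
    ∃ g ∈ (brRep ρbar).range, ((Matrix.GeneralLinearGroup.det g : kˣ) : k) ^ 2 ≠ 1 := by
  obtain ⟨σ, hσ⟩ := exists_det_sq_ne_one H hp3
  exact ⟨brRep ρbar σ, ⟨σ, rfl⟩, by rw [brRep_det]; exact hσ⟩

theorem br_hirr {p : ℕ} {ρbar : ResidualGaloisRep k} (H : Hyp p ρbar) :
    ¬ ∃ v : Fin 2 → k, v ≠ 0 ∧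
      ∀ g ∈ (brRep ρbar).range, ∃ a : k, (g : Matrix (Fin 2) (Fin 2) k).mulVec v = a • v := by
  rintro ⟨v, hv, hv'⟩
  have hirr := isIrreducible_of_hyp H
  set b := brBasis ρbar with hb
  set w : ρbar.V := b.equivFun.symm v with hw
  have hw0 : w ≠ 0 := by
    intro h0
    apply hv
    have : b.equivFun w = v := by rw [hw, LinearEquiv.apply_symm_apply]
    rw [← this, h0, map_zero]
  have hrepr : (b.repr w : Fin 2 → k) = v := by
    have : b.equivFun w = v := by rw [hw, LinearEquiv.apply_symm_apply]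
    exact this
  have hstab : ∀ σ : GQ, ∀ x ∈ Submodule.span k {w}, ρbar.ρ σ x ∈ Submodule.span k {w} := by
    intro σ x hx
    obtain ⟨t, rfl⟩ := Submodule.mem_span_singleton.mp hx
    rw [map_smul]
    refine Submodule.smul_mem _ _ ?_
    obtain ⟨a, ha⟩ := hv' (brRep ρbar σ) ⟨σ, rfl⟩
    have h1 : (b.repr (ρbar.ρ σ w) : Fin 2 → k) = a • v := by
      rw [← ha, brRep_coe, ← hrepr]
      exact (LinearMap.toMatrix_mulVec_repr b b (ρbar.ρ σ) w).symm
    have h2 : ρbar.ρ σ w = a • w := by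
      apply b.repr.injective
      apply DFunLike.coe_injective
      rw [h1, map_smul, Finsupp.coe_smul, hrepr]
    rw [h2]
    exact Submodule.smul_mem _ _ (Submodule.mem_span_singleton_self w)
  rcases hirr _ hstab with h | h
  · exact hw0 ((Submodule.span_singleton_eq_bot).mp h)
  · have h1 : Module.finrank k (Submodule.span k {w}) = 1 := finrank_span_singleton hw0
    rw [h, finrank_top, ρbar.finrank_eq] at h1
    exact absurd h1 (by norm_num)

/-! ### the trace form `X ↦ tr (X ·)` with values in `ad0Dual` -/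

/-- evaluation of an element of `ad0Dual ρbar = Dual (ad0Sub ρbar)` -/
noncomputable def brEval (ρbar : ResidualGaloisRep k) (f : ad0Dual ρbar) (a : ad0Sub ρbar) : k :=
  (show Module.Dual k (ad0Sub ρbar) from f) a

theorem brEval_ext (ρbar : ResidualGaloisRep k) {f f' : ad0Dual ρbar}
    (h : ∀ a, brEval ρbar f a = brEval ρbar f' a) : f = f' :=
  LinearMap.ext (f := (show Module.Dual k (ad0Sub ρbar) from f))
    (g := (show Module.Dual k (ad0Sub ρbar) from f')) h

theorem brEval_add (ρbar : ResidualGaloisRep k) (f f' : ad0Dual ρbar) (a : ad0Sub ρbar) :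
    brEval ρbar (f + f') a = brEval ρbar f a + brEval ρbar f' a := rfl

theorem brEval_sub (ρbar : ResidualGaloisRep k) (f f' : ad0Dual ρbar) (a : ad0Sub ρbar) :
    brEval ρbar (f - f') a = brEval ρbar f a - brEval ρbar f' a := rfl

theorem brEval_zero (ρbar : ResidualGaloisRep k) (a : ad0Sub ρbar) :
    brEval ρbar (0 : ad0Dual ρbar) a = 0 := rfl

/-- the conjugate `ρ(g)⁻¹ a ρ(g)` of a trace-zero endomorphism -/
noncomputable def brConj (ρbar : ResidualGaloisRep k) (g : GQ) (a : ad0Sub ρbar) : ad0Sub ρbar :=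
  ⟨ρbar.ρ g⁻¹ * (a.1 * ρbar.ρ g), by
    have h := ad0Sub_le_comap ρbar g⁻¹ a.2
    have h1 : adRep ρbar g⁻¹ a.1 = ρbar.ρ g⁻¹ * (a.1 * ρbar.ρ g⁻¹⁻¹) := rfl
    rw [inv_inv] at h1
    rw [← h1]
    exact h⟩

/-- the action of `G_ℚ` on `ad0Dual ρbar`, evaluated -/
theorem brEval_ρ (ρbar : ResidualGaloisRep k) (g : GQ) (f : ad0Dual ρbar) (a : ad0Sub ρbar) :
    brEval ρbar ((ad0Dual ρbar).ρ g f) a
      = LinearMap.det (ρbar.ρ g) * brEval ρbar f (brConj ρbar g a) := by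
  have h : brConj ρbar g a = (ad0 ρbar).ρ g⁻¹ a := by
    apply Subtype.ext
    show ρbar.ρ g⁻¹ * (a.1 * ρbar.ρ g) = ρbar.ρ g⁻¹ * (a.1 * ρbar.ρ g⁻¹⁻¹)
    rw [inv_inv]
  rw [h]
  rfl

/-- `X ↦ (a ↦ tr (X * mat a))`. -/
noncomputable def brΦ (ρbar : ResidualGaloisRep k) (X : Matrix (Fin 2) (Fin 2) k) :
    ad0Dual ρbar :=
  ((Matrix.traceLinearMap (Fin 2) k k) ∘ₗ (LinearMap.mulLeft k X) ∘ₗ
    (brMat ρbar).toLinearMap ∘ₗ (ad0Sub ρbar).subtype : Module.Dual k (ad0Sub ρbar))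

theorem brΦ_apply (ρbar : ResidualGaloisRep k) (X : Matrix (Fin 2) (Fin 2) k)
    (a : ad0Sub ρbar) : brEval ρbar (brΦ ρbar X) a = (X * brMat ρbar a.1).trace := rfl

theorem brΦ_add (ρbar : ResidualGaloisRep k) (X Y : Matrix (Fin 2) (Fin 2) k) :
    brΦ ρbar (X + Y) = brΦ ρbar X + brΦ ρbar Y := by
  refine brEval_ext ρbar fun a => ?_
  rw [brEval_add, brΦ_apply, brΦ_apply, brΦ_apply, add_mul, Matrix.trace_add]

theorem brΦ_sub (ρbar : ResidualGaloisRep k) (X Y : Matrix (Fin 2) (Fin 2) k) :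
    brΦ ρbar (X - Y) = brΦ ρbar X - brΦ ρbar Y := by
  refine brEval_ext ρbar fun a => ?_
  rw [brEval_sub, brΦ_apply, brΦ_apply, brΦ_apply, sub_mul, Matrix.trace_sub]

/-- every trace-zero matrix is the matrix of an element of `ad0Sub` -/
theorem br_exists_ad0 (ρbar : ResidualGaloisRep k) (A : Matrix (Fin 2) (Fin 2) k)
    (hA : A.trace = 0) : ∃ a : ad0Sub ρbar, brMat ρbar a.1 = A := by
  refine ⟨⟨(brMat ρbar).symm A, ?_⟩, (brMat ρbar).apply_symm_apply A⟩
  show LinearMap.trace k ρbar.V ((brMat ρbar).symm A) = 0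
  rw [← brMat_trace, (brMat ρbar).apply_symm_apply, hA]

theorem br_ad0_trace (ρbar : ResidualGaloisRep k) (a : ad0Sub ρbar) :
    (brMat ρbar a.1).trace = 0 := by
  rw [brMat_trace]
  exact a.2

/-- injectivity of the trace form on the trace-zero matrices -/
theorem brΦ_injective (h2 : (2 : k) ≠ 0) (ρbar : ResidualGaloisRep k)
    (X : Matrix (Fin 2) (Fin 2) k) (hX : X.trace = 0) (h : brΦ ρbar X = 0) : X = 0 := by
  refine br_eq_zero_of_trace_mul h2 X hX fun A hA => ?_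
  obtain ⟨a, rfl⟩ := br_exists_ad0 ρbar A hA
  rw [← brΦ_apply, h, brEval_zero]

/-- surjectivity of the trace form -/
theorem brΦ_surjective (h2 : (2 : k) ≠ 0) (ρbar : ResidualGaloisRep k) (f : ad0Dual ρbar) :
    ∃ X : Matrix (Fin 2) (Fin 2) k, X.trace = 0 ∧ brΦ ρbar X = f := by
  -- extend `f` to all matrices along `A ↦ A - (tr A / 2) • 1`
  let P : Matrix (Fin 2) (Fin 2) k →ₗ[k] Module.End k ρbar.V :=
    (brMat ρbar).symm.toLinearMap ∘ₗ
      (LinearMap.id - (LinearMap.toSpanSingleton k (Matrix (Fin 2) (Fin 2) k)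
        ((2 : k)⁻¹ • (1 : Matrix (Fin 2) (Fin 2) k))) ∘ₗ (Matrix.traceLinearMap (Fin 2) k k))
  have hP : ∀ A, P A = (brMat ρbar).symm (A - A.trace • ((2 : k)⁻¹ • 1)) := fun A => rfl
  have hPtr : ∀ A, LinearMap.trace k ρbar.V (P A) = 0 := by
    intro A
    rw [← brMat_trace, hP, (brMat ρbar).apply_symm_apply, Matrix.trace_sub, Matrix.trace_smul,
      Matrix.trace_smul, Matrix.trace_one, Fintype.card_fin, smul_eq_mul, smul_eq_mul]
    have : ((2 : ℕ) : k) = 2 := by norm_num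
    rw [this, inv_mul_cancel₀ h2, mul_one, sub_self]
  let P' : Matrix (Fin 2) (Fin 2) k →ₗ[k] ad0Sub ρbar :=
    LinearMap.codRestrict (ad0Sub ρbar) P (fun A => hPtr A)
  obtain ⟨X, hX, hXF⟩ :=
    br_exists_trace_mul h2 ((show Module.Dual k (ad0Sub ρbar) from f) ∘ₗ P')
  refine ⟨X, hX, brEval_ext ρbar fun a => ?_⟩
  rw [brΦ_apply, hXF _ (br_ad0_trace ρbar a), LinearMap.comp_apply]
  show brEval ρbar f (P' (brMat ρbar a.1)) = brEval ρbar f a
  congr 1
  apply Subtype.ext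
  show P (brMat ρbar a.1) = a.1
  rw [hP, br_ad0_trace, zero_smul, sub_zero, (brMat ρbar).symm_apply_apply]

/-- equivariance of the trace form: `g • tr (X ·) = tr (tad g X ·)` -/
theorem brΦ_tad (ρbar : ResidualGaloisRep k) (g : GQ) (X : Matrix (Fin 2) (Fin 2) k) :
    (ad0Dual ρbar).ρ g (brΦ ρbar X) = brΦ ρbar (tad (brRep ρbar g) X) := by
  refine brEval_ext ρbar fun a => ?_
  rw [brEval_ρ, brΦ_apply, brΦ_apply]
  show LinearMap.det (ρbar.ρ g) * (X * brMat ρbar (ρbar.ρ g⁻¹ * (a.1 * ρbar.ρ g))).trace = _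
  rw [map_mul, map_mul, ← brRep_det]
  unfold tad
  rw [Matrix.smul_mul, Matrix.trace_smul, brRep_coe, brRep_inv_coe, smul_eq_mul]
  congr 1
  rw [← Matrix.mul_assoc, ← Matrix.mul_assoc, Matrix.trace_mul_comm, ← Matrix.mul_assoc,
    ← Matrix.mul_assoc]

/-! ### the bridge -/

theorem coboundary_of_vanish_ker {p : ℕ} {ρbar : ResidualGaloisRep k} (H : Hyp p ρbar)
    (c : GQ → ad0Dual ρbar) (hc : IsCoc (ad0Dual ρbar) c)
    (h : ∀ τ : GQ, ρbar.ρ τ = 1 → c τ = 0) :
    ∃ x : ad0Dual ρbar, ∀ g : GQ, c g = (ad0Dual ρbar).ρ g x - x := by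
  classical
  haveI := H.finite
  haveI : Fact p.Prime := ⟨H.prime⟩
  haveI : CharP k p := (CharP.charP_iff_prime_eq_zero H.prime).mpr H.char
  have h2 : (2 : k) ≠ 0 := by
    intro h0
    have h1 : ((2 : ℕ) : k) = 0 := by rw [Nat.cast_ofNat]; exact h0
    have h3 : p ∣ 2 := (CharP.cast_eq_zero_iff k p 2).mp h1
    exact H.odd ((Nat.prime_dvd_prime_iff_eq H.prime Nat.prime_two).mp h3)
  -- `c` factors through the matrix representation
  have hfac : ∀ σ τ : GQ, brRep ρbar σ = brRep ρbar τ → c σ = c τ := by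
    intro σ τ hστ
    have h1 : ρbar.ρ σ = ρbar.ρ τ := (brRep_eq_iff ρbar σ τ).mp hστ
    have h3 : ρbar.ρ (τ⁻¹ * σ) = 1 := by
      rw [map_mul, h1, ← map_mul, inv_mul_cancel, map_one]
    have h4 := hc τ (τ⁻¹ * σ)
    rw [mul_inv_cancel_left, h _ h3, map_zero, zero_add] at h4
    exact h4
  -- the matrix cocycle
  choose Xof hXtr hXΦ using brΦ_surjective h2 ρbar
  let ψ : GL (Fin 2) k → Matrix (Fin 2) (Fin 2) k := fun γ =>
    if hγ : ∃ σ, brRep ρbar σ = γ then Xof (c hγ.choose) else 0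
  have hψr : ∀ σ : GQ, ψ (brRep ρbar σ) = Xof (c σ) := by
    intro σ
    have hγ : ∃ σ', brRep ρbar σ' = brRep ρbar σ := ⟨σ, rfl⟩
    simp only [ψ, dif_pos hγ]
    rw [hfac _ _ hγ.choose_spec]
  have hΦψ : ∀ σ : GQ, brΦ ρbar (ψ (brRep ρbar σ)) = c σ := fun σ => by rw [hψr, hXΦ]
  have hψtr : ∀ σ : GQ, (ψ (brRep ρbar σ)).trace = 0 := fun σ => by rw [hψr]; exact hXtr _
  have hcoc : IsTCocycle (brRep ρbar).range ψ := by
    refine ⟨?_, ?_⟩
    · rintro _ ⟨σ, rfl⟩
      exact hψtr σ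
    · rintro _ ⟨σ, rfl⟩ _ ⟨τ, rfl⟩
      rw [← map_mul]
      have hd : ψ (brRep ρbar (σ * τ))
          - (ψ (brRep ρbar σ) + tad (brRep ρbar σ) (ψ (brRep ρbar τ))) = 0 := by
        apply brΦ_injective h2 ρbar
        · rw [Matrix.trace_sub, Matrix.trace_add, hψtr, hψtr,
            avg_trace_tad_eq_zero _ (hψtr τ), add_zero, sub_zero]
        · rw [brΦ_sub, brΦ_add, hΦψ, hΦψ, ← brΦ_tad, hΦψ, hc σ τ]
          abel
      exact sub_eq_zero.mp hd
  obtain ⟨X, -, hX'⟩ := gt_main p H.odd (brRep ρbar).range (br_hirr H) (br_hsplit H)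
    (fun h3 => br_hdet H h3) ψ hcoc
  refine ⟨brΦ ρbar X, fun g => ?_⟩
  rw [← hΦψ g, hX' _ ⟨g, rfl⟩, brΦ_sub, brΦ_tad]

end Fermat.Agent.S56.TW
end MergeWrap_S56_TW_Bridge

section MergeWrap_S56_TW_Sigma -- from S56/TW/Sigma.lean

set_option autoImplicit false

namespace Fermat.Agent.S56.TW

open Fermat.Agent.F4 Polynomial

variable {k : Type} [Field k]

theorem exists_sigma {p : ℕ} {ρbar : ResidualGaloisRep k} (H : Hyp p ρbar) (n : ℕ)
    (c : GQ → ad0Dual ρbar) (hc : IsCoc (ad0Dual ρbar) c)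
    (hnc : ¬ ∃ x : ad0Dual ρbar, ∀ g : GQ, c g = (ad0Dual ρbar).ρ g x - x) :
    ∃ σ : GQ, FixesRoots (p ^ (n + 1)) σ ∧ IsRegular ρbar σ ∧ ¬ InRange (ad0Dual ρbar) c σ := by
  by_cases h : ∀ τ : GQ, ρbar.ρ τ = 1 → FixesRoots (p ^ (n + 1)) τ → c τ = 0
  · exact absurd (coboundary_of_vanish_ker H c hc (vanish_ker_of_vanish H n c hc h)) hnc
  · simp only [not_forall] at h
    obtain ⟨τ, hτρ, hτμ, hτ⟩ := h
    exact exists_sigma_of_ne_zero H n c hc τ hτρ hτμ hτ

end Fermat.Agent.S56.TW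
end MergeWrap_S56_TW_Sigma

section MergeWrap_S56_TW_FrobConj -- from S56/TW/FrobConj.lean

set_option autoImplicit false

open scoped Pointwise

namespace Fermat.Agent.S56.TW

open Fermat.Agent.F4

theorem exists_prime_frob_conj (U : Subgroup GQ) (hU : U ∈ levelsAll.sets) (g : GQ)
    (S : Finset ℕ) :
    ∃ q k j : ℕ, q.Prime ∧ q ∉ S ∧ g⁻¹ * (g ^ k) ^ j ∈ U ∧
      ∀ P : ValuationSubring (AlgebraicClosure ℚ), P.LiesOverPrime q →
        ∀ φ : GQ, P.IsFrobeniusAt φ q → ∃ σ : GQ, (σ * g ^ k * σ⁻¹)⁻¹ * φ ∈ U := by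
  classical
  have hnorm : U.Normal := levelsAll.normal U hU
  obtain ⟨F, hFfin, -, rfl⟩ := hU
  have hopen : IsOpen ((F.fixingSubgroup : Subgroup GQ) : Set GQ) := F.fixingSubgroup_isOpen
  obtain ⟨R, hR⟩ := fc_exists_finset_inertia_le F
  obtain ⟨ℓ, A, τ, k, j, hℓ, hℓS, hA, hτ, hτk, hgj⟩ :=
    Fermat.Agent.FrobDensity.frobenius_density_open F.fixingSubgroup hopen g (S ∪ R)
  have hℓS' : ℓ ∉ S := fun h => hℓS (Finset.mem_union_left _ h)
  have hℓR : ℓ ∉ R := fun h => hℓS (Finset.mem_union_right _ h)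
  -- computations in the quotient
  have e1 : (QuotientGroup.mk τ : GQ ⧸ F.fixingSubgroup) = QuotientGroup.mk (g ^ k) :=
    QuotientGroup.eq.mpr hτk
  have e2 : (QuotientGroup.mk g : GQ ⧸ F.fixingSubgroup) = QuotientGroup.mk (τ ^ j) :=
    QuotientGroup.eq.mpr hgj
  refine ⟨ℓ, k, j, hℓ, hℓS', ?_, fun P hP φ hφ => ?_⟩
  · rw [← QuotientGroup.eq, e2, QuotientGroup.mk_pow, e1, ← QuotientGroup.mk_pow]
  · obtain ⟨σ, rfl⟩ := exists_smul_eq_of_liesOverPrime A P hℓ hA hP
    refine ⟨σ, ?_⟩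
    have h1 := fc_isFrobeniusAt_conj A σ τ ℓ hτ
    have h2 := hR ℓ hℓ hℓR (σ • A) hP (fc_inv_mul_mem_inertia (σ • A) _ _ ℓ h1 hφ)
    have e3 : (QuotientGroup.mk (σ * τ * σ⁻¹) : GQ ⧸ F.fixingSubgroup) = QuotientGroup.mk φ :=
      QuotientGroup.eq.mpr h2
    rw [← QuotientGroup.eq, ← e3, QuotientGroup.mk_mul, QuotientGroup.mk_mul,
      QuotientGroup.mk_mul, QuotientGroup.mk_mul, e1]

end Fermat.Agent.S56.TW
end MergeWrap_S56_TW_FrobConj

section MergeWrap_S56_TW_Step_Lemmas -- from S56/TW/Step/Lemmas.lean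

set_option autoImplicit false

namespace Fermat.Agent.S56.TW

open Fermat.Agent.F4 Polynomial

variable {k : Type} [Field k]

/-! ### regular elements -/

theorem st_matrix_charpoly_diag (a b : k) :
    (Matrix.diagonal ![a, b] : Matrix (Fin 2) (Fin 2) k).charpoly = (X - C a) * (X - C b) := by
  rw [Matrix.charpoly_fin_two]
  simp only [Matrix.trace_fin_two, Matrix.det_fin_two, Matrix.diagonal_apply_eq,
    Matrix.diagonal_apply_ne, Matrix.cons_val_zero, Matrix.cons_val_one, ne_eq,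
    zero_ne_one, one_ne_zero, not_false_eq_true, mul_zero, sub_zero, map_add, map_mul]
  ring

/-- The characteristic polynomial of a power, in dimension two. -/
theorem st_charpoly_pow {V : Type} [AddCommGroup V] [Module k V] [Module.Finite k V]
    (hV : Module.finrank k V = 2) (f : Module.End k V) (a b : k)
    (h : LinearMap.charpoly f = (X - C a) * (X - C b)) (m : ℕ) :
    LinearMap.charpoly (f ^ m) = (X - C (a ^ m)) * (X - C (b ^ m)) := by
  classical
  let bs : Module.Basis (Fin 2) k V := Module.finBasisOfFinrankEq k V hV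
  have h1 : (LinearMap.toMatrix bs bs f).charpoly =
      (Matrix.diagonal ![a, b] : Matrix (Fin 2) (Fin 2) k).charpoly := by
    rw [LinearMap.charpoly_toMatrix, h, st_matrix_charpoly_diag]
  have h2 := Fermat.Agent.FrobDensity.consumer_charpoly_pow_eq _ _ h1 m
  rw [← LinearMap.charpoly_toMatrix (f ^ m) bs, ← LinearMap.toMatrix_pow, h2, Matrix.diagonal_pow,
    ← st_matrix_charpoly_diag]
  congr 2
  ext i
  fin_cases i <;> simp

/-- If `f` is regular and `f = (f ^ m) ^ j` then `f ^ m` is regular. -/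
theorem st_regular_pow {V : Type} [AddCommGroup V] [Module k V] [Module.Finite k V]
    (hV : Module.finrank k V = 2) (f : Module.End k V) (m j : ℕ) (hfj : f = (f ^ m) ^ j)
    (hreg : ∃ a b : k, a ≠ b ∧ LinearMap.charpoly f = (X - C a) * (X - C b)) :
    ∃ a b : k, a ≠ b ∧ LinearMap.charpoly (f ^ m) = (X - C a) * (X - C b) := by
  obtain ⟨a, b, hab, h⟩ := hreg
  have h1 := st_charpoly_pow hV f a b h m
  refine ⟨a ^ m, b ^ m, fun heq => hab ?_, h1⟩
  have h2 := st_charpoly_pow hV (f ^ m) (a ^ m) (b ^ m) h1 j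
  rw [← hfj, h, heq] at h2
  -- evaluate at `a` and at `b`
  have ha := congrArg (Polynomial.eval a) h2
  have hb := congrArg (Polynomial.eval b) h2
  simp only [eval_mul, eval_sub, eval_X, eval_C, sub_self, zero_mul, mul_zero] at ha hb
  have ha' : a = (b ^ m) ^ j := by
    rcases mul_self_eq_zero.mp ha.symm with h0
    exact sub_eq_zero.mp h0
  have hb' : b = (b ^ m) ^ j := by
    rcases mul_self_eq_zero.mp hb.symm with h0
    exact sub_eq_zero.mp h0
  rw [ha', ← hb']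

theorem st_isRegular_pow (ρbar : ResidualGaloisRep k) (g : GQ) (m j : ℕ)
    (hgj : ρbar.ρ g = ρbar.ρ ((g ^ m) ^ j)) (hreg : IsRegular ρbar g) :
    IsRegular ρbar (g ^ m) := by
  unfold IsRegular at hreg ⊢
  rw [map_pow]
  refine st_regular_pow ρbar.finrank_eq (ρbar.ρ g) m j ?_ hreg
  calc ρbar.ρ g = ρbar.ρ ((g ^ m) ^ j) := hgj
    _ = (ρbar.ρ g ^ m) ^ j := by rw [map_pow, map_pow]

theorem st_isRegular_conj (ρbar : ResidualGaloisRep k) (h σ φ : GQ)
    (hφ : ρbar.ρ φ = ρbar.ρ (σ * h * σ⁻¹)) (hreg : IsRegular ρbar h) : IsRegular ρbar φ := by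
  obtain ⟨a, b, hab, hc⟩ := hreg
  refine ⟨a, b, hab, ?_⟩
  rw [hφ, ← hc]
  have h1 : ρbar.ρ σ * ρbar.ρ σ⁻¹ = 1 := by rw [← map_mul, mul_inv_cancel, map_one]
  have h2 : ρbar.ρ σ⁻¹ * ρbar.ρ σ = 1 := by rw [← map_mul, inv_mul_cancel, map_one]
  let e : ρbar.V ≃ₗ[k] ρbar.V :=
    { (ρbar.ρ σ) with
      invFun := ρbar.ρ σ⁻¹
      left_inv := fun x => by
        show (ρbar.ρ σ⁻¹ * ρbar.ρ σ) x = x
        rw [h2]; rfl
      right_inv := fun x => by
        show (ρbar.ρ σ * ρbar.ρ σ⁻¹) x = x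
        rw [h1]; rfl }
  have h3 : ρbar.ρ (σ * h * σ⁻¹) = e.conj (ρbar.ρ h) := by
    rw [map_mul, map_mul]
    rfl
  rw [h3]
  exact LinearEquiv.charpoly_conj e (ρbar.ρ h)

/-! ### cocycle identities -/

theorem st_coc_one (N : Rep k GQ) (c : GQ → N) (hc : IsCoc N c) : c 1 = 0 := by
  have h := hc 1 1
  rw [mul_one, map_one] at h
  simpa using h

theorem st_coc_pow (N : Rep k GQ) (c : GQ → N) (hc : IsCoc N c) (h : GQ) (y : N)
    (hy : c h = N.ρ h y - y) (j : ℕ) : c (h ^ j) = N.ρ (h ^ j) y - y := by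
  induction j with
  | zero => rw [pow_zero, st_coc_one N c hc, map_one]; simp
  | succ j ih =>
    rw [pow_succ', hc, ih, hy, map_mul]
    simp only [map_sub, Module.End.mul_apply]
    abel

/-- If `c (σ h σ⁻¹) ∈ (σ h σ⁻¹ - 1) N` then `c h ∈ (h - 1) N`. -/
theorem st_inRange_of_conj (N : Rep k GQ) (c : GQ → N) (hc : IsCoc N c) (h σ : GQ)
    (hin : InRange N c (σ * h * σ⁻¹)) : InRange N c h := by
  obtain ⟨y, hy⟩ := hin
  -- `c (σ h) = c ((σ h σ⁻¹) σ) = ρ(σ h σ⁻¹) c σ + c (σ h σ⁻¹)`, `c (σ h) = ρ σ (c h) + c σ`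
  have h1 : c (σ * h) = N.ρ (σ * h * σ⁻¹) (c σ) + c (σ * h * σ⁻¹) := by
    rw [← hc]
    congr 1
    group
  have h2 : c (σ * h) = N.ρ σ (c h) + c σ := hc σ h
  have h3 : N.ρ σ (c h) = N.ρ (σ * h * σ⁻¹) (c σ + y) - (c σ + y) := by
    have : N.ρ σ (c h) = N.ρ (σ * h * σ⁻¹) (c σ) + c (σ * h * σ⁻¹) - c σ := by
      rw [← h1, h2]; abel
    rw [this, hy, map_add]
    abel
  refine ⟨N.ρ σ⁻¹ (c σ + y), ?_⟩
  have h4 : N.ρ σ⁻¹ (N.ρ σ (c h)) = c h := by
    rw [← Module.End.mul_apply, ← map_mul, inv_mul_cancel, map_one]; rfl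
  rw [← h4, h3, map_sub]
  congr 1
  rw [← Module.End.mul_apply, ← map_mul, ← Module.End.mul_apply, ← map_mul]
  congr 2
  group

/-! ### levels -/

/-- Finitely many levels have a common lower bound. -/
theorem st_exists_level_le {G : Type} [Group G] (𝓤 : Levels G) {ι : Type*} (T : Finset ι)
    (U : ι → Subgroup G) (hU : ∀ i ∈ T, U i ∈ 𝓤.sets) :
    ∃ W ∈ 𝓤.sets, ∀ i ∈ T, W ≤ U i := by
  classical
  induction T using Finset.induction_on with
  | empty =>
    obtain ⟨W, hW⟩ := 𝓤.nonempty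
    exact ⟨W, hW, fun i hi => absurd hi (Finset.notMem_empty i)⟩
  | insert a T _ ih =>
    obtain ⟨W, hW, hWle⟩ := ih (fun i hi => hU i (Finset.mem_insert_of_mem hi))
    obtain ⟨W', hW', hW'le⟩ := 𝓤.directed W hW (U a) (hU a (Finset.mem_insert_self a T))
    refine ⟨W', hW', fun i hi => ?_⟩
    rcases Finset.mem_insert.mp hi with rfl | hi
    · exact hW'le.trans inf_le_right
    · exact (hW'le.trans inf_le_left).trans (hWle i hi)

/-! ### places -/

/-- Every prime has a place and a Frobenius element over it. -/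
theorem st_exists_place_frobenius (q : ℕ) (hq : q.Prime) :
    ∃ (P : ValuationSubring (AlgebraicClosure ℚ)) (φ : GQ),
      P.LiesOverPrime q ∧ P.IsFrobeniusAt φ q := by
  obtain ⟨A, -, hA⟩ := Fermat.Agent.FrobBridge.exists_valuationSubring_image_subset_nonunits
    (Int.castRingHom (AlgebraicClosure ℚ)) (Ideal.span {(q : ℤ)})
    (by
      rw [Ne, Ideal.span_singleton_eq_top]
      exact (Nat.prime_iff_prime_int.mp hq).not_isUnit)
    (by exact_mod_cast (Int.cast_injective (α := AlgebraicClosure ℚ)))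
  have hAq : A.LiesOverPrime q := by
    have := hA (q : ℤ) (Ideal.mem_span_singleton_self _)
    unfold ValuationSubring.LiesOverPrime
    simpa using this
  obtain ⟨φ, hφ, -⟩ := Fermat.Agent.FrobBridge.exists_isFrobeniusAt_of_liesOver A q hq hAq
  exact ⟨A, φ, hAq, hφ⟩

/-! ### trivial action of the kernel of `ρbar` -/

theorem st_ρ_inv_of_ker (ρbar : ResidualGaloisRep k) (u : GQ) (hu : ρbar.ρ u = 1) :
    ρbar.ρ u⁻¹ = 1 := by
  have h : ρbar.ρ u⁻¹ * ρbar.ρ u = 1 := by rw [← map_mul, inv_mul_cancel, map_one]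
  rwa [hu, mul_one] at h

theorem st_ad0_ρ_of_ker (ρbar : ResidualGaloisRep k) (u : GQ) (hu : ρbar.ρ u = 1)
    (a : ad0 ρbar) : (ad0 ρbar).ρ u a = a := by
  have h2 : ρbar.ρ u⁻¹ = 1 := st_ρ_inv_of_ker ρbar u hu
  apply Subtype.ext
  show ρbar.ρ u * ((a : ↥(ad0Sub ρbar)).1 * ρbar.ρ u⁻¹) = (a : ↥(ad0Sub ρbar)).1
  rw [hu, h2, mul_one, one_mul]

theorem st_ad0Dual_ρ_of_ker (ρbar : ResidualGaloisRep k) (u : GQ) (hu : ρbar.ρ u = 1)
    (f : ad0Dual ρbar) : (ad0Dual ρbar).ρ u f = f := by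
  have hdet : ((detChar ρbar u : kˣ) : k) = 1 := by
    show LinearMap.det (ρbar.ρ u) = 1
    rw [hu, map_one]
  have key : ∀ f' : Module.Dual k (ad0 ρbar),
      ((ad0 ρbar).dualTwist (detChar ρbar)).ρ u f' = f' := by
    intro f'
    rw [Rep.dualTwist_ρ_apply, hdet, one_smul]
    refine LinearMap.ext fun m => ?_
    show f' ((ad0 ρbar).ρ u⁻¹ m) = f' m
    rw [st_ad0_ρ_of_ker ρbar u⁻¹ (st_ρ_inv_of_ker ρbar u hu) m]
  exact key f

/-- `ρ_N (g * u) = ρ_N g` if `ρbar u = 1`. -/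
theorem st_ad0Dual_ρ_mul_of_ker (ρbar : ResidualGaloisRep k) (g u : GQ) (hu : ρbar.ρ u = 1)
    (f : ad0Dual ρbar) : (ad0Dual ρbar).ρ (g * u) f = (ad0Dual ρbar).ρ g f := by
  rw [map_mul, Module.End.mul_apply, st_ad0Dual_ρ_of_ker ρbar u hu]

/-! ### roots of unity -/

theorem st_fixesRoots_pow (m : ℕ) (g : GQ) (hg : FixesRoots m g) (j : ℕ) :
    FixesRoots m (g ^ j) := by
  intro t ht
  induction j with
  | zero => rw [pow_zero]; rfl
  | succ j ih =>
    rw [pow_succ]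
    show (g ^ j) (g t) = t
    rw [hg t ht, ih]

/-! ### linear algebra -/

theorem st_mem_of_map_mem {M Q : Type*} [AddCommGroup M] [Module k M] [AddCommGroup Q]
    [Module k Q] (π : M →ₗ[k] Q) (Z : Submodule k M) (hker : LinearMap.ker π ≤ Z) (c : M)
    (h : π c ∈ Z.map π) : c ∈ Z := by
  obtain ⟨c', hc', hcc'⟩ := h
  have h1 : c - c' ∈ LinearMap.ker π := by
    rw [LinearMap.mem_ker, map_sub, hcc', sub_self]
  have h2 := Z.add_mem (hker h1) hc'
  rwa [sub_add_cancel] at h2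

/-! ### smooth cocycles -/

/-- The kernel of the class map consists of the coboundaries. -/
theorem st_ker_H1smπ (N : Rep k GQ) (c : ↥(Z1 levelsAll N))
    (hc : c ∈ LinearMap.ker (H1smπ levelsAll N)) :
    ∃ y : N, ∀ g : GQ, c.1 g = N.ρ g y - y := by
  rw [Submodule.ker_mkQ] at hc
  obtain ⟨y, hy⟩ := hc
  exact ⟨y, fun g => (congrFun hy g).symm⟩

theorem st_H1smπ_eq_zero (N : Rep k GQ) (c : ↥(Z1 levelsAll N)) (y : N)
    (hy : ∀ g : GQ, c.1 g = N.ρ g y - y) : H1smπ levelsAll N c = 0 := by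
  rw [← LinearMap.mem_ker, Submodule.ker_mkQ]
  exact ⟨y, funext fun g => (hy g).symm⟩

/-- The cocycles whose value at `h` lies in `(h - 1) N`. -/
def stZh (N : Rep k GQ) (h : GQ) : Submodule k ↥(Z1 levelsAll N) where
  carrier := {c | InRange N c.1 h}
  add_mem' := by
    rintro c c' ⟨y, hy⟩ ⟨y', hy'⟩
    refine ⟨y + y', ?_⟩
    show c.1 h + c'.1 h = _
    rw [hy, hy', map_add]
    abel
  zero_mem' := ⟨0, by
    show (0 : N) = _
    rw [map_zero, sub_zero]⟩
  smul_mem' := by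
    rintro a c ⟨y, hy⟩
    refine ⟨a • y, ?_⟩
    show a • c.1 h = _
    rw [hy, map_smul, smul_sub]

theorem st_mem_stZh (N : Rep k GQ) (h : GQ) (c : ↥(Z1 levelsAll N)) :
    c ∈ stZh N h ↔ InRange N c.1 h := Iff.rfl

theorem st_ker_le_stZh (N : Rep k GQ) (h : GQ) :
    LinearMap.ker (H1smπ levelsAll N) ≤ stZh N h := by
  intro c hc
  obtain ⟨y, hy⟩ := st_ker_H1smπ N c hc
  exact ⟨y, hy h⟩

/-- The cocycles which are right-invariant under `W`. -/
def stZW (N : Rep k GQ) (W : Subgroup GQ) : Submodule k ↥(Z1 levelsAll N) where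
  carrier := {c | ∀ g s, s ∈ W → c.1 (g * s) = c.1 g}
  add_mem' := by
    intro c c' hc hc' g s hs
    show c.1 (g * s) + c'.1 (g * s) = c.1 g + c'.1 g
    rw [hc g s hs, hc' g s hs]
  zero_mem' := fun _ _ _ => rfl
  smul_mem' := by
    intro a c hc g s hs
    show a • c.1 (g * s) = a • c.1 g
    rw [hc g s hs]

theorem st_mem_stZW (N : Rep k GQ) (W : Subgroup GQ) (c : ↥(Z1 levelsAll N)) :
    c ∈ stZW N W ↔ ∀ g s, s ∈ W → c.1 (g * s) = c.1 g := Iff.rfl

theorem st_ker_le_stZW (N : Rep k GQ) (W : Subgroup GQ)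
    (hW : ∀ s ∈ W, ∀ y : N, N.ρ s y = y) :
    LinearMap.ker (H1smπ levelsAll N) ≤ stZW N W := by
  intro c hc
  obtain ⟨y, hy⟩ := st_ker_H1smπ N c hc
  intro g s hs
  rw [hy, hy, map_mul, Module.End.mul_apply, hW s hs]

/-- Every class of a finite-dimensional space `Ψ` of smooth classes is represented by
right-`W`-invariant cocycles only, for a suitable level `W` below a given level `U₀` on which the
action is trivial. -/
theorem st_exists_level_invariant (N : Rep k GQ) (Ψ : Submodule k (H1sm levelsAll N))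
    (hΨ : FiniteDimensional k Ψ) (U₀ : Subgroup GQ) (hU₀ : U₀ ∈ levelsAll.sets)
    (htriv : ∀ s ∈ U₀, ∀ y : N, N.ρ s y = y) :
    ∃ W ∈ levelsAll.sets, W ≤ U₀ ∧
      ∀ c : ↥(Z1 levelsAll N), H1smπ levelsAll N c ∈ Ψ →
        ∀ g s, s ∈ W → c.1 (g * s) = c.1 g := by
  classical
  have hfg : Ψ.FG := (Submodule.fg_iff_finiteDimensional Ψ).2 hΨ
  obtain ⟨T, hT⟩ := hfg
  -- representatives and their levels
  have hrep : ∀ t : H1sm levelsAll N, ∃ c : ↥(Z1 levelsAll N), H1smπ levelsAll N c = t :=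
    fun t => Submodule.mkQ_surjective _ t
  choose rep hrep using hrep
  have hlev : ∀ t : H1sm levelsAll N, ∃ U ∈ levelsAll.sets,
      ∀ g s, s ∈ U → (rep t).1 (g * s) = (rep t).1 g := fun t => (rep t).2.2
  choose lev hlev hlev' using hlev
  obtain ⟨W₀, hW₀, hW₀le⟩ := st_exists_level_le levelsAll T lev (fun t _ => hlev t)
  obtain ⟨W, hW, hWle⟩ := levelsAll.directed W₀ hW₀ U₀ hU₀
  refine ⟨W, hW, hWle.trans inf_le_right, fun c hc => ?_⟩
  have hker : LinearMap.ker (H1smπ levelsAll N) ≤ stZW N W :=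
    st_ker_le_stZW N W fun s hs y => htriv s (hWle hs).2 y
  have hle : Ψ ≤ (stZW N W).map (H1smπ levelsAll N) := by
    rw [← hT, Submodule.span_le]
    intro t ht
    refine ⟨rep t, ?_, hrep t⟩
    intro g s hs
    exact hlev' t g s (hW₀le t ht (hWle hs).1)
  exact st_mem_of_map_mem (H1smπ levelsAll N) (stZW N W) hker c (hle hc)

end Fermat.Agent.S56.TW
end MergeWrap_S56_TW_Step_Lemmas

section MergeWrap_S56_TW_Step -- from S56/TW/Step.lean

set_option autoImplicit false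

namespace Fermat.Agent.S56.TW

open Fermat.Agent.F4 Polynomial

variable {k : Type} [Field k]

theorem exists_twPrime_step {p : ℕ} {ρbar : ResidualGaloisRep k} (H : Hyp p ρbar)
    (S : Finset ℕ) (hpS : p ∈ S) (n : ℕ)
    (Ψ : Submodule k (H1sm levelsAll (ad0Dual ρbar))) (hΨ : FiniteDimensional k Ψ)
    (x : H1sm levelsAll (ad0Dual ρbar)) (hx : x ∈ Ψ) (hx0 : x ≠ 0) (S' : Finset ℕ) :
    ∃ q : ℕ, IsTWPrime p n ρbar S q ∧ q ∉ S' ∧
      ∃ Ψ' : Submodule k (H1sm levelsAll (ad0Dual ρbar)), Ψ' ≤ Ψ ∧ x ∉ Ψ' ∧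
        ∀ c : ↥(Z1 levelsAll (ad0Dual ρbar)), H1smπ levelsAll (ad0Dual ρbar) c ∈ Ψ →
          VanishesAt (ad0Dual ρbar) c.1 q → H1smπ levelsAll (ad0Dual ρbar) c ∈ Ψ' := by
  classical
  -- the level
  obtain ⟨U₁, hU₁, hker⟩ := exists_level_ker ρbar
  obtain ⟨U₂, hU₂, hfix⟩ := exists_level_fixesRoots (p ^ (n + 1)) (pow_ne_zero _ H.prime.ne_zero)
  obtain ⟨U₀, hU₀, hU₀le⟩ := levelsAll.directed U₁ hU₁ U₂ hU₂
  have hker₀ : ∀ s ∈ U₀, ρbar.ρ s = 1 := fun s hs => hker s (hU₀le hs).1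
  have hfix₀ : ∀ s ∈ U₀, FixesRoots (p ^ (n + 1)) s := fun s hs => hfix s (hU₀le hs).2
  obtain ⟨W, hW, hWle, hinv⟩ := st_exists_level_invariant (ad0Dual ρbar) Ψ hΨ U₀ hU₀
    (fun s hs y => st_ad0Dual_ρ_of_ker ρbar s (hker₀ s hs) y)
  have hkerW : ∀ s ∈ W, ρbar.ρ s = 1 := fun s hs => hker₀ s (hWle hs)
  have hfixW : ∀ s ∈ W, FixesRoots (p ^ (n + 1)) s := fun s hs => hfix₀ s (hWle hs)
  -- a representative of `x`
  obtain ⟨c₀, hc₀⟩ := Submodule.mkQ_surjective _ x
  have hc₀Ψ : H1smπ levelsAll (ad0Dual ρbar) c₀ ∈ Ψ := by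
    show Submodule.mkQ _ c₀ ∈ Ψ
    rw [hc₀]; exact hx
  have hcoc : ∀ c : ↥(Z1 levelsAll (ad0Dual ρbar)), IsCoc (ad0Dual ρbar) c.1 := fun c =>
    (groupCohomology.mem_cocycles₁_iff c.1).1 c.2.1
  have hnc : ¬ ∃ y : ad0Dual ρbar, ∀ g : GQ, c₀.1 g = (ad0Dual ρbar).ρ g y - y := by
    rintro ⟨y, hy⟩
    apply hx0
    rw [← hc₀]
    exact st_H1smπ_eq_zero (ad0Dual ρbar) c₀ y hy
  obtain ⟨g, hgfix, hgreg, hgnot⟩ := exists_sigma H n c₀.1 (hcoc c₀) hnc
  -- the prime
  obtain ⟨q, k', j, hq, hqS, hgj, hφ⟩ := exists_prime_frob_conj W hW g (S ∪ S')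
  have hqS₁ : q ∉ S := fun h => hqS (Finset.mem_union_left _ h)
  have hqS₂ : q ∉ S' := fun h => hqS (Finset.mem_union_right _ h)
  have hqp : q ≠ p := fun h => hqS₁ (h ▸ hpS)
  -- `h = g ^ k'`
  have hρgj : ρbar.ρ g = ρbar.ρ ((g ^ k') ^ j) := by
    have h1 := hkerW _ hgj
    rw [map_mul] at h1
    have h2 : ρbar.ρ g * (ρbar.ρ g⁻¹ * ρbar.ρ ((g ^ k') ^ j)) = ρbar.ρ g * 1 := by rw [h1]
    rw [← mul_assoc, ← map_mul, mul_inv_cancel, map_one, one_mul, mul_one] at h2
    exact h2.symm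
  have hhreg : IsRegular ρbar (g ^ k') := st_isRegular_pow ρbar g k' j hρgj hgreg
  have hhfix : FixesRoots (p ^ (n + 1)) (g ^ k') := st_fixesRoots_pow _ g hgfix k'
  have hhnot : ¬ InRange (ad0Dual ρbar) c₀.1 (g ^ k') := by
    rintro ⟨y, hy⟩
    apply hgnot
    have h1 := st_coc_pow (ad0Dual ρbar) c₀.1 (hcoc c₀) (g ^ k') y hy j
    have h2 : (g ^ k') ^ j = g * (g⁻¹ * (g ^ k') ^ j) := by rw [mul_inv_cancel_left]
    refine ⟨y, ?_⟩
    rw [h2, hinv c₀ hc₀Ψ g _ hgj, st_ad0Dual_ρ_mul_of_ker ρbar g _ (hkerW _ hgj)] at h1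
    exact h1
  -- every Frobenius over `q` is `σ h σ⁻¹ u`
  have hφ' : ∀ P : ValuationSubring (AlgebraicClosure ℚ), P.LiesOverPrime q →
      ∀ φ : GQ, P.IsFrobeniusAt φ q → ∃ σ u : GQ, u ∈ W ∧ φ = σ * g ^ k' * σ⁻¹ * u := by
    intro P hP φ hφP
    obtain ⟨σ, hσ⟩ := hφ P hP φ hφP
    exact ⟨σ, _, hσ, by rw [mul_inv_cancel_left]⟩
  refine ⟨q, ⟨⟨hq, hqS₁, ?_⟩, ?_⟩, hqS₂, ?_⟩
  · -- `q ≡ 1 mod p^(n+1)`
    obtain ⟨P, φ, hP, hφP⟩ := st_exists_place_frobenius q hq
    obtain ⟨σ, u, hu, rfl⟩ := hφ' P hP φ hφP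
    exact pow_dvd_sub_one_of_frobenius p n q H.prime hq hqp P hP _ hφP
      (fixesRoots_mul _ _ _ (fixesRoots_conj _ σ _ hhfix) (hfixW u hu))
  · -- regular Frobenius
    intro P hP φ hφP
    obtain ⟨σ, u, hu, rfl⟩ := hφ' P hP φ hφP
    refine st_isRegular_conj ρbar (g ^ k') σ _ ?_ hhreg
    rw [map_mul (ρbar.ρ) (σ * g ^ k' * σ⁻¹) u, hkerW u hu, mul_one]
  · -- the smaller space
    refine ⟨Ψ ⊓ (stZh (ad0Dual ρbar) (g ^ k')).map (H1smπ levelsAll (ad0Dual ρbar)),
      inf_le_left, ?_, ?_⟩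
    · rintro ⟨-, hx2⟩
      apply hhnot
      rw [← hc₀] at hx2
      exact st_mem_of_map_mem (H1smπ levelsAll (ad0Dual ρbar)) _
        (st_ker_le_stZh (ad0Dual ρbar) (g ^ k')) c₀ hx2
    · intro c hc hvan
      refine ⟨hc, c, ?_, rfl⟩
      obtain ⟨P, hP, φ, hφP, y, hy⟩ := hvan
      obtain ⟨σ, u, hu, rfl⟩ := hφ' P hP φ hφP
      rw [hinv c hc _ u hu, st_ad0Dual_ρ_mul_of_ker ρbar _ u (hkerW u hu)] at hy
      exact st_inRange_of_conj (ad0Dual ρbar) c.1 (hcoc c) (g ^ k') σ ⟨y, hy⟩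

end Fermat.Agent.S56.TW
end MergeWrap_S56_TW_Step

section MergeWrap_S56_TW_Main -- from S56/TW/Main.lean

set_option autoImplicit false

namespace Fermat.Agent.S56.TW

open Fermat.Agent.F4 Polynomial Module

variable {k : Type} [Field k]

/-- A hyperplane of `Ψ` containing `Ψ'` and avoiding `x`. -/
theorem exists_hyperplane {V : Type} [AddCommGroup V] [Module k V] (Ψ Ψ' : Submodule k V)
    [FiniteDimensional k Ψ] (hle : Ψ' ≤ Ψ) (x : V) (hx : x ∈ Ψ) (hx' : x ∉ Ψ') :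
    ∃ Ψ'' : Submodule k V, Ψ' ≤ Ψ'' ∧ Ψ'' ≤ Ψ ∧ finrank k Ψ'' + 1 = finrank k Ψ := by
  obtain ⟨f, hfx, hf⟩ := Submodule.exists_le_ker_of_notMem hx'
  refine ⟨Ψ ⊓ LinearMap.ker f, le_inf hle hf, inf_le_left, ?_⟩
  -- rank-nullity for the restriction of `f` to `Ψ`
  set g : Ψ →ₗ[k] k := f.comp Ψ.subtype with hg
  have hrn := LinearMap.finrank_range_add_finrank_ker g
  have hsurj : LinearMap.range g = ⊤ := by
    rw [LinearMap.range_eq_top]
    intro c
    refine ⟨(c * (f x)⁻¹) • ⟨x, hx⟩, ?_⟩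
    simp [hg, hfx]
  have hker : finrank k (LinearMap.ker g) = finrank k ↥(Ψ ⊓ LinearMap.ker f) := by
    have e : LinearMap.ker g = (Ψ ⊓ LinearMap.ker f).comap Ψ.subtype := by
      ext y
      simp [hg, LinearMap.mem_ker]
    rw [e]
    exact (Submodule.comapSubtypeEquivOfLe (inf_le_left : Ψ ⊓ LinearMap.ker f ≤ Ψ)).finrank_eq
  rw [hsurj, finrank_top, finrank_self, hker] at hrn
  omega

theorem exists_twPrimes_aux {p : ℕ} {ρbar : ResidualGaloisRep k} (H : Hyp p ρbar)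
    (S : Finset ℕ) (hpS : p ∈ S) (n : ℕ) :
    ∀ (d : ℕ) (Ψ : Submodule k (H1sm levelsAll (ad0Dual ρbar))), FiniteDimensional k Ψ →
      finrank k Ψ = d → ∀ S' : Finset ℕ,
        ∃ qv : Fin d → ℕ, Function.Injective qv ∧ (∀ i, IsTWPrime p n ρbar S (qv i)) ∧
          (∀ i, qv i ∉ S') ∧ Kills ρbar Ψ (Finset.univ.image qv) := by
  intro d
  induction d with
  | zero =>
    intro Ψ hΨ hd S'
    refine ⟨Fin.elim0, fun i => i.elim0, fun i => i.elim0, fun i => i.elim0, ?_⟩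
    intro c hc _
    have hbot : Ψ = ⊥ := Submodule.finrank_eq_zero.mp hd
    rw [hbot] at hc
    exact (Submodule.mem_bot k).mp hc
  | succ d ih =>
    intro Ψ hΨ hd S'
    have hne : Ψ ≠ ⊥ := by
      intro h
      rw [h, finrank_bot] at hd
      omega
    obtain ⟨x, hx, hx0⟩ := Submodule.exists_mem_ne_zero_of_ne_bot hne
    obtain ⟨q, hq, hqS', Ψ', hle, hxΨ', hvan⟩ := exists_twPrime_step H S hpS n Ψ hΨ x hx hx0 S'
    obtain ⟨Ψ'', h1, h2, h3⟩ := exists_hyperplane Ψ Ψ' hle x hx hxΨ'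
    have hΨ'' : FiniteDimensional k Ψ'' := Submodule.finiteDimensional_of_le h2
    obtain ⟨qv, hinj, hTW, hS', hkill⟩ := ih Ψ'' hΨ'' (by omega) (insert q S')
    refine ⟨Fin.cons q qv, ?_, ?_, ?_, ?_⟩
    · rw [Fin.cons_injective_iff]
      refine ⟨?_, hinj⟩
      rintro ⟨i, hi⟩
      exact hS' i (by rw [hi]; exact Finset.mem_insert_self _ _)
    · intro i
      refine Fin.cases ?_ (fun j => ?_) i
      · simpa using hq
      · simpa using hTW j
    · intro i
      refine Fin.cases ?_ (fun j => ?_) i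
      · simpa using hqS'
      · simpa using fun h => hS' j (Finset.mem_insert_of_mem h)
    · intro c hc hv
      have hq' : q ∈ Finset.univ.image (Fin.cons q qv : Fin (d + 1) → ℕ) :=
        Finset.mem_image.mpr ⟨0, Finset.mem_univ _, by simp⟩
      have hcΨ' := hvan c hc (hv q hq')
      refine hkill c (h1 hcΨ') (fun q' hq'' => hv q' ?_)
      obtain ⟨j, -, rfl⟩ := Finset.mem_image.mp hq''
      exact Finset.mem_image.mpr ⟨j.succ, Finset.mem_univ _, by simp⟩

/-- **Wall W5** from the hypotheses `Hyp`. -/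
theorem twPrimes_of_hyp {p : ℕ} {ρbar : ResidualGaloisRep k} (H : Hyp p ρbar)
    (S : Finset ℕ) (hpS : p ∈ S) : TWPrimesStatement p ρbar S := by
  intro Ψ hΨ n
  obtain ⟨qv, hinj, hTW, -, hkill⟩ := exists_twPrimes_aux H S hpS n _ Ψ hΨ rfl ∅
  exact ⟨qv, hinj, hTW, hkill⟩

end Fermat.Agent.S56.TW
end MergeWrap_S56_TW_Main

section MergeWrap_S56_TWPrimes -- from S56/TWPrimes.lean

set_option autoImplicit false

namespace Fermat.Agent.S56

open Fermat.Agent.F4 Polynomial IsLocalRing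

theorem twPrimesStatement
    {𝒪 : Type} [CommRing 𝒪] [IsDomain 𝒪] [IsDiscreteValuationRing 𝒪]
    [IsAdicComplete (maximalIdeal 𝒪) 𝒪] [Finite (ResidueField 𝒪)]
    (p : ℕ) [Fact p.Prime] (hp2 : p ≠ 2) (hp𝒪 : (p : 𝒪) ∈ maximalIdeal 𝒪)
    (ρbar : ResidualGaloisRep (ResidueField 𝒪))
    (habs : ρbar.IsAbsolutelyIrreducible)
    (hdet : (GaloisRepAdic.ofResidualGaloisRep ρbar).DetIsCyclotomic p)
    (hsplit : ∀ σ : AlgebraicClosure ℚ ≃ₐ[ℚ] AlgebraicClosure ℚ,
      ∃ α β : ResidueField 𝒪, LinearMap.charpoly (ρbar.ρ σ) = (X - C α) * (X - C β))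
    (hTW : ∀ (K : Type) [Field K] [Algebra (ResidueField 𝒪) K]
      (G : Subgroup (AlgebraicClosure ℚ ≃ₐ[ℚ] AlgebraicClosure ℚ)), G.index = 2 →
      ∀ V : Submodule K (ρbar.baseChange K).V,
        (∀ σ ∈ G, ∀ x ∈ V, (ρbar.baseChange K).ρ σ x ∈ V) → V = ⊥ ∨ V = ⊤)
    (S : Finset ℕ) (hpS : p ∈ S)
    (hS : ∀ q : ℕ, q.Prime → q ∉ S → ρbar.IsUnramifiedAt q) :
    TWPrimesStatement p ρbar S := by
  have hchar : ((p : ℕ) : ResidueField 𝒪) = 0 := by
    have h := (IsLocalRing.residue_eq_zero_iff (p : 𝒪)).mpr hp𝒪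
    rwa [map_natCast] at h
  exact TW.twPrimes_of_hyp
    { finite := inferInstance
      prime := Fact.out
      odd := hp2
      char := hchar
      habs := habs
      hdet := hdet
      hsplit := hsplit
      hTW := hTW } S hpS

end Fermat.Agent.S56
end MergeWrap_S56_TWPrimes
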