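import Mathlib
import Fermat.Prelude.Def_GaloisRep_LocalConditions
import Fermat.Agent.MU.F4.Datum
import Fermat.Agent.MU.F4.Cf.Final
import Fermat.Agent.MU.F4.Loc.Datum.Pack
import Fermat.Agent.MU.S56.Local.Defs
import Fermat.Agent.MU.S56.Local.Walls
import Fermat.Agent.MU.S56.W2.Interfaces
import Fermat.Agent.MU.F4.PT.Abs.Iota
import Fermat.Agent.F4.PT.Abs.Deg0
import Fermat.Agent.MU.F4.PT.Defs
import Fermat.Agent.MU.F4.BR.LevelsBridge
import Fermat.Agent.F4.DDT.Basic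
import Fermat.Agent.MU.F4.PT.Abs.Sha
import Fermat.Agent.MU.F4.PT.Bridge
import Fermat.Agent.MU.F4.DDT.Main
import Fermat.Agent.MU.S56.W2.EC.Pack
import Fermat.Agent.MU.S56.W2.EC.LowerAbs
import Fermat.Agent.MU.S56.W2.EC.Sh.Hom
import Fermat.Agent.MU.S56.W2.EC.Cyclic.TorsObj
import Fermat.Agent.MU.S56.W2.EC.Cyclic.AObj
import Fermat.Agent.MU.S56.W2.EC.Cyclic.RecipK0
import Fermat.Agent.MU.S56.W2.EC.Cyclic.RecipCoreL
import Fermat.Agent.MU.S56.W2.EC.Cyclic.RecipCoreR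
import Fermat.Agent.MU.S56.W2.EC.Cyclic.RecipCoreEq
import Fermat.Agent.MU.S56.W2.EC.Cyclic.Final
import Fermat.Agent.MU.S56.W2.EC.Brauer.Asm
import Fermat.Agent.MU.S56.W2.EC.Brauer.BN
import Fermat.Agent.MU.S56.W2.EC.Brauer.Ind
import Fermat.Agent.MU.S56.W2.EC.Brauer.ArtinRefined
import Fermat.Agent.MU.S56.W2.EC.Defs
import Fermat.Agent.MU.F4.BR.Smooth
import Fermat.Agent.F4.Coind.Basic
import Fermat.Agent.F4.Pairing
import Fermat.Agent.MU.F4.Coind.Datum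
import Fermat.Agent.MU.S56.W2.EC.Additive
import Fermat.Agent.MU.S56.W3.TW.Asm
import Fermat.Agent.MU.S56.W3.TW.Gen
import Fermat.Agent.MU.S56.W3.Tame
import Fermat.Agent.S56.W3.TW.Count
import Fermat.Agent.S56.W3.TW.LinAlg
import Fermat.Agent.MU.S56.W1.Unr
import Fermat.Agent.MU.Lib.TameInertia.Main
import Fermat.Agent.S56.W3.TW.Lies
import Fermat.Agent.Lib.FF.PlacesQbar
import Fermat.Agent.Lib.KFin.Inertia
import Fermat.Agent.MU.S56.W3.Arch
import Fermat.Agent.MU.S56.W1.Kill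
import Fermat.Agent.MU.S56.Assembly
import Fermat.Agent.MU.S56.TWPrimes
import Fermat.Agent.MU.S56.W3.SO
import Fermat.Agent.MU.S56.W4.Flat

section MergeWrap_F4_Glob_Main -- from F4/Glob/Main.lean

/-!
# F4 / Glob / Main : existence of the global datum (wired: GLOB `F4/Cf/Final.lean` + LOC `F4/Loc/Datum/Pack.lean`)

Final deliverable of the number-theory side of S55: local and global class field theory mod `p`
for `G_S`, in the cohomological form of `F4/Datum.lean`.  See `NOTES/F4-dictionary.md`.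
-/

set_option autoImplicit false

open CategoryTheory groupCohomology ExtCitation

namespace Fermat.Agent.F4

variable {p : ℕ} [Fact p.Prime]

/-- **Number theory**: local packs (LOC, helper87) + class formation, reciprocity, assembly
(GLOB, helper53). -/
theorem exists_globalDatum (hp2 : p ≠ 2) (S : Finset Nat.Primes) (hpS : pPrime p ∈ S) :
    Nonempty (GlobalDatum p S) :=
  Fermat.Agent.F4Cf.exists_globalDatum_of_locPack hp2 hpS
    (fun φ hφ q => Fermat.Agent.F4.Loc.nonempty_locPack hpS φ hφ q)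

end Fermat.Agent.F4
end MergeWrap_F4_Glob_Main

section MergeWrap_S56_W2_SC_Transport -- from S56/W2/SC/Transport.lean

set_option autoImplicit false

namespace Fermat.Agent.S56

open Fermat.Agent.F4 ExtCitation groupCohomology

section Generic

variable {k k₀ G : Type} [CommRing k] [CommRing k₀] [Group G]
variable (𝓤 : Levels G) {A : Rep.{0} k G} {A₀ : Rep.{0} k₀ G}

/-- `f ∘ c` is a smooth cocycle when `c` is one and `f` is additive and equivariant. -/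
theorem sc_comp_mem_Z1 (f : A.V →+ A₀.V) (hf : ∀ (g : G) (a : A.V), f (A.ρ g a) = A₀.ρ g (f a))
    {c : G → A.V} (hc : c ∈ Z1 𝓤 A) : (fun g => f (c g)) ∈ Z1 𝓤 A₀ := by
  refine ⟨?_, IsLC₁.comp (f := c) hc.2 f⟩
  have hz := (mem_cocycles₁_iff c).1 hc.1
  refine (mem_cocycles₁_iff _).2 fun g h => ?_
  show f (c (g * h)) = A₀.ρ g (f (c h)) + f (c g)
  rw [hz g h, map_add, hf]

/-- `f ∘ c` is a coboundary when `c` is one. -/
theorem sc_comp_mem_B1 (f : A.V →+ A₀.V) (hf : ∀ (g : G) (a : A.V), f (A.ρ g a) = A₀.ρ g (f a))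
    {c : G → A.V} (hc : c ∈ B1 A) : (fun g => f (c g)) ∈ B1 A₀ := by
  obtain ⟨a, rfl⟩ := hc
  refine ⟨f a, ?_⟩
  funext g
  show A₀.ρ g (f a) - f a = f (A.ρ g a - a)
  rw [map_sub, hf]

/-- The map `c ↦ f ∘ c` on smooth cocycles. -/
def scZ1 (f : A.V →+ A₀.V) (hf : ∀ (g : G) (a : A.V), f (A.ρ g a) = A₀.ρ g (f a)) :
    ↥(Z1 𝓤 A) →+ ↥(Z1 𝓤 A₀) where
  toFun c := ⟨fun g => f ((c : G → A.V) g), sc_comp_mem_Z1 𝓤 f hf c.2⟩
  map_zero' := Subtype.ext (funext fun _ => map_zero f)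
  map_add' _ _ := Subtype.ext (funext fun _ => map_add f _ _)

@[simp] theorem scZ1_apply (f : A.V →+ A₀.V)
    (hf : ∀ (g : G) (a : A.V), f (A.ρ g a) = A₀.ρ g (f a)) (c : ↥(Z1 𝓤 A)) (g : G) :
    ((scZ1 𝓤 f hf c : ↥(Z1 𝓤 A₀)) : G → A₀.V) g = f ((c : G → A.V) g) := rfl

/-- The map `[c] ↦ [f ∘ c]` on the smooth `H¹`. -/
noncomputable def scH1 (f : A.V →+ A₀.V) (hf : ∀ (g : G) (a : A.V), f (A.ρ g a) = A₀.ρ g (f a)) :
    H1sm 𝓤 A →+ H1sm 𝓤 A₀ :=
  QuotientAddGroup.lift ((B1 A).comap (Z1 𝓤 A).subtype).toAddSubgroup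
    ((H1smπ 𝓤 A₀).toAddMonoidHom.comp (scZ1 𝓤 f hf)) (by
      intro c hc
      rw [AddMonoidHom.mem_ker]
      show H1smπ 𝓤 A₀ (scZ1 𝓤 f hf c) = 0
      rw [Submodule.mkQ_apply, Submodule.Quotient.mk_eq_zero]
      exact sc_comp_mem_B1 f hf hc)

theorem scH1_mk (f : A.V →+ A₀.V) (hf : ∀ (g : G) (a : A.V), f (A.ρ g a) = A₀.ρ g (f a))
    (c : ↥(Z1 𝓤 A)) : scH1 𝓤 f hf (H1smπ 𝓤 A c) = H1smπ 𝓤 A₀ (scZ1 𝓤 f hf c) := rfl

/-- Restriction commutes with `[c] ↦ [f ∘ c]`. -/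
theorem scH1_res {H : Type} [Group H] (r : H →* G) (f : A.V →+ A₀.V)
    (hf : ∀ (g : G) (a : A.V), f (A.ρ g a) = A₀.ρ g (f a)) (x : H1sm 𝓤 A) :
    scH1 (𝓤.comap r) (A := Rep.res r A) (A₀ := Rep.res r A₀) f (fun h a => hf (r h) a)
        (H1res 𝓤 A r x) = H1res 𝓤 A₀ r (scH1 𝓤 f hf x) := by
  induction x using Submodule.Quotient.induction_on with
  | _ c => rfl

/-- The inverse of an equivariant additive bijection is equivariant. -/
theorem sc_symm_equivariant (f : A.V ≃+ A₀.V)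
    (hf : ∀ (g : G) (a : A.V), f (A.ρ g a) = A₀.ρ g (f a)) (g : G) (b : A₀.V) :
    f.symm (A₀.ρ g b) = A.ρ g (f.symm b) := by
  apply f.injective
  rw [hf, AddEquiv.apply_symm_apply, AddEquiv.apply_symm_apply]

/-- The bijection `[c] ↦ [f ∘ c]` on the smooth `H¹`, for an equivariant additive bijection. -/
noncomputable def scH1Equiv (f : A.V ≃+ A₀.V)
    (hf : ∀ (g : G) (a : A.V), f (A.ρ g a) = A₀.ρ g (f a)) : H1sm 𝓤 A ≃+ H1sm 𝓤 A₀ where
  toFun := scH1 𝓤 f.toAddMonoidHom hf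
  invFun := scH1 𝓤 f.symm.toAddMonoidHom (fun g b => sc_symm_equivariant f hf g b)
  left_inv x := by
    induction x using Submodule.Quotient.induction_on with
    | _ c =>
      exact congrArg (H1smπ 𝓤 A)
        (Subtype.ext (funext fun g => f.symm_apply_apply ((c : G → A.V) g)))
  right_inv x := by
    induction x using Submodule.Quotient.induction_on with
    | _ c =>
      exact congrArg (H1smπ 𝓤 A₀)
        (Subtype.ext (funext fun g => f.apply_symm_apply ((c : G → A₀.V) g)))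
  map_add' := map_add _

theorem scH1Equiv_apply (f : A.V ≃+ A₀.V)
    (hf : ∀ (g : G) (a : A.V), f (A.ρ g a) = A₀.ρ g (f a)) (x : H1sm 𝓤 A) :
    scH1Equiv 𝓤 f hf x = scH1 𝓤 f.toAddMonoidHom hf x := rfl

end Generic

section Galois

variable {k k₀ : Type} [Field k] [Field k₀] {M : Rep.{0} k GQ} {M₀ : Rep.{0} k₀ GQ}

/-- Unramified classes go to unramified classes. -/
theorem sc_mem_unrOutside (S : Finset Nat.Primes) (f : M.V →+ M₀.V)
    (hf : ∀ (g : GQ) (a : M.V), f (M.ρ g a) = M₀.ρ g (f a)) {x : H1sm levelsAll M}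
    (hx : x ∈ unrOutside S M) : scH1 levelsAll f hf x ∈ unrOutside S M₀ := by
  obtain ⟨c, hc, rfl⟩ := hx
  exact ⟨scZ1 levelsAll f hf c, IsLC₁.comp (f := (c : GQ → M.V)) hc f, rfl⟩

/-- Localisation commutes with the transport. -/
theorem sc_resLoc (q : Nat.Primes) (f : M.V →+ M₀.V)
    (hf : ∀ (g : GQ) (a : M.V), f (M.ρ g a) = M₀.ρ g (f a)) (x : H1sm levelsAll M) :
    scH1 (locLevelsAll q) (A := locRep M q) (A₀ := locRep M₀ q) f
        (fun h a => hf (primeLocalToGlobal q h) a) (resLoc M q x)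
      = resLoc M₀ q (scH1 levelsAll f hf x) :=
  scH1_res levelsAll (primeLocalToGlobal q) f hf x

variable (f : M.V ≃+ M₀.V) (hf : ∀ (g : GQ) (a : M.V), f (M.ρ g a) = M₀.ρ g (f a))

/-- The transport of the global `H¹`. -/
noncomputable abbrev scGlob : H1sm levelsAll M ≃+ H1sm levelsAll M₀ :=
  scH1Equiv levelsAll f hf

/-- The transport of the local `H¹` at `q`. -/
noncomputable abbrev scLoc (q : Nat.Primes) : H1loc M q ≃+ H1loc M₀ q :=
  scH1Equiv (locLevelsAll q) (A := locRep M q) (A₀ := locRep M₀ q) f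
    (fun h a => hf (primeLocalToGlobal q h) a)

theorem scLoc_resLoc (q : Nat.Primes) (x : H1sm levelsAll M) :
    scLoc f hf q (resLoc M q x) = resLoc M₀ q (scGlob f hf x) :=
  sc_resLoc q f.toAddMonoidHom hf x

theorem scGlob_mem_unrOutside_iff (S : Finset Nat.Primes) (x : H1sm levelsAll M) :
    scGlob f hf x ∈ unrOutside S M₀ ↔ x ∈ unrOutside S M := by
  constructor
  · intro hx
    have := sc_mem_unrOutside S f.symm.toAddMonoidHom
      (fun g b => sc_symm_equivariant f hf g b) hx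
    have h2 : scH1 levelsAll f.symm.toAddMonoidHom
        (fun g b => sc_symm_equivariant f hf g b) (scGlob f hf x) = x :=
      (scGlob f hf).symm_apply_apply x
    rwa [h2] at this
  · exact fun hx => sc_mem_unrOutside S f.toAddMonoidHom hf hx

/-- The Selmer set of `M₀` for the transported local conditions is the image of the Selmer set
of `M`. -/
theorem sc_selSet (S S₀ : Finset Nat.Primes) (L : ∀ v : Nat.Primes, AddSubgroup (H1loc M v)) :
    selSet S M₀ S₀ (fun v => (L v).map (scLoc f hf v).toAddMonoidHom)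
      = scGlob f hf '' selSet S M S₀ L := by
  ext y
  constructor
  · rintro ⟨hy1, hy2⟩
    refine ⟨(scGlob f hf).symm y, ⟨?_, fun v hv => ?_⟩, (scGlob f hf).apply_symm_apply y⟩
    · rw [← scGlob_mem_unrOutside_iff f hf, AddEquiv.apply_symm_apply]
      exact hy1
    · obtain ⟨z, hz, hzy⟩ := hy2 v hv
      have h1 : scLoc f hf v (resLoc M v ((scGlob f hf).symm y)) = resLoc M₀ v y := by
        rw [scLoc_resLoc, AddEquiv.apply_symm_apply]
      have h2 : scLoc f hf v z = resLoc M₀ v y := hzy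
      have h3 : resLoc M v ((scGlob f hf).symm y) = z :=
        (scLoc f hf v).injective (h1.trans h2.symm)
      rw [h3]
      exact hz
  · rintro ⟨x, ⟨hx1, hx2⟩, rfl⟩
    refine ⟨(scGlob_mem_unrOutside_iff f hf S x).2 hx1, fun v hv => ?_⟩
    exact ⟨resLoc M v x, hx2 v hv, scLoc_resLoc f hf v x⟩

theorem sc_ncard_selSet (S S₀ : Finset Nat.Primes)
    (L : ∀ v : Nat.Primes, AddSubgroup (H1loc M v)) :
    (selSet S M₀ S₀ (fun v => (L v).map (scLoc f hf v).toAddMonoidHom)).ncard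
      = (selSet S M S₀ L).ncard := by
  rw [sc_selSet]
  exact Set.ncard_image_of_injective _ (scGlob f hf).injective

theorem sc_finite_selSet (S S₀ : Finset Nat.Primes)
    (L : ∀ v : Nat.Primes, AddSubgroup (H1loc M v))
    (h : (selSet S M₀ S₀ (fun v => (L v).map (scLoc f hf v).toAddMonoidHom)).Finite) :
    (selSet S M S₀ L).Finite := by
  rw [sc_selSet] at h
  exact h.of_finite_image (scGlob f hf).injective.injOn

/-- Cardinality of a transported local condition. -/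
theorem sc_card_map (q : Nat.Primes) (L : AddSubgroup (H1loc M q)) :
    Nat.card ((L.map (scLoc f hf q).toAddMonoidHom : AddSubgroup (H1loc M₀ q))) = Nat.card L :=
  (Nat.card_congr ((scLoc f hf q).addSubgroupMap L).toEquiv).symm

include f hf in
theorem sc_card_H1loc (q : Nat.Primes) : Nat.card (H1loc M₀ q) = Nat.card (H1loc M q) :=
  (Nat.card_congr (scLoc f hf q).toEquiv).symm

include f hf in
theorem sc_card_H0loc (q : Nat.Primes) : Nat.card (H0loc M₀ q) = Nat.card (H0loc M q) := by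
  symm
  refine Nat.card_congr ⟨fun m => ⟨f m.1, fun h => ?_⟩, fun m => ⟨f.symm m.1, fun h => ?_⟩,
    fun m => Subtype.ext (f.symm_apply_apply _), fun m => Subtype.ext (f.apply_symm_apply _)⟩
  · rw [← hf, m.2 h]
  · rw [← sc_symm_equivariant f hf, m.2 h]

include f hf in
theorem sc_card_H0arch : Nat.card (H0arch M₀) = Nat.card (H0arch M) := by
  symm
  refine Nat.card_congr ⟨fun m => ⟨f m.1, ?_⟩, fun m => ⟨f.symm m.1, ?_⟩,
    fun m => Subtype.ext (f.symm_apply_apply _), fun m => Subtype.ext (f.apply_symm_apply _)⟩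
  · show M₀.ρ complexConjugation (f m.1) = f m.1
    rw [← hf, show M.ρ complexConjugation m.1 = m.1 from m.2]
  · show M.ρ complexConjugation (f.symm m.1) = f.symm m.1
    rw [← sc_symm_equivariant f hf, show M₀.ρ complexConjugation m.1 = m.1 from m.2]

include f hf in
theorem sc_H0glob_eq_bot (h : H0glob M = ⊥) : H0glob M₀ = ⊥ := by
  rw [eq_bot_iff]
  intro m hm
  have h1 : f.symm m ∈ H0glob M := fun g => by
    rw [← sc_symm_equivariant f hf, hm g]
  rw [h, Submodule.mem_bot] at h1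
  rw [Submodule.mem_bot]
  have := congrArg f h1
  rwa [AddEquiv.apply_symm_apply, map_zero] at this

theorem sc_isSmooth {G : Type} [Group G] (𝓤 : Levels G) {A : Rep.{0} k G} {A₀ : Rep.{0} k₀ G}
    (f : A.V ≃+ A₀.V) (hf : ∀ (g : G) (a : A.V), f (A.ρ g a) = A₀.ρ g (f a))
    (h : IsSmooth 𝓤 A) : IsSmooth 𝓤 A₀ := by
  intro b
  obtain ⟨U, hU, hfix⟩ := h (f.symm b)
  refine ⟨U, hU, fun g hg => ?_⟩
  have := congrArg f (hfix g hg)
  rwa [hf, AddEquiv.apply_symm_apply] at this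

end Galois

end Fermat.Agent.S56
end MergeWrap_S56_W2_SC_Transport

section MergeWrap_S56_W2_SC_Trace -- from S56/W2/SC/Trace.lean

set_option autoImplicit false
set_option linter.style.haveILetI false

namespace Fermat.Agent.S56

open Fermat.Agent.F4 ExtCitation

section Res

variable (k₀ : Type) {k G : Type} [Field k₀] [Field k] [Algebra k₀ k] [Group G]

/-- Restriction of scalars of a representation from `k` to `k₀` (same carrier, same action). -/
noncomputable def scRes (M : Rep.{0} k G) : Rep.{0} k₀ G :=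
  letI : Module k₀ M.V := Module.compHom M.V (algebraMap k₀ k)
  Rep.of (X := M.V) (k := k₀)
    { toFun := fun g =>
        { toFun := fun m => M.ρ g m
          map_add' := fun a b => map_add _ a b
          map_smul' := fun a m => (M.ρ g).map_smul (algebraMap k₀ k a) m }
      map_one' := by
        ext m
        show M.ρ 1 m = m
        rw [map_one]
        rfl
      map_mul' := fun g h => by
        ext m
        show M.ρ (g * h) m = M.ρ g (M.ρ h m)
        rw [map_mul]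
        rfl }

/-- The identity, from `M` to its restriction of scalars. -/
noncomputable def scId (M : Rep.{0} k G) : M.V ≃+ (scRes k₀ M).V := AddEquiv.refl M.V

theorem scId_equivariant (M : Rep.{0} k G) (g : G) (a : M.V) :
    scId k₀ M (M.ρ g a) = (scRes k₀ M).ρ g (scId k₀ M a) := rfl

theorem scId_smul (M : Rep.{0} k G) (a : k₀) (m : M.V) :
    scId k₀ M (algebraMap k₀ k a • m) = a • scId k₀ M m := rfl

theorem scId_symm_smul (M : Rep.{0} k G) (a : k₀) (m : (scRes k₀ M).V) :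
    (scId k₀ M).symm (a • m) = algebraMap k₀ k a • (scId k₀ M).symm m := rfl

theorem scId_symm_ρ (M : Rep.{0} k G) (g : G) (m : (scRes k₀ M).V) :
    (scId k₀ M).symm ((scRes k₀ M).ρ g m) = M.ρ g ((scId k₀ M).symm m) := rfl

/-- The trace map `φ ↦ Tr_{k/k₀} ∘ φ` from the `k`-dual of `M` to the `k₀`-dual of `M₀`. -/
noncomputable def scTr (M : Rep.{0} k G) :
    Module.Dual k M.V →+ Module.Dual k₀ (scRes k₀ M).V where
  toFun φ :=
    { toFun := fun m => Algebra.trace k₀ k (φ ((scId k₀ M).symm m))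
      map_add' := fun a b => by rw [map_add, map_add, map_add]
      map_smul' := fun a m => by
        rw [scId_symm_smul, map_smul, smul_eq_mul, ← Algebra.smul_def, map_smul]
        rfl }
  map_zero' := by
    ext m
    show Algebra.trace k₀ k ((0 : Module.Dual k M.V) ((scId k₀ M).symm m)) = 0
    rw [LinearMap.zero_apply, map_zero]
  map_add' := fun φ ψ => by
    ext m
    show Algebra.trace k₀ k ((φ + ψ) ((scId k₀ M).symm m))
      = Algebra.trace k₀ k (φ ((scId k₀ M).symm m)) + Algebra.trace k₀ k (ψ ((scId k₀ M).symm m))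
    rw [LinearMap.add_apply, map_add]

theorem scTr_apply (M : Rep.{0} k G) (φ : Module.Dual k M.V) (m : (scRes k₀ M).V) :
    scTr k₀ M φ m = Algebra.trace k₀ k (φ ((scId k₀ M).symm m)) := rfl

/-- The trace map is equivariant for the twisted dual actions, `χ = algebraMap ∘ χ₀`. -/
theorem scTr_equivariant (M : Rep.{0} k G) (χ : G →* kˣ) (χ₀ : G →* k₀ˣ)
    (hχ : ∀ g, (χ g : k) = algebraMap k₀ k (χ₀ g : k₀)) (g : G) (φ : Module.Dual k M.V) :
    scTr k₀ M ((M.dualTwist χ).ρ g φ) = ((scRes k₀ M).dualTwist χ₀).ρ g (scTr k₀ M φ) := by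
  ext m
  rw [Rep.dualTwist_ρ_apply, Rep.dualTwist_ρ_apply, scTr_apply]
  show Algebra.trace k₀ k ((χ g : k) • φ (M.ρ g⁻¹ ((scId k₀ M).symm m)))
    = (χ₀ g : k₀) • Algebra.trace k₀ k (φ ((scId k₀ M).symm ((scRes k₀ M).ρ g⁻¹ m)))
  rw [hχ, smul_eq_mul, ← Algebra.smul_def, map_smul, scId_symm_ρ]

/-- The trace map is injective (the trace form is nondegenerate). -/
theorem scTr_injective [FiniteDimensional k₀ k] [Algebra.IsSeparable k₀ k] (M : Rep.{0} k G) :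
    Function.Injective (scTr k₀ M) := by
  rw [injective_iff_map_eq_zero]
  intro φ hφ
  ext m
  rw [LinearMap.zero_apply]
  refine (traceForm_nondegenerate k₀ k).1 (φ m) fun c => ?_
  rw [Algebra.traceForm_apply, mul_comm, ← smul_eq_mul, ← map_smul]
  have := congrArg (fun ψ : Module.Dual k₀ (scRes k₀ M).V => ψ (scId k₀ M (c • m))) hφ
  exact this

theorem sc_card_dual (K : Type) [Field K] (V : Type) [AddCommGroup V] [Module K V]
    [Module.Finite K V] : Nat.card (Module.Dual K V) = Nat.card V :=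
  (Nat.card_congr (Module.finBasis K V).toDualEquiv.toEquiv).symm

/-- The trace map is bijective when `M` is finite. -/
theorem scTr_bijective [Finite k] [Algebra.IsSeparable k₀ k] (M : Rep.{0} k G)
    [Module.Finite k M.V] : Function.Bijective (scTr k₀ M) := by
  haveI : Module.Finite k₀ k := Module.Finite.of_finite
  haveI : Finite M.V := Module.finite_of_finite k
  haveI : Finite (scRes k₀ M).V := (inferInstance : Finite M.V)
  haveI : Module.Finite k₀ (scRes k₀ M).V := Module.Finite.of_finite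
  haveI : Finite (Module.Dual k₀ (scRes k₀ M).V) :=
    Finite.of_equiv _ (Module.finBasis k₀ (scRes k₀ M).V).toDualEquiv.toEquiv
  refine (scTr_injective k₀ M).bijective_of_nat_card_le ?_
  rw [sc_card_dual k₀, sc_card_dual k]
  exact le_of_eq (Nat.card_congr (scId k₀ M).toEquiv).symm

/-- The trace isomorphism. -/
noncomputable def scTrEquiv [Finite k] [Algebra.IsSeparable k₀ k] (M : Rep.{0} k G)
    [Module.Finite k M.V] (χ : G →* kˣ) (χ₀ : G →* k₀ˣ) :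
    (M.dualTwist χ).V ≃+ ((scRes k₀ M).dualTwist χ₀).V :=
  AddEquiv.ofBijective (scTr k₀ M) (scTr_bijective k₀ M)

theorem scTrEquiv_equivariant [Finite k] [Algebra.IsSeparable k₀ k] (M : Rep.{0} k G)
    [Module.Finite k M.V] (χ : G →* kˣ) (χ₀ : G →* k₀ˣ)
    (hχ : ∀ g, (χ g : k) = algebraMap k₀ k (χ₀ g : k₀)) (g : G) (φ : (M.dualTwist χ).V) :
    scTrEquiv k₀ M χ χ₀ ((M.dualTwist χ).ρ g φ)
      = ((scRes k₀ M).dualTwist χ₀).ρ g (scTrEquiv k₀ M χ χ₀ φ) :=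
  scTr_equivariant k₀ M χ χ₀ hχ g φ

end Res

section Cyclo

variable (p : ℕ) [Fact p.Prime]

/-- `σ` acts on `μ_p` through the exponent `cycloExp p σ`. -/
theorem sc_apply_root (σ : GQ) (μ : AlgebraicClosure ℚ) (hμ : μ ^ p = 1) :
    σ μ = μ ^ cycloExp p σ := by
  have : NeZero p := ⟨(Fact.out : p.Prime).ne_zero⟩
  have h := modularCyclotomicCharacter.spec (AlgebraicClosure ℚ) (card_rootsOfUnity_eq_self p)
    (σ : AlgebraicClosure ℚ ≃+* AlgebraicClosure ℚ)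
    (t := (rootsOfUnity.mkOfPowEq μ hμ : (AlgebraicClosure ℚ)ˣ)) (rootsOfUnity.mkOfPowEq μ hμ).2
  simpa [cycloExp] using h

/-- The Prelude's `cycloChar p` is the mod `p` cyclotomic character. -/
theorem sc_isCycloChar_cycloChar : IsCycloChar p (cycloChar p) := by
  intro σ a ha
  have : NeZero p := ⟨(Fact.out : p.Prime).ne_zero⟩
  symm
  refine modularCyclotomicCharacter.unique (AlgebraicClosure ℚ) (card_rootsOfUnity_eq_self p)
    (σ : AlgebraicClosure ℚ ≃+* AlgebraicClosure ℚ) (c := (a : ZMod p)) fun t ht => ?_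
  have ht' : (t : AlgebraicClosure ℚ) ^ p = 1 := by
    have := (mem_rootsOfUnity p t).mp ht
    rw [← Units.val_pow_eq_pow_val, this, Units.val_one]
  rw [ZMod.val_natCast, ← pow_eq_pow_mod a ht']
  exact ha t ht'

/-- A mod `p` cyclotomic character with values in `k` is `algebraMap ∘ cycloChar p`. -/
theorem sc_coe_chi {k : Type} [Field k] [Algebra (ZMod p) k] {χ : GQ →* kˣ}
    (hχ : IsCycloChar p χ) (σ : GQ) :
    (χ σ : k) = algebraMap (ZMod p) k (cycloChar p σ : ZMod p) := by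
  rw [hχ σ (cycloExp p σ) (sc_apply_root p σ), coe_cycloChar, map_natCast]

end Cyclo

end Fermat.Agent.S56
end MergeWrap_S56_W2_SC_Trace

section MergeWrap_S56_W2_Scalars -- from S56/W2/Scalars.lean

set_option autoImplicit false
set_option linter.style.haveILetI false

namespace Fermat.Agent.S56

open Fermat.Agent.F4 ExtCitation

/-- **Leaf SC**: the Greenberg–Wiles inequality over `k` from the one over `𝔽_p`. -/
theorem gwStatement_of_zmod {k : Type} [Field k] [Finite k] (p : ℕ) [Fact p.Prime]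
    (hpk : (p : k) = 0) (h : GWStatement (ZMod p) p) : GWStatement k p := by
  intro M χ S₀ Q L hχ hfin hsm hp hdisj hH0 hLfin hH1fin hdual
  haveI : CharP k p := (CharP.charP_iff_prime_eq_zero (Fact.out : p.Prime)).2 hpk
  letI : Algebra (ZMod p) k := ZMod.algebra k p
  haveI : Module.Finite k M.V := hfin
  haveI : Finite M.V := Module.finite_of_finite k
  haveI : Finite (scRes (ZMod p) M).V := (inferInstance : Finite M.V)
  -- the identity `M → M₀`
  have hf : ∀ (g : GQ) (a : M.V),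
      scId (ZMod p) M (M.ρ g a) = (scRes (ZMod p) M).ρ g (scId (ZMod p) M a) :=
    scId_equivariant (ZMod p) M
  -- the trace isomorphism of the duals
  have hτ : ∀ (g : GQ) (φ : (M.dualTwist χ).V),
      scTrEquiv (ZMod p) M χ (cycloChar p) ((M.dualTwist χ).ρ g φ)
        = ((scRes (ZMod p) M).dualTwist (cycloChar p)).ρ g
            (scTrEquiv (ZMod p) M χ (cycloChar p) φ) :=
    scTrEquiv_equivariant (ZMod p) M χ (cycloChar p) (sc_coe_chi p hχ)
  obtain ⟨hfinSel, hineq⟩ := h (scRes (ZMod p) M) (cycloChar p) S₀ Q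
    (fun v => (L v).map (scLoc (scId (ZMod p) M) hf v).toAddMonoidHom)
    (sc_isCycloChar_cycloChar p) Module.Finite.of_finite
    (sc_isSmooth _ (scId (ZMod p) M) hf hsm) hp hdisj
    (sc_H0glob_eq_bot (scId (ZMod p) M) hf hH0)
    (fun v hv => by
      haveI := hLfin v hv
      exact Finite.of_equiv _ ((scLoc (scId (ZMod p) M) hf v).addSubgroupMap (L v)).toEquiv)
    (fun q hq => by
      haveI := hH1fin q hq
      exact Finite.of_equiv _ (scLoc (scId (ZMod p) M) hf q).toEquiv)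
    (fun n hn hres => by
      have h1 : (scGlob (scTrEquiv (ZMod p) M χ (cycloChar p)) hτ).symm n
          ∈ unrOutside (S₀ ∪ Q) (M.dualTwist χ) := by
        rw [← scGlob_mem_unrOutside_iff (scTrEquiv (ZMod p) M χ (cycloChar p)) hτ,
          AddEquiv.apply_symm_apply]
        exact hn
      have h2 := hdual _ h1 (fun q hq => by
        apply (scLoc (scTrEquiv (ZMod p) M χ (cycloChar p)) hτ q).injective
        rw [scLoc_resLoc, AddEquiv.apply_symm_apply, map_zero]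
        exact hres q hq)
      have h3 := congrArg (scGlob (scTrEquiv (ZMod p) M χ (cycloChar p)) hτ) h2
      rwa [AddEquiv.apply_symm_apply, map_zero] at h3)
  refine ⟨sc_finite_selSet (scId (ZMod p) M) hf _ _ L hfinSel, ?_⟩
  rw [sc_ncard_selSet (scId (ZMod p) M) hf, sc_card_H0arch (scId (ZMod p) M) hf] at hineq
  simp only [sc_card_H0loc (scId (ZMod p) M) hf, sc_card_map (scId (ZMod p) M) hf,
    sc_card_H1loc (scId (ZMod p) M) hf] at hineq
  exact hineq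

end Fermat.Agent.S56
end MergeWrap_S56_W2_Scalars

section MergeWrap_S56_W2_R_Pair -- from S56/W2/R/Pair.lean

set_option autoImplicit false

open CategoryTheory Module groupCohomology

namespace Fermat.Agent.S56

open Fermat.Agent.F4

variable {k G : Type} [Field k] [Group G]

section Pair

variable (𝓤 : Levels G) {M N A : Rep.{0} k G} (θ : M ≃ₗ[k] (N →ₗ[k] A))
  (hθ : ∀ (g : G) (m : M) (n : N), θ (M.ρ g m) n = A.ρ g (θ m (N.ρ g⁻¹ n)))

/-- Two elements of the degree-1 term of `Hom(N, A[0])` are equal. -/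
lemma w2_deg0_K1_elt_eq (b b' : (homCx N (Cx.deg0 A)).K1) : b = b' := by
  refine LinearMap.ext fun n => ?_
  exact Subsingleton.elim (α := PUnit.{1}) _ _

include hθ in
lemma w2_toHom1_mem_ZZ1_iff (a : G → M) :
    ptToHom1 (A := A) θ a ∈ ZZ1 𝓤 (homCx N (Cx.deg0 A)) ↔ a ∈ Z1 𝓤 M := by
  rw [mem_ZZ1_iff, mem_Z1_iff]
  constructor
  · rintro ⟨h1, -, h3⟩
    refine ⟨fun g h => ?_, ?_⟩
    · have h4 := congrFun h1 (g, h)
      rw [pt_δ1_θ θ hθ] at h4
      have h5 : δ1 M a (g, h) = 0 :=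
        ptθ_injective θ (h4.trans (map_zero (ptθ θ)).symm)
      rw [δ1_apply] at h5
      have h6 : M.ρ g (a h) + a g - a (g * h) = 0 := by
        rw [← h5]; abel
      exact (sub_eq_zero.1 h6).symm
    · have := h3.comp (ptθs θ)
      have h4 : (ptθs θ ∘ (ptToHom1 (A := A) θ a).1) = a := by
        funext g
        exact ptθs_ptθ θ _
      rw [h4] at this
      exact this
  · rintro ⟨h1, h2⟩
    refine ⟨?_, pt_deg0_K1_eq _ _, h2.comp (ptθ θ)⟩
    funext q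
    rw [pt_δ1_θ θ hθ]
    have : δ1 M a q = 0 := by
      rw [δ1_apply, h1 q.1 q.2]; abel
    rw [this]
    exact map_zero (ptθ θ)

include hθ in
lemma w2_toHom1_mem_BB1 {a : G → M} (ha : a ∈ B1 M) :
    ptToHom1 (A := A) θ a ∈ BB1 (homCx N (Cx.deg0 A)) := by
  obtain ⟨m, rfl⟩ := (mem_B1_iff M a).1 ha
  refine (mem_BB1_iff _ _).2 ⟨ptθ θ m, ?_⟩
  refine Prod.ext ?_ ?_
  · funext g
    show (homCx N (Cx.deg0 A)).K0.ρ g (ptθ θ m) - ptθ θ m = ptθ θ (M.ρ g m - m)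
    rw [map_sub, ptθ_equivariant θ hθ]
  · refine LinearMap.ext fun n => ?_
    exact Subsingleton.elim (α := PUnit.{1}) _ _

/-- `a ↦ (θ ∘ a, 0)` on smooth 1-cocycles. -/
def w2ToHomZ1 : ↥(Z1 𝓤 M) →ₗ[k] ↥(ZZ1 𝓤 (homCx N (Cx.deg0 A))) where
  toFun a := ⟨ptToHom1 θ a.1, (w2_toHom1_mem_ZZ1_iff 𝓤 θ hθ a.1).2 a.2⟩
  map_add' a a' := by
    refine Subtype.ext (Prod.ext ?_ (w2_deg0_K1_elt_eq _ _))
    funext g
    exact map_add (ptθ θ) _ _
  map_smul' c a := by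
    refine Subtype.ext (Prod.ext ?_ ?_)
    · funext g
      exact map_smul (ptθ θ) _ _
    · refine LinearMap.ext fun n => ?_
      exact Subsingleton.elim (α := PUnit.{1}) _ _

@[simp] lemma w2ToHomZ1_coe (a : ↥(Z1 𝓤 M)) :
    ((w2ToHomZ1 𝓤 θ hθ a : ↥(ZZ1 𝓤 (homCx N (Cx.deg0 A)))) : T1 (homCx N (Cx.deg0 A)))
      = ptToHom1 θ a.1 := rfl

include hθ in
/-- Every smooth 1-cocycle of `Hom(N, A[0])` is `(θ ∘ a, 0)` for a smooth 1-cocycle `a` of `M`. -/
lemma w2ToHomZ1_surjective : Function.Surjective (w2ToHomZ1 (A := A) 𝓤 θ hθ) := by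
  intro z
  have hz : ptToHom1 (A := A) θ (ptOfHom1 θ z.1) = z.1 :=
    Prod.ext (ptToHom1_ptOfHom1_fst θ z.1) (by
      refine LinearMap.ext fun n => ?_
      exact Subsingleton.elim (α := PUnit.{1}) _ _)
  have ha : ptOfHom1 θ z.1 ∈ Z1 𝓤 M := by
    rw [← w2_toHom1_mem_ZZ1_iff 𝓤 θ hθ, hz]
    exact z.2
  exact ⟨⟨ptOfHom1 θ z.1, ha⟩, Subtype.ext hz⟩

variable (inv : HH2 𝓤 (Cx.deg0 A) →ₗ[k] k) (hN : IsSmooth 𝓤 N) (hfin : Module.Finite k N)

/-- The cup product pairing `H¹(M) → H¹(N)^*`, `a ↦ (n ↦ inv (θ(a) ∪ n))`. -/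
def w2Pair : H1sm 𝓤 M →ₗ[k] Dual k (H1sm 𝓤 N) :=
  Submodule.liftQ _ (ptA1Z 𝓤 (Cx.deg0 A) inv N hN hfin ∘ₗ w2ToHomZ1 𝓤 θ hθ) (by
    intro a ha
    rw [LinearMap.mem_ker, LinearMap.comp_apply]
    have h1 : (w2ToHomZ1 (A := A) 𝓤 θ hθ a : T1 (homCx N (Cx.deg0 A)))
        ∈ BB1 (homCx N (Cx.deg0 A)) := w2_toHom1_mem_BB1 θ hθ ha
    obtain ⟨x, hx⟩ := (mem_BB1_iff (homCx N (Cx.deg0 A)) _).1 h1
    refine LinearMap.ext fun c => ?_
    obtain ⟨y, rfl⟩ := H1smπ_surjective 𝓤 N c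
    rw [ptA1Z_mk, LinearMap.zero_apply]
    refine inv_eq_zero_of_mem_BB2 inv ?_
    show cup1 N (Cx.deg0 A) (w2ToHomZ1 (A := A) 𝓤 θ hθ a).1 y.1 ∈ BB2 𝓤 (Cx.deg0 A)
    rw [← hx]
    exact cup1_D0_mem_BB2 𝓤 (Cx.deg0 A) N x y.2)

lemma w2Pair_mk (a : ↥(Z1 𝓤 M)) (n : ↥(Z1 𝓤 N)) :
    w2Pair 𝓤 θ hθ inv hN hfin (H1smπ 𝓤 M a) (H1smπ 𝓤 N n)
      = inv (HH2π 𝓤 (Cx.deg0 A)
          (cupZ1 𝓤 (Cx.deg0 A) N hN hfin (w2ToHomZ1 𝓤 θ hθ a) n)) := rfl

/-- Right-nondegeneracy of the pairing, from the surjectivity of `α¹_N`. -/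
theorem w2Pair_right_nondeg (h : A1Surj 𝓤 (Cx.deg0 A) N inv hN hfin) (n : H1sm 𝓤 N)
    (hn : ∀ a : H1sm 𝓤 M, w2Pair 𝓤 θ hθ inv hN hfin a n = 0) : n = 0 := by
  refine (Module.forall_dual_apply_eq_zero_iff k n).1 fun φ => ?_
  obtain ⟨z, hz⟩ := h φ
  obtain ⟨a, rfl⟩ := w2ToHomZ1_surjective 𝓤 θ hθ z
  obtain ⟨y, rfl⟩ := H1smπ_surjective 𝓤 N n
  rw [← hz y, ← w2Pair_mk]
  exact hn _

end Pair

end Fermat.Agent.S56
end MergeWrap_S56_W2_R_Pair

section MergeWrap_S56_W2_R_Infl -- from S56/W2/R/Infl.lean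

set_option autoImplicit false

open CategoryTheory Module groupCohomology

namespace Fermat.Agent.S56

open Fermat.Agent.F4 ExtCitation

section LevelChange

variable {k G : Type} [Field k] [Group G] {𝓤 𝓥 : Levels G} (h : 𝓤.sets ⊆ 𝓥.sets)
  (A : Rep.{0} k G)

include h in
lemma w2_Z1_mono_levels : Z1 𝓤 A ≤ Z1 𝓥 A := fun _ hz => ⟨hz.1, IsLC₁.mono_levels h hz.2⟩

/-- Change of levels on smooth `H¹` (inflation from `𝓤` to a finer family `𝓥`). -/
def w2H1lvl : H1sm 𝓤 A →ₗ[k] H1sm 𝓥 A :=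
  Submodule.mapQ _ _ (Submodule.inclusion (w2_Z1_mono_levels h A)) fun _ hz => hz

@[simp] lemma w2H1lvl_mk (a : ↥(Z1 𝓤 A)) :
    w2H1lvl h A (H1smπ 𝓤 A a) = H1smπ 𝓥 A ⟨a.1, w2_Z1_mono_levels h A a.2⟩ := rfl

theorem w2H1lvl_injective : Function.Injective (w2H1lvl h A) := by
  rw [← LinearMap.ker_eq_bot, LinearMap.ker_eq_bot']
  intro x hx
  obtain ⟨a, rfl⟩ := H1smπ_surjective 𝓤 A x
  rw [w2H1lvl_mk, H1smπ_eq_zero_iff] at hx
  rw [H1smπ_eq_zero_iff]
  exact hx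

end LevelChange

section Global

variable {k : Type} [Field k] (S : Finset Nat.Primes) (M : Rep.{0} k GQ)

/-- Inflation `H¹(G_S, M) → H¹(G_ℚ, M)`. -/
noncomputable def w2Infl : H1sm (levelsS S) M →ₗ[k] H1sm levelsAll M :=
  w2H1lvl (levelsS_sets_subset S) M

lemma w2Infl_mk (a : ↥(Z1 (levelsS S) M)) :
    w2Infl S M (H1smπ (levelsS S) M a)
      = H1smπ levelsAll M ⟨a.1, w2_Z1_mono_levels (levelsS_sets_subset S) M a.2⟩ := rfl

theorem w2Infl_injective : Function.Injective (w2Infl S M) :=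
  w2H1lvl_injective _ _

theorem w2_range_infl : LinearMap.range (w2Infl S M) = unrOutside S M := by
  apply le_antisymm
  · rintro _ ⟨x, rfl⟩
    obtain ⟨a, rfl⟩ := H1smπ_surjective (levelsS S) M x
    exact ⟨⟨a.1, w2_Z1_mono_levels (levelsS_sets_subset S) M a.2⟩, a.2.2, rfl⟩
  · rintro _ ⟨c, hc, rfl⟩
    exact ⟨H1smπ (levelsS S) M ⟨c.1, c.2.1, hc⟩, rfl⟩

/-- The localisation `H¹(G_S, M) → H¹(G_{ℚ_v}, M)` (full local group). -/
noncomputable def w2Loc (v : Nat.Primes) : H1sm (levelsS S) M →ₗ[k] H1loc M v :=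
  resLoc M v ∘ₗ w2Infl S M

lemma w2Loc_apply (v : Nat.Primes) (x : H1sm (levelsS S) M) :
    w2Loc S M v x = resLoc M v (w2Infl S M x) := rfl

end Global

section Sha

variable {p : ℕ} [Fact p.Prime] (S : Finset Nat.Primes) (M : Rep.{0} (ZMod p) GQ)

lemma w2Loc_eq_lvl (v : Nat.Primes) (x : H1sm (levelsS S) M) :
    w2Loc S M v x = w2H1lvl (locLevelsS_subset S v) _ (locSm1 S M v x) := by
  obtain ⟨a, rfl⟩ := H1smπ_surjective (levelsS S) M x
  rfl

theorem w2Loc_eq_zero_iff (v : Nat.Primes) (x : H1sm (levelsS S) M) :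
    w2Loc S M v x = 0 ↔ locSm1 S M v x = 0 := by
  rw [w2Loc_eq_lvl]
  exact (map_eq_zero_iff _ (w2H1lvl_injective (locLevelsS_subset S v) _))

theorem w2_mem_sha1sm_iff (x : H1sm (levelsS S) M) :
    x ∈ sha1sm S M ↔ ∀ v ∈ S, w2Loc S M v x = 0 := by
  rw [sha1sm, LinearMap.mem_ker]
  constructor
  · intro hx v hv
    rw [w2Loc_eq_zero_iff]
    exact congrFun hx ⟨v, hv⟩
  · intro hx
    funext q
    exact (w2Loc_eq_zero_iff S M q.1 x).1 (hx q.1 q.2)

end Sha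

end Fermat.Agent.S56
end MergeWrap_S56_W2_R_Infl

section MergeWrap_S56_W2_R_RecipLaw -- from S56/W2/R/RecipLaw.lean

set_option autoImplicit false

open CategoryTheory Module groupCohomology

namespace Fermat.Agent.S56

open Fermat.Agent.F4 ExtCitation

variable {p : ℕ} [Fact p.Prime] {S : Finset Nat.Primes} (D : GlobalDatum p S)
  {M N : Rep.{0} (ZMod p) GQ} (θ : M ≃ₗ[ZMod p] (N →ₗ[ZMod p] Fp1 p))
  (hθ : ∀ (g : GQ) (m : M) (n : N), θ (M.ρ g m) n = (Fp1 p).ρ g (θ m (N.ρ g⁻¹ n)))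
  (hN : IsSmooth (levelsS S) N) (hfin : Module.Finite (ZMod p) N)

include hN in
/-- `N` restricted to the local group at `q` is smooth for all local levels. -/
lemma w2_smooth_locAll (q : Nat.Primes) :
    IsSmooth (locLevelsAll q) (Rep.res (primeLocalToGlobal q) N) :=
  pta_isSmooth_res (primeLocalToGlobal q) levelsAll
    (IsSmooth.pta_mono (levelsS_sets_subset S) hN)

/-- The local pairing at `q`: `H¹(G_{ℚ_q}, M) → H¹(G_{ℚ_q}, N)^*`. -/
noncomputable def w2PairLoc (q : ↥S) : H1loc M q.1 →ₗ[ZMod p] Dual (ZMod p) (H1loc N q.1) :=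
  w2Pair (locLevelsAll q.1) (ptaθloc q.1 θ) (ptaθloc_equivariant θ hθ q.1) (D.loc q).invAll
    (w2_smooth_locAll hN q.1) (pt_finite_res (primeLocalToGlobal q.1) hfin)

/-- The local pairings are right-nondegenerate. -/
theorem w2PairLoc_right_nondeg (q : ↥S) (n : H1loc N q.1)
    (hn : ∀ a : H1loc M q.1, w2PairLoc D θ hθ hN hfin q a n = 0) : n = 0 := by
  have hA : A1Surj (locLevelsAll q.1) (locMu p q.1) (Rep.res (primeLocalToGlobal q.1) N)
      (D.loc q).invAll (w2_smooth_locAll hN q.1)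
      (pt_finite_res (primeLocalToGlobal q.1) hfin) :=
    (ddt_primeTo (locLevelsAll q.1) (locMu p q.1) (pta_smooth_locMu q.1) (D.loc q).invAll
      (D.loc q).a2injAll (D.loc q).a1surjAll (Rep.res (primeLocalToGlobal q.1) N)
      (w2_smooth_locAll hN q.1) (pt_finite_res (primeLocalToGlobal q.1) hfin)).2
  exact w2Pair_right_nondeg (locLevelsAll q.1) (ptaθloc q.1 θ) (ptaθloc_equivariant θ hθ q.1)
    (D.loc q).invAll (w2_smooth_locAll hN q.1) (pt_finite_res (primeLocalToGlobal q.1) hfin)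
    hA n hn

/-- The local cocycle. -/
noncomputable def w2LocZ (q : Nat.Primes) (M : Rep.{0} (ZMod p) GQ) (a : ↥(Z1 (levelsS S) M)) :
    ↥(Z1 (locLevelsAll q) (Rep.res (primeLocalToGlobal q) M)) :=
  Z1res levelsAll M (primeLocalToGlobal q) ⟨a.1, w2_Z1_mono_levels (levelsS_sets_subset S) M a.2⟩

lemma w2Loc_mk (q : Nat.Primes) (M : Rep.{0} (ZMod p) GQ) (a : ↥(Z1 (levelsS S) M)) :
    w2Loc S M q (H1smπ (levelsS S) M a) = H1smπ _ _ (w2LocZ q M a) := rfl

lemma w2PairLoc_mk (q : ↥S) (a : ↥(Z1 (levelsS S) M)) (n : ↥(Z1 (levelsS S) N)) :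
    w2PairLoc D θ hθ hN hfin q (w2Loc S M q.1 (H1smπ _ _ a)) (w2Loc S N q.1 (H1smπ _ _ n))
      = (D.loc q).invAll (HH2π (locLevelsAll q.1) (locMu p q.1)
          (cupZ1 (locLevelsAll q.1) (locMu p q.1) (Rep.res (primeLocalToGlobal q.1) N)
            (w2_smooth_locAll hN q.1) (pt_finite_res (primeLocalToGlobal q.1) hfin)
            (w2ToHomZ1 (locLevelsAll q.1) (ptaθloc q.1 θ) (ptaθloc_equivariant θ hθ q.1)
              (w2LocZ q.1 M a)) (w2LocZ q.1 N n))) := rfl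


/-- **Global reciprocity** for the local cup product pairings. -/
theorem w2_recip (a : H1sm (levelsS S) M) (n : H1sm (levelsS S) N) :
    ∑ q : ↥S, w2PairLoc D θ hθ hN hfin q (w2Loc S M q.1 a) (w2Loc S N q.1 n) = 0 := by
  obtain ⟨a, rfl⟩ := H1smπ_surjective (levelsS S) M a
  obtain ⟨n, rfl⟩ := H1smπ_surjective (levelsS S) N n
  -- the global cup product, a 2-cocycle of `μ_p`
  obtain ⟨z₀, hz₀⟩ : ∃ z₀ : ↥(ZZ2 (levelsS S) (Cx.deg0 (Fp1 p))), z₀ =
    cupZ1 (levelsS S) (Cx.deg0 (Fp1 p)) N hN hfin (w2ToHomZ1 (levelsS S) θ hθ a) n := ⟨_, rfl⟩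
  have hrec := D.recip (D.f.mapZZ2 _ z₀)
  -- the left hand side vanishes: `g ∘ f = 0`
  have hgf0 : ∀ x, D.g.f0 (D.f.f0 x) = 0 := fun x => (D.exact.exact0 _).2 ⟨x, rfl⟩
  have hgf1 : ∀ x, D.g.f1 (D.f.f1 x) = 0 := fun x => (D.exact.exact1 _).2 ⟨x, rfl⟩
  have hL : D.g.mapZZ2 (levelsS S) (D.f.mapZZ2 (levelsS S) z₀) = 0 := by
    refine Subtype.ext (Prod.ext ?_ ?_)
    · funext x
      exact hgf0 _
    · funext x
      exact hgf1 _
  rw [hL, map_zero, map_zero] at hrec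
  rw [hrec]
  refine Finset.sum_congr rfl fun q _ => ?_
  rw [w2PairLoc_mk]
  -- the local term
  obtain ⟨zq, hzq⟩ : ∃ zq : ↥(ZZ2 (locLevelsS S q.1) (locMu p q.1)), zq =
      cupZ1 (locLevelsS S q.1) (locMu p q.1) (Rep.res (primeLocalToGlobal q.1) N)
        (pt_isSmooth_res (primeLocalToGlobal q.1) (levelsS S) hN)
        (pt_finite_res (primeLocalToGlobal q.1) hfin)
        (w2ToHomZ1 (locLevelsS S q.1) (ptaθloc q.1 θ) (ptaθloc_equivariant θ hθ q.1)
          (Z1res (levelsS S) M (primeLocalToGlobal q.1) a))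
        (Z1res (levelsS S) N (primeLocalToGlobal q.1) n) := ⟨_, rfl⟩
  have hz' : zq.1 ∈ ZZ2 (locLevelsAll q.1) (locMu p q.1) :=
    pta_ZZ2_mono (locLevelsS_subset S q.1) _ zq.2
  have h1 := (D.loc q).inv_ε zq.1 zq.2 hz'
  have h2 : (D.ev q).mapZZ2 (locLevelsS S q.1)
      ⟨resT2 (primeLocalToGlobal q.1) D.KJ (D.f.mapZZ2 (levelsS S) z₀).1,
        resT2_mem_ZZ2 _ _ D.KJ (D.f.mapZZ2 (levelsS S) z₀).2⟩
      = (D.loc q).ε.mapZZ2 (locLevelsS S q.1) zq := by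
    subst hzq hz₀
    refine Subtype.ext (Prod.ext ?_ ?_)
    · funext x
      exact D.ev_f q _
    · funext x
      have e1 : ∀ y : (Cx.deg0 (Fp1 p)).K1, D.f.f1 y = 0 := fun y => by
        rw [show y = 0 from Subsingleton.elim (α := PUnit.{1}) _ _, map_zero]
      have e2 : ∀ y : (locMu p q.1).K1, (D.loc q).ε.f1 y = 0 := fun y => by
        rw [show y = 0 from Subsingleton.elim (α := PUnit.{1}) _ _, map_zero]
      exact (congrArg (D.ev q).f1 (e1 _)).trans ((map_zero (D.ev q).f1).trans (e2 _).symm)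
  rw [h2, h1]
  subst hzq
  rfl

end Fermat.Agent.S56
end MergeWrap_S56_W2_R_RecipLaw

section MergeWrap_S56_W2_R_Count -- from S56/W2/R/Count.lean

set_option autoImplicit false

open Module

namespace Fermat.Agent.S56

section Count

variable {p : ℕ} [Fact p.Prime] {ι : Type}
  {H H' : Type} [AddCommGroup H] [Module (ZMod p) H] [AddCommGroup H'] [Module (ZMod p) H']
  {P P' : ι → Type} [∀ i, AddCommGroup (P i)] [∀ i, Module (ZMod p) (P i)]
  [∀ i, AddCommGroup (P' i)] [∀ i, Module (ZMod p) (P' i)]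
  (r : ∀ i, H →ₗ[ZMod p] P i) (r' : ∀ i, H' →ₗ[ZMod p] P' i)
  (B : ∀ i, P i →ₗ[ZMod p] Dual (ZMod p) (P' i))
  (𝓛 : ∀ i, Submodule (ZMod p) (P i))

/-- The Selmer group of the local conditions `𝓛`. -/
def w2Sel : Submodule (ZMod p) H := ⨅ i, (𝓛 i).comap (r i)

/-- The classes which are locally trivial everywhere. -/
def w2Sha : Submodule (ZMod p) H := ⨅ i, LinearMap.ker (r i)

lemma mem_w2Sel (a : H) : a ∈ w2Sel r 𝓛 ↔ ∀ i, r i a ∈ 𝓛 i := by
  simp [w2Sel, Submodule.mem_iInf]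

lemma mem_w2Sha (a : H) : a ∈ w2Sha r ↔ ∀ i, r i a = 0 := by
  simp [w2Sha, Submodule.mem_iInf]

lemma w2Sha_le_w2Sel : w2Sha r ≤ w2Sel r 𝓛 := by
  intro a ha
  rw [mem_w2Sha] at ha
  rw [mem_w2Sel]
  intro i
  rw [ha i]
  exact (𝓛 i).zero_mem

/-- The restriction `Sel → ∏ 𝓛 i`. -/
def w2Rho : ↥(w2Sel r 𝓛) →ₗ[ZMod p] ((i : ι) → ↥(𝓛 i)) :=
  LinearMap.pi fun i =>
    ((r i).comp (w2Sel r 𝓛).subtype).codRestrict (𝓛 i) fun a => (mem_w2Sel r 𝓛 a.1).1 a.2 i

@[simp] lemma w2Rho_apply (a : ↥(w2Sel r 𝓛)) (i : ι) : ((w2Rho r 𝓛 a i : ↥(𝓛 i)) : P i) = r i a.1 :=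
  rfl

variable [Fintype ι]

/-- The pairing of a global class of `N` with the local conditions. -/
def w2Phi : H' →ₗ[ZMod p] Dual (ZMod p) ((i : ι) → ↥(𝓛 i)) :=
  ∑ i, (((𝓛 i).subtype ∘ₗ LinearMap.proj i).dualMap ∘ₗ (B i).flip ∘ₗ (r' i))

lemma w2Phi_apply (n : H') (l : (i : ι) → ↥(𝓛 i)) :
    w2Phi r' B 𝓛 n l = ∑ i, B i (l i : P i) (r' i n) := by
  simp [w2Phi, LinearMap.sum_apply]

variable {r r' B 𝓛}

theorem w2Phi_injective
    (hinj : ∀ n : H', (∀ i, ∀ l ∈ 𝓛 i, B i l (r' i n) = 0) → n = 0) :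
    Function.Injective (w2Phi r' B 𝓛) := by
  classical
  rw [← LinearMap.ker_eq_bot, LinearMap.ker_eq_bot']
  intro n hn
  refine hinj n fun i l hl => ?_
  have h1 := congrArg (fun φ => φ (Pi.single i (⟨l, hl⟩ : ↥(𝓛 i)))) hn
  simp only [LinearMap.zero_apply] at h1
  rw [w2Phi_apply] at h1
  rw [Finset.sum_eq_single i] at h1
  · simpa using h1
  · intro j _ hji
    simp [Pi.single_eq_of_ne hji]
  · intro hi
    exact absurd (Finset.mem_univ i) hi

theorem w2Phi_range_le (hrec : ∀ (a : H) (n : H'), ∑ i, B i (r i a) (r' i n) = 0) :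
    LinearMap.range (w2Phi r' B 𝓛) ≤ (LinearMap.range (w2Rho r 𝓛)).dualAnnihilator := by
  rintro _ ⟨n, rfl⟩
  rw [Submodule.mem_dualAnnihilator]
  rintro _ ⟨a, rfl⟩
  rw [w2Phi_apply]
  simpa using hrec a.1 n

omit [Fintype ι] in
lemma w2_ker_rho : LinearMap.ker (w2Rho r 𝓛) = (w2Sha r).comap (w2Sel r 𝓛).subtype := by
  ext a
  rw [LinearMap.mem_ker, Submodule.mem_comap, mem_w2Sha]
  constructor
  · intro h i
    have := congrFun h i
    exact congrArg Subtype.val this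
  · intro h
    funext i
    exact Subtype.ext (h i)

variable [Finite H] [Finite H'] [∀ i, Finite (𝓛 i)]

/-- **The counting lemma.** -/
theorem w2_count (hrec : ∀ (a : H) (n : H'), ∑ i, B i (r i a) (r' i n) = 0)
    (hinj : ∀ n : H', (∀ i, ∀ l ∈ 𝓛 i, B i l (r' i n) = 0) → n = 0) :
    Nat.card ↥(w2Sel r 𝓛) * Nat.card H' ≤ Nat.card ↥(w2Sha r) * ∏ i, Nat.card ↥(𝓛 i) := by
  classical
  have hfH : Module.Finite (ZMod p) H := Module.Finite.of_finite
  have hfH' : Module.Finite (ZMod p) H' := Module.Finite.of_finite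
  have hfL : ∀ i, Module.Finite (ZMod p) ↥(𝓛 i) := fun i => Module.Finite.of_finite
  have hfV : Module.Finite (ZMod p) ((i : ι) → ↥(𝓛 i)) := inferInstance
  -- dim H' ≤ dim V - dim range ρ
  have h1 : finrank (ZMod p) H' ≤
      finrank (ZMod p) ↥(LinearMap.range (w2Rho r 𝓛)).dualAnnihilator := by
    rw [← LinearMap.finrank_range_of_inj (w2Phi_injective hinj)]
    exact Submodule.finrank_mono (w2Phi_range_le hrec)
  have h2 := Subspace.finrank_add_finrank_dualAnnihilator_eq (LinearMap.range (w2Rho r 𝓛))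
  have h3 := LinearMap.finrank_range_add_finrank_ker (w2Rho r 𝓛)
  have h4 : finrank (ZMod p) ↥(LinearMap.ker (w2Rho r 𝓛)) = finrank (ZMod p) ↥(w2Sha r) := by
    rw [w2_ker_rho]
    exact (Submodule.comapSubtypeEquivOfLe (w2Sha_le_w2Sel r 𝓛)).finrank_eq
  have h5 : finrank (ZMod p) ↥(w2Sel r 𝓛) + finrank (ZMod p) H' ≤
      finrank (ZMod p) ↥(w2Sha r) + finrank (ZMod p) ((i : ι) → ↥(𝓛 i)) := by
    omega
  have hc : ∀ (X : Type) [AddCommGroup X] [Module (ZMod p) X] [Module.Finite (ZMod p) X],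
      Nat.card X = p ^ finrank (ZMod p) X := fun X _ _ _ => by
    rw [Module.natCard_eq_pow_finrank (K := ZMod p), Nat.card_zmod]
  rw [← Nat.card_pi, hc ↥(w2Sel r 𝓛), hc H', hc ↥(w2Sha r), hc ((i : ι) → ↥(𝓛 i)),
    ← pow_add, ← pow_add]
  exact Nat.pow_le_pow_right (Fact.out : p.Prime).pos h5

end Count

end Fermat.Agent.S56
end MergeWrap_S56_W2_R_Count

section MergeWrap_S56_W2_Recip -- from S56/W2/Recip.lean

set_option autoImplicit false

open CategoryTheory Module groupCohomology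

namespace Fermat.Agent.S56

open Fermat.Agent.F4 ExtCitation

/-- Over `𝔽_p` a mod `p` cyclotomic character is the Prelude's `cycloChar p`. -/
theorem w2_chi_eq_cycloChar (p : ℕ) [Fact p.Prime] {χ : GQ →* (ZMod p)ˣ} (hχ : IsCycloChar p χ) :
    χ = cycloChar p := by
  refine MonoidHom.ext fun σ => Units.ext ?_
  have := sc_coe_chi p hχ σ
  simpa using this

section Asm

variable {p : ℕ} [Fact p.Prime] (S₀ Q : Finset Nat.Primes) (M : Rep.{0} (ZMod p) GQ)
  (L : ∀ v : Nat.Primes, AddSubgroup (H1loc M v))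

/-- The local conditions as `𝔽_p`-subspaces: `L v` for `v ∈ S₀`, everything otherwise. -/
noncomputable def w2Cond (i : ↥(S₀ ∪ Q)) : Submodule (ZMod p) (H1loc M i.1) :=
  open Classical in
  if i.1 ∈ S₀ then AddSubgroup.toZModSubmodule p (L i.1) else ⊤

lemma w2Cond_of_mem (i : ↥(S₀ ∪ Q)) (hi : i.1 ∈ S₀) :
    w2Cond S₀ Q M L i = AddSubgroup.toZModSubmodule p (L i.1) := by
  rw [w2Cond, if_pos hi]

lemma w2Cond_of_not_mem (i : ↥(S₀ ∪ Q)) (hi : i.1 ∉ S₀) : w2Cond S₀ Q M L i = ⊤ := by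
  rw [w2Cond, if_neg hi]

lemma mem_w2Cond_of_mem (i : ↥(S₀ ∪ Q)) (hi : i.1 ∈ S₀) (x : H1loc M i.1) :
    x ∈ w2Cond S₀ Q M L i ↔ x ∈ L i.1 := by
  rw [w2Cond_of_mem S₀ Q M L i hi]
  exact Iff.rfl

lemma w2_card_cond (i : ↥(S₀ ∪ Q)) :
    Nat.card ↥(w2Cond S₀ Q M L i)
      = (open Classical in if i.1 ∈ S₀ then Nat.card ↥(L i.1) else Nat.card (H1loc M i.1)) := by
  classical
  by_cases hi : i.1 ∈ S₀
  · rw [if_pos hi, w2Cond_of_mem S₀ Q M L i hi]
    rfl
  · rw [if_neg hi, w2Cond_of_not_mem S₀ Q M L i hi]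
    exact Nat.card_congr (Submodule.topEquiv (R := ZMod p) (M := H1loc M i.1)).toEquiv

lemma w2_prod_card_cond (hdisj : Disjoint S₀ Q) :
    ∏ i : ↥(S₀ ∪ Q), Nat.card ↥(w2Cond S₀ Q M L i)
      = (∏ v ∈ S₀, Nat.card ↥(L v)) * ∏ q ∈ Q, Nat.card (H1loc M q) := by
  classical
  simp only [w2_card_cond]
  rw [Finset.prod_coe_sort (S₀ ∪ Q)
    (fun v => if v ∈ S₀ then Nat.card ↥(L v) else Nat.card (H1loc M v)),
    Finset.prod_union hdisj]
  congr 1
  · exact Finset.prod_congr rfl fun v hv => if_pos hv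
  · exact Finset.prod_congr rfl fun q hq => if_neg (Finset.disjoint_right.1 hdisj hq)

/-- The Selmer group of `G_S` with the local conditions `w2Cond`. -/
noncomputable def w2SelS : Submodule (ZMod p) (H1sm (levelsS (S₀ ∪ Q)) M) :=
  w2Sel (P := fun i : ↥(S₀ ∪ Q) => H1loc M i.1) (fun i => w2Loc (S₀ ∪ Q) M i.1)
    (w2Cond S₀ Q M L)

lemma mem_w2SelS (a : H1sm (levelsS (S₀ ∪ Q)) M) :
    a ∈ w2SelS S₀ Q M L ↔ ∀ i : ↥(S₀ ∪ Q), w2Loc (S₀ ∪ Q) M i.1 a ∈ w2Cond S₀ Q M L i :=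
  mem_w2Sel (P := fun i : ↥(S₀ ∪ Q) => H1loc M i.1) _ _ a

/-- The Selmer set is the image of the Selmer group of `G_S`. -/
lemma w2_selSet_eq :
    selSet (S₀ ∪ Q) M S₀ L = w2Infl (S₀ ∪ Q) M ''
      (w2SelS S₀ Q M L : Set (H1sm (levelsS (S₀ ∪ Q)) M)) := by
  ext x
  constructor
  · rintro ⟨hx, hL⟩
    rw [← w2_range_infl] at hx
    obtain ⟨a, rfl⟩ := hx
    refine ⟨a, ?_, rfl⟩
    rw [SetLike.mem_coe, mem_w2SelS]
    intro i
    by_cases hi : i.1 ∈ S₀
    · rw [mem_w2Cond_of_mem S₀ Q M L i hi]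
      exact hL i.1 hi
    · rw [w2Cond_of_not_mem S₀ Q M L i hi]
      exact Submodule.mem_top
  · rintro ⟨a, ha, rfl⟩
    rw [SetLike.mem_coe, mem_w2SelS] at ha
    refine ⟨?_, fun v hv => ?_⟩
    · rw [← w2_range_infl]
      exact ⟨a, rfl⟩
    · have := ha ⟨v, Finset.mem_union_left Q hv⟩
      rw [mem_w2Cond_of_mem S₀ Q M L _ hv] at this
      exact this

lemma w2_sha_eq :
    w2Sha (P := fun i : ↥(S₀ ∪ Q) => H1loc M i.1) (fun i => w2Loc (S₀ ∪ Q) M i.1)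
      = sha1sm (S₀ ∪ Q) M := by
  ext x
  rw [mem_w2Sha (P := fun i : ↥(S₀ ∪ Q) => H1loc M i.1), w2_mem_sha1sm_iff]
  exact ⟨fun h v hv => h ⟨v, hv⟩, fun h i => h i.1 i.2⟩

end Asm

section Core

variable {p : ℕ} [Fact p.Prime] (S₀ Q : Finset Nat.Primes) (D : GlobalDatum p (S₀ ∪ Q))
  {M N : Rep.{0} (ZMod p) GQ} (θ : M ≃ₗ[ZMod p] (N →ₗ[ZMod p] Fp1 p))
  (hθ : ∀ (g : GQ) (m : M) (n : N), θ (M.ρ g m) n = (Fp1 p).ρ g (θ m (N.ρ g⁻¹ n)))
  (hsm : IsSmooth (levelsS (S₀ ∪ Q)) M) (hfin : Module.Finite (ZMod p) M)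
  (hN : IsSmooth (levelsS (S₀ ∪ Q)) N) (hfinN : Module.Finite (ZMod p) N)
  (L : ∀ v : Nat.Primes, AddSubgroup (H1loc M v))

include D θ hθ hsm hfin hN hfinN in
/-- **W2-R**: `#Sel · #H¹(G_S, N) ≤ #Ш¹_S(M) · ∏ #L_v · ∏ #H¹(G_q, M)` when the dual Selmer group
is killed by the auxiliary primes. -/
theorem w2_gw_core (hdisj : Disjoint S₀ Q)
    (hLfin : ∀ v ∈ S₀, Finite (L v)) (hQfin : ∀ q ∈ Q, Finite (H1loc M q))
    (hkill : ∀ n ∈ unrOutside (S₀ ∪ Q) N, (∀ q ∈ Q, resLoc N q n = 0) → n = 0)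
    (hH'fin : Finite (H1sm (levelsS (S₀ ∪ Q)) N)) :
    (selSet (S₀ ∪ Q) M S₀ L).Finite ∧
      (selSet (S₀ ∪ Q) M S₀ L).ncard * Nat.card (H1sm (levelsS (S₀ ∪ Q)) N)
        ≤ Nat.card ↥(sha1sm (S₀ ∪ Q) M) *
          ((∏ v ∈ S₀, Nat.card ↥(L v)) * ∏ q ∈ Q, Nat.card (H1loc M q)) := by
  classical
  have hHfinM : Module.Finite (ZMod p) (H1sm (levelsS (S₀ ∪ Q)) M) :=
    finite_H1sm_primeTo (levelsS (S₀ ∪ Q)) D.finH1 M hsm hfin
  have hHfin : Finite (H1sm (levelsS (S₀ ∪ Q)) M) := Module.finite_of_finite (ZMod p)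
  have hcfin : ∀ i : ↥(S₀ ∪ Q), Finite ↥(w2Cond S₀ Q M L i) := by
    intro i
    by_cases hi : i.1 ∈ S₀
    · rw [w2Cond_of_mem S₀ Q M L i hi]
      exact hLfin i.1 hi
    · have hq : i.1 ∈ Q := (Finset.mem_union.1 i.2).resolve_left hi
      have := hQfin i.1 hq
      exact Subtype.finite
  -- the counting lemma
  have hcount := w2_count (p := p)
    (P := fun i : ↥(S₀ ∪ Q) => H1loc M i.1)
    (P' := fun i : ↥(S₀ ∪ Q) => H1loc N i.1)
    (r := fun i : ↥(S₀ ∪ Q) => w2Loc (S₀ ∪ Q) M i.1)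
    (r' := fun i : ↥(S₀ ∪ Q) => w2Loc (S₀ ∪ Q) N i.1)
    (B := fun i : ↥(S₀ ∪ Q) => w2PairLoc D θ hθ hN hfinN i)
    (𝓛 := w2Cond S₀ Q M L)
    (fun a n => w2_recip D θ hθ hN hfinN a n)
    (by
      intro n hn
      apply w2Infl_injective (S₀ ∪ Q) N
      rw [map_zero]
      refine hkill _ ?_ fun q hq => ?_
      · rw [← w2_range_infl]
        exact ⟨n, rfl⟩
      · have hqS : q ∈ S₀ ∪ Q := Finset.mem_union_right S₀ hq
        have hq0 : q ∉ S₀ := Finset.disjoint_right.1 hdisj hq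
        refine w2PairLoc_right_nondeg D θ hθ hN hfinN ⟨q, hqS⟩ _ fun a => ?_
        refine hn ⟨q, hqS⟩ a ?_
        rw [w2Cond_of_not_mem S₀ Q M L ⟨q, hqS⟩ hq0]
        exact Submodule.mem_top)
  rw [w2_sha_eq, w2_prod_card_cond S₀ Q M L hdisj] at hcount
  change Nat.card ↥(w2SelS S₀ Q M L) * _ ≤ _ at hcount
  -- the Selmer set
  have hsel := w2_selSet_eq S₀ Q M L
  have hselfin : (selSet (S₀ ∪ Q) M S₀ L).Finite := by
    rw [hsel]
    exact (Set.toFinite _).image _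
  refine ⟨hselfin, ?_⟩
  have hncard : (selSet (S₀ ∪ Q) M S₀ L).ncard = Nat.card ↥(w2SelS S₀ Q M L) := by
    rw [hsel, Set.ncard_image_of_injective _ (w2Infl_injective (S₀ ∪ Q) M)]
    exact (Nat.card_coe_set_eq _).symm
  rw [hncard]
  exact hcount

end Core

/-- **Leaf R**: W2-R + assembly over `𝔽_p`. -/
theorem gwStatement_zmod (p : ℕ) [Fact p.Prime] (hp2 : p ≠ 2)
    (hD : ∀ S : Finset Nat.Primes, pPrime p ∈ S → Nonempty (GlobalDatum p S))
    (hEC : ECLower p) : GWStatement (ZMod p) p := by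
  classical
  intro M χ S₀ Q L hχ hfin hsm hpS₀ hdisj hH0 hLfin hQfin hkill
  obtain rfl := w2_chi_eq_cycloChar p hχ
  have hpS : pPrime p ∈ S₀ ∪ Q := Finset.mem_union_left Q hpS₀
  obtain ⟨D⟩ := hD (S₀ ∪ Q) hpS
  have hfd : FiniteDimensional (ZMod p) M := hfin
  obtain ⟨θ, hθ⟩ := exists_dualTwistEquiv M
  have hN : IsSmooth (levelsS (S₀ ∪ Q)) (M.dualTwist (cycloChar p)) :=
    isSmooth_dualTwist (S₀ ∪ Q) hpS M hsm
  have hfinN : Module.Finite (ZMod p) (M.dualTwist (cycloChar p)) := by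
    show Module.Finite (ZMod p) (Module.Dual (ZMod p) M)
    infer_instance
  obtain ⟨hH'fin, hEC'⟩ := hEC (S₀ ∪ Q) M hpS hfin hsm
  obtain ⟨hselfin, hcount⟩ :=
    w2_gw_core S₀ Q D θ hθ hsm hfin hN hfinN L hdisj hLfin hQfin hkill hH'fin
  refine ⟨hselfin, ?_⟩
  -- arithmetic
  have hg1 : Nat.card ↥(H0glob M) = 1 := by
    rw [hH0]
    exact Nat.card_unique
  have hfinNt : Finite (M.dualTwist (cycloChar p)) := Module.finite_of_finite (ZMod p)
  have hg' : 0 < Nat.card ↥(H0glob (M.dualTwist (cycloChar p))) := Nat.card_pos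
  have hHfinM : Module.Finite (ZMod p) (H1sm (levelsS (S₀ ∪ Q)) M) :=
    finite_H1sm_primeTo (levelsS (S₀ ∪ Q)) D.finH1 M hsm hfin
  have hHfin : Finite (H1sm (levelsS (S₀ ∪ Q)) M) := Module.finite_of_finite (ZMod p)
  have hsh : 0 < Nat.card ↥(sha1sm (S₀ ∪ Q) M) := Nat.card_pos
  rw [hg1, mul_one] at hEC'
  generalize (selSet (S₀ ∪ Q) M S₀ L).ncard = s at hcount ⊢
  generalize ∏ v ∈ S₀ ∪ Q, Nat.card ↥(H0loc M v) = h0 at hEC' ⊢
  generalize Nat.card ↥(H0arch M) = ar at hEC' ⊢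
  generalize Nat.card ↥(sha1sm (S₀ ∪ Q) M) = sh at hEC' hcount hsh
  generalize Nat.card ↥(H0glob (M.dualTwist (cycloChar p))) = g' at hEC' hg'
  generalize Nat.card (H1sm (levelsS (S₀ ∪ Q)) (M.dualTwist (cycloChar p))) = h' at hEC' hcount
  generalize (∏ v ∈ S₀, Nat.card ↥(L v)) * ∏ q ∈ Q, Nat.card (H1loc M q) = PL at hcount ⊢
  have e1 : sh * h0 * ar ≤ h' := by
    calc sh * h0 * ar = 1 * sh * h0 * ar := by rw [one_mul]
      _ ≤ g' * sh * h0 * ar := by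
          exact Nat.mul_le_mul_right _ (Nat.mul_le_mul_right _ (Nat.mul_le_mul_right _ hg'))
      _ ≤ h' := hEC'
  have e2 : s * h0 * ar * sh ≤ PL * sh := by
    calc s * h0 * ar * sh = s * (sh * h0 * ar) := by ring
      _ ≤ s * h' := Nat.mul_le_mul_left _ e1
      _ ≤ sh * PL := hcount
      _ = PL * sh := mul_comm _ _
  exact Nat.le_of_mul_le_mul_right e2 hsh

end Fermat.Agent.S56
end MergeWrap_S56_W2_Recip

section MergeWrap_S56_W2_EC_PackExists -- from S56/W2/EC/PackExists.lean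

set_option autoImplicit false

namespace Fermat.Agent.S56.EC

open Fermat.Agent.F4 Fermat.Agent.F4Cf ExtCitation CategoryTheory groupCohomology

variable {p : ℕ} [Fact p.Prime] {S : Finset Nat.Primes}

/-- Rescaling the invariants of a local pack. -/
noncomputable def rescalePack {φ : Fp1 p →+ EsRep S} {q : Nat.Primes} (P : LocPack p S φ q)
    (c : (ZMod p)ˣ) : LocPack p S φ q where
  loc := rescaleLoc P.loc c
  I := P.I
  Q := P.Q
  dat := P.dat
  smoothI := P.smoothI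
  compat := P.compat

set_option maxHeartbeats 3200000 in
/-- **The rich global datum exists** (LOC + GLOB). -/
theorem nonempty_ecPack (hp2 : p ≠ 2) (hpS : pPrime p ∈ S) : Nonempty (ECPack p S hpS) := by
  classical
  obtain ⟨φ, hinj, hcomm, hsurj⟩ := exists_rootMap (p := p) (S := S) hpS
  have hφ : IsRootMap φ := ⟨hinj, hcomm, hsurj⟩
  have P : ∀ q : ↥S, LocPack p S φ q.1 := fun q =>
    (Fermat.Agent.F4.Loc.nonempty_locPack hpS φ hφ q.1).some
  -- the algebra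
  have hQ := quotHyp_of_packs hpS hφ P
  have hIJ := smooth_piCoind (S := S) (fun q => (P q).I)
  have hIC : IsSmooth (levelsS S) hQ.IC := hQ.smoothIC hIJ
  have DC : UCData p (coindKC (fun q => (P q).loc) (isSmooth_Fp1 S hpS)) (Crep S) hQ.IC _ :=
    (Fermat.Agent.F4Cf.datJ (fun q => (P q).loc) (fun q => (P q).dat)
      (fun q => (P q).smoothI)).quot0 hQ
  -- the class formation
  have h := pcf_Crep p S hp2 hpS
  have hχ := exists_char_GQ (S := S) hp2 hpS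
  have hfin : ∀ U : Subgroup GQ, (levelsS S).IsOpen U → ¬ p ∣ U.index →
      Module.Finite (ZMod p) ↥(Z1 ((levelsS S).sub U) (Rep.trivial (ZMod p) ↥U (ZMod p))) := by
    intro U hU _
    have := Fermat.Agent.F4Fin.finH1 (p := p) S U hU
    exact Module.Finite.equiv (shH1Equiv U hU)
  -- the invariant
  obtain ⟨inv, hinv⟩ := exists_injective_of_KF1
    (DC.kF1_of_H1p0 hIC (h1slack h).h1p0 (f1sm h))
  -- reciprocity
  have hA2 : ∀ (W : Subgroup GQ) [Fintype (GQ ⧸ W)] (hW : (levelsS S).IsOpen W),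
      A2InjU W (coindKC (fun q => (P q).loc) (isSmooth_Fp1 S hpS)) inv hW :=
    fun W _ hW => a2injU_all DC hIC h inv hinv hχ hfin W hW
  have hT3 : T3 (coindDatum hpS (fun q => (P q).loc)) inv := by
    intro q
    obtain ⟨U, V, σ, j, hV, hc, hj, hsupp, hnn⟩ := dict_local hp2 hpS q
    exact t3_of_nonNorm hpS (fun q => (P q).loc) (fun q => (P q).dat) (fun q => (P q).smoothI)
      hQ h inv hA2 q U V σ hV hc j hj hsupp hnn
  obtain ⟨c, hc⟩ := exists_rescale_recip (coindDatum hpS (fun q => (P q).loc)) inv hT3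
  -- the pack
  exact ⟨{ φ := φ
           hφ := hφ
           P := fun q => rescalePack (P q) (c q)
           inv := inv
           inv_inj := hinv
           recip := fun z => by
             refine (hc z).trans (Finset.sum_congr rfl fun q _ => ?_)
             rfl
           a2inj := fun U hU hidx => a2inj_of_PCF DC hIC h inv hinv hχ U hU hidx
           a1surj := fun U hU hidx =>
             a1surj_of_PCF DC hIC h inv hinv hχ U hU hidx (hfin U hU hidx)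
           a1inj := fun V hV =>
             a1inj_of_PCF DC hIC h inv hinv hχ hfin V ((levelsS S).isOpen_of_mem hV)
           finH1 := fun U hU _ => Fermat.Agent.F4Fin.finH1 (p := p) S U hU
           pcf := h }⟩

end Fermat.Agent.S56.EC
end MergeWrap_S56_W2_EC_PackExists

section MergeWrap_S56_W2_EC_FinHom -- from S56/W2/EC/FinHom.lean

set_option autoImplicit false
set_option linter.style.haveILetI false

namespace Fermat.Agent.S56.EC

open Fermat.Agent.F4 ExtCitation CategoryTheory groupCohomology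

/-- The `p`-torsion of the smooth units of a field is finite. -/
lemma finhom_ptors_finite {Γ : Type} [Group Γ] {Ω : Type} [Field Ω] (𝓛 : Levels Γ)
    (act : Γ →* RingAut Ω) (n : ℕ) (hn : n ≠ 0) :
    {x : smUnits 𝓛 act | (n : ℤ) • x = 0}.Finite := by
  haveI : NeZero n := ⟨hn⟩
  have hfin : ((rootsOfUnity n Ω : Subgroup Ωˣ) : Set Ωˣ).Finite :=
    Set.finite_coe_iff.1 (inferInstanceAs (Finite ↥(rootsOfUnity n Ω)))
  have hsub : {x : smUnits 𝓛 act | (n : ℤ) • x = 0} ⊆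
      (smUnits.val (𝓛 := 𝓛) (act := act)) ⁻¹' ((rootsOfUnity n Ω : Subgroup Ωˣ) : Set Ωˣ) := by
    intro x hx
    have h1 : smUnits.val ((n : ℤ) • x) = 1 := by
      rw [show (n : ℤ) • x = 0 from hx]; rfl
    rw [smUnits.val_zsmul, zpow_natCast] at h1
    exact (mem_rootsOfUnity n _).2 h1
  exact Set.Finite.subset (Set.Finite.preimage (smUnits.val_injective.injOn) hfin) hsub

/-- `ker d_K` is finite when the `p`-torsion of `C` is. -/
lemma finhom_kerd_finite {G : Type} [Group G] {p : ℕ} [Fact p.Prime] {K : Cx (ZMod p) G}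
    {C I Q : Rep.{0} ℤ G} (dat : UCData p K C I Q)
    (hC : {c : C | (p : ℤ) • c = 0}.Finite) : {t : K.K0 | K.d t = 0}.Finite := by
  have hsub : {t : K.K0 | K.d t = 0} ⊆ dat.i0 ⁻¹' (dat.ι '' {c : C | (p : ℤ) • c = 0}) := by
    intro t ht
    have h1 : dat.π (dat.i0 t) = 0 := by
      rw [dat.comm, show K.d t = 0 from ht, map_zero]
    obtain ⟨c, hc⟩ := (dat.exact _).1 h1
    refine ⟨c, ?_, hc⟩
    apply dat.ι_inj
    rw [map_zsmul, hc, ← map_zsmul, map_zero]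
    have : (p : ℤ) • t = 0 := by
      rw [Int.cast_smul_eq_zsmul (ZMod p) (p : ℤ) t |>.symm]
      simp
    rw [this, map_zero]
  exact Set.Finite.subset (Set.Finite.preimage (dat.i0_inj.injOn) (hC.image _)) hsub


section CoindPi

variable {k G : Type} [Field k] [Group G] {ι : Type} {D : ι → Type} [∀ i, Group (D i)]
  (r : ∀ i, D i →* G) (𝓤 : Levels G) (K : ∀ i, Cx k (D i)) (N : Rep.{0} k G)

/-- The value at `1` of the `i`-th component of `f n`. -/
def finhomEv (f : (homCx N (coindPiCx r 𝓤 K)).K0) (i : ι) (n : N) (g : G) : (K i).K0 :=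
  coindPiFun0 r 𝓤 K (ecShOfHom N (coindPiCx r 𝓤 K) f n) i g

lemma finhomEv_ext {f f' : (homCx N (coindPiCx r 𝓤 K)).K0}
    (h : ∀ i n g, finhomEv r 𝓤 K N f i n g = finhomEv r 𝓤 K N f' i n g) : f = f' := by
  refine LinearMap.ext fun n => funext fun i => Subtype.ext (funext fun g => ?_)
  exact h i n g

/-- Frobenius reciprocity: an equivariant map into `∏ coInd K` is determined by the values
at `1`. -/
lemma finhomEv_equivariant {f : (homCx N (coindPiCx r 𝓤 K)).K0}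
    (hf : f ∈ HH0 (homCx N (coindPiCx r 𝓤 K))) (i : ι) (n : N) (g : G) :
    finhomEv r 𝓤 K N f i n g = finhomEv r 𝓤 K N f i (N.ρ g n) 1 := by
  have h1 := ((ecSh_mem_HH0_iff N (coindPiCx r 𝓤 K) f).1 hf).1 g n
  have h2 : finhomEv r 𝓤 K N f i (N.ρ g n) 1 =
      coindPiFun0 r 𝓤 K ((coindPiCx r 𝓤 K).K0.ρ g (ecShOfHom N (coindPiCx r 𝓤 K) f n)) i 1 := by
    unfold finhomEv
    rw [h1]
  rw [h2]
  show _ = coindPiFun0 r 𝓤 K (ecShOfHom N (coindPiCx r 𝓤 K) f n) i (1 * g)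
  rw [one_mul]
  rfl

lemma finhomEv_d {f : (homCx N (coindPiCx r 𝓤 K)).K0}
    (hf : f ∈ HH0 (homCx N (coindPiCx r 𝓤 K))) (i : ι) (n : N) (g : G) :
    (K i).d (finhomEv r 𝓤 K N f i n g) = 0 := by
  have h1 := ((ecSh_mem_HH0_iff N (coindPiCx r 𝓤 K) f).1 hf).2 n
  have h2 := congrFun (congrArg Subtype.val (congrFun h1 i)) g
  exact h2

/-- `Hom_G(N, ∏ coInd K_i)` (with `d = 0`) is finite as soon as `N` and the `ker d_{K_i}` are. -/
theorem finhom_finite_coindPi [Finite ι] [Finite N]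
    (hK : ∀ i, {t : (K i).K0 | (K i).d t = 0}.Finite) :
    Finite ↥(HH0 (homCx N (coindPiCx r 𝓤 K))) := by
  haveI : ∀ x : ι × N, Finite ↥{t : (K x.1).K0 | (K x.1).d t = 0} := fun x =>
    (hK x.1).to_subtype
  let Φ : ↥(HH0 (homCx N (coindPiCx r 𝓤 K))) →
      (∀ x : ι × N, ↥{t : (K x.1).K0 | (K x.1).d t = 0}) :=
    fun f x => ⟨finhomEv r 𝓤 K N f.1 x.1 x.2 1, finhomEv_d r 𝓤 K N f.2 x.1 x.2 1⟩
  refine Finite.of_injective Φ ?_
  intro f f' h
  apply Subtype.ext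
  apply finhomEv_ext r 𝓤 K N
  intro i n g
  rw [finhomEv_equivariant r 𝓤 K N f.2, finhomEv_equivariant r 𝓤 K N f'.2]
  exact congrArg Subtype.val (congrFun h (i, N.ρ g n))

end CoindPi

/-- `Hom_G(N, K_J)` is finite. -/
theorem finhom_finite_KJ {p : ℕ} [Fact p.Prime] {S : Finset Nat.Primes}
    {hpS : pPrime p ∈ S} (Pk : ECPack p S hpS) (N : Rep.{0} (ZMod p) GQ)
    (hfin : Module.Finite (ZMod p) N) : Finite ↥(HH0 (homCx N Pk.KJ)) := by
  haveI : Finite N := Module.finite_of_finite (ZMod p)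
  refine finhom_finite_coindPi (fun q : ↥S => primeLocalToGlobal q.1) (levelsS S)
    (fun q => (Pk.loc q).K) N fun q => ?_
  exact finhom_kerd_finite (Pk.P q).dat
    (finhom_ptors_finite _ _ p (Fact.out : p.Prime).ne_zero)

/-- **(F)** finiteness of `Hom_G(N, K_C)`. -/
theorem finiteHom0 {p : ℕ} [Fact p.Prime] {S : Finset Nat.Primes}
    {hpS : pPrime p ∈ S} (Pk : ECPack p S hpS) : FiniteHom0 S Pk.KC := by
  intro N hN hfin
  haveI := hfin
  haveI : Finite ↥(HH0 (homCx N Pk.datum.KJ)) := finhom_finite_KJ Pk N hfin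
  haveI : Module.Finite (ZMod p) ↥(HH0 (homCx N Pk.datum.KJ)) :=
    Module.Finite.of_finite
  haveI : Module.Finite (ZMod p) (homRep N (Fp1 p)) :=
    inferInstanceAs (Module.Finite (ZMod p) (N →ₗ[ZMod p] Fp1 p))
  exact ecl_finite_HH0_KC Pk.datum N hN hfin (homRep N (Fp1 p))
    (homRep_smooth (levelsS S) N (Fp1 p) hN hfin (isSmooth_Fp1 S hpS))
    (LinearEquiv.refl (ZMod p) _) (fun g m n => rfl)

end Fermat.Agent.S56.EC
end MergeWrap_S56_W2_EC_FinHom

section MergeWrap_S56_W2_EC_Cyclic_RecipPair -- from S56/W2/EC/Cyclic/RecipPair.lean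

/-!
# S56 / W2 / EC / Cyclic / RecipPair : the reciprocity identity (N4) for the concrete objects,
from a perfect equivariant pairing `Ш_V(W) × T_W → 𝔽_p`
(seat N4-WIRE of the cyclic case; helper86)

`𝒮 : CycSetup p S`.  For **any** bi-additive `B : cyShaV S W × T_W → 𝔽_p` with
* (left)  `B(χ, ·) = 0 ⇒ χ = 0`,
* (right) `B(·, t) = 0 ⇔ t ∈ E + Fˣ + p T_W`,
* (equiv) `B(u ⋆ χ, u t) = ω(u) B(χ, t)` for `u ∈ U`
(the shapes of `cyB_left`, `cyB_right`, `cyB_equiv` of `RecipCore.lean`, `RecipCoreEq.lean`),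
`CycSetup.recip_of_cyB` : `d Sha = d (D (A / p))` for every additive `d`, with `Sha = 𝒮.ShaObj`
(`TorsObj.lean`), `A = 𝒮.A` (`AObj.lean`).

* `𝒮.recB B hker : 𝒮.ShaObj.carrier →+ (modObj 𝒮.A).carrier →+ ZMod p` : the descended pairing,
  `recB_cls : recB (shaVal.symm χ) [clsA t] = B χ t`.
-/

set_option autoImplicit false
set_option linter.unusedSectionVars false
set_option linter.style.haveILetI false

noncomputable section

open CategoryTheory groupCohomology ExtCitation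

namespace Fermat.Agent.S56.EC

open Fermat.Agent.F4

namespace CycSetup

variable {p : ℕ} [Fact p.Prime] {S : Finset Nat.Primes} (𝒮 : CycSetup p S)

/-- The subquotient `A / p A`. -/
abbrev modA : SubQ p 𝒮.Γ 𝒮.A := (StabSub.top 𝒮.Γ 𝒮.A).modQ p

/-- The class in `A / p` of an element of `T_W`. -/
def clsAp : ↥𝒮.L.TU →+ (modObj (C := 𝒮.Γ) 𝒮.A (NeZero.ne p)).carrier :=
  𝒮.modA.cls.comp
    { toFun := fun t => (⟨𝒮.clsA t, AddSubgroup.mem_top _⟩ : ↥𝒮.modA.top)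
      map_zero' := Subtype.ext (map_zero 𝒮.clsA)
      map_add' := fun t t' => Subtype.ext (map_add 𝒮.clsA t t') }

lemma clsAp_surjective : Function.Surjective 𝒮.clsAp := by
  intro x
  obtain ⟨y, rfl⟩ := 𝒮.modA.cls_surjective x
  obtain ⟨t, ht⟩ := 𝒮.clsA_surjective y.1
  refine ⟨t, ?_⟩
  show 𝒮.modA.cls _ = 𝒮.modA.cls y
  congr 1
  exact Subtype.ext ht

/-- The kernel of `T_W → A / p` is `E + Fˣ + p T_W`. -/
lemma clsAp_eq_zero_iff (t : ↥𝒮.L.TU) :
    𝒮.clsAp t = 0 ↔ ∃ e ∈ sUnitsAdd S, ∃ a : (𝒮.L.field)ˣ, ∃ t' ∈ 𝒮.L.TU,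
      (t : QSx S) = e + 𝒮.L.toQS a + p • t' := by
  show 𝒮.modA.cls _ = 0 ↔ _
  rw [SubQ.cls_eq_zero_iff]
  show 𝒮.clsA t ∈ pMul p (⊤ : AddSubgroup 𝒮.A) ↔ _
  rw [mem_pMul]
  constructor
  · rintro ⟨b, -, hb⟩
    obtain ⟨t', rfl⟩ := 𝒮.clsA_surjective b
    have h0 : 𝒮.clsA (t - p • t') = 0 := by
      rw [map_sub, map_nsmul, hb, sub_self]
    rw [clsA_eq_zero_iff] at h0
    obtain ⟨e, he, f, hf, hef⟩ := AddSubgroup.mem_sup.1 h0
    obtain ⟨a, rfl⟩ := hf
    refine ⟨e, he, a, (t' : QSx S), t'.2, ?_⟩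
    rw [hef]
    show (t : QSx S) = ((t - p • t' : ↥𝒮.L.TU) : QSx S) + p • (t' : QSx S)
    rw [AddSubgroup.coe_sub, AddSubgroup.coe_nsmul]
    abel
  · rintro ⟨e, he, a, t', ht', h⟩
    refine ⟨𝒮.clsA ⟨t', ht'⟩, AddSubgroup.mem_top _, ?_⟩
    rw [← map_nsmul, ← sub_eq_zero, ← map_sub, clsA_eq_zero_iff]
    show ((p • (⟨t', ht'⟩ : ↥𝒮.L.TU) - t : ↥𝒮.L.TU) : QSx S) ∈ 𝒮.L.EF
    rw [AddSubgroup.coe_sub, AddSubgroup.coe_nsmul]
    show p • t' - (t : QSx S) ∈ 𝒮.L.EF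
    rw [h]
    have e1 : p • t' - (e + 𝒮.L.toQS a + p • t') = -(e + 𝒮.L.toQS a) := by abel
    rw [e1]
    exact 𝒮.L.EF.neg_mem (AddSubgroup.add_mem _ (𝒮.L.sUnitsAdd_le_EF he)
      (𝒮.L.Fx_le_EF ⟨a, rfl⟩))

lemma clsAp_smul (u : ↥𝒮.U) (t t' : ↥𝒮.L.TU)
    (h : (t' : QSx S) = (QSx S).ρ (u : GQ) (t : QSx S)) :
    𝒮.clsAp t' = 𝒮.proj u • 𝒮.clsAp t := by
  show 𝒮.modA.cls _ = 𝒮.proj u • 𝒮.modA.cls _
  rw [SubQ.smul_cls]
  congr 1
  apply Subtype.ext
  exact 𝒮.proj_smul_clsA' u t t' h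

section Pairing

variable (B : ↥(cyShaV (p := p) S 𝒮.W) →+ ↥𝒮.L.TU →+ ZMod p)
  (hker : ∀ (χ : ↥(cyShaV (p := p) S 𝒮.W)) (t : ↥𝒮.L.TU), 𝒮.clsAp t = 0 → B χ t = 0)

/-- The pairing `B(χ, ·)` on `A / p`. -/
def recB₁ (χ : ↥(cyShaV (p := p) S 𝒮.W)) :
    (modObj (C := 𝒮.Γ) 𝒮.A (NeZero.ne p)).carrier →+ ZMod p :=
  𝒮.clsAp.liftOfSurjective 𝒮.clsAp_surjective ⟨B χ, fun t ht => by
    rw [AddMonoidHom.mem_ker] at ht ⊢
    exact hker χ t ht⟩

lemma recB₁_cls (χ : ↥(cyShaV (p := p) S 𝒮.W)) (t : ↥𝒮.L.TU) :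
    𝒮.recB₁ B hker χ (𝒮.clsAp t) = B χ t :=
  AddMonoidHom.liftOfRightInverse_comp_apply _ _ _ _ t

/-- **The descended pairing** `Sha × A / p → 𝔽_p`. -/
def recB : (𝒮.ShaObj).carrier →+ (modObj (C := 𝒮.Γ) 𝒮.A (NeZero.ne p)).carrier →+ ZMod p :=
  AddMonoidHom.mk' (fun s => 𝒮.recB₁ B hker (𝒮.shaVal s)) (fun s s' => by
    refine AddMonoidHom.ext fun a => ?_
    obtain ⟨t, rfl⟩ := 𝒮.clsAp_surjective a
    show 𝒮.recB₁ B hker (𝒮.shaVal (s + s')) (𝒮.clsAp t) =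
      𝒮.recB₁ B hker (𝒮.shaVal s) (𝒮.clsAp t) + 𝒮.recB₁ B hker (𝒮.shaVal s') (𝒮.clsAp t)
    rw [recB₁_cls, recB₁_cls, recB₁_cls, map_add, map_add]
    rfl)

lemma recB_cls (s : (𝒮.ShaObj).carrier) (t : ↥𝒮.L.TU) :
    𝒮.recB B hker s (𝒮.clsAp t) = B (𝒮.shaVal s) t :=
  𝒮.recB₁_cls B hker _ t

end Pairing

/-- **(N4) The reciprocity identity in `K₀`**, from a perfect equivariant pairing
`B : Ш_V(W) × T_W → 𝔽_p`: `d Sha = d (D (A / p))`. -/
theorem recip_of_cyB (B : ↥(cyShaV (p := p) S 𝒮.W) →+ ↥𝒮.L.TU →+ ZMod p)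
    (hleft : ∀ χ : ↥(cyShaV (p := p) S 𝒮.W), (∀ t : ↥𝒮.L.TU, B χ t = 0) → χ = 0)
    (hright : ∀ t : ↥𝒮.L.TU, (∀ χ : ↥(cyShaV (p := p) S 𝒮.W), B χ t = 0) ↔
      ∃ e ∈ sUnitsAdd S, ∃ a : (𝒮.L.field)ˣ, ∃ t' ∈ 𝒮.L.TU,
        (t : QSx S) = e + 𝒮.L.toQS a + p • t')
    (hequiv : ∀ (u : ↥𝒮.U) (χ χ' : ↥(cyShaV (p := p) S 𝒮.W)) (t t' : ↥𝒮.L.TU),
      (χ' : ↥𝒮.W → Fp1 p) = cyConj 𝒮.W 𝒮.normal_W (u : GQ) (χ : ↥𝒮.W → Fp1 p) →
      (t' : QSx S) = (QSx S).ρ (u : GQ) (t : QSx S) →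
      B χ' t' = ((cycloChar p (u : GQ) : (ZMod p)ˣ) : ZMod p) * B χ t)
    {d : FinCMod p 𝒮.Γ → ℤ} (hd : IsAdditive d) :
    d 𝒮.ShaObj = d (dualObj 𝒮.ω (modObj (C := 𝒮.Γ) 𝒮.A (NeZero.ne p))) := by
  have hker : ∀ (χ : ↥(cyShaV (p := p) S 𝒮.W)) (t : ↥𝒮.L.TU), 𝒮.clsAp t = 0 → B χ t = 0 :=
    fun χ t ht => (hright t).2 ((𝒮.clsAp_eq_zero_iff t).1 ht) χ
  refine recip_of_pairing 𝒮.ω 𝒮.ShaObj _ (𝒮.recB B hker) ?_ ?_ ?_ hd
  · -- left
    intro s hs
    have h1 : 𝒮.shaVal s = 0 := hleft _ fun t => by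
      rw [← 𝒮.recB_cls B hker]
      exact hs _
    exact 𝒮.shaVal.injective (by rw [h1, map_zero])
  · -- right
    intro a ha
    obtain ⟨t, rfl⟩ := 𝒮.clsAp_surjective a
    rw [clsAp_eq_zero_iff, ← hright]
    intro χ
    have := ha (𝒮.shaVal.symm χ)
    rwa [recB_cls, AddEquiv.apply_symm_apply] at this
  · -- equivariance
    intro γ s a
    obtain ⟨u, rfl⟩ := 𝒮.proj_surjective γ
    obtain ⟨t, rfl⟩ := 𝒮.clsAp_surjective a
    let t' : ↥𝒮.L.TU := 𝒮.L.actTU (u : GQ) (𝒮.mem_normalizer _) t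
    have e1 : 𝒮.proj u • 𝒮.clsAp t = 𝒮.clsAp t' := (𝒮.clsAp_smul u t t' rfl).symm
    rw [e1, recB_cls, recB_cls]
    exact hequiv u _ _ t t' (𝒮.shaVal_smul u s) rfl

end CycSetup

end Fermat.Agent.S56.EC
end
end MergeWrap_S56_W2_EC_Cyclic_RecipPair

section MergeWrap_S56_W2_EC_Cyclic_RecipObj -- from S56/W2/EC/Cyclic/RecipObj.lean

set_option autoImplicit false
set_option synthInstance.maxHeartbeats 400000
set_option linter.unusedSectionVars false

namespace Fermat.Agent.S56.EC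

open Fermat.Agent.F4 Fermat.Agent.F4Cf ExtCitation

variable {p : ℕ} [Fact p.Prime] {S : Finset Nat.Primes} {hpS : pPrime p ∈ S}

/-- **(N4)** the `recip` field of `CycK0`. -/
theorem CycSetup.recip_field (𝒮 : CycSetup p S) (Pk : ECPack p S hpS)
    (d : FinCMod p 𝒮.Γ → ℤ) (hd : IsAdditive d) :
    d 𝒮.ShaObj = d (dualObj 𝒮.ω (modObj (C := 𝒮.Γ) 𝒮.A (NeZero.ne p))) :=
  𝒮.recip_of_cyB (cyB Pk 𝒮.L 𝒮.hW) (cyB_left Pk 𝒮.L 𝒮.hW) (cyB_right Pk 𝒮.L 𝒮.hW)
    (fun u χ χ' t t' hχ ht => cyB_equiv Pk 𝒮.L 𝒮.hW (u : GQ) χ χ' t t' hχ ht) hd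

end Fermat.Agent.S56.EC
end MergeWrap_S56_W2_EC_Cyclic_RecipObj

section MergeWrap_S56_W2_EC_Cyclic_Main -- from S56/W2/EC/Cyclic/Main.lean

set_option autoImplicit false

namespace Fermat.Agent.S56.EC

open Fermat.Agent.F4 ExtCitation

/-- **(C) + (D)** Tate's formula for modules coinduced from `U ⊇ W`, `p ∤ [U : W]`. -/
theorem psiCoindZero {p : ℕ} [Fact p.Prime] (hp2 : p ≠ 2) {S : Finset Nat.Primes}
    {hpS : pPrime p ∈ S} (Pk : ECPack p S hpS) : PsiCoindZero S Pk.KC :=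
  have _ := hp2
  psiCoindZero_of_recip Pk fun 𝒮 => 𝒮.recip_field Pk

end Fermat.Agent.S56.EC
end MergeWrap_S56_W2_EC_Cyclic_Main

section MergeWrap_S56_W2_EC_Brauer_Main -- from S56/W2/EC/Brauer/Main.lean

set_option autoImplicit false

namespace Fermat.Agent.S56.EC

open Fermat.Agent.F4

/-- **(B)** Brauer–Artin induction. -/
theorem brauerInduction (p : ℕ) [Fact p.Prime] (Γ : Type) [Group Γ] [Finite Γ] :
    BrauerInduction p Γ :=
  brauerInduction_of (brauerNesbitt p Γ) (indCharpoly p Γ) (artinRefined p Γ)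

end Fermat.Agent.S56.EC
end MergeWrap_S56_W2_EC_Brauer_Main

section MergeWrap_S56_W2_EC_TateGlue_Basic -- from S56/W2/EC/TateGlue/Basic.lean

set_option autoImplicit false

namespace Fermat.Agent.S56.EC

open Fermat.Agent.F4 ExtCitation

variable {p : ℕ} [Fact p.Prime] {S : Finset Nat.Primes}

/-- The zero module. -/
noncomputable abbrev tateGlueZero (p : ℕ) [Fact p.Prime] : Rep.{0} (ZMod p) GQ :=
  Rep.of (Representation.trivial (ZMod p) GQ PUnit.{1})

lemma tateGlue_zero_smooth (S : Finset Nat.Primes) : IsSmooth (levelsS S) (tateGlueZero p) := by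
  intro a
  obtain ⟨U, hU⟩ := (levelsS S).nonempty
  exact ⟨U, hU, fun g _ => Subsingleton.elim _ _⟩

/-- `Ψ(0) = 0`. -/
lemma tateGlue_psiK_zero {KC : Cx (ZMod p) GQ} (hA : PsiAdditive S KC) :
    psiK S KC (tateGlueZero p) = 0 := by
  have h := hA (tateGlueZero p) (tateGlueZero p) (tateGlueZero p) 0 0
    (show Module.Finite (ZMod p) PUnit.{1} from inferInstance) (tateGlue_zero_smooth S)
    (fun _ _ => Subsingleton.elim _ _) (fun _ _ => Subsingleton.elim _ _)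
    (fun _ _ _ => Subsingleton.elim _ _) (fun b => ⟨b, Subsingleton.elim _ _⟩)
    (by
      ext x
      constructor
      · intro _; exact Subsingleton.elim _ _
      · intro _; exact ⟨x, Subsingleton.elim _ _⟩)
  linarith

/-- `Ψ` is invariant under bijective equivariant linear maps. -/
lemma tateGlue_psiK_bij {KC : Cx (ZMod p) GQ} (hA : PsiAdditive S KC)
    (X Y : Rep.{0} (ZMod p) GQ) (f : X →ₗ[ZMod p] Y)
    (hf : ∀ (γ : GQ) (x : X), f (X.ρ γ x) = Y.ρ γ (f x)) (hbij : Function.Bijective f)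
    (hfin : Module.Finite (ZMod p) Y) (hsm : IsSmooth (levelsS S) Y) :
    psiK S KC Y = psiK S KC X := by
  have h := hA X Y (tateGlueZero p) f 0 hfin hsm hf
    (fun _ _ => Subsingleton.elim _ _) hbij.1 (fun b => ⟨0, Subsingleton.elim _ _⟩)
    (by
      ext y
      constructor
      · intro _; exact Subsingleton.elim _ _
      · intro _; exact hbij.2 y)
  rw [h, tateGlue_psiK_zero hA, add_zero]

/-- A finite smooth module is fixed pointwise by a level contained in `ker (cycloChar p)`. -/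
lemma tateGlue_exists_level (hpS : pPrime p ∈ S) (N : Rep.{0} (ZMod p) GQ)
    (hN : IsSmooth (levelsS S) N) (hfin : Module.Finite (ZMod p) N) :
    ∃ W ∈ (levelsS S).sets, W ≤ MonoidHom.ker (cycloChar p) ∧
      ∀ g ∈ W, ∀ n : N, N.ρ g n = n := by
  have : Finite N := Module.finite_of_finite (ZMod p)
  obtain ⟨U, hU, hUfix⟩ := hN.coind_exists_level_of_finite Set.univ Set.finite_univ
  obtain ⟨V, hV, hVfix⟩ := isSmooth_Fp1 (p := p) S hpS (1 : ZMod p)
  obtain ⟨W, hW, hWle⟩ := (levelsS S).directed U hU V hV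
  refine ⟨W, hW, fun g hg => ?_, fun g hg n => hUfix n (Set.mem_univ _) g (hWle hg).1⟩
  rw [MonoidHom.mem_ker]
  have h := hVfix g (hWle hg).2
  rw [br_smooth_Fp1_ρ] at h
  apply Units.ext
  rw [Units.val_one]
  have h' : ((cycloChar p g : (ZMod p)ˣ) : ZMod p) * 1 = 1 := h
  rwa [mul_one] at h'

section Quot

variable {W : Subgroup GQ} [W.Normal]

/-- The restriction to `G_ℚ` of a module of `G_ℚ ⧸ W` is smooth. -/
lemma tateGlue_res_smooth (hW : W ∈ (levelsS S).sets) (A : Rep.{0} (ZMod p) (GQ ⧸ W)) :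
    IsSmooth (levelsS S) (Rep.res (QuotientGroup.mk' W) A) := by
  intro a
  refine ⟨W, hW, fun g hg => ?_⟩
  show A.ρ (QuotientGroup.mk' W g) a = a
  have h1 : QuotientGroup.mk' W g = 1 := (QuotientGroup.eq_one_iff g).2 hg
  rw [h1, map_one]
  rfl

/-- `A ↦ Ψ(A|_{G_ℚ})` is additive. -/
lemma tateGlue_additive {KC : Cx (ZMod p) GQ} (hA : PsiAdditive S KC)
    (hW : W ∈ (levelsS S).sets) :
    IsAdditiveFn (p := p) (fun A : Rep.{0} (ZMod p) (GQ ⧸ W) =>
      psiK S KC (Rep.res (QuotientGroup.mk' W) A)) := by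
  intro A' A A'' f g hfin hf hg hinj hsurj hex
  exact hA (Rep.res (QuotientGroup.mk' W) A') (Rep.res (QuotientGroup.mk' W) A)
    (Rep.res (QuotientGroup.mk' W) A'') f g hfin (tateGlue_res_smooth hW A)
    (fun γ x => hf (QuotientGroup.mk' W γ) x) (fun γ x => hg (QuotientGroup.mk' W γ) x)
    hinj hsurj hex

end Quot

end Fermat.Agent.S56.EC
end MergeWrap_S56_W2_EC_TateGlue_Basic

section MergeWrap_S56_W2_EC_TateGlue_Perm -- from S56/W2/EC/TateGlue/Perm.lean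

set_option autoImplicit false

namespace Fermat.Agent.S56.EC

open Fermat.Agent.F4

variable {k G : Type} [CommRing k] [Group G] (𝓤 : Levels G) {W : Subgroup G} [W.Normal]
  (C : Subgroup (G ⧸ W)) (A : Rep.{0} k (G ⧸ W))

/-- `U = π⁻¹(C)`. -/
abbrev tateGlueU : Subgroup G := C.comap (QuotientGroup.mk' W)

/-- `A|_U`. -/
abbrev tateGlueX : Rep.{0} k ↥(tateGlueU C) :=
  Rep.res ((QuotientGroup.mk' W).comp (tateGlueU C).subtype) A

lemma tateGlueX_ρ (u : ↥(tateGlueU C)) (a : A) :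
    (tateGlueX C A).ρ u a = A.ρ (QuotientGroup.mk' W (u : G)) a := rfl

open Classical in
/-- The function `g ↦ π(g) · Φ(δ_{π(g)⁻¹ C})`. -/
noncomputable def tateGlueFun (Φ : (((G ⧸ W) ⧸ C) → k) →ₗ[k] A) (g : G) : A :=
  A.ρ (QuotientGroup.mk' W g)
    (Φ (Pi.single ((((QuotientGroup.mk' W g)⁻¹ : G ⧸ W) : (G ⧸ W) ⧸ C)) (1 : k)))

variable {C A}

lemma tateGlueFun_mem {𝓤 : Levels G} (hW : W ∈ 𝓤.sets) (Φ : (((G ⧸ W) ⧸ C) → k) →ₗ[k] A) :
    tateGlueFun C A Φ ∈ coIndSub (tateGlueU C).subtype 𝓤 (tateGlueX C A) := by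
  refine ⟨fun d x => ?_, W, hW, fun g s hs => ?_⟩
  · have hd : QuotientGroup.mk' W (d : G) ∈ C := d.2
    have hcos : ((((QuotientGroup.mk' W ((tateGlueU C).subtype d * x))⁻¹ : G ⧸ W) :
        (G ⧸ W) ⧸ C)) = (((QuotientGroup.mk' W x)⁻¹ : G ⧸ W) : (G ⧸ W) ⧸ C) := by
      rw [QuotientGroup.eq]
      have : ((QuotientGroup.mk' W ((tateGlueU C).subtype d * x))⁻¹)⁻¹
          * (QuotientGroup.mk' W x)⁻¹ = QuotientGroup.mk' W (d : G) := by
        rw [inv_inv, map_mul, mul_assoc, mul_inv_cancel, mul_one]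
        rfl
      rw [this]
      exact hd
    unfold tateGlueFun
    rw [hcos, tateGlueX_ρ, map_mul, map_mul]
    rfl
  · have h0 : QuotientGroup.mk' W s = 1 := (QuotientGroup.eq_one_iff s).2 hs
    have h1 : QuotientGroup.mk' W (g * s) = QuotientGroup.mk' W g := by
      rw [map_mul, h0, mul_one]
    unfold tateGlueFun
    rw [h1]

variable (C A)

/-- The comparison map `Hom(k[Γ/C], A) → coInd_U^G (A|_U)`. -/
noncomputable def tateGlueT {𝓤 : Levels G} (hW : W ∈ 𝓤.sets) :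
    ((((G ⧸ W) ⧸ C) → k) →ₗ[k] A) →ₗ[k]
      ↥(coIndSub (tateGlueU C).subtype 𝓤 (tateGlueX C A)) where
  toFun Φ := ⟨tateGlueFun C A Φ, tateGlueFun_mem hW Φ⟩
  map_add' Φ Ψ := by
    refine Subtype.ext (funext fun g => ?_)
    show tateGlueFun C A (Φ + Ψ) g = tateGlueFun C A Φ g + tateGlueFun C A Ψ g
    unfold tateGlueFun
    rw [LinearMap.add_apply, map_add]
  map_smul' c Φ := by
    refine Subtype.ext (funext fun g => ?_)
    show tateGlueFun C A (c • Φ) g = c • tateGlueFun C A Φ g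
    unfold tateGlueFun
    rw [LinearMap.smul_apply, map_smul]

variable {C A}

lemma tateGlueT_apply {𝓤 : Levels G} (hW : W ∈ 𝓤.sets) (Φ : (((G ⧸ W) ⧸ C) → k) →ₗ[k] A)
    (g : G) :
    ((tateGlueT C A hW Φ : ↥(coIndSub (tateGlueU C).subtype 𝓤 (tateGlueX C A))) : G → A) g
      = tateGlueFun C A Φ g := rfl

open Classical in
lemma tateGlue_perm_single (γ : G ⧸ W) (y : (G ⧸ W) ⧸ C) :
    (permRep k C).ρ γ (Pi.single y (1 : k)) = Pi.single (γ • y) (1 : k) := by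
  funext x
  rw [permRep_ρ_apply]
  by_cases h : x = γ • y
  · subst h
    rw [inv_smul_smul, Pi.single_eq_same, Pi.single_eq_same]
  · rw [Pi.single_eq_of_ne h, Pi.single_eq_of_ne]
    intro h'
    apply h
    rw [← h', smul_inv_smul]

open Classical in
/-- `T` is equivariant. -/
lemma tateGlueT_equivariant {𝓤 : Levels G} (hW : W ∈ 𝓤.sets) (h : G)
    (Φ : (((G ⧸ W) ⧸ C) → k) →ₗ[k] A) :
    tateGlueT C A hW
        ((Rep.res (QuotientGroup.mk' W) (homRep (permRep k C) A)).ρ h Φ)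
      = (coInd (tateGlueU C).subtype 𝓤 (tateGlueX C A)).ρ h (tateGlueT C A hW Φ) := by
  refine Subtype.ext (funext fun g => ?_)
  rw [coInd_ρ_apply, tateGlueT_apply, tateGlueT_apply]
  unfold tateGlueFun
  have h1 : ((Rep.res (QuotientGroup.mk' W) (homRep (permRep k C) A)).ρ h Φ :
        (((G ⧸ W) ⧸ C) → k) →ₗ[k] A)
      (Pi.single ((((QuotientGroup.mk' W g)⁻¹ : G ⧸ W) : (G ⧸ W) ⧸ C)) (1 : k))
      = A.ρ (QuotientGroup.mk' W h) (Φ ((permRep k C).ρ (QuotientGroup.mk' W h)⁻¹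
          (Pi.single ((((QuotientGroup.mk' W g)⁻¹ : G ⧸ W) : (G ⧸ W) ⧸ C)) (1 : k)))) := rfl
  rw [h1, tateGlue_perm_single]
  have h2 : (QuotientGroup.mk' W h)⁻¹ • ((((QuotientGroup.mk' W g)⁻¹ : G ⧸ W) : (G ⧸ W) ⧸ C))
      = ((((QuotientGroup.mk' W (g * h))⁻¹ : G ⧸ W) : (G ⧸ W) ⧸ C)) := by
    rw [map_mul, mul_inv_rev]
    rfl
  rw [h2, map_mul (QuotientGroup.mk' W) g h, map_mul A.ρ]
  rfl

open Classical in
lemma tateGlue_hom_ext [Finite ((G ⧸ W) ⧸ C)] {Φ Ψ : (((G ⧸ W) ⧸ C) → k) →ₗ[k] A}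
    (h : ∀ y : (G ⧸ W) ⧸ C, Φ (Pi.single y (1 : k)) = Ψ (Pi.single y (1 : k))) : Φ = Ψ := by
  refine LinearMap.pi_ext fun y x => ?_
  have hx : (Pi.single y x : ((G ⧸ W) ⧸ C) → k) = x • Pi.single y (1 : k) := by
    rw [← Pi.single_smul, smul_eq_mul, mul_one]
  rw [hx, map_smul, map_smul, h y]

open Classical in
/-- `T` is injective. -/
lemma tateGlueT_injective [Finite ((G ⧸ W) ⧸ C)] {𝓤 : Levels G} (hW : W ∈ 𝓤.sets) :
    Function.Injective (tateGlueT C A hW (𝓤 := 𝓤)) := by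
  rw [← LinearMap.ker_eq_bot, LinearMap.ker_eq_bot']
  intro Φ hΦ
  refine tateGlue_hom_ext fun y => ?_
  rw [LinearMap.zero_apply]
  induction y using QuotientGroup.induction_on with
  | H γ =>
    obtain ⟨g, hg⟩ := QuotientGroup.mk'_surjective W γ⁻¹
    have h1 : tateGlueFun C A Φ g = 0 := by
      rw [← tateGlueT_apply hW Φ g, hΦ]
      rfl
    unfold tateGlueFun at h1
    rw [hg, inv_inv] at h1
    have h2 := congrArg (A.ρ γ) h1
    rw [map_zero, ← Module.End.mul_apply, ← map_mul, mul_inv_cancel, map_one] at h2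
    exact h2

/-- Left `U`-equivariance in terms of `Γ`. -/
lemma tateGlue_coInd_eq {𝓤 : Levels G}
    (φ : ↥(coIndSub (tateGlueU C).subtype 𝓤 (tateGlueX C A))) (g g' : G)
    (h : QuotientGroup.mk' W g' * (QuotientGroup.mk' W g)⁻¹ ∈ C) :
    (φ : G → A) g' = A.ρ (QuotientGroup.mk' W g' * (QuotientGroup.mk' W g)⁻¹)
      ((φ : G → A) g) := by
  have hu : g' * g⁻¹ ∈ tateGlueU C := by
    show QuotientGroup.mk' W (g' * g⁻¹) ∈ C
    rw [map_mul, map_inv]
    exact h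
  have h1 := coIndSub_equivariant φ ⟨g' * g⁻¹, hu⟩ g
  have h2 : (tateGlueU C).subtype ⟨g' * g⁻¹, hu⟩ * g = g' := by
    show g' * g⁻¹ * g = g'
    rw [inv_mul_cancel_right]
  rw [h2, tateGlueX_ρ] at h1
  rw [h1]
  show A.ρ (QuotientGroup.mk' W (g' * g⁻¹)) _ = _
  rw [map_mul, map_inv]

open Classical in
/-- `T` is surjective. -/
lemma tateGlueT_surjective [Finite ((G ⧸ W) ⧸ C)] {𝓤 : Levels G} (hW : W ∈ 𝓤.sets) :
    Function.Surjective (tateGlueT C A hW (𝓤 := 𝓤)) := by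
  intro φ
  obtain ⟨s, hs⟩ := (QuotientGroup.mk'_surjective W).hasRightInverse
  let v : (G ⧸ W) ⧸ C → A := fun y =>
    A.ρ (Quotient.out y) ((φ : G → A) (s (Quotient.out y)⁻¹))
  refine ⟨(Pi.basisFun k ((G ⧸ W) ⧸ C)).constr k v, Subtype.ext (funext fun g => ?_)⟩
  rw [tateGlueT_apply]
  unfold tateGlueFun
  have hb : (Pi.single ((((QuotientGroup.mk' W g)⁻¹ : G ⧸ W) : (G ⧸ W) ⧸ C)) (1 : k))
      = Pi.basisFun k ((G ⧸ W) ⧸ C) ((((QuotientGroup.mk' W g)⁻¹ : G ⧸ W) : (G ⧸ W) ⧸ C)) := by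
    rw [Pi.basisFun_apply]
  rw [hb, Module.Basis.constr_basis]
  show A.ρ (QuotientGroup.mk' W g) (A.ρ _ ((φ : G → A) _)) = _
  set γ₀ : G ⧸ W := Quotient.out ((((QuotientGroup.mk' W g)⁻¹ : G ⧸ W) : (G ⧸ W) ⧸ C))
    with hγ₀
  have hout : ((γ₀ : G ⧸ W) : (G ⧸ W) ⧸ C)
      = (((QuotientGroup.mk' W g)⁻¹ : G ⧸ W) : (G ⧸ W) ⧸ C) := Quotient.out_eq _
  have hmem : γ₀⁻¹ * (QuotientGroup.mk' W g)⁻¹ ∈ C := QuotientGroup.eq.1 hout
  have hs' : QuotientGroup.mk' W (s γ₀⁻¹) = γ₀⁻¹ := hs _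
  have hmem' : QuotientGroup.mk' W (s γ₀⁻¹) * (QuotientGroup.mk' W g)⁻¹ ∈ C := by
    rw [hs']
    exact hmem
  rw [tateGlue_coInd_eq φ g (s γ₀⁻¹) hmem', hs', ← Module.End.mul_apply, ← Module.End.mul_apply,
    ← map_mul, ← map_mul]
  have : QuotientGroup.mk' W g * γ₀ * (γ₀⁻¹ * (QuotientGroup.mk' W g)⁻¹) = 1 := by group
  rw [this, map_one]
  rfl

end Fermat.Agent.S56.EC
end MergeWrap_S56_W2_EC_TateGlue_Perm

section MergeWrap_S56_W2_EC_TateGlue_Main -- from S56/W2/EC/TateGlue/Main.lean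

set_option autoImplicit false

namespace Fermat.Agent.S56.EC

open Fermat.Agent.F4 ExtCitation

variable {p : ℕ} [Fact p.Prime] {S : Finset Nat.Primes}

lemma tateGlue_index {G : Type} [Group G] {W : Subgroup G} [W.Normal] (C : Subgroup (G ⧸ W)) :
    (W.subgroupOf (tateGlueU C)).index = Nat.card C := by
  have h1 : (⊥ : Subgroup (G ⧸ W)).comap (QuotientGroup.mk' W) = W := by
    rw [MonoidHom.comap_bot, QuotientGroup.ker_mk']
  have h3 : ((⊥ : Subgroup (G ⧸ W)).comap (QuotientGroup.mk' W)).relIndex (tateGlueU C)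
      = Nat.card C := by
    rw [Subgroup.relIndex_comap, Subgroup.map_comap_eq_self_of_surjective
      (QuotientGroup.mk'_surjective W), Subgroup.relIndex_bot_left]
  have h4 : ∀ V : Subgroup G, V = W → V.relIndex (tateGlueU C) = Nat.card C → 
      (W.subgroupOf (tateGlueU C)).index = Nat.card C := by
    intro V hV h
    subst hV
    exact h
  exact h4 _ h1 h3

lemma tateGlue_le {G : Type} [Group G] {W : Subgroup G} [W.Normal] (C : Subgroup (G ⧸ W)) :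
    W ≤ tateGlueU C := by
  intro g hg
  show QuotientGroup.mk' W g ∈ C
  have h0 : QuotientGroup.mk' W g = 1 := (QuotientGroup.eq_one_iff g).2 hg
  rw [h0]
  exact C.one_mem

/-- `Ψ(Hom(𝔽_p[Γ/C], A)|_{G_ℚ}) = 0`. -/
lemma tateGlue_perm_zero {KC : Cx (ZMod p) GQ} (hA : PsiAdditive S KC)
    (hC : PsiCoindZero S KC) {W : Subgroup GQ} [W.Normal] [Finite (GQ ⧸ W)]
    (hW : W ∈ (levelsS S).sets) (hWker : W ≤ MonoidHom.ker (cycloChar p))
    (C : Subgroup (GQ ⧸ W)) (hCp : ¬ p ∣ Nat.card C) (A : Rep.{0} (ZMod p) (GQ ⧸ W))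
    (hfin : Module.Finite (ZMod p) A) :
    psiK S KC (Rep.res (QuotientGroup.mk' W) (homRep (permRep (ZMod p) C) A)) = 0 := by
  have hidx : ¬ p ∣ (W.subgroupOf (tateGlueU C)).index := by
    rw [tateGlue_index]
    exact hCp
  have hfinX : Module.Finite (ZMod p) (tateGlueX C A) := hfin
  have h0 := hC W (tateGlueU C) hW (tateGlue_le C) hWker hidx (tateGlueX C A) hfinX
    (fun u hu x => by
      rw [tateGlueX_ρ]
      have h0 : QuotientGroup.mk' W (u : GQ) = 1 := (QuotientGroup.eq_one_iff _).2 hu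
      rw [h0, map_one]
      rfl)
  have hfinM : Module.Finite (ZMod p) ((((GQ ⧸ W) ⧸ C) → ZMod p) →ₗ[ZMod p] A) :=
    inferInstance
  have hbij : Function.Bijective (tateGlueT C A hW (𝓤 := levelsS S)) :=
    ⟨tateGlueT_injective hW, tateGlueT_surjective hW⟩
  have hfinY : Module.Finite (ZMod p) (coInd (tateGlueU C).subtype (levelsS S) (tateGlueX C A)) :=
    Module.Finite.of_surjective (tateGlueT C A hW (𝓤 := levelsS S)) hbij.2
  have h1 := tateGlue_psiK_bij hA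
    (Rep.res (QuotientGroup.mk' W) (homRep (permRep (ZMod p) C) A))
    (coInd (tateGlueU C).subtype (levelsS S) (tateGlueX C A))
    (tateGlueT C A hW (𝓤 := levelsS S))
    (fun γ x => tateGlueT_equivariant hW γ x) hbij hfinY (coInd_smooth _)
  rw [← h1, h0]

end Fermat.Agent.S56.EC
end MergeWrap_S56_W2_EC_TateGlue_Main

section MergeWrap_S56_W2_EC_Tate -- from S56/W2/EC/Tate.lean

set_option autoImplicit false

namespace Fermat.Agent.S56.EC

open Fermat.Agent.F4 ExtCitation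

/-- **(T)** Tate's formula from (A), (B), (C) + (D). -/
theorem psiZero_of {p : ℕ} [Fact p.Prime] {S : Finset Nat.Primes} (hpS : pPrime p ∈ S)
    (KC : Cx (ZMod p) GQ) (hA : PsiAdditive S KC) (hC : PsiCoindZero S KC)
    (hB : ∀ (Γ : Type) [Group Γ] [Finite Γ], BrauerInduction p Γ) : PsiZero S KC := by
  intro N hN hfin
  obtain ⟨W, hW, hWker, hWfix⟩ := tateGlue_exists_level hpS N hN hfin
  have hnorm : W.Normal := (levelsS S).normal W hW
  have hfi : W.FiniteIndex := (levelsS S).finiteIndex W hW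
  have hfq : Finite (GQ ⧸ W) := Subgroup.finite_quotient_of_finiteIndex
  have htriv : Representation.IsTrivial (N.ρ.comp W.subtype) :=
    ⟨fun g => LinearMap.ext fun n => hWfix g g.2 n⟩
  have h := hB (GQ ⧸ W) (fun A => psiK S KC (Rep.res (QuotientGroup.mk' W) A))
    (tateGlue_additive hA hW)
    (fun C _ hCp A hfinA => tateGlue_perm_zero hA hC hW hWker C hCp A hfinA)
    (N.ofQuotient W) hfin
  exact h

end Fermat.Agent.S56.EC
end MergeWrap_S56_W2_EC_Tate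

section MergeWrap_S56_W2_EC_LowerLoc -- from S56/W2/EC/LowerLoc.lean

set_option autoImplicit false
set_option linter.style.haveILetI false

open CategoryTheory groupCohomology ExtCitation Module

namespace Fermat.Agent.S56.EC

open Fermat.Agent.F4

variable {p : ℕ} [Fact p.Prime] {S : Finset Nat.Primes} (D : GlobalDatum p S)

/-- **Shapiro in degree `1`, injectivity** (the shape of `D.shapiro2`, one degree lower): a class
of `HH¹(Hom(N, KJ))` which is locally trivial is trivial. -/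
def EclSh1Inj : Prop :=
  ∀ (N : Rep.{0} (ZMod p) GQ), IsSmooth (levelsS S) N → Module.Finite (ZMod p) N →
    ∀ z : ↥(ZZ1 (levelsS S) (homCx N D.KJ)),
      (∀ q : ↥S, (homCxPost (Rep.res (primeLocalToGlobal q.1) N) (D.ev q)).onT1
            (resHomT1 (primeLocalToGlobal q.1) N D.KJ z.1)
          ∈ BB1 (homCx (Rep.res (primeLocalToGlobal q.1) N) (D.loc q).K)) →
        (z : T1 (homCx N D.KJ)) ∈ BB1 (homCx N D.KJ)

/-- **Shapiro in degree `0`**: the product of the local `HH⁰` embeds into `HH⁰(Hom(N, KJ))`. -/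
def EclSh0Inj : Prop :=
  ∀ (N : Rep.{0} (ZMod p) GQ), IsSmooth (levelsS S) N → Module.Finite (ZMod p) N →
    ∃ Φ : ((q : ↥S) → ↥(HH0 (homCx (Rep.res (primeLocalToGlobal q.1) N) (D.loc q).K)))
        →ₗ[ZMod p] ↥(HH0 (homCx N D.KJ)), Function.Injective Φ

section Sh1

variable {D}
variable (A : Rep.{0} (ZMod p) GQ)
  (θ : A ≃ₗ[ZMod p] (A.dualTwist (cycloChar p) →ₗ[ZMod p] Fp1 p))
  (hθ : ∀ (g : GQ) (m : A) (m' : A.dualTwist (cycloChar p)),
    θ (A.ρ g m) m' = (Fp1 p).ρ g (θ m ((A.dualTwist (cycloChar p)).ρ g⁻¹ m')))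

/-- The element `ε ∘ θ a` of `Hom(A^*(1), K_q⁰)`. -/
noncomputable def eclLocElt (q : ↥S) (a : A) :
    (homCx (Rep.res (primeLocalToGlobal q.1) (A.dualTwist (cycloChar p))) (D.loc q).K).K0 :=
  ((D.loc q).ε.f0 : Fp1 p →ₗ[ZMod p] (D.loc q).K.K0).comp (θ a)

lemma eclLocElt_apply (q : ↥S) (a : A) (n : A.dualTwist (cycloChar p)) :
    (eclLocElt A θ q a : A.dualTwist (cycloChar p) →ₗ[ZMod p] (D.loc q).K.K0) n =
      (D.loc q).ε.f0 (θ a n) := rfl

include hθ in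
/-- `h • (ε ∘ θ a) = ε ∘ θ (h a)`. -/
lemma eclLocElt_ρ (q : ↥S) (a : A) (h : primeLocalGaloisGroup q.1) :
    (homCx (Rep.res (primeLocalToGlobal q.1) (A.dualTwist (cycloChar p))) (D.loc q).K).K0.ρ h
        (eclLocElt A θ q a) =
      eclLocElt A θ q (A.ρ (primeLocalToGlobal q.1 h) a) := by
  refine LinearMap.ext fun n => ?_
  show (D.loc q).K.K0.ρ h ((D.loc q).ε.f0
      (θ a ((A.dualTwist (cycloChar p)).ρ (primeLocalToGlobal q.1 h⁻¹) n))) =
    (D.loc q).ε.f0 (θ (A.ρ (primeLocalToGlobal q.1 h) a) n)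
  rw [hθ, map_inv]
  exact ((D.loc q).ε.comm0 h
    (θ a ((A.dualTwist (cycloChar p)).ρ (primeLocalToGlobal q.1 h)⁻¹ n))).symm

/-- `d (ε ∘ θ a) = 0`. -/
lemma eclLocElt_d (q : ↥S) (a : A) :
    (homCx (Rep.res (primeLocalToGlobal q.1) (A.dualTwist (cycloChar p))) (D.loc q).K).d
      (eclLocElt A θ q a) = 0 := by
  refine LinearMap.ext fun n => ?_
  have h1 := (D.loc q).ε.commd (θ a n)
  have h2 : (D.loc q).ε.f1 ((locMu p q.1).d (θ a n)) = 0 := map_zero _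
  exact h1.symm.trans h2

/-- A class of `Ш¹_S(A)` restricts to a coboundary at every `q ∈ S`. -/
lemma ecl_sha_coboundary (y : ↥(Z1 (levelsS S) A))
    (hy : H1smπ (levelsS S) A y ∈ sha1sm S A) (q : ↥S) :
    ∃ a : A, ∀ h : primeLocalGaloisGroup q.1,
      y.1 (primeLocalToGlobal q.1 h) = A.ρ (primeLocalToGlobal q.1 h) a - a := by
  have h1 : locSm1Total S A (H1smπ (levelsS S) A y) = 0 := hy
  have h2 : locSm1 S A q.1 (H1smπ (levelsS S) A y) = 0 := congrFun h1 q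
  have h3 : H1smπ (locLevelsS S q.1) (Rep.res (primeLocalToGlobal q.1) A)
      (Z1res (levelsS S) A (primeLocalToGlobal q.1) y) = 0 := h2
  rw [H1smπ_eq_zero_iff] at h3
  obtain ⟨a, ha⟩ := h3
  exact ⟨a, fun h => (congrFun ha h).symm⟩

include hθ in
/-- **`hSh1`**: the classes of `Ш¹_S(A)` die in `HH¹(Hom(A^*(1), KJ))`. -/
theorem ecl_hSh1 (hR1 : EclSh1Inj D) (hA' : IsSmooth (levelsS S) (A.dualTwist (cycloChar p)))
    (hfin' : Module.Finite (ZMod p) (A.dualTwist (cycloChar p)))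
    (y : ↥(Z1 (levelsS S) A)) (hy : H1smπ (levelsS S) A y ∈ sha1sm S A) :
    (homCxPost (A.dualTwist (cycloChar p)) D.f).t1 (ptToHom1 θ y.1) ∈
      BB1 (homCx (A.dualTwist (cycloChar p)) D.KJ) := by
  have hz := hR1 _ hA' hfin' ((homCxPost (A.dualTwist (cycloChar p)) D.f).zz1 (levelsS S)
    ((eclPhi θ hθ).zz1 (levelsS S) ((ecaddZ1 (levelsS S) A).symm y))) (fun q => by
      obtain ⟨a, ha⟩ := ecl_sha_coboundary A y hy q
      rw [mem_BB1_iff]
      refine ⟨eclLocElt A θ q a, ?_⟩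
      rw [D0_apply, eclLocElt_d]
      refine Prod.ext (funext fun h => ?_) ?_
      · show (homCx (Rep.res (primeLocalToGlobal q.1) (A.dualTwist (cycloChar p)))
            (D.loc q).K).K0.ρ h (eclLocElt A θ q a) - eclLocElt A θ q a = _
        rw [eclLocElt_ρ A θ hθ]
        refine LinearMap.ext fun n => ?_
        show (D.loc q).ε.f0 (θ (A.ρ (primeLocalToGlobal q.1 h) a) n) -
            (D.loc q).ε.f0 (θ a n) =
          (D.ev q).f0 (D.f.f0 (θ (y.1 (primeLocalToGlobal q.1 h)) n))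
        have e1 : θ (y.1 (primeLocalToGlobal q.1 h)) n =
            θ (A.ρ (primeLocalToGlobal q.1 h) a) n - θ a n := by
          rw [ha h, map_sub, LinearMap.sub_apply]
        rw [D.ev_f, e1]
        exact (map_sub (D.loc q).ε.f0 _ _).symm
      · refine LinearMap.ext fun n => ?_
        have h0 : D.f.f1 (0 : (Cx.deg0 (Fp1 p)).K1) = 0 := map_zero _
        show (0 : (D.loc q).K.K1) =
          (D.ev q).f1 (show (D.KJ.res (primeLocalToGlobal q.1)).K1 from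
            D.f.f1 (0 : (Cx.deg0 (Fp1 p)).K1))
        rw [h0]
        exact (map_zero (D.ev q).f1).symm)
  have e : (((homCxPost (A.dualTwist (cycloChar p)) D.f).zz1 (levelsS S)
      ((eclPhi θ hθ).zz1 (levelsS S) ((ecaddZ1 (levelsS S) A).symm y)) :
        ↥(ZZ1 (levelsS S) (homCx (A.dualTwist (cycloChar p)) D.KJ))) :
          T1 (homCx (A.dualTwist (cycloChar p)) D.KJ)) =
      (homCxPost (A.dualTwist (cycloChar p)) D.f).t1 (ptToHom1 θ y.1) := by
    exact congrArg (homCxPost (A.dualTwist (cycloChar p)) D.f).t1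
      (eclHH1_symm_mk_coe (levelsS S) θ hθ y)
  rw [← e]
  exact hz

end Sh1

section Sh0

variable {D}
variable (A : Rep.{0} (ZMod p) GQ)
  (θ : A ≃ₗ[ZMod p] (A.dualTwist (cycloChar p) →ₗ[ZMod p] Fp1 p))
  (hθ : ∀ (g : GQ) (m : A) (m' : A.dualTwist (cycloChar p)),
    θ (A.ρ g m) m' = (Fp1 p).ρ g (θ m ((A.dualTwist (cycloChar p)).ρ g⁻¹ m')))

include hθ in
/-- `ε ∘ θ a ∈ Hom_{D_q}(A^*(1), K_q)` for `a ∈ H⁰(G_q, A)`. -/
lemma eclLocElt_mem (q : ↥S) (a : A) (ha : a ∈ H0loc A q.1) :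
    eclLocElt A θ q a ∈
      HH0 (homCx (Rep.res (primeLocalToGlobal q.1) (A.dualTwist (cycloChar p))) (D.loc q).K) := by
  rw [HH0, LinearMap.mem_ker, D0_apply, eclLocElt_d]
  refine Prod.ext (funext fun h => ?_) rfl
  show (homCx (Rep.res (primeLocalToGlobal q.1) (A.dualTwist (cycloChar p)))
      (D.loc q).K).K0.ρ h (eclLocElt A θ q a) - eclLocElt A θ q a = 0
  rw [eclLocElt_ρ A θ hθ, ha h, sub_self]

lemma eclLocElt_add (q : ↥S) (a b : A) :
    eclLocElt (D := D) A θ q (a + b) = eclLocElt A θ q a + eclLocElt A θ q b := by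
  refine LinearMap.ext fun n => ?_
  have e1 : θ (a + b) n = θ a n + θ b n := by rw [map_add, LinearMap.add_apply]
  show (D.loc q).ε.f0 (θ (a + b) n) = (D.loc q).ε.f0 (θ a n) + (D.loc q).ε.f0 (θ b n)
  rw [e1]
  exact map_add (D.loc q).ε.f0 _ _

lemma eclLocElt_smul (q : ↥S) (c : ZMod p) (a : A) :
    eclLocElt (D := D) A θ q (c • a) = c • eclLocElt A θ q a := by
  refine LinearMap.ext fun n => ?_
  have e1 : θ (c • a) n = c • θ a n := by rw [map_smul, LinearMap.smul_apply]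
  show (D.loc q).ε.f0 (θ (c • a) n) = c • (D.loc q).ε.f0 (θ a n)
  rw [e1]
  exact map_smul (D.loc q).ε.f0 _ _

lemma eclLocElt_injective (q : ↥S) : Function.Injective (eclLocElt (D := D) A θ q) := by
  intro a b hab
  refine θ.injective (LinearMap.ext fun n => ?_)
  exact (D.loc q).ε_inj (LinearMap.congr_fun hab n)

/-- The local injection `H⁰(G_q, A) → Hom_{D_q}(A^*(1), K_q)`, `a ↦ ε ∘ θ a`. -/
noncomputable def eclLocInj (q : ↥S) :
    ↥(H0loc A q.1) →ₗ[ZMod p]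
      ↥(HH0 (homCx (Rep.res (primeLocalToGlobal q.1) (A.dualTwist (cycloChar p)))
        (D.loc q).K)) where
  toFun a := ⟨eclLocElt A θ q a.1, eclLocElt_mem A θ hθ q a.1 a.2⟩
  map_add' a b := Subtype.ext (eclLocElt_add A θ q a.1 b.1)
  map_smul' c a := Subtype.ext (eclLocElt_smul A θ q c a.1)

lemma eclLocInj_injective (q : ↥S) : Function.Injective (eclLocInj (D := D) A θ hθ q) := by
  intro a b hab
  exact Subtype.ext (eclLocElt_injective A θ q (congrArg Subtype.val hab))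

include hθ in
/-- **`hSh0`**: `Σ_{v ∈ S} dim H⁰(G_v, A) ≤ dim Hom_G(A^*(1), KJ)`. -/
theorem ecl_hSh0 (hR0 : EclSh0Inj D) (hA' : IsSmooth (levelsS S) (A.dualTwist (cycloChar p)))
    (hfin' : Module.Finite (ZMod p) (A.dualTwist (cycloChar p)))
    [hfin : Module.Finite (ZMod p) A]
    (hJ : Module.Finite (ZMod p) ↥(HH0 (homCx (A.dualTwist (cycloChar p)) D.KJ))) :
    ∑ v ∈ S, finrank (ZMod p) ↥(H0loc A v) ≤
      finrank (ZMod p) ↥(HH0 (homCx (A.dualTwist (cycloChar p)) D.KJ)) := by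
  obtain ⟨Φ, hΦ⟩ := hR0 _ hA' hfin'
  have e1 : ∑ v ∈ S, finrank (ZMod p) ↥(H0loc A v) =
      ∑ q : ↥S, finrank (ZMod p) ↥(H0loc A q.1) :=
    (Finset.sum_coe_sort S (fun v => finrank (ZMod p) ↥(H0loc A v))).symm
  rw [e1, ← Module.finrank_pi_fintype (ZMod p) (M := fun q : ↥S => ↥(H0loc A q.1))]
  refine LinearMap.finrank_le_finrank_of_injective
    (f := Φ.comp (LinearMap.pi fun q : ↥S =>
      (eclLocInj (D := D) A θ hθ q).comp (LinearMap.proj q))) ?_
  refine hΦ.comp ?_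
  intro a b hab
  funext q
  exact eclLocInj_injective A θ hθ q (congrFun hab q)

end Sh0

/-- **(E), abstract form**: the conclusion of `ECLower` from Tate's formula `Ψ = 0`, the
finiteness of `Hom_G(-, KC)` and Shapiro's lemma for `KJ` in degrees `0` and `1`. -/
theorem ecLower_of (hp2 : p ≠ 2) (hpS : pPrime p ∈ S) (hR1 : EclSh1Inj D) (hR0 : EclSh0Inj D)
    (h0 : FiniteHom0 S D.KC) (hΨ : PsiZero S D.KC) (A : Rep.{0} (ZMod p) GQ)
    (hfin : Module.Finite (ZMod p) A) (hsm : IsSmooth (levelsS S) A) :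
    Finite (H1sm (levelsS S) (A.dualTwist (cycloChar p))) ∧
    Nat.card (H0glob (A.dualTwist (cycloChar p))) * Nat.card (sha1sm S A) *
        (∏ v ∈ S, Nat.card (H0loc A v)) * Nat.card (H0arch A)
      ≤ Nat.card (H1sm (levelsS S) (A.dualTwist (cycloChar p))) * Nat.card (H0glob A) := by
  have hA' : IsSmooth (levelsS S) (A.dualTwist (cycloChar p)) := isSmooth_dualTwist S hpS A hsm
  have hfin' : Module.Finite (ZMod p) (A.dualTwist (cycloChar p)) := by
    show Module.Finite (ZMod p) (Module.Dual (ZMod p) A)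
    infer_instance
  obtain ⟨θ, hθ⟩ := exists_dualTwistEquiv A
  have hC := h0 _ hA' hfin'
  have hJ : Module.Finite (ZMod p) ↥(HH0 (homCx (A.dualTwist (cycloChar p)) D.KJ)) :=
    ecl_finite_HH0_KJ D _ A θ hθ
  exact ecLowerAbs D hp2 hpS A hfin hsm θ hθ (hΨ _ hA' hfin') hC
    (ecl_hSh0 A θ hθ hR0 hA' hfin' hJ)
    (fun y hy => ecl_hSh1 A θ hθ hR1 hA' hfin' y hy)

end Fermat.Agent.S56.EC
end MergeWrap_S56_W2_EC_LowerLoc

section MergeWrap_S56_W2_EC_Rich_Sh1Inj -- from S56/W2/EC/Rich/Sh1Inj.lean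

set_option autoImplicit false

open CategoryTheory groupCohomology ExtCitation

namespace Fermat.Agent.F4

section Coind

variable {k D G : Type} [CommRing k] [Group D] [Group G] (r : D →* G) (𝓤 : Levels G) (K : Cx k D)

/-- **Shapiro's lemma in degree 1** (injectivity, on cochains). -/
theorem ecR_shapiro1inj_coInd (Z : T1 (K.coInd r 𝓤)) (hZ : Z ∈ ZZ1 𝓤 (K.coInd r 𝓤))
    (h : (evCx r 𝓤 K).onT1 (resT1 r (K.coInd r 𝓤) Z) ∈ BB1 K) : Z ∈ BB1 (K.coInd r 𝓤) := by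
  obtain ⟨α, β⟩ := Z
  obtain ⟨hz1, hz2, hz3⟩ := (mem_ZZ1_iff 𝓤 _ (α, β)).1 hZ
  obtain ⟨c, hc⟩ := (mem_BB1_iff K _).1 h
  simp only at hz1 hz2 hz3
  -- function forms
  set αf : G → G → K.K0 := fun g x => K.coIndFun0 r 𝓤 (α g) x with hαf
  set βf : G → K.K1 := fun x => K.coIndFun1 r 𝓤 β x with hβf
  -- the cocycle relations, evaluated
  have hcoc : ∀ g h x, αf h (x * g) - αf (g * h) x + αf g x = 0 := by
    intro g h x
    have := congrFun hz1 (g, h)
    simp only [δ1_apply, Pi.zero_apply] at this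
    exact congrFun (congrArg Subtype.val this) x
  have hdα : ∀ g x, K.d (αf g x) = βf (x * g) - βf x := by
    intro g x
    have := congrFun hz2 g
    simp only [Cx.dco_apply, δ0_apply] at this
    exact congrFun (congrArg Subtype.val this) x
  -- the hypothesis, evaluated
  have hc0 : ∀ d : D, αf (r d) 1 = K.K0.ρ d c - c := by
    intro d
    have := congrFun (congrArg Prod.fst hc) d
    simp only [D0_apply, δ0_apply] at this
    exact this.symm
  have hc1 : βf 1 = K.d c := by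
    have := congrArg Prod.snd hc
    simp only [D0_apply] at this
    exact this.symm
  -- equivariance of the values
  have hαeq : ∀ g (d : D) x, αf g (r d * x) = K.K0.ρ d (αf g x) :=
    fun g d x => K.coIndFun0_equivariant r 𝓤 (α g) d x
  -- the primitive
  have hφ : (fun x : G => αf x 1 + c) ∈ coIndSub r 𝓤 K.K0 := by
    refine ⟨fun d x => ?_, ?_⟩
    · show αf (r d * x) 1 + c = K.K0.ρ d (αf x 1 + c)
      have h1 := hcoc (r d) x 1
      rw [one_mul] at h1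
      have h2 := hαeq x d 1
      rw [mul_one] at h2
      have h3 : αf (r d * x) 1 = αf x (r d) + αf (r d) 1 := by
        have := sub_eq_zero.1 (show αf x (r d) + αf (r d) 1 - αf (r d * x) 1 = 0 by
          rw [← h1]; abel)
        exact this.symm
      rw [h3, h2, hc0 d, map_add]
      abel
    · obtain ⟨U, hU, hUα⟩ := hz3
      refine ⟨U, hU, fun x s hs => ?_⟩
      show αf (x * s) 1 + c = αf x 1 + c
      have := hUα x s hs
      show K.coIndFun0 r 𝓤 (α (x * s)) 1 + c = K.coIndFun0 r 𝓤 (α x) 1 + c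
      rw [this]
  refine (mem_BB1_iff _ _).2 ⟨(⟨_, hφ⟩ : ↥(coIndSub r 𝓤 K.K0)), ?_⟩
  refine Prod.ext (funext fun g => Subtype.ext (funext fun x => ?_)) (Subtype.ext (funext fun x => ?_))
  · show (αf (x * g) 1 + c) - (αf x 1 + c) = αf g x
    have h1 := hcoc x g 1
    rw [one_mul] at h1
    have : αf g x = αf (x * g) 1 - αf x 1 := by
      have := sub_eq_zero.1 (show αf g x - (αf (x * g) 1 - αf x 1) = 0 by rw [← h1]; abel)
      exact this
    rw [this]
    abel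
  · show K.d (αf x 1 + c) = βf x
    have h1 := hdα x 1
    rw [one_mul] at h1
    rw [map_add, h1, hc1]
    abel

end Coind

/-! ### With coefficients -/

section Hom

variable {k D G : Type} [Field k] [Group D] [Group G] (r : D →* G) (𝓤 : Levels G) (K : Cx k D)
  (N : Rep.{0} k G)

/-- **Shapiro in degree 1 with coefficients** (injectivity, on cochains). -/
theorem ecR_shapiro1inj_hom (hN : IsSmooth 𝓤 N) [hfin : Module.Finite k N]
    (z : T1 (homCx N (K.coInd r 𝓤))) (hz : z ∈ ZZ1 𝓤 (homCx N (K.coInd r 𝓤)))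
    (h : (homCxPost (Rep.res r N) (evCx r 𝓤 K)).onT1 (resHomT1 r N (K.coInd r 𝓤) z)
      ∈ BB1 (homCx (Rep.res r N) K)) :
    z ∈ BB1 (homCx N (K.coInd r 𝓤)) := by
  have hZ := CxHom.onT1_mem_ZZ1 (swapFromCx r 𝓤 hN K) 𝓤 hz
  have hev : (evCx r 𝓤 (homCx (Rep.res r N) K)).onT1
      (resT1 r ((homCx (Rep.res r N) K).coInd r 𝓤) ((swapFromCx r 𝓤 hN K).onT1 z))
      = (homCxPost (Rep.res r N) (evCx r 𝓤 K)).onT1 (resHomT1 r N (K.coInd r 𝓤) z) := by
    refine Prod.ext (funext fun d => LinearMap.ext fun n => ?_) (LinearMap.ext fun n => ?_)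
    · show K.coIndFun0 r 𝓤 ((z.1 (r d) : N →ₗ[k] (K.coInd r 𝓤).K0) (N.ρ 1⁻¹ n)) 1 = _
      rw [inv_one, map_one, Module.End.one_apply]
      rfl
    · show K.coIndFun1 r 𝓤 ((z.2 : N →ₗ[k] (K.coInd r 𝓤).K1) (N.ρ 1⁻¹ n)) 1 = _
      rw [inv_one, map_one, Module.End.one_apply]
      rfl
  rw [← hev] at h
  have hB := ecR_shapiro1inj_coInd r 𝓤 (homCx (Rep.res r N) K) _ hZ h
  have hB' := CxHom.onT1_mem_BB1 (swapToCx r 𝓤 hN K) hB
  have e : (swapToCx r 𝓤 hN K).onT1 ((swapFromCx r 𝓤 hN K).onT1 z) = z := by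
    refine Prod.ext (funext fun g => ?_) ?_
    · exact swapTo_swapFrom r 𝓤 hN K.K0 (z.1 g)
    · exact swapTo_swapFrom r 𝓤 hN K.K1 z.2
  rwa [e] at hB'

end Hom

/-! ### Products -/

section Pi

variable {k G : Type} [CommRing k] [Group G] {ι : Type} (N : Rep.{0} k G) (K : ι → Cx k G)

/-- The projections are jointly injective on total 1-cochains of `Hom(N, ∏ K)`. -/
lemma ecR_pi_T1_ext {w w' : T1 (homCx N (Cx.pi K))}
    (h : ∀ i, (homCxPost N (Cx.piProj K i)).onT1 w = (homCxPost N (Cx.piProj K i)).onT1 w') :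
    w = w' := by
  refine Prod.ext (funext fun g => LinearMap.ext fun n => funext fun i => ?_)
    (LinearMap.ext fun n => funext fun i => ?_)
  · have := congrArg (fun f : N →ₗ[k] (K i).K0 => f n) (congrFun (congrArg Prod.fst (h i)) g)
    exact this
  · have := congrArg (fun f : N →ₗ[k] (K i).K1 => f n) (congrArg Prod.snd (h i))
    exact this

/-- Membership in `BB¹` of `Hom(N, ∏ K)` is tested on the factors. -/
lemma ecR_pi_mem_BB1 (z : T1 (homCx N (Cx.pi K)))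
    (h : ∀ i, (homCxPost N (Cx.piProj K i)).onT1 z ∈ BB1 (homCx N (K i))) :
    z ∈ BB1 (homCx N (Cx.pi K)) := by
  have h' := fun i => (mem_BB1_iff _ _).1 (h i)
  choose x hx using h'
  refine (mem_BB1_iff _ _).2
    ⟨(LinearMap.pi fun i => (x i : N →ₗ[k] (K i).K0) : N →ₗ[k] (∀ i, (K i).K0)), ?_⟩
  refine ecR_pi_T1_ext N K fun i => ?_
  exact ((CxHom.D0_f0 (homCxPost N (Cx.piProj K i)) _).symm).trans (hx i)

end Pi

section CoindPi

variable {k G : Type} [Field k] [Group G] {ι : Type} {D : ι → Type} [∀ i, Group (D i)]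
  (r : ∀ i, D i →* G) (𝓤 : Levels G) (K : ∀ i, Cx k (D i)) (N : Rep.{0} k G)

/-- **Shapiro in degree 1 for `∏ coInd K`** (injectivity, on cochains). -/
theorem ecR_shapiro1inj_pi [Finite ι] (hN : IsSmooth 𝓤 N) [hfin : Module.Finite k N]
    (z : T1 (homCx N (coindPiCx r 𝓤 K))) (hz : z ∈ ZZ1 𝓤 (homCx N (coindPiCx r 𝓤 K)))
    (h : ∀ i, (homCxPost (Rep.res (r i) N) (evPi r 𝓤 K i)).onT1
        (resHomT1 (r i) N (coindPiCx r 𝓤 K) z) ∈ BB1 (homCx (Rep.res (r i) N) (K i))) :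
    z ∈ BB1 (homCx N (coindPiCx r 𝓤 K)) := by
  refine ecR_pi_mem_BB1 N (fun i => (K i).coInd (r i) 𝓤) z fun i => ?_
  refine ecR_shapiro1inj_hom (r i) 𝓤 (K i) N hN _
    (CxHom.onT1_mem_ZZ1 (homCxPost N (Cx.piProj (fun i => (K i).coInd (r i) 𝓤) i)) 𝓤 hz) ?_
  exact h i

end CoindPi

/-! ### The complex `KJ` -/

section KJ

variable {p : ℕ} [Fact p.Prime] {S : Finset Nat.Primes} (loc : ∀ q : ↥S, LocalDatum p S q.1)

/-- **Shapiro in degree 1 for `KJ`, injectivity**: a class of `Hom(N, KJ)` which is locally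
trivial is trivial. -/
theorem ecR_coind_shapiro1inj (N : Rep.{0} (ZMod p) GQ) (hN : IsSmooth (levelsS S) N)
    (hfin : Module.Finite (ZMod p) N)
    (z : ↥(ZZ1 (levelsS S) (homCx N (coindKJ loc))))
    (h : ∀ q : ↥S, (homCxPost (Rep.res (primeLocalToGlobal q.1) N) (coindEv loc q)).onT1
            (resHomT1 (primeLocalToGlobal q.1) N (coindKJ loc) z.1)
          ∈ BB1 (homCx (Rep.res (primeLocalToGlobal q.1) N) (loc q).K)) :
    (z : T1 (homCx N (coindKJ loc))) ∈ BB1 (homCx N (coindKJ loc)) :=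
  ecR_shapiro1inj_pi (fun q : ↥S => primeLocalToGlobal q.1) (levelsS S)
    (fun q => (loc q).K) N hN z.1 z.2 h

end KJ

end Fermat.Agent.F4
end MergeWrap_S56_W2_EC_Rich_Sh1Inj

section MergeWrap_S56_W2_EC_Rich_Sh0 -- from S56/W2/EC/Rich/Sh0.lean

set_option autoImplicit false

open CategoryTheory groupCohomology ExtCitation

namespace Fermat.Agent.F4

/-! ### One coinduction -/

section Coind

variable {k D G : Type} [CommRing k] [Group D] [Group G] (r : D →* G) (𝓤 : Levels G) (K : Cx k D)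
  (N : Rep.{0} k G)

/-- `Φ ↦ (n ↦ Φ n 1)`. -/
def ecR_ev0 : (N →ₗ[k] ↥(coIndSub r 𝓤 K.K0)) →ₗ[k] (N →ₗ[k] K.K0) where
  toFun Φ :=
    { toFun := fun n => (Φ n : G → K.K0) 1
      map_add' := fun n n' => by rw [map_add]; rfl
      map_smul' := fun c n => by rw [map_smul]; rfl }
  map_add' _ _ := rfl
  map_smul' _ _ := rfl

@[simp] lemma ecR_ev0_apply (Φ : N →ₗ[k] ↥(coIndSub r 𝓤 K.K0)) (n : N) :
    ecR_ev0 r 𝓤 K N Φ n = (Φ n : G → K.K0) 1 := rfl

variable {N}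

/-- The function `x ↦ f (x • n)` is a smooth coinduced function if `f` is `D`-equivariant. -/
lemma ecR_coext_mem (hN : IsSmooth 𝓤 N) (f : N →ₗ[k] K.K0)
    (hf : ∀ (d : D) (n : N), f (N.ρ (r d) n) = K.K0.ρ d (f n)) (n : N) :
    (fun x : G => f (N.ρ x n)) ∈ coIndSub r 𝓤 K.K0 := by
  refine ⟨fun d x => ?_, ?_⟩
  · show f (N.ρ (r d * x) n) = K.K0.ρ d (f (N.ρ x n))
    rw [map_mul, Module.End.mul_apply, hf]
  · obtain ⟨U, hU, h⟩ := hN n
    refine ⟨U, hU, fun x s hs => ?_⟩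
    show f (N.ρ (x * s) n) = f (N.ρ x n)
    rw [map_mul, Module.End.mul_apply, h s hs]

/-- `f ↦ (n ↦ (x ↦ f (x • n)))`. -/
def ecR_coext (hN : IsSmooth 𝓤 N) (f : N →ₗ[k] K.K0)
    (hf : ∀ (d : D) (n : N), f (N.ρ (r d) n) = K.K0.ρ d (f n)) :
    N →ₗ[k] ↥(coIndSub r 𝓤 K.K0) where
  toFun n := ⟨_, ecR_coext_mem r 𝓤 K hN f hf n⟩
  map_add' n n' := Subtype.ext (funext fun x => by
    show f (N.ρ x (n + n')) = f (N.ρ x n) + f (N.ρ x n')
    rw [map_add, map_add])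
  map_smul' c n := Subtype.ext (funext fun x => by
    show f (N.ρ x (c • n)) = c • f (N.ρ x n)
    rw [map_smul, map_smul])

@[simp] lemma ecR_coext_apply (hN : IsSmooth 𝓤 N) (f : N →ₗ[k] K.K0)
    (hf : ∀ (d : D) (n : N), f (N.ρ (r d) n) = K.K0.ρ d (f n)) (n : N) (x : G) :
    ((ecR_coext r 𝓤 K hN f hf n : ↥(coIndSub r 𝓤 K.K0)) : G → K.K0) x = f (N.ρ x n) := rfl

variable (N)

lemma ecR_ev0_mem_HH0 (Φ : (homCx N (K.coInd r 𝓤)).K0) (hΦ : Φ ∈ HH0 (homCx N (K.coInd r 𝓤))) :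
    ecShToHom (Rep.res r N) K (ecR_ev0 r 𝓤 K N (ecShOfHom N (K.coInd r 𝓤) Φ))
      ∈ HH0 (homCx (Rep.res r N) K) := by
  obtain ⟨h1, h2⟩ := (ecSh_mem_HH0_iff N (K.coInd r 𝓤) Φ).1 hΦ
  refine (ecSh_mem_HH0_iff (Rep.res r N) K _).2 ⟨fun d n => ?_, fun n => ?_⟩
  · show K.coIndFun0 r 𝓤 (ecShOfHom N (K.coInd r 𝓤) Φ (N.ρ (r d) n)) 1
      = K.K0.ρ d (K.coIndFun0 r 𝓤 (ecShOfHom N (K.coInd r 𝓤) Φ n) 1)
    rw [h1 (r d) n]
    show K.coIndFun0 r 𝓤 (ecShOfHom N (K.coInd r 𝓤) Φ n) (1 * r d) = _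
    rw [one_mul, ← mul_one (r d)]
    exact coIndSub_equivariant _ d 1
  · have := congrFun (congrArg Subtype.val (h2 n)) 1
    exact this

variable {N}

lemma ecR_coext_mem_HH0 (hN : IsSmooth 𝓤 N) (f : (homCx (Rep.res r N) K).K0)
    (hf : f ∈ HH0 (homCx (Rep.res r N) K)) :
    ecShToHom N (K.coInd r 𝓤) (ecR_coext r 𝓤 K hN (ecShOfHom (Rep.res r N) K f)
        ((ecSh_mem_HH0_iff (Rep.res r N) K f).1 hf).1)
      ∈ HH0 (homCx N (K.coInd r 𝓤)) := by
  obtain ⟨h1, h2⟩ := (ecSh_mem_HH0_iff (Rep.res r N) K f).1 hf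
  refine (ecSh_mem_HH0_iff N (K.coInd r 𝓤) _).2 ⟨fun g n => ?_, fun n => ?_⟩
  · refine Subtype.ext (funext fun x => ?_)
    show ecShOfHom (Rep.res r N) K f (N.ρ x (N.ρ g n))
      = ecShOfHom (Rep.res r N) K f (N.ρ (x * g) n)
    rw [map_mul, Module.End.mul_apply]
  · refine Subtype.ext (funext fun x => ?_)
    exact h2 (N.ρ x n)

/-- **Shapiro in degree 0 with coefficients**: `Hom_G(N, coInd K) ≃ Hom_D(N|_D, K)`. -/
def ecR_hh0Equiv (hN : IsSmooth 𝓤 N) :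
    ↥(HH0 (homCx N (K.coInd r 𝓤))) ≃ₗ[k] ↥(HH0 (homCx (Rep.res r N) K)) where
  toFun Φ := ⟨_, ecR_ev0_mem_HH0 r 𝓤 K N Φ.1 Φ.2⟩
  map_add' _ _ := rfl
  map_smul' _ _ := rfl
  invFun f := ⟨_, ecR_coext_mem_HH0 r 𝓤 K hN f.1 f.2⟩
  left_inv Φ := by
    obtain ⟨h1, -⟩ := (ecSh_mem_HH0_iff N (K.coInd r 𝓤) Φ.1).1 Φ.2
    refine Subtype.ext (LinearMap.ext fun n => Subtype.ext (funext fun x => ?_))
    show K.coIndFun0 r 𝓤 (ecShOfHom N (K.coInd r 𝓤) Φ.1 (N.ρ x n)) 1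
      = K.coIndFun0 r 𝓤 (ecShOfHom N (K.coInd r 𝓤) Φ.1 n) x
    rw [h1 x n]
    show K.coIndFun0 r 𝓤 (ecShOfHom N (K.coInd r 𝓤) Φ.1 n) (1 * x) = _
    rw [one_mul]
  right_inv f := by
    refine Subtype.ext (LinearMap.ext fun n => ?_)
    show ecShOfHom (Rep.res r N) K f.1 (N.ρ 1 n) = ecShOfHom (Rep.res r N) K f.1 n
    rw [map_one, Module.End.one_apply]

lemma ecR_hh0Equiv_apply (hN : IsSmooth 𝓤 N) (Φ : ↥(HH0 (homCx N (K.coInd r 𝓤)))) (n : N) :
    ecShOfHom (Rep.res r N) K (ecR_hh0Equiv r 𝓤 K hN Φ).1 n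
      = K.coIndFun0 r 𝓤 (ecShOfHom N (K.coInd r 𝓤) Φ.1 n) 1 := rfl

end Coind

/-! ### Products -/

section Pi

variable {k G : Type} [CommRing k] [Group G] {ι : Type} (N : Rep.{0} k G) (K : ι → Cx k G)

lemma ecR_pi_mem_HH0 (f : (i : ι) → ↥(HH0 (homCx N (K i)))) :
    (LinearMap.pi (fun i => ((f i).1 : N →ₗ[k] (K i).K0)) : N →ₗ[k] (∀ i, (K i).K0))
      ∈ HH0 (homCx N (Cx.pi K)) := by
  show D0 (homCx N (Cx.pi K)) _ = 0
  refine ecR_pi_T1_ext N K fun i => ?_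
  rw [map_zero]
  refine ((CxHom.D0_f0 (homCxPost N (Cx.piProj K i)) _).symm).trans ?_
  exact (f i).2

/-- `HH⁰(Hom(N, ∏ K)) ≃ ∏ HH⁰(Hom(N, K i))`. -/
def ecR_hh0Pi : ↥(HH0 (homCx N (Cx.pi K))) ≃ₗ[k] ((i : ι) → ↥(HH0 (homCx N (K i)))) where
  toFun Φ i := (homCxPost N (Cx.piProj K i)).hh0 Φ
  map_add' Φ Ψ := funext fun _ => map_add _ Φ Ψ
  map_smul' c Φ := funext fun _ => map_smul _ c Φ
  invFun f := ⟨_, ecR_pi_mem_HH0 N K f⟩
  left_inv _ := Subtype.ext (LinearMap.ext fun _ => funext fun _ => rfl)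
  right_inv _ := funext fun _ => Subtype.ext (LinearMap.ext fun _ => rfl)

lemma ecR_hh0Pi_apply (Φ : ↥(HH0 (homCx N (Cx.pi K)))) (i : ι) :
    ecR_hh0Pi N K Φ i = (homCxPost N (Cx.piProj K i)).hh0 Φ := rfl

end Pi

/-! ### The complex `KJ` -/

section KJ

variable {p : ℕ} [Fact p.Prime] {S : Finset Nat.Primes} (loc : ∀ q : ↥S, LocalDatum p S q.1)
  {N : Rep.{0} (ZMod p) GQ}

/-- **Shapiro in degree 0 for `KJ`**: `Hom_G(N, KJ) ≃ ∏_q Hom_{D_q}(N, K_q)`. -/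
noncomputable def ecR_hh0KJ (hN : IsSmooth (levelsS S) N) :
    ↥(HH0 (homCx N (coindKJ loc))) ≃ₗ[ZMod p]
      ((q : ↥S) → ↥(HH0 (homCx (Rep.res (primeLocalToGlobal q.1) N) (loc q).K))) :=
  (ecR_hh0Pi N (fun q : ↥S => (loc q).K.coInd (primeLocalToGlobal q.1) (levelsS S))).trans
    (LinearEquiv.piCongrRight fun q : ↥S =>
      ecR_hh0Equiv (primeLocalToGlobal q.1) (levelsS S) (loc q).K hN)

/-- The components of `ecR_hh0KJ` are `Φ ↦ ev_q ∘ Φ`. -/
lemma ecR_hh0KJ_apply (hN : IsSmooth (levelsS S) N) (Φ : ↥(HH0 (homCx N (coindKJ loc))))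
    (q : ↥S) (n : N) :
    ecShOfHom (Rep.res (primeLocalToGlobal q.1) N) (loc q).K (ecR_hh0KJ loc hN Φ q).1 n
      = (coindEv loc q).f0 (ecShOfHom N (coindKJ loc) Φ.1 n) := rfl

/-- `dim Hom_G(N, KJ) = ∑_q dim Hom_{D_q}(N, K_q)`. -/
lemma ecR_finrank_hh0KJ (hN : IsSmooth (levelsS S) N)
    (hfin : ∀ q : ↥S, Module.Finite (ZMod p)
      ↥(HH0 (homCx (Rep.res (primeLocalToGlobal q.1) N) (loc q).K))) :
    Module.finrank (ZMod p) ↥(HH0 (homCx N (coindKJ loc)))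
      = ∑ q : ↥S, Module.finrank (ZMod p)
          ↥(HH0 (homCx (Rep.res (primeLocalToGlobal q.1) N) (loc q).K)) := by
  rw [(ecR_hh0KJ loc hN).finrank_eq]
  exact Module.finrank_pi_fintype (ZMod p)

/-- `Hom_G(N, KJ)` is finite if the local `Hom_{D_q}(N, K_q)` are. -/
lemma ecR_finite_hh0KJ (hN : IsSmooth (levelsS S) N)
    (hfin : ∀ q : ↥S, Module.Finite (ZMod p)
      ↥(HH0 (homCx (Rep.res (primeLocalToGlobal q.1) N) (loc q).K))) :
    Module.Finite (ZMod p) ↥(HH0 (homCx N (coindKJ loc))) :=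
  Module.Finite.equiv (ecR_hh0KJ loc hN).symm

end KJ

end Fermat.Agent.F4
end MergeWrap_S56_W2_EC_Rich_Sh0

section MergeWrap_S56_W2_EC_Lower -- from S56/W2/EC/Lower.lean

set_option autoImplicit false

namespace Fermat.Agent.S56.EC

open Fermat.Agent.F4 ExtCitation

/-- Shapiro in degree `1` (injectivity) for the datum of a pack. -/
lemma eclSh1Inj_pack {p : ℕ} [Fact p.Prime] {S : Finset Nat.Primes}
    {hpS : pPrime p ∈ S} (Pk : ECPack p S hpS) : EclSh1Inj Pk.datum :=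
  fun N hN hfin z h => ecR_coind_shapiro1inj Pk.loc N hN hfin z h

/-- Shapiro in degree `0` for the datum of a pack. -/
lemma eclSh0Inj_pack {p : ℕ} [Fact p.Prime] {S : Finset Nat.Primes}
    {hpS : pPrime p ∈ S} (Pk : ECPack p S hpS) : EclSh0Inj Pk.datum :=
  fun _ hN _ => ⟨(ecR_hh0KJ Pk.loc hN).symm.toLinearMap, (ecR_hh0KJ Pk.loc hN).symm.injective⟩

/-- **(E)** the lower bound `ECLower` from Tate's formula. -/
theorem ecLower_of_psiZero {p : ℕ} [Fact p.Prime] (hp2 : p ≠ 2) {S : Finset Nat.Primes}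
    {hpS : pPrime p ∈ S} (Pk : ECPack p S hpS) (h0 : FiniteHom0 S Pk.KC)
    (hΨ : PsiZero S Pk.KC) (A : Rep.{0} (ZMod p) GQ) (hfin : Module.Finite (ZMod p) A)
    (hsm : IsSmooth (levelsS S) A) :
    Finite (H1sm (levelsS S) (A.dualTwist (cycloChar p))) ∧
    Nat.card (H0glob (A.dualTwist (cycloChar p))) * Nat.card (sha1sm S A) *
        (∏ v ∈ S, Nat.card (H0loc A v)) * Nat.card (H0arch A)
      ≤ Nat.card (H1sm (levelsS S) (A.dualTwist (cycloChar p))) * Nat.card (H0glob A) :=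
  ecLower_of Pk.datum hp2 hpS (eclSh1Inj_pack Pk) (eclSh0Inj_pack Pk) h0 hΨ A hfin hsm

end Fermat.Agent.S56.EC
end MergeWrap_S56_W2_EC_Lower

section MergeWrap_S56_W2_EC_Main -- from S56/W2/EC/Main.lean

set_option autoImplicit false

namespace Fermat.Agent.S56

open Fermat.Agent.F4 ExtCitation

/-- **Wall W2-EC**. -/
theorem ecLower (p : ℕ) [Fact p.Prime] (hp2 : p ≠ 2) : ECLower p := by
  intro S A hpS hfin hsm
  obtain ⟨Pk⟩ := EC.nonempty_ecPack (p := p) (S := S) hp2 hpS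
  have h0 := EC.finiteHom0 Pk
  have hA : EC.PsiAdditive S Pk.KC := EC.psiAdditive hp2 S Pk.datum h0
  have hΨ : EC.PsiZero S Pk.KC :=
    EC.psiZero_of hpS Pk.KC hA (EC.psiCoindZero hp2 Pk) (fun Γ _ _ => EC.brauerInduction p Γ)
  exact EC.ecLower_of_psiZero hp2 Pk h0 hΨ A hfin hsm

end Fermat.Agent.S56
end MergeWrap_S56_W2_EC_Main

section MergeWrap_S56_W2_GW -- from S56/W2/GW.lean

set_option autoImplicit false

namespace Fermat.Agent.S56

open Fermat.Agent.F4 ExtCitation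

/-- **W2**: the Greenberg–Wiles inequality. -/
theorem gwStatement {k : Type} [Field k] [Finite k] (p : ℕ) [Fact p.Prime] (hp2 : p ≠ 2)
    (hpk : (p : k) = 0) : GWStatement k p :=
  gwStatement_of_zmod p hpk
    (gwStatement_zmod p hp2 (fun S hpS => exists_globalDatum hp2 S hpS) (ecLower p hp2))

end Fermat.Agent.S56
end MergeWrap_S56_W2_GW

section MergeWrap_S56_W3_TW_Final -- from S56/W3/TW/Final.lean

set_option autoImplicit false

namespace Fermat.Agent.S56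

open Fermat.Agent.F4 ExtCitation

/-- The local tame structure at `q`, for every prime `q`. -/
theorem localTame (q : Nat.Primes) : LocalTame q := by
  have hA : (primeLocalPlace q).LiesOverPrime (q : ℕ) := primeLocalPlace_liesOverPrime q
  obtain ⟨φ, hφ, hgen⟩ := TWGen.exists_frob_gen q
  refine ⟨hA, (locInertia q : Set (primeLocalGaloisGroup q)), φ, fun τ hτ => hτ, hφ, ?_, ?_⟩
  · intro U hU g
    obtain ⟨n, τ, hτ, h⟩ := hgen U hU g
    exact ⟨n, τ, hτ, h⟩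
  · intro H _ χ hlev hcop
    obtain ⟨h1, h2⟩ := local_tame q hA χ hlev (fun σ hσ => hcop σ hσ)
    refine ⟨?_, fun τ hτ => h2 φ hφ τ hτ⟩
    obtain ⟨τ₀, hτ₀, h⟩ := h1
    exact ⟨τ₀, hτ₀, fun σ hσ => h σ hσ⟩

end Fermat.Agent.S56
end MergeWrap_S56_W3_TW_Final

section MergeWrap_S56_W3_TW -- from S56/W3/TW.lean

set_option autoImplicit false

namespace Fermat.Agent.S56

open Fermat.Agent.F4 ExtCitation

/-- **W3-TW**: at a Taylor–Wiles prime `#H¹(G_q, ad⁰ρbar) ≤ |k| · #H⁰(G_q, ad⁰ρbar)`. -/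
theorem localBound_TW {k : Type} [Field k] [Finite k] (p : ℕ) [Fact p.Prime]
    (hpk : (p : k) = 0) (ρbar : ResidualGaloisRep k) (S : Finset ℕ) (q : Nat.Primes)
    (hq : IsTWPrime p 0 ρbar S (q : ℕ)) (hunr : ρbar.IsUnramifiedAt (q : ℕ)) :
    Finite (H1loc (ad0 ρbar) q) ∧
      Nat.card (H1loc (ad0 ρbar) q) ≤ Nat.card k * Nat.card (H0loc (ad0 ρbar) q) :=
  localBound_TW_of p hpk ρbar S q (localTame q) hq hunr

end Fermat.Agent.S56
end MergeWrap_S56_W3_TW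

section MergeWrap_S56_W3_Unip_Count -- from S56/W3/Unip/Count.lean

set_option autoImplicit false

open groupCohomology

namespace Fermat.Agent.S56.UnipCount

open Fermat.Agent.F4 Fermat.Agent.S56.TWCount

variable {k G : Type} [Field k] [Group G] (𝓤 : Levels G) (M : Rep.{0} k G)

/-- The smooth cocycles vanishing on `I`. -/
def zeroOn (I : Subgroup G) : Submodule k ↥(Z1 𝓤 M) where
  carrier := {z | ∀ τ ∈ I, (z : G → M) τ = 0}
  add_mem' := fun {a b} ha hb τ hτ => by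
    show (a : G → M) τ + (b : G → M) τ = 0
    rw [ha τ hτ, hb τ hτ, add_zero]
  zero_mem' := fun _ _ => rfl
  smul_mem' := fun c a ha τ hτ => by
    show c • (a : G → M) τ = 0
    rw [ha τ hτ, smul_zero]

/-- The classes with a cocycle representative vanishing on `I`. -/
def unrClasses (I : Subgroup G) : AddSubgroup (H1sm 𝓤 M) :=
  ((zeroOn 𝓤 M I).map (H1smπ 𝓤 M)).toAddSubgroup

variable {𝓤 M}

theorem mem_unrClasses {I : Subgroup G} {x : H1sm 𝓤 M} :
    x ∈ unrClasses 𝓤 M I ↔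
      ∃ z : ↥(Z1 𝓤 M), (∀ τ ∈ I, (z : G → M) τ = 0) ∧ H1smπ 𝓤 M z = x :=
  Iff.rfl

/-- A cocycle vanishing on a normal subgroup `I` has values in the `I`-invariants. -/
theorem coc_fixed {I : Subgroup G} (hI : I.Normal) {f : G → M} (hf : f ∈ cocycles₁ M)
    (h0 : ∀ τ ∈ I, f τ = 0) (g τ : G) (hτ : τ ∈ I) : M.ρ τ (f g) = f g := by
  have h1 : f (τ * g) = M.ρ τ (f g) := by rw [coc_mul hf, h0 τ hτ, add_zero]
  have h2 : τ * g = g * (g⁻¹ * τ * g) := by group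
  have h3 : g⁻¹ * τ * g ∈ I := by
    have := hI.conj_mem τ hτ g⁻¹
    rwa [inv_inv] at this
  rw [← h1, h2, coc_mul hf, h0 _ h3, map_zero, zero_add]

/-- **The counting lemma for unramified classes.** -/
theorem card_unrClasses_le [Finite M] (I : Subgroup G) (hI : I.Normal) (φ : G)
    (hsm : ∃ U ∈ 𝓤.sets, ∀ g ∈ U, ∀ m : M, M.ρ g m = m)
    (hgen : ∀ U ∈ 𝓤.sets, ∀ g : G, ∃ (n : ℕ) (τ : G), τ ∈ I ∧ g⁻¹ * (φ ^ n * τ) ∈ U)
    (H0 : Submodule k M) (hH0 : ∀ m : M, (∀ g : G, M.ρ g m = m) → m ∈ H0) :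
    Finite (unrClasses 𝓤 M I) ∧ Nat.card (unrClasses 𝓤 M I) ≤ Nat.card H0 := by
  classical
  obtain ⟨U₀, hU₀, hU₀M⟩ := hsm
  -- the `I`-invariants
  let X : Submodule k M.V :=
    { carrier := {m | ∀ τ ∈ I, M.ρ τ m = m}
      add_mem' := fun {a b} ha hb τ hτ => by rw [map_add, ha τ hτ, hb τ hτ]
      zero_mem' := fun τ _ => map_zero _
      smul_mem' := fun c a ha τ hτ => by rw [map_smul, ha τ hτ] }
  have hXφ : ∀ x ∈ X, (M.ρ φ - 1) x ∈ X := by
    intro x hx τ hτ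
    have h3 : φ⁻¹ * τ * φ ∈ I := by
      have := hI.conj_mem τ hτ φ⁻¹
      rwa [inv_inv] at this
    have h4 : M.ρ τ (M.ρ φ x) = M.ρ φ x := by
      have e : τ * φ = φ * (φ⁻¹ * τ * φ) := by group
      rw [← Module.End.mul_apply, ← map_mul, e, map_mul, Module.End.mul_apply, hx _ h3]
    rw [LinearMap.sub_apply, Module.End.one_apply, map_sub, h4, hx τ hτ]
  let T : ↥X →ₗ[k] ↥X := (M.ρ φ - 1).restrict hXφ
  have hT : ∀ x : ↥X, ((T x : ↥X) : M.V) = M.ρ φ (x : M.V) - (x : M.V) := fun x => rfl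
  -- representatives
  have hrep : ∀ ℓ : ↥(unrClasses 𝓤 M I),
      ∃ z : ↥(Z1 𝓤 M), (∀ τ ∈ I, (z : G → M) τ = 0) ∧ H1smπ 𝓤 M z = ℓ.1 := fun ℓ => ℓ.2
  choose z hzI hz using hrep
  have hzX : ∀ ℓ (g : G), (z ℓ : G → M) g ∈ X := fun ℓ g τ hτ =>
    coc_fixed hI (z ℓ).2.1 (hzI ℓ) g τ hτ
  let E : ↥(unrClasses 𝓤 M I) → (↥X ⧸ LinearMap.range T) := fun ℓ =>
    Submodule.Quotient.mk ⟨(z ℓ : G → M) φ, hzX ℓ φ⟩
  have hE : Function.Injective E := by
    intro i j hij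
    have h2 : (⟨(z i : G → M) φ, hzX i φ⟩ : ↥X) - ⟨(z j : G → M) φ, hzX j φ⟩ ∈
        LinearMap.range T := by
      rw [← Submodule.Quotient.eq]
      exact hij
    obtain ⟨x, hx⟩ := h2
    have hm : M.ρ φ (x : M.V) - (x : M.V) = (z i : G → M) φ - (z j : G → M) φ := by
      have := congrArg Subtype.val hx
      rw [hT] at this
      exact this
    set m : M.V := (x : M.V) with hmdef
    have hmI : ∀ τ ∈ I, M.ρ τ m = m := x.2
    -- the difference cocycle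
    set d : G → M := fun g => (z i : G → M) g - (z j : G → M) g - (M.ρ g m - m) with hd
    have hdcoc : d ∈ cocycles₁ M := by
      have h3 : d = (z i : G → M) - (z j : G → M) - (d₀₁ M).hom m := by
        funext g
        rfl
      rw [h3]
      exact Submodule.sub_mem _ (Submodule.sub_mem _ (z i).2.1 (z j).2.1)
        (d₀₁_apply_mem_cocycles₁ m)
    have hdφ : d φ = 0 := by
      rw [hd]
      simp only
      rw [hm, sub_self]
    have hdI : ∀ τ ∈ I, d τ = 0 := by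
      intro τ hτ
      rw [hd]
      simp only
      rw [hzI i τ hτ, hzI j τ hτ, hmI τ hτ, sub_self, sub_self, sub_zero]
    -- a common level
    obtain ⟨Ui, hUi, hUic⟩ := (z i).2.2
    obtain ⟨Uj, hUj, hUjc⟩ := (z j).2.2
    obtain ⟨W₁, hW₁, hW₁le⟩ := 𝓤.directed Ui hUi Uj hUj
    obtain ⟨W, hW, hWle⟩ := 𝓤.directed W₁ hW₁ U₀ hU₀
    have hdW : ∀ g ∈ W, d g = 0 := by
      intro g hg
      have hgi : g ∈ Ui := (hW₁le (hWle hg).1).1
      have hgj : g ∈ Uj := (hW₁le (hWle hg).1).2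
      have e1 : (z i : G → M) g = 0 := by
        have := hUic 1 g hgi
        rw [one_mul] at this
        rw [this]
        exact coc_one (z i).2.1
      have e2 : (z j : G → M) g = 0 := by
        have := hUjc 1 g hgj
        rw [one_mul] at this
        rw [this]
        exact coc_one (z j).2.1
      rw [hd]
      simp only
      rw [e1, e2, hU₀M g (hWle hg).2, sub_self, sub_self, sub_zero]
    have hdall : ∀ g : G, d g = 0 := by
      intro g
      obtain ⟨n, τ, hτ, hw⟩ := hgen W hW g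
      set w := g⁻¹ * (φ ^ n * τ) with hwdef
      have e1 : φ ^ n * τ = g * w := by rw [hwdef]; group
      have e2 : d (φ ^ n * τ) = 0 := by
        rw [coc_mul hdcoc, hdI τ hτ, map_zero, coc_pow_eq_zero hdcoc hdφ, add_zero]
      rw [e1, coc_mul hdcoc, hdW w hw, map_zero, zero_add] at e2
      exact e2
    have h4 : (z i - z j : ↥(Z1 𝓤 M)) ∈ (B1 M).comap (Z1 𝓤 M).subtype := by
      rw [Submodule.mem_comap]
      refine ⟨m, ?_⟩
      funext g
      have := hdall g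
      rw [hd] at this
      simp only at this
      have e : ((Z1 𝓤 M).subtype (z i - z j)) g = (z i : G → M) g - (z j : G → M) g := rfl
      rw [e]
      show M.ρ g m - m = (z i : G → M) g - (z j : G → M) g
      exact (sub_eq_zero.mp this).symm
    have h5 : H1smπ 𝓤 M (z i) = H1smπ 𝓤 M (z j) := by
      rw [← sub_eq_zero, ← map_sub]
      exact (Submodule.Quotient.mk_eq_zero _).2 h4
    rw [hz, hz] at h5
    exact Subtype.ext h5
  have hfinM : Finite M.V := ‹Finite M›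
  have : Finite ↥X := Subtype.finite
  have : Finite (↥X ⧸ LinearMap.range T) :=
    Finite.of_surjective _ (Submodule.mkQ_surjective _)
  have : Finite ↥H0 := Subtype.finite
  have hfin : Finite ↥(unrClasses 𝓤 M I) := Finite.of_injective E hE
  refine ⟨hfin, ?_⟩
  have h1 : Nat.card ↥(unrClasses 𝓤 M I) ≤ Nat.card (↥X ⧸ LinearMap.range T) :=
    Nat.card_le_card_of_injective E hE
  have h2 : Nat.card (↥X ⧸ LinearMap.range T) = Nat.card (LinearMap.ker T) :=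
    (TWLin.card_ker_eq_card_quot_range T).symm
  -- the kernel of `T` consists of `G`-invariants
  have hker : ∀ y : ↥(LinearMap.ker T), ((y : ↥X) : M.V) ∈ H0 := by
    intro y
    apply hH0
    have hyI : ∀ τ ∈ I, M.ρ τ ((y : ↥X) : M.V) = ((y : ↥X) : M.V) := (y : ↥X).2
    have hyφ : M.ρ φ ((y : ↥X) : M.V) = ((y : ↥X) : M.V) := by
      have := congrArg Subtype.val (LinearMap.mem_ker.1 y.2)
      rw [hT] at this
      exact sub_eq_zero.1 this
    have hpow : ∀ n : ℕ, M.ρ (φ ^ n) ((y : ↥X) : M.V) = ((y : ↥X) : M.V) := by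
      intro n
      induction n with
      | zero => rw [pow_zero, map_one, Module.End.one_apply]
      | succ n ih => rw [pow_succ, map_mul, Module.End.mul_apply, hyφ, ih]
    intro g
    obtain ⟨n, τ, hτ, hw⟩ := hgen U₀ hU₀ g
    set w := g⁻¹ * (φ ^ n * τ) with hwdef
    have e1 : φ ^ n * τ = g * w := by rw [hwdef]; group
    have e2 : M.ρ (φ ^ n * τ) ((y : ↥X) : M.V) = ((y : ↥X) : M.V) := by
      rw [map_mul, Module.End.mul_apply, hyI τ hτ, hpow]
    rw [e1, map_mul, Module.End.mul_apply, hU₀M w hw] at e2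
    exact e2
  let F : ↥(LinearMap.ker T) → ↥H0 := fun y => ⟨((y : ↥X) : M.V), hker y⟩
  have hF : Function.Injective F := by
    intro y y' h
    apply Subtype.ext
    apply Subtype.ext
    exact congrArg (fun t : ↥H0 => (t : M.V)) h
  have h3 : Nat.card (LinearMap.ker T) ≤ Nat.card ↥H0 := Nat.card_le_card_of_injective F hF
  rw [h2] at h1
  exact h1.trans h3

end Fermat.Agent.S56.UnipCount
end MergeWrap_S56_W3_Unip_Count

section MergeWrap_S56_W3_Unip_LinAlg -- from S56/W3/Unip/LinAlg.lean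

set_option autoImplicit false

open Module

namespace Fermat.Agent.S56.UnipLin

variable {k V : Type} [Field k] [AddCommGroup V] [Module k V]

/-- A basis adapted to a nonzero endomorphism of square zero. -/
theorem exists_basis_of_sq_zero [Module.Finite k V] (hV : Module.finrank k V = 2)
    (n : Module.End k V) (hn2 : n * n = 0) (hn : n ≠ 0) :
    ∃ b : Basis (Fin 2) k V, n (b 0) = 0 ∧ n (b 1) = b 0 := by
  classical
  obtain ⟨e, he⟩ : ∃ e : V, n e ≠ 0 := by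
    by_contra hcon
    refine hn (LinearMap.ext fun x => ?_)
    rw [LinearMap.zero_apply]
    by_contra hx
    exact hcon ⟨x, hx⟩
  have hne : n (n e) = 0 := by
    have := LinearMap.congr_fun hn2 e
    simpa using this
  have hli : LinearIndependent k ![n e, e] := by
    rw [LinearIndependent.pair_iff]
    intro s t hst
    have h1 : t • n e = 0 := by
      have := congrArg n hst
      rw [map_add, map_smul, map_smul, hne, smul_zero, zero_add, map_zero] at this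
      exact this
    have ht : t = 0 := (smul_eq_zero.1 h1).resolve_right he
    rw [ht, zero_smul, add_zero] at hst
    exact ⟨(smul_eq_zero.1 hst).resolve_right he, ht⟩
  have hcard : Fintype.card (Fin 2) = Module.finrank k V := by
    rw [hV, Fintype.card_fin]
  let b : Basis (Fin 2) k V := basisOfLinearIndependentOfCardEqFinrank hli hcard
  have hb : ∀ i, b i = ![n e, e] i := fun i => by
    simp [b, coe_basisOfLinearIndependentOfCardEqFinrank]
  refine ⟨b, ?_, ?_⟩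
  · rw [hb 0]
    exact hne
  · rw [hb 1, hb 0]
    rfl

/-- The matrix identity behind `exists_conj`. -/
theorem matrix_conj (h2 : (2 : k) ≠ 0) (C : Matrix (Fin 2) (Fin 2) k)
    (htr : C 0 0 + C 1 1 = 0) (h10 : C 1 0 = 0) :
    ∃ M : Matrix (Fin 2) (Fin 2) k, M.trace = 0 ∧
      C = (1 + !![0, 1; 0, 0]) * M * (1 - !![0, 1; 0, 0]) - M := by
  refine ⟨!![-((C 0 0 + C 0 1) / 2), 0; C 0 0, (C 0 0 + C 0 1) / 2], ?_, ?_⟩
  · simp [Matrix.trace_fin_two]
  · have h11 : C 1 1 = -C 0 0 := by linear_combination htr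
    ext i j
    fin_cases i <;> fin_cases j
    · simp [Matrix.mul_apply, Fin.sum_univ_two, Matrix.one_apply]
    · simp [Matrix.mul_apply, Fin.sum_univ_two, Matrix.one_apply]
      field_simp
      ring
    · simp [Matrix.mul_apply, Fin.sum_univ_two, Matrix.one_apply, h10]
    · simp [Matrix.mul_apply, Fin.sum_univ_two, Matrix.one_apply, h11]

/-- **Trace-zero endomorphisms with `tr (c n) = 0` are of the form `u m u⁻¹ - m`.** -/
theorem exists_conj [Module.Finite k V] (hV : Module.finrank k V = 2) (h2 : (2 : k) ≠ 0)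
    (n : Module.End k V) (hn2 : n * n = 0) (hn : n ≠ 0) (c : Module.End k V)
    (hc : LinearMap.trace k V c = 0) (hcn : LinearMap.trace k V (c * n) = 0) :
    ∃ m : Module.End k V, LinearMap.trace k V m = 0 ∧ c = (1 + n) * m * (1 - n) - m := by
  classical
  obtain ⟨b, hb0, hb1⟩ := exists_basis_of_sq_zero hV n hn2 hn
  let E := LinearMap.toMatrixAlgEquiv b
  have hE : ∀ (f : Module.End k V) (i j : Fin 2), E f i j = b.repr (f (b j)) i :=
    fun f i j => LinearMap.toMatrixAlgEquiv_apply b f i j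
  have htrE : ∀ f : Module.End k V, LinearMap.trace k V f = (E f).trace := fun f =>
    LinearMap.trace_eq_matrix_trace k b f
  have hN : E n = !![0, 1; 0, 0] := by
    ext i j
    rw [hE]
    fin_cases i <;> fin_cases j <;> simp [hb0, hb1]
  have htr : E c 0 0 + E c 1 1 = 0 := by
    rw [htrE, Matrix.trace_fin_two] at hc
    exact hc
  have h10 : E c 1 0 = 0 := by
    rw [htrE, map_mul, hN, Matrix.trace_fin_two] at hcn
    simpa [Matrix.mul_apply, Fin.sum_univ_two] using hcn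
  obtain ⟨M, hM, hCM⟩ := matrix_conj h2 (E c) htr h10
  refine ⟨E.symm M, ?_, ?_⟩
  · rw [htrE, AlgEquiv.apply_symm_apply, hM]
  · apply E.injective
    rw [map_sub, map_mul, map_mul, map_add, map_sub, map_one, AlgEquiv.apply_symm_apply, hN]
    exact hCM

end Fermat.Agent.S56.UnipLin
end MergeWrap_S56_W3_Unip_LinAlg

section MergeWrap_S56_W3_Unip_Tangent -- from S56/W3/Unip/Tangent.lean

set_option autoImplicit false
set_option linter.style.haveILetI false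

open groupCohomology

namespace Fermat.Agent.S56.UnipTan

open Fermat.Agent.F4 ExtCitation Fermat.Agent.S56.TWCount
open scoped TensorProduct

variable {k : Type} [Field k]

/-! ### the endomorphisms `defEnd` -/

theorem defEnd_eps_tmul (ρbar : ResidualGaloisRep k) (c : Module.End k ρbar.V) (σ : GQ)
    (v : ρbar.V) :
    defEnd ρbar c σ ((DualNumber.eps : DualNumber k) ⊗ₜ[k] v)
      = (DualNumber.eps : DualNumber k) ⊗ₜ[k] (ρbar.ρ σ v) := by
  have h1 : (DualNumber.eps : DualNumber k) ⊗ₜ[k] v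
      = (DualNumber.eps : DualNumber k) • ((1 : DualNumber k) ⊗ₜ[k] v) := by
    rw [TensorProduct.smul_tmul', smul_eq_mul, mul_one]
  rw [h1, map_smul, w1b_defEnd_one_tmul, smul_add, TensorProduct.smul_tmul',
    TensorProduct.smul_tmul', smul_eq_mul, smul_eq_mul, mul_one, DualNumber.eps_mul_eps,
    TensorProduct.zero_tmul, add_zero]

/-- The components of `defEnd`. -/
theorem fst_defEnd_one_tmul (ρbar : ResidualGaloisRep k) (c : Module.End k ρbar.V) (σ : GQ)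
    (v : ρbar.V) :
    w1bFst ρbar.V (defEnd ρbar c σ ((1 : DualNumber k) ⊗ₜ[k] v)) = ρbar.ρ σ v := by
  rw [w1b_defEnd_one_tmul, map_add, w1bFst_tmul, w1bFst_tmul, DualNumber.fst_eps,
    TrivSqZeroExt.fst_one, one_smul, zero_smul, add_zero]

theorem snd_defEnd_one_tmul (ρbar : ResidualGaloisRep k) (c : Module.End k ρbar.V) (σ : GQ)
    (v : ρbar.V) :
    w1bSnd ρbar.V (defEnd ρbar c σ ((1 : DualNumber k) ⊗ₜ[k] v)) = c (ρbar.ρ σ v) := by
  rw [w1b_defEnd_one_tmul, map_add, w1bSnd_tmul, w1bSnd_tmul, DualNumber.snd_eps,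
    TrivSqZeroExt.snd_one, one_smul, zero_smul, zero_add]

/-- `ρbar(σ)` is invertible. -/
theorem ρ_mul_ρ_inv (ρbar : ResidualGaloisRep k) (σ : GQ) : ρbar.ρ σ * ρbar.ρ σ⁻¹ = 1 := by
  rw [← map_mul, mul_inv_cancel, map_one]

theorem ρ_inv_mul_ρ (ρbar : ResidualGaloisRep k) (σ : GQ) : ρbar.ρ σ⁻¹ * ρbar.ρ σ = 1 := by
  rw [← map_mul, inv_mul_cancel, map_one]

/-- `defEnd` determines `ρbar(σ)` and `c`. -/
theorem defEnd_inj (ρbar : ResidualGaloisRep k) (c c' : Module.End k ρbar.V) (σ σ' : GQ)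
    (h : defEnd ρbar c σ = defEnd ρbar c' σ') : ρbar.ρ σ = ρbar.ρ σ' ∧ c = c' := by
  have h1 : ρbar.ρ σ = ρbar.ρ σ' := by
    refine LinearMap.ext fun v => ?_
    rw [← fst_defEnd_one_tmul ρbar c σ v, h, fst_defEnd_one_tmul]
  refine ⟨h1, ?_⟩
  have h2 : c * ρbar.ρ σ = c' * ρbar.ρ σ := by
    refine LinearMap.ext fun v => ?_
    rw [Module.End.mul_apply, Module.End.mul_apply, ← snd_defEnd_one_tmul ρbar c σ v, h,
      snd_defEnd_one_tmul, h1]
  calc c = c * (ρbar.ρ σ * ρbar.ρ σ⁻¹) := by rw [ρ_mul_ρ_inv, mul_one]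
    _ = c * ρbar.ρ σ * ρbar.ρ σ⁻¹ := by rw [mul_assoc]
    _ = c' * ρbar.ρ σ * ρbar.ρ σ⁻¹ := by rw [h2]
    _ = c' * (ρbar.ρ σ * ρbar.ρ σ⁻¹) := by rw [mul_assoc]
    _ = c' := by rw [ρ_mul_ρ_inv, mul_one]

/-- If `(defEnd - 1)² = 0` then `n = ρbar(σ) - 1` has square zero and
`c u u + u c u = 2 c u`. -/
theorem of_defEnd_sub_one_sq (ρbar : ResidualGaloisRep k) (c : Module.End k ρbar.V) (σ : GQ)
    (h : ∀ x, defEnd ρbar c σ (defEnd ρbar c σ x) - defEnd ρbar c σ x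
      - (defEnd ρbar c σ x - x) = 0) :
    (ρbar.ρ σ - 1) * (ρbar.ρ σ - 1) = 0 ∧
      c * ρbar.ρ σ * ρbar.ρ σ + ρbar.ρ σ * c * ρbar.ρ σ = c * ρbar.ρ σ + c * ρbar.ρ σ := by
  have key : ∀ v : ρbar.V,
      defEnd ρbar c σ (defEnd ρbar c σ ((1 : DualNumber k) ⊗ₜ[k] v))
        = (1 : DualNumber k) ⊗ₜ[k] (ρbar.ρ σ (ρbar.ρ σ v))
          + (DualNumber.eps : DualNumber k) ⊗ₜ[k] (c (ρbar.ρ σ (ρbar.ρ σ v)))
          + (DualNumber.eps : DualNumber k) ⊗ₜ[k] (ρbar.ρ σ (c (ρbar.ρ σ v))) := by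
    intro v
    rw [w1b_defEnd_one_tmul, map_add, w1b_defEnd_one_tmul, defEnd_eps_tmul]
  constructor
  · refine LinearMap.ext fun v => ?_
    have h1 := congrArg (w1bFst ρbar.V) (h ((1 : DualNumber k) ⊗ₜ[k] v))
    rw [key, w1b_defEnd_one_tmul] at h1
    simp only [map_sub, map_add, map_zero, w1bFst_tmul, DualNumber.fst_eps,
      TrivSqZeroExt.fst_one, one_smul, zero_smul, add_zero] at h1
    simp only [Module.End.mul_apply, LinearMap.sub_apply, Module.End.one_apply, map_sub,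
      LinearMap.zero_apply]
    rw [← h1]
  · refine LinearMap.ext fun v => ?_
    have h1 := congrArg (w1bSnd ρbar.V) (h ((1 : DualNumber k) ⊗ₜ[k] v))
    rw [key, w1b_defEnd_one_tmul] at h1
    simp only [map_sub, map_add, map_zero, w1bSnd_tmul, DualNumber.snd_eps,
      TrivSqZeroExt.snd_one, one_smul, zero_smul, zero_add, sub_zero] at h1
    simp only [Module.End.mul_apply, LinearMap.add_apply]
    have h2 : c (ρbar.ρ σ (ρbar.ρ σ v)) + ρbar.ρ σ (c (ρbar.ρ σ v))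
        - c (ρbar.ρ σ v) - c (ρbar.ρ σ v) = 0 := h1
    exact sub_eq_zero.1 (by rw [← h2]; abel)

/-! ### unipotent elements -/

/-- `(1 + N)^j = 1 + j N` when `N² = 0`. -/
theorem one_add_pow_of_sq_zero {R : Type*} [Ring R] (N : R) (hN : N * N = 0) (j : ℕ) :
    (1 + N) ^ j = 1 + j • N := by
  induction j with
  | zero => simp
  | succ j ih =>
    rw [pow_succ, ih, mul_add, mul_one, add_mul, one_mul, smul_mul_assoc, hN, smul_zero,
      add_zero, succ_nsmul]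
    abel

/-- The action on `ad⁰` (by definition). -/
theorem ad0_val (ρbar : ResidualGaloisRep k) (g : GQ) (m : ad0 ρbar) :
    ((ad0 ρbar).ρ g m : ↥(ad0Sub ρbar)).1 =
      ρbar.ρ g * (m : ↥(ad0Sub ρbar)).1 * ρbar.ρ g⁻¹ := rfl

/-- The action of `g` on `ad⁰` depends only on `ρbar g`. -/
theorem ad0_congr (ρbar : ResidualGaloisRep k) {g g' : GQ} (h : ρbar.ρ g = ρbar.ρ g')
    (m : ad0 ρbar) : (ad0 ρbar).ρ g m = (ad0 ρbar).ρ g' m := by
  have h' : ρbar.ρ g⁻¹ = ρbar.ρ g'⁻¹ := by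
    calc ρbar.ρ g⁻¹ = ρbar.ρ g⁻¹ * (ρbar.ρ g' * ρbar.ρ g'⁻¹) := by rw [ρ_mul_ρ_inv, mul_one]
      _ = ρbar.ρ g⁻¹ * ρbar.ρ g * ρbar.ρ g'⁻¹ := by rw [← h, mul_assoc]
      _ = ρbar.ρ g'⁻¹ := by rw [ρ_inv_mul_ρ, one_mul]
  apply Subtype.ext
  rw [ad0_val, ad0_val, h, h']

/-- **A tangent class with unipotent inertia is a coboundary on inertia at a ramified place.** -/
theorem exists_coboundary_on_inertia (p : ℕ) [Fact p.Prime] (hp2 : p ≠ 2) (hpk : (p : k) = 0)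
    (ρbar : ResidualGaloisRep k) (v : ℕ) (hv : v.Prime) (hvp : v ≠ p)
    (A : ValuationSubring (AlgebraicClosure ℚ)) (hA : A.LiesOverPrime v)
    (hram : ∃ σ ∈ A.inertiaSubgroupIn ℚ, ρbar.ρ σ ≠ 1)
    (c : GQ → ad0 ρbar) (hc : c ∈ cocycles₁ (ad0 ρbar))
    (ρ : GaloisRepAdic (DualNumber k)) (hdef : IsDefOf ρbar c ρ)
    (hunip : ρ.IsUnipotentOnInertiaAt v) :
    ∃ m : ad0 ρbar, ∀ σ ∈ A.inertiaSubgroupIn ℚ, c σ = (ad0 ρbar).ρ σ m - m := by
  classical
  obtain ⟨e, he⟩ := hdef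
  have hp : p.Prime := Fact.out
  -- `(ρ σ - 1)² = 0` on inertia
  have hsq : ∀ σ ∈ A.inertiaSubgroupIn ℚ, (ρ.ρ σ - 1) * (ρ.ρ σ - 1) = 0 := by
    intro σ hσ
    have h1 := LinearMap.aeval_self_charpoly (ρ.ρ σ)
    rw [hunip A hA σ hσ] at h1
    simpa [pow_two] using h1
  have hpD : ((p : ℕ) : DualNumber k) = 0 := by
    have := map_natCast (algebraMap k (DualNumber k)) p
    rw [← this, hpk, map_zero]
  have hpow : ∀ σ ∈ A.inertiaSubgroupIn ℚ, ρ.ρ σ ^ p = 1 := by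
    intro σ hσ
    have h1 : ρ.ρ σ = 1 + (ρ.ρ σ - 1) := by abel
    rw [h1, one_add_pow_of_sq_zero _ (hsq σ hσ), ← Nat.cast_smul_eq_nsmul (DualNumber k), hpD,
      zero_smul, add_zero]
  -- tame inertia
  let χ : GQ →* (Module.End (DualNumber k) ρ.V)ˣ := ρ.ρ.toHomUnits
  have hχ : ∀ σ, ((χ σ : (Module.End (DualNumber k) ρ.V)ˣ) : Module.End (DualNumber k) ρ.V)
      = ρ.ρ σ := fun σ => rfl
  have hopen : IsOpen (χ.ker : Set GQ) := by
    obtain ⟨L, hL, h1⟩ := ρ.isAdicContinuous 2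
    haveI := hL
    refine Subgroup.isOpen_mono ?_ (IntermediateField.fixingSubgroup_isOpen L)
    intro σ hσ
    rw [MonoidHom.mem_ker]
    apply Units.ext
    rw [hχ, Units.val_one]
    refine LinearMap.ext fun x => ?_
    have := h1 σ (fun y hy => (IntermediateField.mem_fixingSubgroup_iff L σ).mp hσ y hy) x
    rw [w1b_maximalIdeal_sq, Submodule.bot_smul, Submodule.mem_bot] at this
    rw [Module.End.one_apply]
    exact sub_eq_zero.mp this
  have hcop : ∀ σ ∈ A.inertiaSubgroupIn ℚ, (orderOf (χ σ)).Coprime v := by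
    intro σ hσ
    have h1 : χ σ ^ p = 1 := by
      apply Units.ext
      rw [Units.val_pow_eq_pow_val, hχ, hpow σ hσ, Units.val_one]
    have h2 : orderOf (χ σ) ∣ p := orderOf_dvd_of_pow_eq_one h1
    have hpv : p.Coprime v := (Nat.coprime_primes hp hv).2 (Ne.symm hvp)
    exact Nat.Coprime.coprime_dvd_left h2 hpv
  obtain ⟨⟨τ₀, hτ₀, hcyc⟩, -⟩ := Fermat.Agent.TameInertia.tame_inertia χ hopen v hv A hA hcop
  have hcyc' : ∀ σ ∈ A.inertiaSubgroupIn ℚ, ∃ j : ℕ, ρbar.ρ σ = ρbar.ρ (τ₀ ^ j) ∧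
      (c σ : ↥(ad0Sub ρbar)).1 = (c (τ₀ ^ j) : ↥(ad0Sub ρbar)).1 := by
    intro σ hσ
    obtain ⟨j, hj⟩ := hcyc σ hσ
    refine ⟨j, ?_⟩
    have h1 : ρ.ρ σ = ρ.ρ (τ₀ ^ j) := by
      have := congrArg Units.val hj
      rw [Units.val_pow_eq_pow_val, hχ, hχ, ← map_pow] at this
      exact this
    apply defEnd_inj
    refine LinearMap.ext fun x => ?_
    apply e.injective
    rw [← he, ← he, h1]
  -- the structure of `ρbar τ₀` and `c τ₀`
  have hD : ∀ x, defEnd ρbar (c τ₀ : ↥(ad0Sub ρbar)).1 τ₀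
        (defEnd ρbar (c τ₀ : ↥(ad0Sub ρbar)).1 τ₀ x)
      - defEnd ρbar (c τ₀ : ↥(ad0Sub ρbar)).1 τ₀ x
      - (defEnd ρbar (c τ₀ : ↥(ad0Sub ρbar)).1 τ₀ x - x) = 0 := by
    intro x
    apply e.injective
    rw [map_sub, map_sub, map_sub, map_zero, ← he, ← he]
    have := LinearMap.congr_fun (hsq τ₀ hτ₀) (e x)
    simpa [Module.End.mul_apply, LinearMap.sub_apply, Module.End.one_apply, map_sub] using this
  obtain ⟨hn2, hcu⟩ := of_defEnd_sub_one_sq ρbar (c τ₀ : ↥(ad0Sub ρbar)).1 τ₀ hD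
  set u : Module.End k ρbar.V := ρbar.ρ τ₀ with hu
  set n : Module.End k ρbar.V := u - 1 with hn
  set c₀ : Module.End k ρbar.V := (c τ₀ : ↥(ad0Sub ρbar)).1 with hc₀
  have htr0 : LinearMap.trace k ρbar.V c₀ = 0 := LinearMap.mem_ker.1 (c τ₀ : ↥(ad0Sub ρbar)).2
  clear_value n c₀
  clear_value u
  have hun : u = 1 + n := by rw [hn]; abel
  have h2 : (2 : k) ≠ 0 := by
    haveI : CharP k p := (CharP.charP_iff_prime_eq_zero hp).2 hpk
    intro h
    have h3 : ((2 : ℕ) : k) = 0 := by exact_mod_cast h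
    have h4 : p ∣ 2 := (CharP.cast_eq_zero_iff k p 2).1 h3
    have h5 : p ≤ 2 := Nat.le_of_dvd (by norm_num) h4
    have h6 := hp.two_le
    omega
  have htrn : LinearMap.trace k ρbar.V (c₀ * n) = 0 := by
    have e1 : u * n = n := by rw [hun, add_mul, hn2, one_mul, add_zero]
    have e2 : c₀ * n = c₀ * u * u - c₀ * u := by
      have : c₀ * u * u - c₀ * u = c₀ * (u * n) := by
        rw [hn, mul_sub, mul_one, mul_sub, mul_assoc]
      rw [this, e1]
    have e3 := congrArg (LinearMap.trace k ρbar.V) hcu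
    rw [map_add, map_add, mul_assoc u c₀ u, LinearMap.trace_mul_comm k u (c₀ * u)] at e3
    have e4 : (2 : k) * (LinearMap.trace k ρbar.V (c₀ * u * u)
        - LinearMap.trace k ρbar.V (c₀ * u)) = 0 := by linear_combination e3
    rw [e2, map_sub]
    exact (mul_eq_zero.1 e4).resolve_left h2
  have hn0 : n ≠ 0 := by
    intro h0
    have hu1 : u = 1 := by rw [hun, h0, add_zero]
    obtain ⟨σ, hσ, hσ1⟩ := hram
    obtain ⟨j, hj, -⟩ := hcyc' σ hσ
    apply hσ1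
    rw [hj, map_pow, ← hu, hu1, one_pow]
  obtain ⟨m, hm, hcm⟩ := UnipLin.exists_conj ρbar.finrank_eq h2 n hn2 hn0 c₀ htr0 htrn
  have hinv : ρbar.ρ τ₀⁻¹ = 1 - n := by
    have h3 : u * (1 - n) = 1 := by
      rw [hun]
      calc (1 + n) * (1 - n) = 1 - n * n := by noncomm_ring
        _ = 1 := by rw [hn2, sub_zero]
    calc ρbar.ρ τ₀⁻¹ = ρbar.ρ τ₀⁻¹ * (u * (1 - n)) := by rw [h3, mul_one]
      _ = ρbar.ρ τ₀⁻¹ * u * (1 - n) := by rw [mul_assoc]
      _ = 1 - n := by rw [hu, ρ_inv_mul_ρ, one_mul]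
  let m' : ad0 ρbar := (⟨m, LinearMap.mem_ker.2 hm⟩ : ↥(ad0Sub ρbar))
  have hcτ₀ : c τ₀ = (ad0 ρbar).ρ τ₀ m' - m' := by
    apply Subtype.ext
    refine hc₀.symm.trans ?_
    show c₀ = ((ad0 ρbar).ρ τ₀ m' : ↥(ad0Sub ρbar)).1 - m
    rw [ad0_val, hinv, ← hu, hun]
    exact hcm
  refine ⟨m', ?_⟩
  -- the difference cocycle
  set d : GQ → ad0 ρbar := fun g => c g - ((ad0 ρbar).ρ g m' - m') with hd
  have hdcoc : d ∈ cocycles₁ (ad0 ρbar) := by
    have h3 : d = c - (d₀₁ (ad0 ρbar)).hom m' := by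
      funext g
      rfl
    rw [h3]
    exact Submodule.sub_mem _ hc (d₀₁_apply_mem_cocycles₁ m')
  have hdτ₀ : d τ₀ = 0 := by
    rw [hd]
    simp only
    rw [← hcτ₀, sub_self]
  intro σ hσ
  obtain ⟨j, hj1, hj2⟩ := hcyc' σ hσ
  have h3 : d (τ₀ ^ j) = 0 := coc_pow_eq_zero hdcoc hdτ₀ j
  rw [hd] at h3
  simp only at h3
  have h4 : c σ = c (τ₀ ^ j) := Subtype.ext hj2
  rw [h4, ad0_congr ρbar hj1 m']
  exact sub_eq_zero.1 h3

end Fermat.Agent.S56.UnipTan
end MergeWrap_S56_W3_Unip_Tangent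

section MergeWrap_S56_W3_Unip -- from S56/W3/Unip.lean

set_option autoImplicit false

namespace Fermat.Agent.S56

open Fermat.Agent.F4 ExtCitation IsLocalRing
open scoped Pointwise

/-- `locInertia v` is a normal subgroup of the local Galois group. -/
theorem locInertia_normal (v : Nat.Primes) : (locInertia v).Normal := by
  refine ⟨fun τ hτ g => ?_⟩
  rw [mem_locInertia] at hτ ⊢
  have hg : primeLocalToGlobal v g ∈ (primeLocalPlace v).decompositionSubgroup ℚ := by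
    rw [← range_primeLocalToGlobal]
    exact ⟨g, rfl⟩
  have h1 : primeLocalToGlobal v g • primeLocalPlace v = primeLocalPlace v :=
    MulAction.mem_stabilizer_iff.mp hg
  have h2 := Fermat.Agent.KFin.kf_conj_mem_inertiaSubgroupIn (K := ℚ) (primeLocalPlace v)
    (primeLocalToGlobal v g) (primeLocalToGlobal v τ) hτ
  rw [h1] at h2
  rw [map_mul, map_mul, map_inv]
  exact h2

/-- A residual representation ramified at `v` is ramified at every place over `v`. -/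
theorem exists_ramified_at_place {k : Type} [Field k] (ρbar : ResidualGaloisRep k) (v : ℕ)
    (hv : v.Prime) (hram : ¬ ρbar.IsUnramifiedAt v)
    (A : ValuationSubring (AlgebraicClosure ℚ)) (hA : A.LiesOverPrime v) :
    ∃ σ ∈ A.inertiaSubgroupIn ℚ, ρbar.ρ σ ≠ 1 := by
  have : Fact v.Prime := ⟨hv⟩
  by_contra hcon
  apply hram
  intro A' hA' σ hσ
  obtain ⟨g, hg⟩ := Fermat.Agent.FF.exists_smul_eq_of_liesOverPrime A' A hA' hA
  have h2 := Fermat.Agent.KFin.kf_conj_mem_inertiaSubgroupIn (K := ℚ) A' g σ hσ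
  rw [hg] at h2
  by_contra hσ1
  apply hcon
  refine ⟨g * σ * g⁻¹, h2, fun h => hσ1 ?_⟩
  rw [map_mul, map_mul] at h
  have h3 : ρbar.ρ g⁻¹ * ρbar.ρ g = 1 := by rw [← map_mul, inv_mul_cancel, map_one]
  calc ρbar.ρ σ = (ρbar.ρ g⁻¹ * ρbar.ρ g) * ρbar.ρ σ * (ρbar.ρ g⁻¹ * ρbar.ρ g) := by
        rw [h3, one_mul, mul_one]
    _ = ρbar.ρ g⁻¹ * (ρbar.ρ g * ρbar.ρ σ * ρbar.ρ g⁻¹) * ρbar.ρ g := by simp only [mul_assoc]
    _ = 1 := by rw [h, mul_one, h3]

/-- **W3-unip**: at a ramified prime `v ≠ p` the tangent classes with unipotent inertia are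
unramified classes, and there are at most `#H⁰(G_v, ad⁰ρbar)` of them. -/
theorem localWall_unip {𝒪 : Type} [CommRing 𝒪] [IsLocalRing 𝒪] [Finite (ResidueField 𝒪)]
    (p : ℕ) [Fact p.Prime] (hp2 : p ≠ 2) (ρbar : ResidualGaloisRep (ResidueField 𝒪))
    (hdet : (GaloisRepAdic.ofResidualGaloisRep ρbar).DetIsCyclotomic p)
    (𝒟 : ∀ ⦃A : Type⦄ [CommRing A] [IsLocalRing A] [Algebra 𝒪 A], GaloisRepAdic A → Prop)
    (v : Nat.Primes) (hvp : (v : ℕ) ≠ p) (hram : ¬ ρbar.IsUnramifiedAt (v : ℕ))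
    (h𝒟 : ∀ ⦃A : Type⦄ [CommRing A] [IsLocalRing A] [Algebra 𝒪 A] (ρ : GaloisRepAdic A),
      𝒟 ρ → ρ.DetIsCyclotomic p ∧ ρ.IsUnipotentOnInertiaAt (v : ℕ)) :
    LocalWall (ad0 ρbar) (TangentClasses 𝒪 ρbar 𝒟) v 1 := by
  classical
  have hpk : (p : ResidueField 𝒪) = 0 := by
    have h := hdet.1
    have hbot : IsLocalRing.maximalIdeal (ResidueField 𝒪) = ⊥ :=
      (Ideal.eq_bot_or_top _).resolve_right (Ideal.IsMaximal.ne_top inferInstance)
    rw [hbot] at h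
    exact h
  have hlies : (primeLocalPlace v).LiesOverPrime (v : ℕ) :=
    Fermat.Agent.S56.primeLocalPlace_liesOverPrime v
  have hramA := exists_ramified_at_place ρbar (v : ℕ) v.2 hram (primeLocalPlace v) hlies
  obtain ⟨φ, -, hgen⟩ := TWGen.exists_frob_gen v
  obtain ⟨U₀, hU₀, hU₀ρ⟩ := exists_level_ρ_eq_one ρbar
  -- finiteness of `ad⁰`
  have : Finite ρbar.V := Module.finite_of_finite (ResidueField 𝒪)
  have : Finite (Module.End (ResidueField 𝒪) ρbar.V) :=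
    Module.finite_of_finite (ResidueField 𝒪)
  have hfinM : Finite (ad0 ρbar) := by
    show Finite ↥(ad0Sub ρbar)
    infer_instance
  have : Finite (locRep (ad0 ρbar) v) := hfinM
  have hsm : ∃ U ∈ (locLevelsAll v).sets, ∀ g ∈ U, ∀ m : locRep (ad0 ρbar) v,
      (locRep (ad0 ρbar) v).ρ g m = m :=
    ⟨U₀.comap (primeLocalToGlobal v), ⟨U₀, hU₀, rfl⟩, fun g hg m =>
      ad0_ρ_eq_self_of_eq_one ρbar (hU₀ρ _ hg) m⟩
  have hgen' : ∀ U ∈ (locLevelsAll v).sets, ∀ g : primeLocalGaloisGroup v,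
      ∃ (n : ℕ) (τ : primeLocalGaloisGroup v), τ ∈ locInertia v ∧ g⁻¹ * (φ ^ n * τ) ∈ U := by
    rintro _ ⟨U, hU, rfl⟩ g
    exact hgen U hU g
  have hH0 : ∀ m : locRep (ad0 ρbar) v,
      (∀ g : primeLocalGaloisGroup v, (locRep (ad0 ρbar) v).ρ g m = m) →
        m ∈ H0loc (ad0 ρbar) v := fun m hm g => hm g
  obtain ⟨hfin, hcard⟩ := UnipCount.card_unrClasses_le (𝓤 := locLevelsAll v)
    (M := locRep (ad0 ρbar) v) (locInertia v) (locInertia_normal v) φ hsm hgen'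
    (H0loc (ad0 ρbar) v) hH0
  refine ⟨UnipCount.unrClasses (locLevelsAll v) (locRep (ad0 ρbar) v) (locInertia v), ?_, hfin,
    ?_⟩
  · rintro x ⟨c, rfl, ρ, hρ, hdef⟩
    have h𝒟ρ := @h𝒟 (DualNumber (ResidueField 𝒪)) _ _ (Fermat.Agent.S53.dualNumberAlgebra 𝒪) ρ
      hρ.1
    obtain ⟨m, hm⟩ := UnipTan.exists_coboundary_on_inertia p hp2 hpk ρbar (v : ℕ) v.2 hvp
      (primeLocalPlace v) hlies hramA c.1 c.2.1 ρ hdef h𝒟ρ.2
    -- the coboundary of `m`, as a smooth cocycle of the local group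
    let b : ↥(Z1 (locLevelsAll v) (locRep (ad0 ρbar) v)) :=
      ⟨(groupCohomology.d₀₁ (locRep (ad0 ρbar) v)).hom m,
        groupCohomology.d₀₁_apply_mem_cocycles₁ (A := locRep (ad0 ρbar) v) m,
        U₀.comap (primeLocalToGlobal v), ⟨U₀, hU₀, rfl⟩, fun g s hs => by
          show (locRep (ad0 ρbar) v).ρ (g * s) m - m = (locRep (ad0 ρbar) v).ρ g m - m
          rw [map_mul, Module.End.mul_apply]
          have : (locRep (ad0 ρbar) v).ρ s m = m :=
            ad0_ρ_eq_self_of_eq_one ρbar (hU₀ρ _ hs) m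
          rw [this]⟩
    have hb : H1smπ (locLevelsAll v) (locRep (ad0 ρbar) v) b = 0 :=
      (Submodule.Quotient.mk_eq_zero _).2 ⟨m, rfl⟩
    refine ⟨Z1res levelsAll (ad0 ρbar) (primeLocalToGlobal v) c - b, ?_, ?_⟩
    · intro τ hτ
      show (c : GQ → ad0 ρbar) (primeLocalToGlobal v τ)
        - ((ad0 ρbar).ρ (primeLocalToGlobal v τ) m - m) = 0
      rw [hm _ hτ, sub_self]
    · rw [map_sub, hb, sub_zero]
      rfl
  · rw [one_mul]
    exact hcard

end Fermat.Agent.S56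
end MergeWrap_S56_W3_Unip

section MergeWrap_S56_SelmerAsm -- from S56/SelmerAsm.lean

set_option autoImplicit false

namespace Fermat.Agent.S56

open Fermat.Agent.F4 ExtCitation IsLocalRing

theorem primesOf_union (A B : Finset ℕ) : primesOf (A ∪ B) = primesOf A ∪ primesOf B := by
  ext q
  simp [mem_primesOf]

theorem card_primesOf {Q : Finset ℕ} (hQ : ∀ q ∈ Q, q.Prime) : (primesOf Q).card = Q.card := by
  refine Finset.card_bij (fun (q : Nat.Primes) _ => (q : ℕ)) (fun q hq => mem_primesOf.1 hq)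
    (fun a _ b _ hab => Subtype.ext hab) (fun b hb => ?_)
  exact ⟨⟨b, hQ b hb⟩, mem_primesOf.2 hb, rfl⟩

theorem disjoint_primesOf {A B : Finset ℕ} (h : ∀ q ∈ B, q ∉ A) :
    Disjoint (primesOf A) (primesOf B) := by
  rw [Finset.disjoint_left]
  intro q hqA hqB
  exact h _ (mem_primesOf.1 hqB) (mem_primesOf.1 hqA)


/-- The arithmetic of the Greenberg–Wiles inequality. -/
theorem ncard_le_of_gw_arith {s H₀ HQ a PL PH1 K n : ℕ} (hK : 0 < K) (hH₀ : 0 < H₀)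
    (hHQ : 0 < HQ) (hgw : s * (H₀ * HQ) * a ≤ PL * PH1) (hPL : PL ≤ K * H₀)
    (hPH1 : PH1 ≤ K ^ n * HQ) (ha : K ≤ a) : s ≤ K ^ n := by
  have h1 : s * (H₀ * HQ) * K ≤ s * (H₀ * HQ) * a := Nat.mul_le_mul_left _ ha
  have h2 : PL * PH1 ≤ (K * H₀) * (K ^ n * HQ) := Nat.mul_le_mul hPL hPH1
  have h3 : s * (H₀ * HQ * K) ≤ K ^ n * (H₀ * HQ * K) := by
    calc s * (H₀ * HQ * K) = s * (H₀ * HQ) * K := by ring
      _ ≤ (K * H₀) * (K ^ n * HQ) := (h1.trans hgw).trans h2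
      _ = K ^ n * (H₀ * HQ * K) := by ring
  exact Nat.le_of_mul_le_mul_right h3 (Nat.mul_pos (Nat.mul_pos hH₀ hHQ) hK)

section Asm

variable {𝒪 : Type} [CommRing 𝒪] [IsLocalRing 𝒪] [Finite (ResidueField 𝒪)]

instance finite_ad0 (ρbar : ResidualGaloisRep (ResidueField 𝒪)) : Module.Finite (ResidueField 𝒪) (ad0 ρbar) := by
  show Module.Finite (ResidueField 𝒪) ↥(ad0Sub ρbar)
  infer_instance

instance finite_ad0_type (ρbar : ResidualGaloisRep (ResidueField 𝒪)) : Finite (ad0 ρbar) :=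
  Module.finite_of_finite (ResidueField 𝒪)

/-- **`SelmerWallC` from the walls**, for a family of conditions `cond Q` which imply: cyclotomic
determinant, unramified outside `Smin ∪ Q`, unipotent inertia on `Smin \ {p}`, and whose tangent
classes satisfy a local wall with bound `|k|` at `p`. -/
theorem selmerWallC_of_localWall (p : ℕ) [Fact p.Prime] (hp2 : p ≠ 2)
    (hp𝒪 : (p : 𝒪) ∈ maximalIdeal 𝒪)
    (ρbar : ResidualGaloisRep (ResidueField 𝒪))
    (habs : ρbar.IsAbsolutelyIrreducible)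
    (hdet : (GaloisRepAdic.ofResidualGaloisRep ρbar).DetIsCyclotomic p)
    (S Smin : Finset ℕ) (hpSmin : p ∈ Smin) (hSmin : Smin ⊆ S)
    (hmin : ∀ q : ℕ, q.Prime → q ≠ p → (q ∈ Smin ↔ ¬ ρbar.IsUnramifiedAt q))
    (cond : Finset ℕ → ∀ ⦃A : Type⦄ [CommRing A] [IsLocalRing A] [Algebra 𝒪 A],
      GaloisRepAdic A → Prop)
    (hc_det : ∀ (Q : Finset ℕ) ⦃A : Type⦄ [CommRing A] [IsLocalRing A] [Algebra 𝒪 A]
      (ρ : GaloisRepAdic A), cond Q ρ → ρ.DetIsCyclotomic p)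
    (hc_unr : ∀ (Q : Finset ℕ) ⦃A : Type⦄ [CommRing A] [IsLocalRing A] [Algebra 𝒪 A]
      (ρ : GaloisRepAdic A), cond Q ρ → ∀ q : ℕ, q.Prime → q ∉ Smin ∪ Q → ρ.IsUnramifiedAt q)
    (hc_unip : ∀ (Q : Finset ℕ) ⦃A : Type⦄ [CommRing A] [IsLocalRing A] [Algebra 𝒪 A]
      (ρ : GaloisRepAdic A), cond Q ρ →
        ∀ q ∈ Smin, q.Prime → q ≠ p → ρ.IsUnipotentOnInertiaAt q)
    (hc_p : ∀ Q : Finset ℕ, LocalWall (ad0 ρbar) (TangentClasses 𝒪 ρbar (cond Q)) (pPrime p)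
      (Nat.card (ResidueField 𝒪))) :
    SelmerWallC 𝒪 p ρbar S cond := by
  classical
  have hpk : (p : ResidueField 𝒪) = 0 := by
    have h : (residue 𝒪) (p : 𝒪) = 0 := (residue_eq_zero_iff _).2 hp𝒪
    simpa using h
  have hunr : ∀ q : ℕ, q.Prime → q ∉ Smin → ρbar.IsUnramifiedAt q := by
    intro q hq hqS
    by_cases hqp : q = p
    · exact absurd (hqp ▸ hpSmin) hqS
    · by_contra h
      exact hqS ((hmin q hq hqp).2 h)
  refine ⟨unrOutside (primesOf Smin) (ad0Dual ρbar),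
    finiteDimensional_unrOutside p hpk ρbar Smin hpSmin hunr, ?_⟩
  intro Q hQ hkill
  have hQprime : ∀ q ∈ Q, q.Prime := fun q hq => (hQ q hq).1.1
  have hQS : ∀ q ∈ Q, q ∉ Smin := fun q hq h => (hQ q hq).1.2.1 (hSmin h)
  -- the local walls at the primes of `Smin`
  have hwall : ∀ v ∈ primesOf Smin, LocalWall (ad0 ρbar) (TangentClasses 𝒪 ρbar (cond Q)) v
      (if v = pPrime p then Nat.card (ResidueField 𝒪) else 1) := by
    intro v hv
    by_cases hvp : v = pPrime p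
    · subst hvp
      rw [if_pos rfl]
      exact hc_p Q
    · rw [if_neg hvp]
      have hvp' : (v : ℕ) ≠ p := fun h => hvp (Subtype.ext h)
      have hvS : (v : ℕ) ∈ Smin := mem_primesOf.1 hv
      exact localWall_unip p hp2 ρbar hdet (cond Q) v hvp' ((hmin v v.2 hvp').1 hvS)
        (fun A _ _ _ ρ hρ => ⟨hc_det Q ρ hρ, hc_unip Q ρ hρ v hvS v.2 hvp'⟩)
  let L : ∀ v : Nat.Primes, AddSubgroup (H1loc (ad0 ρbar) v) := fun v =>
    if h : v ∈ primesOf Smin then Classical.choose (hwall v h) else ⊤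
  have hL : ∀ v (h : v ∈ primesOf Smin), L v = Classical.choose (hwall v h) :=
    fun v h => dif_pos h
  have hLspec := fun v (h : v ∈ primesOf Smin) => Classical.choose_spec (hwall v h)
  -- Greenberg–Wiles
  have hgw := gwStatement (k := ResidueField 𝒪) p hp2 hpk (ad0 ρbar) (detChar ρbar)
    (primesOf Smin) (primesOf Q) L (detChar_isCycloChar p ρbar hdet) inferInstance
    (by
      rw [← primesOf_union]
      exact isSmooth_ad0 ρbar (Smin ∪ Q)
        (fun q hq hqn => hunr q hq (fun h => hqn (Finset.mem_union_left _ h))))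
    (mem_primesOf.2 hpSmin) (disjoint_primesOf hQS) (H0glob_ad0 p hp2 hpk ρbar habs)
    (fun v hv => by rw [hL v hv]; exact (hLspec v hv).2.1)
    (fun q hq => (localBound_TW p hpk ρbar S q (hQ q (mem_primesOf.1 hq))
      (hunr q q.2 (hQS q (mem_primesOf.1 hq)))).1)
    (fun n hn hloc => eq_zero_of_kills p ρbar Smin Q hpSmin hunr
      (fun q hq => ⟨hQprime q hq, hQS q hq⟩) hkill n hn hloc)
  have hsub : TangentClasses 𝒪 ρbar (cond Q) ⊆
      selSet (primesOf Smin ∪ primesOf Q) (ad0 ρbar) (primesOf Smin) L := by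
    intro x hx
    refine ⟨?_, fun v hv => ?_⟩
    · rw [← primesOf_union]
      exact tangentClasses_subset_unrOutside ρbar (cond Q) (Smin ∪ Q)
        (fun A _ _ _ ρ hρ => hc_unr Q ρ hρ) x hx
    · rw [hL v hv]
      exact (hLspec v hv).1 x hx
  obtain ⟨hfin, hineq⟩ := hgw
  refine ⟨hfin.subset hsub, (Set.ncard_le_ncard hsub hfin).trans ?_⟩
  rw [← card_primesOf hQprime]
  rw [Finset.prod_union (disjoint_primesOf hQS)] at hineq
  refine ncard_le_of_gw_arith (K := Nat.card (ResidueField 𝒪)) Nat.card_pos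
    (Finset.prod_pos fun v _ => Nat.card_pos) (Finset.prod_pos fun v _ => Nat.card_pos)
    hineq ?_ ?_ (card_le_card_H0arch p hp2 ρbar hdet)
  · calc ∏ v ∈ primesOf Smin, Nat.card (L v)
        ≤ ∏ v ∈ primesOf Smin, ((if v = pPrime p then Nat.card (ResidueField 𝒪) else 1) *
            Nat.card (H0loc (ad0 ρbar) v)) :=
          Finset.prod_le_prod (fun _ _ => Nat.zero_le _)
            (fun v hv => by rw [hL v hv]; exact (hLspec v hv).2.2)
      _ = Nat.card (ResidueField 𝒪) * ∏ v ∈ primesOf Smin, Nat.card (H0loc (ad0 ρbar) v) := by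
          rw [Finset.prod_mul_distrib, Finset.prod_ite_eq', if_pos (mem_primesOf.2 hpSmin)]
  · calc ∏ q ∈ primesOf Q, Nat.card (H1loc (ad0 ρbar) q)
        ≤ ∏ q ∈ primesOf Q, (Nat.card (ResidueField 𝒪) * Nat.card (H0loc (ad0 ρbar) q)) :=
          Finset.prod_le_prod (fun _ _ => Nat.zero_le _)
            (fun q hq => (localBound_TW p hpk ρbar S q (hQ q (mem_primesOf.1 hq))
              (hunr q q.2 (hQS q (mem_primesOf.1 hq)))).2)
      _ = Nat.card (ResidueField 𝒪) ^ (primesOf Q).card *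
            ∏ q ∈ primesOf Q, Nat.card (H0loc (ad0 ρbar) q) := by
          rw [Finset.prod_mul_distrib, Finset.prod_const]

end Asm

end Fermat.Agent.S56
end MergeWrap_S56_SelmerAsm

section MergeWrap_S56_Final -- from S56/Final.lean

set_option autoImplicit false

open Polynomial IsLocalRing

namespace Fermat.Agent.S56

section

variable {𝒪 : Type} [CommRing 𝒪] [IsDomain 𝒪] [IsDiscreteValuationRing 𝒪]
  [IsAdicComplete (maximalIdeal 𝒪) 𝒪] [Finite (ResidueField 𝒪)]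

/-- The wall `TWBound` for the strict-ordinary conditions. -/
theorem twBound_SO (p : ℕ) [Fact p.Prime] (hp2 : p ≠ 2) (hp𝒪 : (p : 𝒪) ∈ maximalIdeal 𝒪)
    (ρbar : ResidualGaloisRep (ResidueField 𝒪))
    (habs : ρbar.IsAbsolutelyIrreducible)
    (hdet : (GaloisRepAdic.ofResidualGaloisRep ρbar).DetIsCyclotomic p)
    (hsplit : ∀ σ : AlgebraicClosure ℚ ≃ₐ[ℚ] AlgebraicClosure ℚ,
      ∃ α β : ResidueField 𝒪, LinearMap.charpoly (ρbar.ρ σ) = (X - C α) * (X - C β))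
    (hTW : ∀ (K : Type) [Field K] [Algebra (ResidueField 𝒪) K]
      (G : Subgroup (AlgebraicClosure ℚ ≃ₐ[ℚ] AlgebraicClosure ℚ)), G.index = 2 →
      ∀ V : Submodule K (ρbar.baseChange K).V,
        (∀ σ ∈ G, ∀ x ∈ V, (ρbar.baseChange K).ρ σ x ∈ V) → V = ⊥ ∨ V = ⊤)
    (S Smin : Finset ℕ) (hpSmin : p ∈ Smin) (hSmin : Smin ⊆ S) (hS : ∀ q ∈ S, q.Prime)
    (hmin : ∀ q : ℕ, q.Prime → q ≠ p → (q ∈ Smin ↔ ¬ ρbar.IsUnramifiedAt q)) :
    TWBound 𝒪 p ρbar S (fun Q => Fermat.Agent.S59.condSO 𝒪 p Smin Q) := by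
  have hunrS : ∀ q : ℕ, q.Prime → q ∉ S → ρbar.IsUnramifiedAt q := by
    intro q hq hqS
    by_cases hqp : q = p
    · exact absurd (hSmin (hqp ▸ hpSmin)) hqS
    · by_contra h
      exact hqS (hSmin ((hmin q hq hqp).2 h))
  refine TWBound_of_walls
    (twPrimesStatement p hp2 hp𝒪 ρbar habs hdet hsplit hTW S (hSmin hpSmin) hunrS) ?_
  refine selmerWall_of_C p ρbar hdet S _ (fun Q A _ _ _ ρ hρ => hρ.1.1) ?_
  exact selmerWallC_of_localWall p hp2 hp𝒪 ρbar habs hdet S Smin hpSmin hSmin hmin _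
    (fun Q A _ _ _ ρ hρ => hρ.1.1) (fun Q A _ _ _ ρ hρ => hρ.1.2.2)
    (fun Q A _ _ _ ρ hρ => hρ.2)
    (fun Q => localWall_SO p hp2 ρbar hdet _ (fun A _ _ _ ρ hρ => ⟨hρ.1.1, hρ.1.2.1⟩))

/-- The wall `TWBound` for the flat conditions. -/
theorem twBound_Fl (p : ℕ) [Fact p.Prime] (hp2 : p ≠ 2) (hp𝒪 : (p : 𝒪) ∈ maximalIdeal 𝒪)
    (ρbar : ResidualGaloisRep (ResidueField 𝒪))
    (habs : ρbar.IsAbsolutelyIrreducible)
    (hdet : (GaloisRepAdic.ofResidualGaloisRep ρbar).DetIsCyclotomic p)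
    (hsplit : ∀ σ : AlgebraicClosure ℚ ≃ₐ[ℚ] AlgebraicClosure ℚ,
      ∃ α β : ResidueField 𝒪, LinearMap.charpoly (ρbar.ρ σ) = (X - C α) * (X - C β))
    (hTW : ∀ (K : Type) [Field K] [Algebra (ResidueField 𝒪) K]
      (G : Subgroup (AlgebraicClosure ℚ ≃ₐ[ℚ] AlgebraicClosure ℚ)), G.index = 2 →
      ∀ V : Submodule K (ρbar.baseChange K).V,
        (∀ σ ∈ G, ∀ x ∈ V, (ρbar.baseChange K).ρ σ x ∈ V) → V = ⊥ ∨ V = ⊤)
    (S Smin : Finset ℕ) (hpSmin : p ∈ Smin) (hSmin : Smin ⊆ S) (hS : ∀ q ∈ S, q.Prime)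
    (hmin : ∀ q : ℕ, q.Prime → q ≠ p → (q ∈ Smin ↔ ¬ ρbar.IsUnramifiedAt q)) :
    TWBound 𝒪 p ρbar S (fun Q => Fermat.Agent.S59.condFl 𝒪 p Smin Q) := by
  have hunrS : ∀ q : ℕ, q.Prime → q ∉ S → ρbar.IsUnramifiedAt q := by
    intro q hq hqS
    by_cases hqp : q = p
    · exact absurd (hSmin (hqp ▸ hpSmin)) hqS
    · by_contra h
      exact hqS (hSmin ((hmin q hq hqp).2 h))
  refine TWBound_of_walls
    (twPrimesStatement p hp2 hp𝒪 ρbar habs hdet hsplit hTW S (hSmin hpSmin) hunrS) ?_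
  refine selmerWall_of_C p ρbar hdet S _ (fun Q A _ _ _ ρ hρ => hρ.1.1) ?_
  exact selmerWallC_of_localWall p hp2 hp𝒪 ρbar habs hdet S Smin hpSmin hSmin hmin _
    (fun Q A _ _ _ ρ hρ => hρ.1.1) (fun Q A _ _ _ ρ hρ => hρ.1.2.2)
    (fun Q A _ _ _ ρ hρ => hρ.2)
    (fun Q => localWall_flat p hp2 ρbar hdet hsplit _ (fun A _ _ _ ρ hρ => ⟨hρ.1.1, hρ.1.2.1⟩))

/-- **S56 from the leaves** (the statement of `Fermat/Statements/S56.lean`). -/
theorem result_of_leaves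
    (p : ℕ) [Fact p.Prime] (hp2 : p ≠ 2) (hp𝒪 : (p : 𝒪) ∈ maximalIdeal 𝒪)
    (ρbar : ResidualGaloisRep (ResidueField 𝒪))
    (habs : ρbar.IsAbsolutelyIrreducible)
    (hdet : (GaloisRepAdic.ofResidualGaloisRep ρbar).DetIsCyclotomic p)
    (hsplit : ∀ σ : AlgebraicClosure ℚ ≃ₐ[ℚ] AlgebraicClosure ℚ,
      ∃ α β : ResidueField 𝒪, LinearMap.charpoly (ρbar.ρ σ) = (X - C α) * (X - C β))
    (hTW : ∀ (K : Type) [Field K] [Algebra (ResidueField 𝒪) K]
      (G : Subgroup (AlgebraicClosure ℚ ≃ₐ[ℚ] AlgebraicClosure ℚ)), G.index = 2 →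
      ∀ V : Submodule K (ρbar.baseChange K).V,
        (∀ σ ∈ G, ∀ x ∈ V, (ρbar.baseChange K).ρ σ x ∈ V) → V = ⊥ ∨ V = ⊤)
    (S Smin : Finset ℕ) (hpSmin : p ∈ Smin) (hSmin : Smin ⊆ S) (hS : ∀ q ∈ S, q.Prime)
    (hmin : ∀ q : ℕ, q.Prime → q ≠ p → (q ∈ Smin ↔ ¬ ρbar.IsUnramifiedAt q)) :
    (∃ r : ℕ, ∀ n : ℕ, ∃ qv : Fin r → ℕ, Function.Injective qv ∧
      (∀ i, (qv i).Prime ∧ qv i ∉ S ∧ p ^ (n + 1) ∣ qv i - 1) ∧
      (∀ i, ∀ P : ValuationSubring (AlgebraicClosure ℚ), P.LiesOverPrime (qv i) →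
        ∀ φ : AlgebraicClosure ℚ ≃ₐ[ℚ] AlgebraicClosure ℚ, P.IsFrobeniusAt φ (qv i) →
          ∃ α β : ResidueField 𝒪, α ≠ β ∧ LinearMap.charpoly (ρbar.ρ φ) = (X - C α) * (X - C β)) ∧
      ∀ DQ : GaloisRep.DeformationRingData 𝒪 ρbar (fun _A _ _ _ ρ =>
          GaloisRep.strictOrdinaryCondition 𝒪 p (Smin ∪ Finset.univ.image qv) ρ ∧
            ∀ q ∈ Smin, q.Prime → q ≠ p → ρ.IsUnipotentOnInertiaAt q),
        ∃ γ : MvPowerSeries (Fin r) 𝒪 →ₐ[𝒪] DQ.R, Function.Surjective γ) ∧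
    (∃ r : ℕ, ∀ n : ℕ, ∃ qv : Fin r → ℕ, Function.Injective qv ∧
      (∀ i, (qv i).Prime ∧ qv i ∉ S ∧ p ^ (n + 1) ∣ qv i - 1) ∧
      (∀ i, ∀ P : ValuationSubring (AlgebraicClosure ℚ), P.LiesOverPrime (qv i) →
        ∀ φ : AlgebraicClosure ℚ ≃ₐ[ℚ] AlgebraicClosure ℚ, P.IsFrobeniusAt φ (qv i) →
          ∃ α β : ResidueField 𝒪, α ≠ β ∧ LinearMap.charpoly (ρbar.ρ φ) = (X - C α) * (X - C β)) ∧
      ∀ DQ : GaloisRep.DeformationRingData 𝒪 ρbar (fun _A _ _ _ ρ =>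
          GaloisRep.flatCondition 𝒪 p (Smin ∪ Finset.univ.image qv) ρ ∧
            ∀ q ∈ Smin, q.Prime → q ≠ p → ρ.IsUnipotentOnInertiaAt q),
        ∃ γ : MvPowerSeries (Fin r) 𝒪 →ₐ[𝒪] DQ.R, Function.Surjective γ) :=
  result_of p hp2 ρbar S Smin
    (twBound_SO p hp2 hp𝒪 ρbar habs hdet hsplit hTW S Smin hpSmin hSmin hS hmin)
    (twBound_Fl p hp2 hp𝒪 ρbar habs hdet hsplit hTW S Smin hpSmin hSmin hS hmin)

end

end Fermat.Agent.S56
end MergeWrap_S56_Final
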